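/-
CAR / V3 (Inf): the level `M' q²` function field `F = L·F_{M'q²}` (`q` prime, `q ∤ M'`, `q = 0` in
the residue field `k`), its three pull-backs `π_i^* : F_{M'} → F` (`y(z) ↦ y(q^i z)`), the Gauss
valuation ring `O_∞` of `F` and its residue map onto the mod-`q` function field of level `M'`.

* `piStar0`, `piStar1`, `piStar2` (the ONE place where the `π_i^*` are defined), `coe_piStar*`;
* `closure_range_piStar0_union` : `F = π_0^*(F_{M'})(π_1^* j, π_2^* j)`;
* `FF_sq_eq_adjoin` : `F_{M'q²} = F_{M'q}(J(q^{q²}))`;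
* `goodV_sq` : `GoodV A π (TD.FF L (M' * q * q) 1) (TD.FF k M' 1)` (again an immediate extension:
  the Newton approximations of `J(q^q)` inside `F_{M'}` are pushed through `q ↦ q^q`);
* `OInf3`, `redInf3` and the compatibilities `red_∞ ∘ π_i^* = (q ↦ q^q)^i ∘ red`.
-/
import Mathlib
import Fermat.Agent.BAD.TwoVal.Pair
import Fermat.Agent.ESJ.Cong.LevelPushDvd

set_option autoImplicit false

namespace Fermat.Agent.CAR.V3

open HahnSeries ModularCurve Polynomial AlgebraicCurve Fermat.Agent.Lib.Red Fermat.Agent.S28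
open Fermat.Agent.ESJ.Cong.LevelGen Fermat.Agent.BAD.TwoVal

noncomputable section

/-! ### The three pull-backs -/

section PiStar

variable (L : Type*) [Field L] [Algebra ℚ L] (M' q : ℕ) [NeZero M'] [NeZero q]

/-- `π_0^* : y(z) ↦ y(z)`. -/
def piStar0 : laurentBaseChange L (modularFunctionFieldFull M') →ₐ[L]
    laurentBaseChange L (modularFunctionFieldFull (M' * q * q)) :=
  (heckeAlphaBar L (M' * q) q).comp (heckeAlphaBar L M' q)

/-- `π_1^* : y(z) ↦ y(q z)`. -/
def piStar1 : laurentBaseChange L (modularFunctionFieldFull M') →ₐ[L]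
    laurentBaseChange L (modularFunctionFieldFull (M' * q * q)) :=
  (heckeAlphaBar L (M' * q) q).comp (heckeBetaBar L M' q)

/-- `π_2^* : y(z) ↦ y(q² z)`. -/
def piStar2 : laurentBaseChange L (modularFunctionFieldFull M') →ₐ[L]
    laurentBaseChange L (modularFunctionFieldFull (M' * q * q)) :=
  (heckeBetaBar L (M' * q) q).comp (heckeBetaBar L M' q)

variable {L}

theorem piStar0_apply (y : laurentBaseChange L (modularFunctionFieldFull M')) :
    piStar0 L M' q y = heckeAlphaBar L (M' * q) q (heckeAlphaBar L M' q y) := rfl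

theorem piStar1_apply (y : laurentBaseChange L (modularFunctionFieldFull M')) :
    piStar1 L M' q y = heckeAlphaBar L (M' * q) q (heckeBetaBar L M' q y) := rfl

omit [NeZero M'] in
theorem piStar2_apply (y : laurentBaseChange L (modularFunctionFieldFull M')) :
    piStar2 L M' q y = heckeBetaBar L (M' * q) q (heckeBetaBar L M' q y) := rfl

theorem coe_piStar0 (y : laurentBaseChange L (modularFunctionFieldFull M')) :
    ((piStar0 L M' q y : laurentBaseChange L (modularFunctionFieldFull (M' * q * q))) :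
      LaurentSeries L) = (y : LaurentSeries L) := by
  rw [piStar0_apply, coe_heckeAlphaBar, coe_heckeAlphaBar]

theorem coe_piStar1 (y : laurentBaseChange L (modularFunctionFieldFull M')) :
    ((piStar1 L M' q y : laurentBaseChange L (modularFunctionFieldFull (M' * q * q))) :
      LaurentSeries L) = qExpand L q (y : LaurentSeries L) := by
  rw [piStar1_apply, coe_heckeAlphaBar, coe_heckeBetaBar]

omit [NeZero M'] in
theorem coe_piStar2 (y : laurentBaseChange L (modularFunctionFieldFull M')) :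
    ((piStar2 L M' q y : laurentBaseChange L (modularFunctionFieldFull (M' * q * q))) :
      LaurentSeries L) = qExpand L q (qExpand L q (y : LaurentSeries L)) := by
  rw [piStar2_apply, coe_heckeBetaBar, coe_heckeBetaBar]

theorem piStar1_apply' (y : laurentBaseChange L (modularFunctionFieldFull M')) :
    piStar1 L M' q y = heckeBetaBar L (M' * q) q (heckeAlphaBar L M' q y) := by
  apply Subtype.ext
  rw [coe_piStar1, coe_heckeBetaBar, coe_heckeAlphaBar]

variable (L)

/-- A criterion for `F_{Nℓ} = α(F_N)(X)`. -/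
theorem closure_range_heckeAlphaBar_union_of_le (N ℓ : ℕ) [NeZero N] [NeZero ℓ]
    (X : laurentBaseChange L (modularFunctionFieldFull (N * ℓ)))
    (hle : TD.FF L (N * ℓ) 1 ≤ IntermediateField.adjoin L
      ((TD.FF L N 1 : Set (LaurentSeries L)) ∪ {(X : LaurentSeries L)})) :
    Subfield.closure (Set.range (heckeAlphaBar L N ℓ) ∪ {X}) = ⊤ := by
  have hα : ∀ z, z ∈ laurentBaseChange L (modularFunctionFieldFull N) → z ∈
      (Subfield.closure (Set.range (heckeAlphaBar L N ℓ) ∪ {X})).map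
        ((laurentBaseChange L (modularFunctionFieldFull (N * ℓ))).val :
          laurentBaseChange L (modularFunctionFieldFull (N * ℓ)) →+* LaurentSeries L) := by
    intro z hz
    have h0 : heckeAlphaBar L N ℓ ⟨z, hz⟩ ∈ Set.range (heckeAlphaBar L N ℓ) ∪ {X} :=
      Or.inl (Set.mem_range_self _)
    have h2 : ((heckeAlphaBar L N ℓ ⟨z, hz⟩ :
        laurentBaseChange L (modularFunctionFieldFull (N * ℓ))) : LaurentSeries L) = z :=
      coe_heckeAlphaBar N ℓ ⟨z, hz⟩
    exact Subfield.mem_map.mpr ⟨heckeAlphaBar L N ℓ ⟨z, hz⟩, Subfield.subset_closure h0, h2⟩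
  have hconst : ∀ c : L, algebraMap L (LaurentSeries L) c ∈
      (Subfield.closure (Set.range (heckeAlphaBar L N ℓ) ∪ {X})).map
        ((laurentBaseChange L (modularFunctionFieldFull (N * ℓ))).val :
          laurentBaseChange L (modularFunctionFieldFull (N * ℓ)) →+* LaurentSeries L) := fun c =>
    hα _ ((laurentBaseChange L (modularFunctionFieldFull N)).algebraMap_mem c)
  have hle' : IntermediateField.adjoin L
      ((TD.FF L N 1 : Set (LaurentSeries L)) ∪ {(X : LaurentSeries L)}) ≤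
      Subfield.toIntermediateField _ hconst := by
    rw [IntermediateField.adjoin_le_iff]
    rintro z (hz | hz)
    · exact hα z (by rw [laurentBaseChange_full_eq]; exact hz)
    · rw [Set.mem_singleton_iff] at hz
      rw [hz]
      have h0 : X ∈ Set.range (heckeAlphaBar L N ℓ) ∪ {X} := Or.inr (Set.mem_singleton _)
      exact Subfield.mem_map.mpr ⟨X, Subfield.subset_closure h0, rfl⟩
  rw [eq_top_iff]
  rintro ⟨x, hx⟩ -
  have hx' : x ∈ TD.FF L (N * ℓ) 1 := by
    rw [← laurentBaseChange_full_eq]; exact hx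
  have hxT := hle' (hle hx')
  obtain ⟨s, hs, hsx⟩ := Subfield.mem_map.mp hxT
  have hsx' : s = ⟨x, hx⟩ := Subtype.ext hsx
  rw [← hsx']
  exact hs

variable {L}

end PiStar

/-! ### Generation of `F_{M'q²}` over `F_{M'q}` -/

section Gen

variable (L : Type*) [Field L] [Algebra ℚ L]

omit [Algebra ℚ L] in
theorem FF_le_FF_mul (N ℓ : ℕ) : TD.FF L N 1 ≤ TD.FF L (N * ℓ) 1 := by
  unfold TD.FF
  apply IntermediateField.adjoin.mono
  rintro _ ⟨d, hd, rfl⟩
  exact ⟨d, Dvd.dvd.mul_right hd ℓ, rfl⟩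

/-- `F_{M'q²} = F_{M'q}(J(q^{q²}))`. -/
theorem FF_sq_eq_adjoin (q : ℕ) (hq : q.Prime) (M' : ℕ) (hM : M' ≠ 0) (hqM : ¬ q ∣ M') :
    TD.FF L (M' * q * q) 1 = IntermediateField.adjoin L
      ((TD.FF L (M' * q) 1 : Set (LaurentSeries L)) ∪ {TD.Jd L (q * q)}) := by
  apply le_antisymm
  · have h := Fermat.Agent.ESJ.Cong.LevelPushDvd.FF_mul_le_adjoin_fwd_pow L M' q 1 hM hq hqM
    have e1 : q ^ 1 * M' * q = M' * q * q := by ring
    have e2 : q ^ 1 * M' = M' * q := by ring
    have e3 : q ^ (1 + 1) = q * q := by ring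
    rw [e1, e2, e3] at h
    exact h
  · rw [IntermediateField.adjoin_le_iff]
    rintro z (hz | hz)
    · exact FF_le_FF_mul L (M' * q) q hz
    · rw [Set.mem_singleton_iff] at hz
      rw [hz]
      have := TD.Jd_mem_FF L (N := M' * q * q) (m := 1) (d := q * q) ⟨M', by ring⟩
      rwa [one_mul] at this

variable (M' q : ℕ) [NeZero M'] [NeZero q]

theorem coe_piStar1_jLevel :
    ((piStar1 L M' q (jLevel L M') : laurentBaseChange L (modularFunctionFieldFull (M' * q * q))) :
      LaurentSeries L) = TD.Jd L q := by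
  rw [coe_piStar1, coe_jLevel, TD.qExpand_Jd L q 1 one_ne_zero, mul_one]

theorem coe_piStar2_jLevel :
    ((piStar2 L M' q (jLevel L M') : laurentBaseChange L (modularFunctionFieldFull (M' * q * q))) :
      LaurentSeries L) = TD.Jd L (q * q) := by
  rw [coe_piStar2, coe_jLevel, TD.qExpand_Jd L q 1 one_ne_zero, mul_one,
    TD.qExpand_Jd L q q (NeZero.ne q)]

theorem coe_piStar0_jLevel :
    ((piStar0 L M' q (jLevel L M') : laurentBaseChange L (modularFunctionFieldFull (M' * q * q))) :
      LaurentSeries L) = TD.Jd L 1 := by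
  rw [coe_piStar0, coe_jLevel]

/-- `F_{M'q²} = α(F_{M'q})(π_2^* j)`. -/
theorem closure_range_heckeAlphaBar_union_sq (hq : q.Prime) (hqM : ¬ q ∣ M') :
    Subfield.closure (Set.range (heckeAlphaBar L (M' * q) q) ∪
      {piStar2 L M' q (jLevel L M')}) = ⊤ := by
  have h1 : TD.FF L (M' * q * q) 1 ≤ IntermediateField.adjoin L
      ((TD.FF L (M' * q) 1 : Set (LaurentSeries L)) ∪
        {((piStar2 L M' q (jLevel L M') :
          laurentBaseChange L (modularFunctionFieldFull (M' * q * q))) : LaurentSeries L)}) := by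
    rw [coe_piStar2_jLevel, ← FF_sq_eq_adjoin L q hq M' (NeZero.ne M') hqM]
  exact closure_range_heckeAlphaBar_union_of_le L (M' * q) q (piStar2 L M' q (jLevel L M')) h1

/-- `F_{M'q²} = π_0^*(F_{M'})(J(q^q), J(q^{q²}))`. -/
theorem closure_range_piStar0_union (hq : q.Prime) (hqM : ¬ q ∣ M') :
    Subfield.closure (Set.range (piStar0 L M' q) ∪
      {piStar1 L M' q (jLevel L M'), piStar2 L M' q (jLevel L M')}) = ⊤ := by
  have hα : ∀ x : laurentBaseChange L (modularFunctionFieldFull (M' * q)),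
      heckeAlphaBar L (M' * q) q x ∈ Subfield.closure (Set.range (piStar0 L M' q) ∪
        {piStar1 L M' q (jLevel L M'), piStar2 L M' q (jLevel L M')}) := by
    have h1 : Subfield.closure (Set.range (heckeAlphaBar L M' q) ∪
        {heckeBetaBar L M' q (jLevel L M')}) ≤
        (Subfield.closure (Set.range (piStar0 L M' q) ∪
        {piStar1 L M' q (jLevel L M'), piStar2 L M' q (jLevel L M')})).comap
          ((heckeAlphaBar L (M' * q) q : _ →ₐ[L] _) : _ →+* _) := by
      rw [Subfield.closure_le]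
      rintro y (⟨x, rfl⟩ | hy)
      · rw [SetLike.mem_coe, Subfield.mem_comap, RingHom.coe_coe, ← piStar0_apply]
        exact Subfield.subset_closure (Or.inl ⟨x, rfl⟩)
      · rw [Set.mem_singleton_iff] at hy
        rw [hy, SetLike.mem_coe, Subfield.mem_comap, RingHom.coe_coe, ← piStar1_apply]
        exact Subfield.subset_closure (Or.inr (Or.inl rfl))
    rw [closure_range_heckeAlphaBar_union L M' q hq hqM] at h1
    intro x
    have := h1 (Subfield.mem_top x)
    rwa [Subfield.mem_comap, RingHom.coe_coe] at this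
  rw [eq_top_iff, ← closure_range_heckeAlphaBar_union_sq L M' q hq hqM, Subfield.closure_le]
  rintro y (⟨x, rfl⟩ | hy)
  · exact hα x
  · rw [Set.mem_singleton_iff] at hy
    rw [hy]
    exact Subfield.subset_closure (Or.inr (Or.inr rfl))

end Gen

/-! ### The invariant `GoodV` at level `M' q²` -/

section Inf

variable {L : Type*} [Field L] [Algebra ℚ L] (A : ValuationSubring L) {k : Type} [Field k]
  (π : A →+* k)

omit [Algebra ℚ L] in
/-- `J(q^{q²})` is congruent modulo every power of `q` to an `A`-integral series lying in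
`F_{M'q}`. -/
theorem exists_approx_Jd_sq (q : ℕ) [Fact q.Prime] (M' : ℕ) (hM : M' ≠ 0) :
    ∀ m : ℕ, ∃ Y : LaurentSeries A, incl A Y ∈ TD.FF L (M' * q) 1 ∧
      HahnSeries.C ((q : A) ^ m) ∣ TD.Jd A (q * q) - Y := by
  have hq : q.Prime := Fact.out
  have : NeZero q := ⟨hq.ne_zero⟩
  intro m
  obtain ⟨Y₀, hY₀, hdiv⟩ := exists_approx_Jd A q M' m
  refine ⟨qExpand A q Y₀, ?_, ?_⟩
  · have h1 : incl A (qExpand A q Y₀) = qExpand L q (incl A Y₀) := coeffMap_qExpand A.subtype q Y₀
    rw [h1]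
    have h2 : qExpand L q (incl A Y₀) ∈ TD.FF L M' q := by
      rw [← StepCore.FF_map_one L hM q]
      exact ⟨incl A Y₀, hY₀, rfl⟩
    have h3 : TD.FF L M' q ≤ TD.FF L (M' * q) 1 := by
      unfold TD.FF
      apply IntermediateField.adjoin.mono
      rintro _ ⟨d, hd, rfl⟩
      refine ⟨q * d, ?_, ?_⟩
      · show q * d ∣ M' * q
        rw [mul_comm q d]
        exact Nat.mul_dvd_mul_right hd q
      · show TD.Jd L (1 * (q * d)) = TD.Jd L (q * d)
        rw [one_mul]
    exact h3 h2
  · have h1 : TD.Jd A (q * q) - qExpand A q Y₀ = qExpand A q (TD.Jd A q - Y₀) := by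
      rw [map_sub, TD.qExpand_Jd A q q hq.ne_zero]
    rw [h1]
    obtain ⟨S, hS⟩ := hdiv
    refine ⟨qExpand A q S, ?_⟩
    rw [hS, map_mul, qExpand_C]

/-- (Inf-1) **The Gauss valuation at level `M' q²`.**  If `q = 0` in `k` and `M' ≠ 0` in `k`, the
field `F_{M'q²}` satisfies the invariant `GoodV` with residue field the mod-`q` function field of
level `M'`. -/
theorem goodV_sq (hπ : ∀ a : A, ¬ IsUnit a → π a = 0)
    (hrank : ∀ d e : A, ¬ IsUnit d → e ≠ 0 → ∃ r : ℕ, e ∣ d ^ r)
    (q : ℕ) [Fact q.Prime] (hqk : (q : k) = 0) (M' : ℕ) [NeZero M'] (hMk : (M' : k) ≠ 0) :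
    GoodV A π (TD.FF L (M' * q * q) 1) (TD.FF k M' 1) := by
  have hq : q.Prime := Fact.out
  obtain ⟨D⟩ := modEq_prime q hq
  have hqM : ¬ q ∣ M' := by
    rintro ⟨t, rfl⟩
    apply hMk
    rw [Nat.cast_mul, hqk, zero_mul]
  have h0 : GoodV A π (TD.FF L (M' * q) 1) (TD.FF k M' 1) := goodV_bad A π hπ hrank q hqk M' hMk
  have hJ : TD.Jd L q ∈ TD.FF L (M' * q) 1 := by
    have := TD.Jd_mem_FF L (N := M' * q) (m := 1) (d := q) (Dvd.intro_left M' rfl)
    rwa [one_mul] at this
  -- the degree relation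
  have hdeg : ∃ a : Fin (q + 1) → LaurentSeries L, (∀ t, a t ∈ TD.FF L (M' * q) 1) ∧
      incl A (TD.Jd A (q * q)) ^ (q + 1) = ∑ t, a t * incl A (TD.Jd A (q * q)) ^ (t : ℕ) := by
    set P := TD.polyAt D.Φ (TD.Jd L q) with hP
    have hPm : P.Monic := TD.polyAt_monic D.monic _
    have hPd : P.natDegree = q + 1 := by
      rw [hP, TD.polyAt_natDegree D.monic, D.natDegree_eq]
    have hroot : P.eval (TD.Jd L (q * q)) = 0 := D.rel₂' hq.ne_zero L q hq.ne_zero
    have hcoeff : ∀ i, P.coeff i ∈ TD.FF L (M' * q) 1 := by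
      intro i
      rw [hP]
      unfold TD.polyAt
      rw [Polynomial.coeff_map, Polynomial.coe_eval₂RingHom, Polynomial.eval₂_eq_sum_range]
      exact (TD.FF L (M' * q) 1).sum_mem fun j _ =>
        (TD.FF L (M' * q) 1).mul_mem (intCast_mem (TD.FF L (M' * q) 1) _) (pow_mem hJ j)
    refine ⟨fun t => -P.coeff t, fun t => (TD.FF L (M' * q) 1).neg_mem (hcoeff t), ?_⟩
    rw [incl_Jd]
    have h1 := hPm.as_sum
    rw [hPd] at h1
    have h2 : P.eval (TD.Jd L (q * q)) = TD.Jd L (q * q) ^ (q + 1) +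
        ∑ i ∈ Finset.range (q + 1), P.coeff i * TD.Jd L (q * q) ^ i := by
      conv_lhs => rw [h1]
      rw [Polynomial.eval_add, Polynomial.eval_pow, Polynomial.eval_X, Polynomial.eval_finsetSum]
      congr 1
      exact Finset.sum_congr rfl fun i _ => by
        rw [Polynomial.eval_mul, Polynomial.eval_C, Polynomial.eval_pow, Polynomial.eval_X]
    rw [hroot] at h2
    have h3 : TD.Jd L (q * q) ^ (q + 1) =
        -∑ i ∈ Finset.range (q + 1), P.coeff i * TD.Jd L (q * q) ^ i := by
      linear_combination -h2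
    rw [h3, ← Finset.sum_neg_distrib, Finset.sum_range]
    exact Finset.sum_congr rfl fun t _ => by ring
  have hc : ¬ IsUnit ((q : ℕ) : A) := by
    intro hu
    have h1 := hu.map π
    rw [map_natCast, hqk] at h1
    exact not_isUnit_zero h1
  have hc0 : ((q : ℕ) : A) ≠ 0 := by
    intro h0
    have h1 : ((q : ℕ) : L) = 0 := by
      have := congrArg (fun a : A => (a : L)) h0
      simpa using this
    have : CharZero L := algebraRat.charZero L
    exact hq.ne_zero (Nat.cast_eq_zero.mp h1)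
  have hstep := goodV_step_immediate hπ hrank h0 (TD.Jd A (q * q)) hdeg ((q : ℕ) : A) hc hc0
    (exists_approx_Jd_sq A q M' (NeZero.ne M'))
  rw [incl_Jd] at hstep
  rw [FF_sq_eq_adjoin L q hq M' (NeZero.ne M') hqM]
  exact hstep

variable {A π} {M' q : ℕ} [NeZero M'] [NeZero q]

/-- The invariant `GoodV` for the Prelude field of level `M' q²`, with residue field of level
`M'`. -/
theorem goodV3 (h : BadSetup A π M' q) :
    GoodV A π (laurentBaseChange L (modularFunctionFieldFull (M' * q * q)))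
      (modularFunctionFieldFullC k M') := by
  have : Fact q.Prime := ⟨h.hℓ⟩
  rw [laurentBaseChange_eq_FF, fullC_eq_FF]
  exact goodV_sq A π h.hπ h.hrank q h.hℓk M' h.hMk

/-- (Inf-2) The Gauss valuation ring `O_∞` of `F_{M'q²}`: the functions whose `q`-expansion lies
in the Gauss ring. -/
def OInf3 (h : BadSetup A π M' q) :
    ValuationSubring ↥(laurentBaseChange L (modularFunctionFieldFull (M' * q * q))) :=
  gaussVS (goodV3 h)

/-- The residue map of `O_∞`, onto the mod-`q` function field of level `M'`. -/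
def redInf3 (h : BadSetup A π M' q) : OInf3 h →+* ↥(modularFunctionFieldFullC k M') :=
  gaussRed h.hπ (goodV3 h)

theorem mem_OInf3_iff (h : BadSetup A π M' q)
    (f : laurentBaseChange L (modularFunctionFieldFull (M' * q * q))) :
    f ∈ OInf3 h ↔ (f : LaurentSeries L) ∈ gaussRing A π := Iff.rfl

theorem coe_redInf3 (h : BadSetup A π M' q)
    (f : laurentBaseChange L (modularFunctionFieldFull (M' * q * q))) (hf : f ∈ OInf3 h) :
    ((redInf3 h ⟨f, hf⟩ : modularFunctionFieldFullC k M') : LaurentSeries k) =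
      red A π ⟨(f : LaurentSeries L), hf⟩ := rfl

theorem redInf3_congr (h : BadSetup A π M' q)
    {f g : laurentBaseChange L (modularFunctionFieldFull (M' * q * q))} (e : f = g)
    (hf : f ∈ OInf3 h) (hg : g ∈ OInf3 h) : redInf3 h ⟨f, hf⟩ = redInf3 h ⟨g, hg⟩ := by
  subst e
  rfl

/-- The kernel of `red_∞` is the maximal ideal. -/
theorem redInf3_eq_zero_iff (h : BadSetup A π M' q) (f : OInf3 h) :
    redInf3 h f = 0 ↔ ¬ IsUnit f :=
  gaussRed_eq_zero_iff h.hπ (goodV3 h) f

theorem inv_mem_OInf3 (h : BadSetup A π M' q)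
    (f : laurentBaseChange L (modularFunctionFieldFull (M' * q * q))) (hf : f ∈ OInf3 h)
    (hne : redInf3 h ⟨f, hf⟩ ≠ 0) : f⁻¹ ∈ OInf3 h :=
  inv_mem_gaussVS h.hπ (goodV3 h) f hf hne

theorem redInf3_ne_zero_of_inv_mem (h : BadSetup A π M' q)
    (f : laurentBaseChange L (modularFunctionFieldFull (M' * q * q))) (hf0 : f ≠ 0)
    (hf : f ∈ OInf3 h) (hinv : f⁻¹ ∈ OInf3 h) : redInf3 h ⟨f, hf⟩ ≠ 0 :=
  gaussRed_ne_zero_of_inv_mem h.hπ (goodV3 h) f hf0 hf hinv

/-- `O_∞ ∩ L = A`. -/
theorem algebraMap_mem_OInf3_iff (h : BadSetup A π M' q) (a : L) :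
    algebraMap L ↥(laurentBaseChange L (modularFunctionFieldFull (M' * q * q))) a ∈ OInf3 h ↔
      a ∈ A :=
  algebraMap_mem_gaussVS_iff h.hπ (goodV3 h) a

theorem redInf3_algebraMap (h : BadSetup A π M' q) (a : A)
    (ha : algebraMap L ↥(laurentBaseChange L (modularFunctionFieldFull (M' * q * q))) (a : L) ∈
      OInf3 h) :
    redInf3 h ⟨_, ha⟩ = algebraMap k ↥(modularFunctionFieldFullC k M') (π a) :=
  gaussRed_algebraMap h.hπ (goodV3 h) a

/-- Every nonzero function is a nonzero constant times a unit of `O_∞`. -/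
theorem exists_scaling_OInf3 (h : BadSetup A π M' q)
    (f : laurentBaseChange L (modularFunctionFieldFull (M' * q * q))) (hf : f ≠ 0) :
    ∃ a : L, a ≠ 0 ∧ ∃ hm : algebraMap L _ a * f ∈ OInf3 h, redInf3 h ⟨_, hm⟩ ≠ 0 :=
  exists_scaling_gaussVS h.hπ (goodV3 h) f hf

/-! ### `O_∞` and the three pull-backs -/

omit [Algebra ℚ L] in
/-- If `z(q^n)` lies in the Gauss ring, so does `z` (for `z` in a field satisfying `GoodV`). -/
theorem mem_gaussRing_of_qExpand_mem
    {F₀ : IntermediateField L (LaurentSeries L)} {κ₀ : IntermediateField k (LaurentSeries k)}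
    (hG : GoodV A π F₀ κ₀) (n : ℕ) [NeZero n] {z : LaurentSeries L} (hz : z ∈ F₀)
    (h : qExpand L n z ∈ gaussRing A π) : z ∈ gaussRing A π := by
  rcases hG.mem_or_inv_mem hz with h1 | h1
  · exact h1
  by_cases hz0 : z = 0
  · rw [hz0]
    exact (gaussRing A π).zero_mem
  by_cases hred : red A π ⟨z⁻¹, h1⟩ = 0
  · exfalso
    have h2 : qExpand L n z⁻¹ ∈ gaussRing A π := qExpand_mem_gaussRing n h1
    have h3 : red A π ⟨qExpand L n z⁻¹, h2⟩ = 0 := by
      rw [red_qExpand n h1 h2, hred, map_zero]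
    have h4 : (⟨qExpand L n z, h⟩ : gaussRing A π) * ⟨qExpand L n z⁻¹, h2⟩ = 1 := by
      apply Subtype.ext
      show qExpand L n z * qExpand L n z⁻¹ = 1
      rw [← map_mul, mul_inv_cancel₀ hz0, map_one]
    have h5 := congrArg (red A π) h4
    rw [map_mul, h3, mul_zero, map_one] at h5
    exact zero_ne_one h5
  · have h2 := inv_mem_gaussRing A π h1 hred
    rwa [inv_inv] at h2

/-- `(π_0^*)⁻¹(O_∞)` is the Gauss valuation ring of level `M'`. -/
theorem piStar0_mem_OInf3_iff (h : BadSetup A π M' q)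
    (x : laurentBaseChange L (modularFunctionFieldFull M')) :
    piStar0 L M' q x ∈ OInf3 h ↔ x ∈ Ow A π M' h.hMk := by
  show ((piStar0 L M' q x : laurentBaseChange L (modularFunctionFieldFull (M' * q * q))) :
    LaurentSeries L) ∈ gaussRing A π ↔ (x : LaurentSeries L) ∈ gaussRing A π
  rw [coe_piStar0]

/-- `(π_1^*)⁻¹(O_∞)` is the Gauss valuation ring of level `M'`. -/
theorem piStar1_mem_OInf3_iff (h : BadSetup A π M' q)
    (x : laurentBaseChange L (modularFunctionFieldFull M')) :
    piStar1 L M' q x ∈ OInf3 h ↔ x ∈ Ow A π M' h.hMk := by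
  show ((piStar1 L M' q x : laurentBaseChange L (modularFunctionFieldFull (M' * q * q))) :
    LaurentSeries L) ∈ gaussRing A π ↔ (x : LaurentSeries L) ∈ gaussRing A π
  rw [coe_piStar1]
  exact ⟨mem_gaussRing_of_qExpand_mem (goodV_full' A π M' h.hMk) q x.2,
    qExpand_mem_gaussRing q⟩

/-- `(π_2^*)⁻¹(O_∞)` is the Gauss valuation ring of level `M'`. -/
theorem piStar2_mem_OInf3_iff (h : BadSetup A π M' q)
    (x : laurentBaseChange L (modularFunctionFieldFull M')) :
    piStar2 L M' q x ∈ OInf3 h ↔ x ∈ Ow A π M' h.hMk := by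
  show ((piStar2 L M' q x : laurentBaseChange L (modularFunctionFieldFull (M' * q * q))) :
    LaurentSeries L) ∈ gaussRing A π ↔ (x : LaurentSeries L) ∈ gaussRing A π
  rw [coe_piStar2]
  refine ⟨fun h2 => ?_, fun h2 => qExpand_mem_gaussRing q (qExpand_mem_gaussRing q h2)⟩
  have h3 : qExpand L q (x : LaurentSeries L) ∈ gaussRing A π :=
    mem_gaussRing_of_qExpand_mem h.goodV q (heckeBetaBar L M' q x).2 h2
  exact mem_gaussRing_of_qExpand_mem (goodV_full' A π M' h.hMk) q x.2 h3

/-- `red_∞ ∘ π_0^* = red`. -/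
theorem redInf3_piStar0 (h : BadSetup A π M' q)
    (x : laurentBaseChange L (modularFunctionFieldFull M')) (hx : x ∈ Ow A π M' h.hMk)
    (hx' : piStar0 L M' q x ∈ OInf3 h) :
    redInf3 h ⟨piStar0 L M' q x, hx'⟩ = redF A π M' h.hπ h.hMk ⟨x, hx⟩ := by
  apply Subtype.ext
  rw [coe_redInf3, coe_redF]
  have e : (⟨((piStar0 L M' q x : laurentBaseChange L (modularFunctionFieldFull (M' * q * q))) :
      LaurentSeries L), hx'⟩ : gaussRing A π) = OwToGauss A π M' h.hMk ⟨x, hx⟩ :=
    Subtype.ext (coe_piStar0 M' q x)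
  rw [e]

/-- `red_∞ ∘ π_1^* = (q ↦ q^q) ∘ red` (the Frobenius twist). -/
theorem coe_redInf3_piStar1 (h : BadSetup A π M' q)
    (x : laurentBaseChange L (modularFunctionFieldFull M')) (hx : x ∈ Ow A π M' h.hMk)
    (hx' : piStar1 L M' q x ∈ OInf3 h) :
    ((redInf3 h ⟨piStar1 L M' q x, hx'⟩ : modularFunctionFieldFullC k M') : LaurentSeries k) =
      qExpand k q ((redF A π M' h.hπ h.hMk ⟨x, hx⟩ : modularFunctionFieldFullC k M') :
        LaurentSeries k) :=
  red_qExpand q hx hx'

/-- `red_∞ ∘ π_2^* = (q ↦ q^(q²)) ∘ red` (the Frobenius twist, twice). -/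
theorem coe_redInf3_piStar2 (h : BadSetup A π M' q)
    (x : laurentBaseChange L (modularFunctionFieldFull M')) (hx : x ∈ Ow A π M' h.hMk)
    (hx' : piStar2 L M' q x ∈ OInf3 h) :
    ((redInf3 h ⟨piStar2 L M' q x, hx'⟩ : modularFunctionFieldFullC k M') : LaurentSeries k) =
      qExpand k q (qExpand k q ((redF A π M' h.hπ h.hMk ⟨x, hx⟩ : modularFunctionFieldFullC k M') :
        LaurentSeries k)) := by
  have h1 : qExpand L q (x : LaurentSeries L) ∈ gaussRing A π := qExpand_mem_gaussRing q hx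
  have h2 : qExpand L q (qExpand L q (x : LaurentSeries L)) ∈ gaussRing A π :=
    qExpand_mem_gaussRing q h1
  have e1 : red A π ⟨qExpand L q (qExpand L q (x : LaurentSeries L)), h2⟩ =
      qExpand k q (red A π ⟨qExpand L q (x : LaurentSeries L), h1⟩) := red_qExpand q h1 h2
  have e2 : red A π ⟨qExpand L q (x : LaurentSeries L), h1⟩ =
      qExpand k q (red A π ⟨(x : LaurentSeries L), hx⟩) := red_qExpand q hx h1
  rw [coe_redInf3, coe_redF]
  have e : (⟨((piStar2 L M' q x : laurentBaseChange L (modularFunctionFieldFull (M' * q * q))) :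
      LaurentSeries L), hx'⟩ : gaussRing A π) =
      ⟨qExpand L q (qExpand L q (x : LaurentSeries L)), h2⟩ := Subtype.ext (coe_piStar2 M' q x)
  rw [e, e1, e2]
  rfl

end Inf

end

end Fermat.Agent.CAR.V3
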