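/-
CAR / V3 (Restrict): the `∞`/`0` half of the export list of the norm calculus (CAR-10).

Level `M' q²` function field `F = L·F_{M'q²}` with its Gauss valuation ring `O_∞³ = OInf3 h`
(CAR/V3/Inf.lean), level `N = M' q` function field `F_N` with `O_∞ = OInf h`, `O_0 = OZero h W`
(BAD/TwoVal/Pair.lean), and the two degeneracy maps `α^* = heckeAlphaBar L (M' * q) q`
(`f(z) ↦ f(z)`), `β^* = heckeBetaBar L (M' * q) q` (`f(z) ↦ f(qz)`) from `F_N` to `F`.

* discreteness: `IsUnif` for `OInf h`, `OZero h W`, `OInf3 h` and for `w⁻¹(OInf3 h)` (`= OZero3`)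
  with uniformiser the uniformiser of the base valuation ring `A` (e.g. `q`);
* restrictions: `(α^*)⁻¹(O_∞³) = O_∞ = (β^*)⁻¹(O_∞³)` and, for Atkin–Lehner involutions `W` of
  `F_N` and `w` of `F`, `(α^*)⁻¹(w⁻¹ O_∞³) = O_0 = (β^*)⁻¹(w⁻¹ O_∞³)`;
* residues: `ρ_∞ ∘ α^* = r_∞`, `ρ_∞ ∘ β^* = ψ ∘ r_∞`, `ρ_0 ∘ α^* = ψ ∘ r_0`, `ρ_0 ∘ β^* = r_0`
  with `ψ = (q ↦ q^q)` (`= FrobAut.vHom k q M'` when `k` is perfect);
* degrees `[F : α^* F_N] = [F : β^* F_N] = q`;
* the instance `(L, A) = (K0, W0)`: `isUnif_W0`.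
-/
import Mathlib
import Fermat.Agent.CAR.V3.Inf
import Fermat.Agent.CAR.Formal.DiscVal
import Fermat.Agent.CAR.K0.Setup
import Fermat.Agent.ESJ.Cong.LevelDeg
import Fermat.Agent.ESJ.Cong.FrobAut

set_option autoImplicit false

namespace Fermat.Agent.CAR.V3.Restrict

open HahnSeries ModularCurve Polynomial AlgebraicCurve Fermat.Agent.Lib.Red Fermat.Agent.S28
open Fermat.Agent.ESJ.Cong.LevelGen Fermat.Agent.BAD.TwoVal Fermat.Agent.CAR.Formal
open Fermat.Agent.CAR.V3

noncomputable section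

/-! ### Generic: discreteness of Gauss valuation rings, transport along automorphisms -/

section Generic

variable {L : Type*} [Field L] {A : ValuationSubring L} {k : Type*} [Field k] {π : A →+* k}
  {F : IntermediateField L (LaurentSeries L)} {κ : IntermediateField k (LaurentSeries k)}

/-- If the base valuation ring `A` is discrete with uniformiser `ϖ`, so is the Gauss valuation
ring of a field satisfying `GoodV`. -/
theorem isUnif_gaussVS (hπ : ∀ a : A, ¬ IsUnit a → π a = 0) (hG : GoodV A π F κ) {ϖ : L}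
    (hA : IsUnif A ϖ) : IsUnif (gaussVS hG) (algebraMap L ↥F ϖ) := by
  refine ⟨(algebraMap_mem_gaussVS_iff hπ hG ϖ).mpr hA.mem, ?_, ?_⟩
  · rw [← map_inv₀]
    exact fun h => hA.inv_notMem ((algebraMap_mem_gaussVS_iff hπ hG ϖ⁻¹).mp h)
  · intro f hf
    obtain ⟨a, ha, hm, hne⟩ := exists_scaling_gaussVS hπ hG f hf
    have hinv := inv_mem_gaussVS hπ hG _ hm hne
    obtain ⟨n, v, hv, hv', hav⟩ := hA.exists_zpow a⁻¹ (inv_ne_zero ha)
    refine ⟨n, algebraMap L ↥F v * (algebraMap L ↥F a * f), ?_, ?_, ?_⟩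
    · exact (gaussVS hG).mul_mem _ _ ((algebraMap_mem_gaussVS_iff hπ hG v).mpr hv) hm
    · rw [mul_inv, ← map_inv₀]
      exact (gaussVS hG).mul_mem _ _ ((algebraMap_mem_gaussVS_iff hπ hG v⁻¹).mpr hv') hinv
    · have e1 : f = algebraMap L ↥F a⁻¹ * (algebraMap L ↥F a * f) := by
        rw [← mul_assoc, ← map_mul, inv_mul_cancel₀ ha, map_one, one_mul]
      have e2 : algebraMap L ↥F a⁻¹ = algebraMap L ↥F ϖ ^ n * algebraMap L ↥F v := by
        rw [hav, map_mul, map_zpow₀]
      rw [← mul_assoc, ← e2]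
      exact e1

end Generic

/-- Transport of `IsUnif` along a ring automorphism. -/
theorem isUnif_comap_equiv {E : Type*} [Field E] {O : ValuationSubring E} (w : E ≃+* E) {ϖ : E}
    (h : IsUnif O (w ϖ)) : IsUnif (O.comap w.toRingHom) ϖ := by
  refine ⟨h.mem, ?_, ?_⟩
  · intro hm
    apply h.inv_notMem
    have : w ϖ⁻¹ ∈ O := hm
    rwa [map_inv₀] at this
  · intro x hx
    have hwx : w x ≠ 0 := fun h0 => hx (w.injective (by rw [h0, map_zero]))
    obtain ⟨n, u, hu, hu', hxu⟩ := h.exists_zpow (w x) hwx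
    refine ⟨n, w.symm u, ?_, ?_, ?_⟩
    · show w (w.symm u) ∈ O
      rw [RingEquiv.apply_symm_apply]
      exact hu
    · show w (w.symm u)⁻¹ ∈ O
      rw [map_inv₀, RingEquiv.apply_symm_apply]
      exact hu'
    · apply w.injective
      rw [map_mul, map_zpow₀, RingEquiv.apply_symm_apply]
      exact hxu

section Bad

variable {L : Type*} [Field L] [Algebra ℚ L] {A : ValuationSubring L} {k : Type} [Field k]
  {π : A →+* k} {M' q : ℕ} [NeZero M'] [NeZero q]

/-! ### Discreteness -/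

/-- `O_∞` of level `M' q` is discrete, with the uniformiser of `A`. -/
theorem isUnif_OInf (h : BadSetup A π M' q) {ϖ : L} (hA : IsUnif A ϖ) :
    IsUnif (OInf h) (algebraMap L ↥(laurentBaseChange L (modularFunctionFieldFull (M' * q))) ϖ) :=
  isUnif_gaussVS h.hπ h.goodV hA

/-- `O_0` of level `M' q` is discrete, with the uniformiser of `A`. -/
theorem isUnif_OZero (h : BadSetup A π M' q)
    (W : laurentBaseChange L (modularFunctionFieldFull (M' * q)) ≃ₐ[L]
      laurentBaseChange L (modularFunctionFieldFull (M' * q))) {ϖ : L} (hA : IsUnif A ϖ) :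
    IsUnif (OZero h W)
      (algebraMap L ↥(laurentBaseChange L (modularFunctionFieldFull (M' * q))) ϖ) := by
  refine isUnif_comap_equiv W.toRingEquiv ?_
  have e : W.toRingEquiv (algebraMap L ↥(laurentBaseChange L (modularFunctionFieldFull (M' * q))) ϖ)
      = algebraMap L ↥(laurentBaseChange L (modularFunctionFieldFull (M' * q))) ϖ := W.commutes ϖ
  rw [e]
  exact isUnif_OInf h hA

/-- `O_∞` of level `M' q²` is discrete, with the uniformiser of `A`. -/
theorem isUnif_OInf3 (h : BadSetup A π M' q) {ϖ : L} (hA : IsUnif A ϖ) :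
    IsUnif (OInf3 h)
      (algebraMap L ↥(laurentBaseChange L (modularFunctionFieldFull (M' * q * q))) ϖ) :=
  isUnif_gaussVS h.hπ (goodV3 h) hA

/-- `w⁻¹(O_∞)` of level `M' q²` (`= OZero3 h w`) is discrete, with the uniformiser of `A`. -/
theorem isUnif_comap_OInf3 (h : BadSetup A π M' q)
    (w : laurentBaseChange L (modularFunctionFieldFull (M' * q * q)) ≃ₐ[L]
      laurentBaseChange L (modularFunctionFieldFull (M' * q * q))) {ϖ : L} (hA : IsUnif A ϖ) :
    IsUnif ((OInf3 h).comap w.toRingEquiv.toRingHom)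
      (algebraMap L ↥(laurentBaseChange L (modularFunctionFieldFull (M' * q * q))) ϖ) := by
  refine isUnif_comap_equiv w.toRingEquiv ?_
  have e : w.toRingEquiv
      (algebraMap L ↥(laurentBaseChange L (modularFunctionFieldFull (M' * q * q))) ϖ)
      = algebraMap L ↥(laurentBaseChange L (modularFunctionFieldFull (M' * q * q))) ϖ :=
    w.commutes ϖ
  rw [e]
  exact isUnif_OInf3 h hA

/-- The natural-number form: `q` is a uniformiser of `O_∞` (level `M' q`) when it is one of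
`A`. -/
theorem isUnif_OInf_natCast (h : BadSetup A π M' q) (n : ℕ) (hA : IsUnif A (n : L)) :
    IsUnif (OInf h) ((n : ℕ) : ↥(laurentBaseChange L (modularFunctionFieldFull (M' * q)))) := by
  have := isUnif_OInf h hA
  rwa [map_natCast] at this

theorem isUnif_OZero_natCast (h : BadSetup A π M' q)
    (W : laurentBaseChange L (modularFunctionFieldFull (M' * q)) ≃ₐ[L]
      laurentBaseChange L (modularFunctionFieldFull (M' * q))) (n : ℕ) (hA : IsUnif A (n : L)) :
    IsUnif (OZero h W)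
      ((n : ℕ) : ↥(laurentBaseChange L (modularFunctionFieldFull (M' * q)))) := by
  have := isUnif_OZero h W hA
  rwa [map_natCast] at this

theorem isUnif_OInf3_natCast (h : BadSetup A π M' q) (n : ℕ) (hA : IsUnif A (n : L)) :
    IsUnif (OInf3 h)
      ((n : ℕ) : ↥(laurentBaseChange L (modularFunctionFieldFull (M' * q * q)))) := by
  have := isUnif_OInf3 h hA
  rwa [map_natCast] at this

theorem isUnif_comap_OInf3_natCast (h : BadSetup A π M' q)
    (w : laurentBaseChange L (modularFunctionFieldFull (M' * q * q)) ≃ₐ[L]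
      laurentBaseChange L (modularFunctionFieldFull (M' * q * q))) (n : ℕ)
    (hA : IsUnif A (n : L)) :
    IsUnif ((OInf3 h).comap w.toRingEquiv.toRingHom)
      ((n : ℕ) : ↥(laurentBaseChange L (modularFunctionFieldFull (M' * q * q)))) := by
  have := isUnif_comap_OInf3 h w hA
  rwa [map_natCast] at this

/-! ### `O_∞³` and the degeneracy maps `α^*`, `β^*` from level `M' q` -/

/-- `(α^*)⁻¹(O_∞³) = O_∞`. -/
theorem heckeAlphaBar_mem_OInf3_iff (h : BadSetup A π M' q)
    (x : laurentBaseChange L (modularFunctionFieldFull (M' * q))) :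
    heckeAlphaBar L (M' * q) q x ∈ OInf3 h ↔ x ∈ OInf h := by
  show ((heckeAlphaBar L (M' * q) q x :
    laurentBaseChange L (modularFunctionFieldFull (M' * q * q))) : LaurentSeries L) ∈
      gaussRing A π ↔ (x : LaurentSeries L) ∈ gaussRing A π
  rw [coe_heckeAlphaBar]

/-- `(β^*)⁻¹(O_∞³) = O_∞`. -/
theorem heckeBetaBar_mem_OInf3_iff (h : BadSetup A π M' q)
    (x : laurentBaseChange L (modularFunctionFieldFull (M' * q))) :
    heckeBetaBar L (M' * q) q x ∈ OInf3 h ↔ x ∈ OInf h := by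
  show ((heckeBetaBar L (M' * q) q x :
    laurentBaseChange L (modularFunctionFieldFull (M' * q * q))) : LaurentSeries L) ∈
      gaussRing A π ↔ (x : LaurentSeries L) ∈ gaussRing A π
  rw [coe_heckeBetaBar]
  exact ⟨mem_gaussRing_of_qExpand_mem h.goodV q x.2, qExpand_mem_gaussRing q⟩

theorem comap_alpha_OInf3 (h : BadSetup A π M' q) :
    (OInf3 h).comap (heckeAlphaBar L (M' * q) q).toRingHom = OInf h :=
  SetLike.ext fun x =>
    (ValuationSubring.mem_comap (A := OInf3 h) (f := (heckeAlphaBar L (M' * q) q).toRingHom)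
      (x := x)).trans (heckeAlphaBar_mem_OInf3_iff h x)

theorem comap_beta_OInf3 (h : BadSetup A π M' q) :
    (OInf3 h).comap (heckeBetaBar L (M' * q) q).toRingHom = OInf h :=
  SetLike.ext fun x =>
    (ValuationSubring.mem_comap (A := OInf3 h) (f := (heckeBetaBar L (M' * q) q).toRingHom)
      (x := x)).trans (heckeBetaBar_mem_OInf3_iff h x)

/-- `ρ_∞ ∘ α^* = r_∞`. -/
theorem redInf3_heckeAlphaBar (h : BadSetup A π M' q)
    (x : laurentBaseChange L (modularFunctionFieldFull (M' * q))) (hx : x ∈ OInf h)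
    (hx' : heckeAlphaBar L (M' * q) q x ∈ OInf3 h) :
    redInf3 h ⟨heckeAlphaBar L (M' * q) q x, hx'⟩ = redInf h ⟨x, hx⟩ := by
  apply Subtype.ext
  rw [coe_redInf3, coe_redInf]
  have e : (⟨((heckeAlphaBar L (M' * q) q x :
      laurentBaseChange L (modularFunctionFieldFull (M' * q * q))) : LaurentSeries L), hx'⟩ :
      gaussRing A π) = ⟨(x : LaurentSeries L), hx⟩ :=
    Subtype.ext (coe_heckeAlphaBar (M' * q) q x)
  rw [e]

/-- `ρ_∞ ∘ β^* = (q ↦ q^q) ∘ r_∞`. -/
theorem coe_redInf3_heckeBetaBar (h : BadSetup A π M' q)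
    (x : laurentBaseChange L (modularFunctionFieldFull (M' * q))) (hx : x ∈ OInf h)
    (hx' : heckeBetaBar L (M' * q) q x ∈ OInf3 h) :
    ((redInf3 h ⟨heckeBetaBar L (M' * q) q x, hx'⟩ : modularFunctionFieldFullC k M') :
      LaurentSeries k) =
      qExpand k q ((redInf h ⟨x, hx⟩ : modularFunctionFieldFullC k M') : LaurentSeries k) :=
  red_qExpand q hx hx'

/-! ### The Atkin–Lehner involutions: `w ∘ α^* = β^* ∘ W`, `w ∘ β^* = α^* ∘ W` -/

section AL

variable {W : laurentBaseChange L (modularFunctionFieldFull (M' * q)) ≃ₐ[L]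
    laurentBaseChange L (modularFunctionFieldFull (M' * q))}
  {w : laurentBaseChange L (modularFunctionFieldFull (M' * q * q)) ≃ₐ[L]
    laurentBaseChange L (modularFunctionFieldFull (M' * q * q))}

/-- `w ∘ α^* = β^* ∘ W`. -/
theorem w_alpha (hW : IsAL M' q W) (h0 : ∀ y, w (piStar0 L M' q y) = piStar2 L M' q y)
    (h1 : ∀ y, w (piStar1 L M' q y) = piStar1 L M' q y) (hq : q.Prime) (hqM : ¬ q ∣ M')
    (x : laurentBaseChange L (modularFunctionFieldFull (M' * q))) :
    w (heckeAlphaBar L (M' * q) q x) = heckeBetaBar L (M' * q) q (W x) := by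
  have hle : Subfield.closure (Set.range (heckeAlphaBar L M' q) ∪
      {heckeBetaBar L M' q (jLevel L M')}) ≤
      (w.toRingEquiv.toRingHom.comp (heckeAlphaBar L (M' * q) q).toRingHom).eqLocusField
        ((heckeBetaBar L (M' * q) q).toRingHom.comp W.toRingEquiv.toRingHom) := by
    rw [Subfield.closure_le]
    rintro y (⟨x, rfl⟩ | hy)
    · show w (heckeAlphaBar L (M' * q) q (heckeAlphaBar L M' q x)) =
        heckeBetaBar L (M' * q) q (W (heckeAlphaBar L M' q x))
      rw [hW.alpha, ← piStar0_apply, ← piStar2_apply, h0]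
    · rw [Set.mem_singleton_iff] at hy
      rw [hy]
      show w (heckeAlphaBar L (M' * q) q (heckeBetaBar L M' q (jLevel L M'))) =
        heckeBetaBar L (M' * q) q (W (heckeBetaBar L M' q (jLevel L M')))
      rw [hW.beta, ← piStar1_apply, ← piStar1_apply', h1]
  rw [closure_range_heckeAlphaBar_union L M' q hq hqM] at hle
  exact hle (Subfield.mem_top x)

/-- `w ∘ β^* = α^* ∘ W`. -/
theorem w_beta (hW : IsAL M' q W) (h1 : ∀ y, w (piStar1 L M' q y) = piStar1 L M' q y)
    (h2 : ∀ y, w (piStar2 L M' q y) = piStar0 L M' q y) (hq : q.Prime) (hqM : ¬ q ∣ M')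
    (x : laurentBaseChange L (modularFunctionFieldFull (M' * q))) :
    w (heckeBetaBar L (M' * q) q x) = heckeAlphaBar L (M' * q) q (W x) := by
  have hle : Subfield.closure (Set.range (heckeAlphaBar L M' q) ∪
      {heckeBetaBar L M' q (jLevel L M')}) ≤
      (w.toRingEquiv.toRingHom.comp (heckeBetaBar L (M' * q) q).toRingHom).eqLocusField
        ((heckeAlphaBar L (M' * q) q).toRingHom.comp W.toRingEquiv.toRingHom) := by
    rw [Subfield.closure_le]
    rintro y (⟨x, rfl⟩ | hy)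
    · show w (heckeBetaBar L (M' * q) q (heckeAlphaBar L M' q x)) =
        heckeAlphaBar L (M' * q) q (W (heckeAlphaBar L M' q x))
      rw [hW.alpha, ← piStar1_apply, ← piStar1_apply', h1]
    · rw [Set.mem_singleton_iff] at hy
      rw [hy]
      show w (heckeBetaBar L (M' * q) q (heckeBetaBar L M' q (jLevel L M'))) =
        heckeAlphaBar L (M' * q) q (W (heckeBetaBar L M' q (jLevel L M')))
      rw [hW.beta, ← piStar0_apply, ← piStar2_apply, h2]
  rw [closure_range_heckeAlphaBar_union L M' q hq hqM] at hle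
  exact hle (Subfield.mem_top x)

/-- `(α^*)⁻¹(w⁻¹ O_∞³) = O_0`. -/
theorem w_alpha_mem_OInf3_iff (h : BadSetup A π M' q) (hW : IsAL M' q W)
    (h0 : ∀ y, w (piStar0 L M' q y) = piStar2 L M' q y)
    (h1 : ∀ y, w (piStar1 L M' q y) = piStar1 L M' q y)
    (x : laurentBaseChange L (modularFunctionFieldFull (M' * q))) :
    w (heckeAlphaBar L (M' * q) q x) ∈ OInf3 h ↔ x ∈ OZero h W := by
  rw [w_alpha hW h0 h1 h.hℓ h.not_dvd, mem_OZero_iff]
  exact heckeBetaBar_mem_OInf3_iff h (W x)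

/-- `(β^*)⁻¹(w⁻¹ O_∞³) = O_0`. -/
theorem w_beta_mem_OInf3_iff (h : BadSetup A π M' q) (hW : IsAL M' q W)
    (h1 : ∀ y, w (piStar1 L M' q y) = piStar1 L M' q y)
    (h2 : ∀ y, w (piStar2 L M' q y) = piStar0 L M' q y)
    (x : laurentBaseChange L (modularFunctionFieldFull (M' * q))) :
    w (heckeBetaBar L (M' * q) q x) ∈ OInf3 h ↔ x ∈ OZero h W := by
  rw [w_beta hW h1 h2 h.hℓ h.not_dvd, mem_OZero_iff]
  exact heckeAlphaBar_mem_OInf3_iff h (W x)

theorem comap_alpha_comap_OInf3 (h : BadSetup A π M' q) (hW : IsAL M' q W)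
    (h0 : ∀ y, w (piStar0 L M' q y) = piStar2 L M' q y)
    (h1 : ∀ y, w (piStar1 L M' q y) = piStar1 L M' q y) :
    ((OInf3 h).comap w.toRingEquiv.toRingHom).comap (heckeAlphaBar L (M' * q) q).toRingHom =
      OZero h W := by
  ext x
  exact w_alpha_mem_OInf3_iff h hW h0 h1 x

theorem comap_beta_comap_OInf3 (h : BadSetup A π M' q) (hW : IsAL M' q W)
    (h1 : ∀ y, w (piStar1 L M' q y) = piStar1 L M' q y)
    (h2 : ∀ y, w (piStar2 L M' q y) = piStar0 L M' q y) :
    ((OInf3 h).comap w.toRingEquiv.toRingHom).comap (heckeBetaBar L (M' * q) q).toRingHom =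
      OZero h W := by
  ext x
  exact w_beta_mem_OInf3_iff h hW h1 h2 x

/-- `ρ_0 ∘ α^* = (q ↦ q^q) ∘ r_0` (`ρ_0 = ρ_∞ ∘ w`, `r_0 = r_∞ ∘ W`). -/
theorem coe_redInf3_w_alpha (h : BadSetup A π M' q) (hW : IsAL M' q W)
    (h0 : ∀ y, w (piStar0 L M' q y) = piStar2 L M' q y)
    (h1 : ∀ y, w (piStar1 L M' q y) = piStar1 L M' q y)
    (x : laurentBaseChange L (modularFunctionFieldFull (M' * q))) (hx : x ∈ OZero h W)
    (hx' : w (heckeAlphaBar L (M' * q) q x) ∈ OInf3 h) :
    ((redInf3 h ⟨w (heckeAlphaBar L (M' * q) q x), hx'⟩ : modularFunctionFieldFullC k M') :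
      LaurentSeries k) =
      qExpand k q ((redZero h W ⟨x, hx⟩ : modularFunctionFieldFullC k M') : LaurentSeries k) := by
  have e := w_alpha hW h0 h1 h.hℓ h.not_dvd x
  have hx'' : heckeBetaBar L (M' * q) q (W x) ∈ OInf3 h := e ▸ hx'
  rw [redInf3_congr h e hx' hx'', redZero_mk]
  exact coe_redInf3_heckeBetaBar h (W x) hx hx''

/-- `ρ_0 ∘ β^* = r_0`. -/
theorem redInf3_w_beta (h : BadSetup A π M' q) (hW : IsAL M' q W)
    (h1 : ∀ y, w (piStar1 L M' q y) = piStar1 L M' q y)
    (h2 : ∀ y, w (piStar2 L M' q y) = piStar0 L M' q y)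
    (x : laurentBaseChange L (modularFunctionFieldFull (M' * q))) (hx : x ∈ OZero h W)
    (hx' : w (heckeBetaBar L (M' * q) q x) ∈ OInf3 h) :
    redInf3 h ⟨w (heckeBetaBar L (M' * q) q x), hx'⟩ = redZero h W ⟨x, hx⟩ := by
  have e := w_beta hW h1 h2 h.hℓ h.not_dvd x
  have hx'' : heckeAlphaBar L (M' * q) q (W x) ∈ OInf3 h := e ▸ hx'
  rw [redInf3_congr h e hx' hx'', redZero_mk]
  exact redInf3_heckeAlphaBar h (W x) hx hx''

end AL

/-! ### `ψ = (q ↦ q^q)` as an endomorphism of the residue field (perfect `k`) -/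

section Psi

variable [Fact q.Prime] [CharP k q] [PerfectRing k q]

/-- `ρ_∞ ∘ β^* = ψ ∘ r_∞` with `ψ = FrobAut.vHom k q M'`. -/
theorem redInf3_heckeBetaBar_vHom (h : BadSetup A π M' q)
    (x : laurentBaseChange L (modularFunctionFieldFull (M' * q))) (hx : x ∈ OInf h)
    (hx' : heckeBetaBar L (M' * q) q x ∈ OInf3 h) :
    redInf3 h ⟨heckeBetaBar L (M' * q) q x, hx'⟩ =
      Fermat.Agent.ESJ.Cong.FrobAut.vHom k q M' (redInf h ⟨x, hx⟩) :=
  Subtype.ext (coe_redInf3_heckeBetaBar h x hx hx')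

/-- `ρ_0 ∘ α^* = ψ ∘ r_0` with `ψ = FrobAut.vHom k q M'`. -/
theorem redInf3_w_alpha_vHom
    {W : laurentBaseChange L (modularFunctionFieldFull (M' * q)) ≃ₐ[L]
      laurentBaseChange L (modularFunctionFieldFull (M' * q))}
    {w : laurentBaseChange L (modularFunctionFieldFull (M' * q * q)) ≃ₐ[L]
      laurentBaseChange L (modularFunctionFieldFull (M' * q * q))}
    (h : BadSetup A π M' q) (hW : IsAL M' q W)
    (h0 : ∀ y, w (piStar0 L M' q y) = piStar2 L M' q y)
    (h1 : ∀ y, w (piStar1 L M' q y) = piStar1 L M' q y)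
    (x : laurentBaseChange L (modularFunctionFieldFull (M' * q))) (hx : x ∈ OZero h W)
    (hx' : w (heckeAlphaBar L (M' * q) q x) ∈ OInf3 h) :
    redInf3 h ⟨w (heckeAlphaBar L (M' * q) q x), hx'⟩ =
      Fermat.Agent.ESJ.Cong.FrobAut.vHom k q M' (redZero h W ⟨x, hx⟩) :=
  Subtype.ext (coe_redInf3_w_alpha h hW h0 h1 x hx hx')

omit [NeZero M'] [NeZero q] in
/-- Every `q`-th power of the residue field is in the image of `ψ`. -/
theorem exists_vHom_eq_pow (z : modularFunctionFieldFullC k M') :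
    ∃ z' : modularFunctionFieldFullC k M',
      Fermat.Agent.ESJ.Cong.FrobAut.vHom k q M' z' = z ^ q :=
  ⟨Fermat.Agent.ESJ.Cong.FrobAut.frobAut k q M' • z, by
    rw [Fermat.Agent.ESJ.Cong.FrobAut.vHom_eq_pow, inv_smul_smul]⟩

end Psi

/-! ### Degrees -/

/-- `[F : α^* F_N] = q`. -/
theorem finrank_alphaStar (L : Type) [Field L] [Algebra ℚ L] (M' q : ℕ) [NeZero M'] [NeZero q]
    (hq : q.Prime) : finrankAlong L (heckeAlphaBar L (M' * q) q) = q :=
  Fermat.Agent.ESJ.Cong.LevelDeg.finrank_alpha_of_dvd L (M' * q) q hq (dvd_mul_left q M')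

/-- `[F : β^* F_N] = q`. -/
theorem finrank_betaStar (L : Type) [Field L] [Algebra ℚ L] (M' q : ℕ) [NeZero M'] [NeZero q]
    (hq : q.Prime) : finrankAlong L (heckeBetaBar L (M' * q) q) = q :=
  Fermat.Agent.ESJ.Cong.LevelDeg.finrank_beta_of_dvd L (M' * q) q hq (dvd_mul_left q M')

theorem finiteAlong_alphaStar (L : Type) [Field L] [Algebra ℚ L] (M' q : ℕ) [NeZero M']
    [NeZero q] (hq : q.Prime) : FiniteAlong L (heckeAlphaBar L (M' * q) q) :=
  Fermat.Agent.ESJ.Cong.LevelDeg.finiteAlong_alpha L (M' * q) q hq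

theorem finiteAlong_betaStar (L : Type) [Field L] [Algebra ℚ L] (M' q : ℕ) [NeZero M']
    [NeZero q] (hq : q.Prime) : FiniteAlong L (heckeBetaBar L (M' * q) q) :=
  Fermat.Agent.ESJ.Cong.LevelDeg.finiteAlong_beta L (M' * q) q hq

end Bad

/-! ### The instance `(L, A) = (K0, W0)` -/

section K0Inst

open Fermat.Agent.CAR.K0

local notation "Qb" => AlgebraicClosure ℚ

/-- `q` is a uniformiser of `W0 = A ∩ K0`. -/
theorem isUnif_W0 {q : ℕ} (hq : q.Prime) {A : ValuationSubring Qb} (hA : A.LiesOverPrime q) :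
    IsUnif (W0 A) ((q : ℕ) : K0 A) := by
  have hlies : ((q : ℕ) : K0 A) ∈ (W0 A).nonunits := liesOverPrime_W0 hq hA
  refine ⟨natCast_mem _ q, ?_, fun x hx => exists_pow_mul_unit hq hA x hx⟩
  intro hinv
  have hq0 : ((q : ℕ) : K0 A) ≠ 0 := Nat.cast_ne_zero.mpr hq.ne_zero
  rw [ValuationSubring.mem_nonunits_iff_or] at hlies
  rcases hlies with h0 | h0
  · exact hq0 h0
  · exact h0 hinv

end K0Inst

end

end Fermat.Agent.CAR.V3.Restrict
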