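/-
CAR / V3 (RestrictNF): the `∞`/`0` half of the record `Formal.NF.Data` (CAR-10) in literal form.

For `h : BadSetup A π M' q`, an Atkin–Lehner involution `W` of `F_N` (`N = M' q`) and an
Atkin–Lehner involution `w` of `F = F_{M'q²}` (`w ∘ π_0^* = π_2^*`, `w ∘ π_1^* = π_1^*`,
`w ∘ π_2^* = π_0^*`), with

  `α := alphaStar L M' q = (heckeAlphaBar L (M' * q) q).toRingHom`,
  `β := betaStar L M' q = (heckeBetaBar L (M' * q) q).toRingHom`,
  `PA := OInf h`, `PC := OZero h W`, `Oa := OInf3 h`, `Oc := OZ3 h w = w⁻¹(OInf3 h)`,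
  `ϖN := (q : F_N)`, `ϖ := (q : F)`,

every field of `NF.Data α β q PA PC Oa Ob Oc ϖN ϖ d` which does not mention the middle valuation
ring `Ob` is proved here; `data_of_mid` assembles `NF.Data` from the remaining (middle / count)
fields.
-/
import Mathlib
import Fermat.Agent.CAR.V3.Restrict
import Fermat.Agent.CAR.Formal.NormalForm
import Fermat.Agent.Lib.FF.CharP.ModLInst

set_option autoImplicit false
set_option linter.style.haveILetI false

namespace Fermat.Agent.CAR.V3.RestrictNF

open HahnSeries ModularCurve Polynomial AlgebraicCurve Fermat.Agent.Lib.Red Fermat.Agent.S28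
open Fermat.Agent.ESJ.Cong.LevelGen Fermat.Agent.BAD.TwoVal Fermat.Agent.CAR.Formal
open Fermat.Agent.CAR.V3 Fermat.Agent.CAR.V3.Restrict

noncomputable section

/-- `α^* : F_{M'q} → F_{M'q²}`, `f(z) ↦ f(z)`, as a ring homomorphism. -/
abbrev alphaStar (L : Type) [Field L] [Algebra ℚ L] (M' q : ℕ) [NeZero M'] [NeZero q] :
    ↥(laurentBaseChange L (modularFunctionFieldFull (M' * q))) →+*
      ↥(laurentBaseChange L (modularFunctionFieldFull (M' * q * q))) :=
  (heckeAlphaBar L (M' * q) q).toRingHom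

/-- `β^* : F_{M'q} → F_{M'q²}`, `f(z) ↦ f(qz)`, as a ring homomorphism. -/
abbrev betaStar (L : Type) [Field L] [Algebra ℚ L] (M' q : ℕ) [NeZero M'] [NeZero q] :
    ↥(laurentBaseChange L (modularFunctionFieldFull (M' * q))) →+*
      ↥(laurentBaseChange L (modularFunctionFieldFull (M' * q * q))) :=
  (heckeBetaBar L (M' * q) q).toRingHom

section

variable {L : Type} [Field L] [Algebra ℚ L] {A : ValuationSubring L} {k : Type} [Field k]
  {π : A →+* k} {M' q : ℕ} [NeZero M'] [NeZero q]

/-- `O_0³ := w⁻¹(O_∞³)`, the third Gauss valuation ring of `F_{M'q²}` (`= OZero3 h w`). -/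
abbrev OZ3 (h : BadSetup A π M' q)
    (w : laurentBaseChange L (modularFunctionFieldFull (M' * q * q)) ≃ₐ[L]
      laurentBaseChange L (modularFunctionFieldFull (M' * q * q))) :
    ValuationSubring ↥(laurentBaseChange L (modularFunctionFieldFull (M' * q * q))) :=
  (OInf3 h).comap w.toRingEquiv.toRingHom

/-! ### Degrees -/

theorem finα (hq : q.Prime) : letI := (alphaStar L M' q).toAlgebra
    FiniteDimensional ↥(laurentBaseChange L (modularFunctionFieldFull (M' * q)))
      ↥(laurentBaseChange L (modularFunctionFieldFull (M' * q * q))) :=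
  finiteAlong_alphaStar L M' q hq

theorem finβ (hq : q.Prime) : letI := (betaStar L M' q).toAlgebra
    FiniteDimensional ↥(laurentBaseChange L (modularFunctionFieldFull (M' * q)))
      ↥(laurentBaseChange L (modularFunctionFieldFull (M' * q * q))) :=
  finiteAlong_betaStar L M' q hq

theorem degα (hq : q.Prime) : (letI := (alphaStar L M' q).toAlgebra
    Module.finrank ↥(laurentBaseChange L (modularFunctionFieldFull (M' * q)))
      ↥(laurentBaseChange L (modularFunctionFieldFull (M' * q * q)))) = q :=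
  finrank_alphaStar L M' q hq

theorem degβ (hq : q.Prime) : (letI := (betaStar L M' q).toAlgebra
    Module.finrank ↥(laurentBaseChange L (modularFunctionFieldFull (M' * q)))
      ↥(laurentBaseChange L (modularFunctionFieldFull (M' * q * q)))) = q :=
  finrank_betaStar L M' q hq

omit [NeZero M'] [NeZero q] in
/-- The level-`M' q` function field has characteristic zero. -/
theorem charZero_FN (N : ℕ) : CharZero ↥(laurentBaseChange L (modularFunctionFieldFull N)) := by
  haveI : CharZero L := algebraRat.charZero L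
  exact charZero_of_injective_algebraMap
    (algebraMap L ↥(laurentBaseChange L (modularFunctionFieldFull N))).injective

theorem sepα (hq : q.Prime) : letI := (alphaStar L M' q).toAlgebra
    Algebra.IsSeparable ↥(laurentBaseChange L (modularFunctionFieldFull (M' * q)))
      ↥(laurentBaseChange L (modularFunctionFieldFull (M' * q * q))) := by
  letI := (alphaStar L M' q).toAlgebra
  haveI : FiniteDimensional ↥(laurentBaseChange L (modularFunctionFieldFull (M' * q)))
      ↥(laurentBaseChange L (modularFunctionFieldFull (M' * q * q))) := finα hq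
  haveI := charZero_FN (L := L) (M' * q)
  exact Algebra.IsAlgebraic.isSeparable_of_perfectField

theorem sepβ (hq : q.Prime) : letI := (betaStar L M' q).toAlgebra
    Algebra.IsSeparable ↥(laurentBaseChange L (modularFunctionFieldFull (M' * q)))
      ↥(laurentBaseChange L (modularFunctionFieldFull (M' * q * q))) := by
  letI := (betaStar L M' q).toAlgebra
  haveI : FiniteDimensional ↥(laurentBaseChange L (modularFunctionFieldFull (M' * q)))
      ↥(laurentBaseChange L (modularFunctionFieldFull (M' * q * q))) := finβ hq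
  haveI := charZero_FN (L := L) (M' * q)
  exact Algebra.IsAlgebraic.isSeparable_of_perfectField

/-! ### Uniformisers -/

theorem hA (h : BadSetup A π M' q) (hA : IsUnif A (q : L)) :
    IsUnif (OInf h) ((q : ℕ) : ↥(laurentBaseChange L (modularFunctionFieldFull (M' * q)))) :=
  isUnif_OInf_natCast h q hA

theorem hC (h : BadSetup A π M' q)
    (W : laurentBaseChange L (modularFunctionFieldFull (M' * q)) ≃ₐ[L]
      laurentBaseChange L (modularFunctionFieldFull (M' * q))) (hA : IsUnif A (q : L)) :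
    IsUnif (OZero h W) ((q : ℕ) : ↥(laurentBaseChange L (modularFunctionFieldFull (M' * q)))) :=
  isUnif_OZero_natCast h W q hA

theorem ha (h : BadSetup A π M' q) (hA : IsUnif A (q : L)) :
    IsUnif (OInf3 h)
      ((q : ℕ) : ↥(laurentBaseChange L (modularFunctionFieldFull (M' * q * q)))) :=
  isUnif_OInf3_natCast h q hA

theorem hc (h : BadSetup A π M' q)
    (w : laurentBaseChange L (modularFunctionFieldFull (M' * q * q)) ≃ₐ[L]
      laurentBaseChange L (modularFunctionFieldFull (M' * q * q))) (hA : IsUnif A (q : L)) :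
    IsUnif (OZ3 h w)
      ((q : ℕ) : ↥(laurentBaseChange L (modularFunctionFieldFull (M' * q * q)))) :=
  isUnif_comap_OInf3_natCast h w q hA

theorem αϖ : alphaStar L M' q ((q : ℕ) : ↥(laurentBaseChange L (modularFunctionFieldFull (M' * q))))
    = ((q : ℕ) : ↥(laurentBaseChange L (modularFunctionFieldFull (M' * q * q)))) :=
  map_natCast _ q

theorem βϖ : betaStar L M' q ((q : ℕ) : ↥(laurentBaseChange L (modularFunctionFieldFull (M' * q))))
    = ((q : ℕ) : ↥(laurentBaseChange L (modularFunctionFieldFull (M' * q * q)))) :=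
  map_natCast _ q

theorem qA (h : BadSetup A π M' q) (hA : IsUnif A (q : L)) :
    ((q : ℕ) : ↥(laurentBaseChange L (modularFunctionFieldFull (M' * q)))) ∈ (OInf h).nonunits :=
  (isUnif_OInf_natCast h q hA).mem_nonunits

theorem qC (h : BadSetup A π M' q)
    (W : laurentBaseChange L (modularFunctionFieldFull (M' * q)) ≃ₐ[L]
      laurentBaseChange L (modularFunctionFieldFull (M' * q))) (hA : IsUnif A (q : L)) :
    ((q : ℕ) : ↥(laurentBaseChange L (modularFunctionFieldFull (M' * q)))) ∈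
      (OZero h W).nonunits :=
  (isUnif_OZero_natCast h W q hA).mem_nonunits

/-! ### Restrictions and residues -/

variable {W : laurentBaseChange L (modularFunctionFieldFull (M' * q)) ≃ₐ[L]
    laurentBaseChange L (modularFunctionFieldFull (M' * q))}
  {w : laurentBaseChange L (modularFunctionFieldFull (M' * q * q)) ≃ₐ[L]
    laurentBaseChange L (modularFunctionFieldFull (M' * q * q))}

theorem hAC (h : BadSetup A π M' q) (hW : IsAL M' q W) : OInf h ≠ OZero h W :=
  OInf_ne_OZero h hW

theorem αa (h : BadSetup A π M' q) : (OInf3 h).comap (alphaStar L M' q) = OInf h :=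
  comap_alpha_OInf3 h

theorem βa (h : BadSetup A π M' q) : (OInf3 h).comap (betaStar L M' q) = OInf h :=
  comap_beta_OInf3 h

theorem αc (h : BadSetup A π M' q) (hW : IsAL M' q W)
    (h0 : ∀ y, w (piStar0 L M' q y) = piStar2 L M' q y)
    (h1 : ∀ y, w (piStar1 L M' q y) = piStar1 L M' q y) :
    (OZ3 h w).comap (alphaStar L M' q) = OZero h W :=
  comap_alpha_comap_OInf3 h hW h0 h1

theorem βc (h : BadSetup A π M' q) (hW : IsAL M' q W)
    (h1 : ∀ y, w (piStar1 L M' q y) = piStar1 L M' q y)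
    (h2 : ∀ y, w (piStar2 L M' q y) = piStar0 L M' q y) :
    (OZ3 h w).comap (betaStar L M' q) = OZero h W :=
  comap_beta_comap_OInf3 h hW h1 h2

/-- An element of `O_∞³` with zero residue is a non-unit. -/
theorem mem_nonunits_of_redInf3_eq_zero (h : BadSetup A π M' q)
    (f : laurentBaseChange L (modularFunctionFieldFull (M' * q * q))) (hf : f ∈ OInf3 h)
    (h0 : redInf3 h ⟨f, hf⟩ = 0) : f ∈ (OInf3 h).nonunits := by
  rw [ValuationSubring.mem_nonunits_iff_exists_mem_maximalIdeal]
  refine ⟨hf, ?_⟩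
  rw [IsLocalRing.mem_maximalIdeal, mem_nonunits_iff]
  exact (redInf3_eq_zero_iff h _).mp h0

/-- `red_∞` of level `M' q` is surjective. -/
theorem redInf_surjective (h : BadSetup A π M' q) (hsurj : Function.Surjective π)
    (z : modularFunctionFieldFullC k M') :
    ∃ c, ∃ hc : c ∈ OInf h, redInf h ⟨c, hc⟩ = z := by
  obtain ⟨x, rfl⟩ := redF_surjective h.hπ hsurj h.hMk z
  have hx' : heckeAlphaBar L M' q (x : laurentBaseChange L (modularFunctionFieldFull M')) ∈
      OInf h := (heckeAlphaBar_mem_OInf_iff h _).mpr x.2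
  exact ⟨_, hx', redInf_heckeAlphaBar h _ x.2 hx'⟩

/-- `red_0` of level `M' q` is surjective. -/
theorem redZero_surjective (h : BadSetup A π M' q) (hsurj : Function.Surjective π)
    (W : laurentBaseChange L (modularFunctionFieldFull (M' * q)) ≃ₐ[L]
      laurentBaseChange L (modularFunctionFieldFull (M' * q)))
    (z : modularFunctionFieldFullC k M') :
    ∃ c, ∃ hc : c ∈ OZero h W, redZero h W ⟨c, hc⟩ = z := by
  obtain ⟨c, hc, hr⟩ := redInf_surjective h hsurj z
  have e : W (W.symm c) = c := W.apply_symm_apply c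
  have hc' : W.symm c ∈ OZero h W := by
    rw [mem_OZero_iff, e]
    exact hc
  refine ⟨W.symm c, hc', ?_⟩
  rw [redZero_mk, redInf_congr h e hc' hc]
  exact hr

/-- `resαa`: the residue extension of `O_∞³` over `O_∞` along `α^*` is trivial. -/
theorem resαa (h : BadSetup A π M' q) (hsurj : Function.Surjective π) :
    ∀ g ∈ OInf3 h, ∃ c ∈ OInf h, g - alphaStar L M' q c ∈ (OInf3 h).nonunits := by
  intro g hg
  obtain ⟨c, hc, hr⟩ := redInf_surjective h hsurj (redInf3 h ⟨g, hg⟩)
  have hαc : heckeAlphaBar L (M' * q) q c ∈ OInf3 h := (heckeAlphaBar_mem_OInf3_iff h c).mpr hc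
  refine ⟨c, hc, ?_⟩
  have hmem : g - heckeAlphaBar L (M' * q) q c ∈ OInf3 h := sub_mem hg hαc
  refine mem_nonunits_of_redInf3_eq_zero h (g - heckeAlphaBar L (M' * q) q c) hmem ?_
  have e : (⟨g - heckeAlphaBar L (M' * q) q c, hmem⟩ : OInf3 h) = ⟨g, hg⟩ - ⟨_, hαc⟩ := rfl
  rw [e, map_sub, redInf3_heckeAlphaBar h c hc hαc, hr, sub_self]

/-- `resβa`: the residue field of `O_∞³` is purely inseparable of exponent one over the image
of the residue field of `O_∞` along `β^*`. -/
theorem resβa (h : BadSetup A π M' q) (hsurj : Function.Surjective π)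
    (hperf : ∀ x : k, ∃ y : k, y ^ q = x) :
    ∀ g ∈ OInf3 h, ∃ c ∈ OInf h, g ^ q - betaStar L M' q c ∈ (OInf3 h).nonunits := by
  haveI : Fact q.Prime := ⟨h.hℓ⟩
  haveI : CharP k q := h.charP
  haveI : PerfectRing k q := PerfectRing.ofSurjective k q hperf
  intro g hg
  obtain ⟨z', hz'⟩ := exists_vHom_eq_pow (q := q) (redInf3 h ⟨g, hg⟩)
  obtain ⟨c, hc, hr⟩ := redInf_surjective h hsurj z'
  have hβc : heckeBetaBar L (M' * q) q c ∈ OInf3 h := (heckeBetaBar_mem_OInf3_iff h c).mpr hc
  refine ⟨c, hc, ?_⟩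
  have hgq : g ^ q ∈ OInf3 h := pow_mem hg q
  have hmem : g ^ q - heckeBetaBar L (M' * q) q c ∈ OInf3 h := sub_mem hgq hβc
  refine mem_nonunits_of_redInf3_eq_zero h (g ^ q - heckeBetaBar L (M' * q) q c) hmem ?_
  have e : (⟨g ^ q - heckeBetaBar L (M' * q) q c, hmem⟩ : OInf3 h) =
      ⟨g, hg⟩ ^ q - ⟨_, hβc⟩ := rfl
  rw [e, map_sub, map_pow, redInf3_heckeBetaBar_vHom h c hc hβc, hr, hz', sub_self]

/-- `resαc`: the residue field of `O_0³` is purely inseparable of exponent one over the image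
of the residue field of `O_0` along `α^*`. -/
theorem resαc (h : BadSetup A π M' q) (hsurj : Function.Surjective π)
    (hperf : ∀ x : k, ∃ y : k, y ^ q = x) (hW : IsAL M' q W)
    (h0 : ∀ y, w (piStar0 L M' q y) = piStar2 L M' q y)
    (h1 : ∀ y, w (piStar1 L M' q y) = piStar1 L M' q y) :
    ∀ g ∈ OZ3 h w, ∃ c ∈ OZero h W, g ^ q - alphaStar L M' q c ∈ (OZ3 h w).nonunits := by
  haveI : Fact q.Prime := ⟨h.hℓ⟩
  haveI : CharP k q := h.charP
  haveI : PerfectRing k q := PerfectRing.ofSurjective k q hperf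
  intro g hg
  have hg' : w g ∈ OInf3 h := hg
  obtain ⟨z', hz'⟩ := exists_vHom_eq_pow (q := q) (redInf3 h ⟨w g, hg'⟩)
  obtain ⟨c, hc, hr⟩ := redZero_surjective h hsurj W z'
  have hαc : w (heckeAlphaBar L (M' * q) q c) ∈ OInf3 h :=
    (w_alpha_mem_OInf3_iff h hW h0 h1 c).mpr hc
  refine ⟨c, hc, ?_⟩
  rw [mem_nonunits_comap_iff]
  have hgq : (w g) ^ q ∈ OInf3 h := pow_mem hg' q
  have hmem : (w g) ^ q - w (heckeAlphaBar L (M' * q) q c) ∈ OInf3 h := sub_mem hgq hαc
  have hval : w.toRingEquiv.toRingHom (g ^ q - alphaStar L M' q c) =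
      (w g) ^ q - w (heckeAlphaBar L (M' * q) q c) := by
    rw [map_sub, map_pow]
    rfl
  rw [hval]
  refine mem_nonunits_of_redInf3_eq_zero h _ hmem ?_
  have e : (⟨(w g) ^ q - w (heckeAlphaBar L (M' * q) q c), hmem⟩ : OInf3 h) =
      ⟨w g, hg'⟩ ^ q - ⟨_, hαc⟩ := rfl
  rw [e, map_sub, map_pow, redInf3_w_alpha_vHom h hW h0 h1 c hc hαc, hr, hz', sub_self]

/-- `resβc`: the residue extension of `O_0³` over `O_0` along `β^*` is trivial. -/
theorem resβc (h : BadSetup A π M' q) (hsurj : Function.Surjective π) (hW : IsAL M' q W)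
    (h1 : ∀ y, w (piStar1 L M' q y) = piStar1 L M' q y)
    (h2 : ∀ y, w (piStar2 L M' q y) = piStar0 L M' q y) :
    ∀ g ∈ OZ3 h w, ∃ c ∈ OZero h W, g - betaStar L M' q c ∈ (OZ3 h w).nonunits := by
  intro g hg
  have hg' : w g ∈ OInf3 h := hg
  obtain ⟨c, hc, hr⟩ := redZero_surjective h hsurj W (redInf3 h ⟨w g, hg'⟩)
  have hβc : w (heckeBetaBar L (M' * q) q c) ∈ OInf3 h :=
    (w_beta_mem_OInf3_iff h hW h1 h2 c).mpr hc
  refine ⟨c, hc, ?_⟩
  rw [mem_nonunits_comap_iff]
  have hmem : w g - w (heckeBetaBar L (M' * q) q c) ∈ OInf3 h := sub_mem hg' hβc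
  have hval : w.toRingEquiv.toRingHom (g - betaStar L M' q c) =
      w g - w (heckeBetaBar L (M' * q) q c) := by
    rw [map_sub]
    rfl
  rw [hval]
  refine mem_nonunits_of_redInf3_eq_zero h _ hmem ?_
  have e : (⟨w g - w (heckeBetaBar L (M' * q) q c), hmem⟩ : OInf3 h) =
      ⟨w g, hg'⟩ - ⟨_, hβc⟩ := rfl
  rw [e, map_sub, redInf3_w_beta h hW h1 h2 c hc hβc, hr, sub_self]

/-! ### Assembly of `NF.Data` from the middle fields -/

/-- **`NF.Data` from the middle valuation ring and the counts.**  All fields of `NF.Data` not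
mentioning the middle valuation ring `Ob` are supplied by this file. -/
theorem data_of_mid (h : BadSetup A π M' q) (hsurj : Function.Surjective π)
    (hperf : ∀ x : k, ∃ y : k, y ^ q = x) (hAq : IsUnif A (q : L)) (hW : IsAL M' q W)
    (h0 : ∀ y, w (piStar0 L M' q y) = piStar2 L M' q y)
    (h1 : ∀ y, w (piStar1 L M' q y) = piStar1 L M' q y)
    (h2 : ∀ y, w (piStar2 L M' q y) = piStar0 L M' q y)
    (Ob : ValuationSubring ↥(laurentBaseChange L (modularFunctionFieldFull (M' * q * q))))
    (d : ↥(laurentBaseChange L (modularFunctionFieldFull (M' * q * q))))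
    (hb : IsUnif Ob d)
    (ordb : hb.ord ((q : ℕ) : ↥(laurentBaseChange L (modularFunctionFieldFull (M' * q * q))))
      = (q : ℤ) - 1)
    (αb : Ob.comap (alphaStar L M' q) = OInf h)
    (βb : Ob.comap (betaStar L M' q) = OZero h W)
    (allαA : ∀ v : ValuationSubring ↥(laurentBaseChange L (modularFunctionFieldFull (M' * q * q))),
      v.comap (alphaStar L M' q) = OInf h → v = OInf3 h ∨ v = Ob)
    (allαC : ∀ v : ValuationSubring ↥(laurentBaseChange L (modularFunctionFieldFull (M' * q * q))),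
      v.comap (alphaStar L M' q) = OZero h W → v = OZ3 h w)
    (allβA : ∀ v : ValuationSubring ↥(laurentBaseChange L (modularFunctionFieldFull (M' * q * q))),
      v.comap (betaStar L M' q) = OInf h → v = OInf3 h)
    (allβC : ∀ v : ValuationSubring ↥(laurentBaseChange L (modularFunctionFieldFull (M' * q * q))),
      v.comap (betaStar L M' q) = OZero h W → v = Ob ∨ v = OZ3 h w)
    (resαb : ∀ g ∈ Ob, ∃ c ∈ OInf h, g - alphaStar L M' q c ∈ Ob.nonunits)
    (resβb : ∀ g ∈ Ob, ∃ c ∈ OZero h W, g - betaStar L M' q c ∈ Ob.nonunits) :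
    NF.Data (alphaStar L M' q) (betaStar L M' q) q (OInf h) (OZero h W) (OInf3 h) Ob (OZ3 h w)
      ((q : ℕ) : ↥(laurentBaseChange L (modularFunctionFieldFull (M' * q))))
      ((q : ℕ) : ↥(laurentBaseChange L (modularFunctionFieldFull (M' * q * q)))) d where
  hq := h.hℓ
  finα := finα h.hℓ
  sepα := sepα h.hℓ
  degα := degα h.hℓ
  finβ := finβ h.hℓ
  sepβ := sepβ h.hℓ
  degβ := degβ h.hℓ
  hA := hA h hAq
  hC := hC h W hAq
  ha := ha h hAq
  hb := hb
  hc := hc h w hAq
  ordb := ordb
  αϖ := αϖ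
  βϖ := βϖ
  qA := qA h hAq
  qC := qC h W hAq
  hAC := hAC h hW
  αa := αa h
  αb := αb
  αc := αc h hW h0 h1
  βa := βa h
  βb := βb
  βc := βc h hW h1 h2
  allαA := allαA
  allαC := allαC
  allβA := allβA
  allβC := allβC
  resαa := resαa h hsurj
  resαb := resαb
  resαc := resαc h hsurj hperf hW h0 h1
  resβa := resβa h hsurj hperf
  resβb := resβb
  resβc := resβc h hsurj hW h1 h2

end

/-! ### The instance `(L, A, π) = (K0, W0, resW0)` -/

section K0Inst

open Fermat.Agent.CAR.K0

local notation "Qb" => AlgebraicClosure ℚ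

/-- The residue field of a valuation subring of `ℚ̄` is perfect (in the elementary form used by
`resαc`, `resβa`). -/
theorem hperf_residueField (A : ValuationSubring Qb) (q : ℕ) (hq : q ≠ 0) :
    ∀ x : IsLocalRing.ResidueField A, ∃ y : IsLocalRing.ResidueField A, y ^ q = x := by
  haveI : IsAlgClosed (IsLocalRing.ResidueField A) :=
    Fermat.Agent.Lib.FF.CharP.isAlgClosed_residueField A
  intro x
  exact IsAlgClosed.exists_pow_nat_eq x (Nat.pos_of_ne_zero hq)

/-- **`NF.Data` over the inertia field** `(L, A, π) = (K0, W0, resW0)` from the middle valuation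
ring and the counts. -/
theorem dataK0_of_mid {q : ℕ} [NeZero q] (hq : q.Prime) {A : ValuationSubring Qb}
    (hA : A.LiesOverPrime q) (M' : ℕ) [NeZero M'] (hqM : ¬ q ∣ M')
    {W : laurentBaseChange ↥(K0 A) (modularFunctionFieldFull (M' * q)) ≃ₐ[↥(K0 A)]
      laurentBaseChange ↥(K0 A) (modularFunctionFieldFull (M' * q))}
    {w : laurentBaseChange ↥(K0 A) (modularFunctionFieldFull (M' * q * q)) ≃ₐ[↥(K0 A)]
      laurentBaseChange ↥(K0 A) (modularFunctionFieldFull (M' * q * q))}
    (hW : IsAL M' q W)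
    (h0 : ∀ y, w (piStar0 ↥(K0 A) M' q y) = piStar2 ↥(K0 A) M' q y)
    (h1 : ∀ y, w (piStar1 ↥(K0 A) M' q y) = piStar1 ↥(K0 A) M' q y)
    (h2 : ∀ y, w (piStar2 ↥(K0 A) M' q y) = piStar0 ↥(K0 A) M' q y)
    (Ob : ValuationSubring ↥(laurentBaseChange ↥(K0 A) (modularFunctionFieldFull (M' * q * q))))
    (d : ↥(laurentBaseChange ↥(K0 A) (modularFunctionFieldFull (M' * q * q))))
    (hb : IsUnif Ob d)
    (ordb : hb.ord
      ((q : ℕ) : ↥(laurentBaseChange ↥(K0 A) (modularFunctionFieldFull (M' * q * q))))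
      = (q : ℤ) - 1)
    (αb : Ob.comap (alphaStar ↥(K0 A) M' q) = OInf (badSetup_W0 hq hA M' hqM))
    (βb : Ob.comap (betaStar ↥(K0 A) M' q) = OZero (badSetup_W0 hq hA M' hqM) W)
    (allαA : ∀ v : ValuationSubring
        ↥(laurentBaseChange ↥(K0 A) (modularFunctionFieldFull (M' * q * q))),
      v.comap (alphaStar ↥(K0 A) M' q) = OInf (badSetup_W0 hq hA M' hqM) →
        v = OInf3 (badSetup_W0 hq hA M' hqM) ∨ v = Ob)
    (allαC : ∀ v : ValuationSubring
        ↥(laurentBaseChange ↥(K0 A) (modularFunctionFieldFull (M' * q * q))),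
      v.comap (alphaStar ↥(K0 A) M' q) = OZero (badSetup_W0 hq hA M' hqM) W →
        v = OZ3 (badSetup_W0 hq hA M' hqM) w)
    (allβA : ∀ v : ValuationSubring
        ↥(laurentBaseChange ↥(K0 A) (modularFunctionFieldFull (M' * q * q))),
      v.comap (betaStar ↥(K0 A) M' q) = OInf (badSetup_W0 hq hA M' hqM) →
        v = OInf3 (badSetup_W0 hq hA M' hqM))
    (allβC : ∀ v : ValuationSubring
        ↥(laurentBaseChange ↥(K0 A) (modularFunctionFieldFull (M' * q * q))),
      v.comap (betaStar ↥(K0 A) M' q) = OZero (badSetup_W0 hq hA M' hqM) W →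
        v = Ob ∨ v = OZ3 (badSetup_W0 hq hA M' hqM) w)
    (resαb : ∀ g ∈ Ob, ∃ c ∈ OInf (badSetup_W0 hq hA M' hqM),
      g - alphaStar ↥(K0 A) M' q c ∈ Ob.nonunits)
    (resβb : ∀ g ∈ Ob, ∃ c ∈ OZero (badSetup_W0 hq hA M' hqM) W,
      g - betaStar ↥(K0 A) M' q c ∈ Ob.nonunits) :
    NF.Data (alphaStar ↥(K0 A) M' q) (betaStar ↥(K0 A) M' q) q
      (OInf (badSetup_W0 hq hA M' hqM)) (OZero (badSetup_W0 hq hA M' hqM) W)
      (OInf3 (badSetup_W0 hq hA M' hqM)) Ob (OZ3 (badSetup_W0 hq hA M' hqM) w)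
      ((q : ℕ) : ↥(laurentBaseChange ↥(K0 A) (modularFunctionFieldFull (M' * q))))
      ((q : ℕ) : ↥(laurentBaseChange ↥(K0 A) (modularFunctionFieldFull (M' * q * q)))) d :=
  data_of_mid (badSetup_W0 hq hA M' hqM) (resW0_surjective hq hA)
    (hperf_residueField A q hq.ne_zero) (isUnif_W0 hq hA) hW h0 h1 h2 Ob d hb ordb αb βb
    allαA allαC allβA allβC resαb resβb

end K0Inst

end

end Fermat.Agent.CAR.V3.RestrictNF
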