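/-
CAR / V3-Count, abstract form (Mathlib + `CAR/Formal/DiscVal` (`IsUnif`) + `CAR/Local/Centre`).

`F/K` a finite separable extension of fields, `O` a discrete valuation subring of `K` with
uniformiser `ϖ` (`IsUnif O ϖ`), `V : ι → ValuationSubring F` finitely many pairwise distinct
valuation subrings of `F` lying above `O` (`IsAbove O (V i)`: `V i ∩ K = O`), with lower bounds
`e i` for the ramification (`ϖ = d ^ e i * c`, `d` a non-unit of `V i`) and `f i` for the residue
degree (`f i` elements of `V i`, independent modulo the maximal ideal over `O`).  If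
`[F : K] ≤ ∑ e i * f i` (`Family O ϖ V e f`) then

* `Family.eq_of_isAbove`      : the `V i` are ALL the valuation subrings of `F` above `O`;
* `Family.finrank_eq`         : `[F : K] = ∑ e i * f i`;
* `Family.isUniformizer`      : `ϖ = d ^ e i * c` forces `c` to be a unit and `d` a uniformiser;
* `Family.isIntegral_iff`     : the integral closure of `O` in `F` is `⋂ V i`;
* `Family.exists_approx`      : approximation modulo `ϖ ^ n` (CRT), joint surjectivity
  (`Family.exists_sub_mem_nonunits`);
* `Family.exists_zpow_mul`    : scaling by powers of `ϖ`.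

Charts (`Chart O ϖ R0 R1`: `R0 = R1 ∩ O`, e.g. `R0 = A[J]`, `R1 = L[J]`), `B` the integral closure
of `R0` in `F`:

* `Family.isIntegral_chart`   : `B = (integral closure of R1) ∩ ⋂ V i`;
* `Family.exists_eq_div_chart`: `V i` is the localisation of `B` at its centre;
* `Family.minimalPrimes_chart`, `Family.centre_mem_minimalPrimes` : the primes of `B` minimal
  over `ϖ` are exactly the centres of the `V i`; `Family.exists_centre_le`,
  `Family.exists_mem_centre_notMem`.

The fundamental identity used is Mathlib's `Ideal.sum_ramification_inertia_eq_finrank` for the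
integral closure of `O` in `F`.
-/
import Mathlib
import Fermat.Agent.CAR.Formal.DiscVal
import Fermat.Agent.CAR.Local.Centre

set_option autoImplicit false

namespace Fermat.Agent.CAR.V3.CountAbs

open Module IsLocalRing
open Fermat.Agent.CAR.Formal (IsUnif)

/-! ### Uniformisers of valuation subrings -/

section Unif

variable {K : Type*} [Field K]

variable {O : ValuationSubring K} {ϖ : K}

theorem unif_zpow_mem_iff (h : IsUnif O ϖ) (n : ℤ) : ϖ ^ n ∈ O ↔ 0 ≤ n := by
  constructor
  · intro hn
    by_contra hlt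
    push Not at hlt
    apply h.inv_notMem
    have e : ϖ⁻¹ = ϖ ^ (-n - 1).toNat * ϖ ^ n := by
      rw [← zpow_natCast, ← zpow_add₀ h.ne_zero, Int.toNat_of_nonneg (by omega)]
      rw [show -n - 1 + n = -1 by ring, zpow_neg_one]
    rw [e]
    exact O.mul_mem _ _ (O.pow_mem h.mem _) hn
  · intro hn
    obtain ⟨m, rfl⟩ := Int.eq_ofNat_of_zero_le hn
    rw [zpow_natCast]
    exact O.pow_mem h.mem _

/-- Elements of `O` are `ϖ ^ n * unit` with `n : ℕ`. -/
theorem unif_fac_mem (h : IsUnif O ϖ) {x : K} (hx : x ∈ O) (hx0 : x ≠ 0) :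
    ∃ (n : ℕ) (u : K), u ∈ O ∧ u⁻¹ ∈ O ∧ x = ϖ ^ n * u := by
  obtain ⟨n, u, hu, hu', rfl⟩ := h.exists_zpow x hx0
  have hu0 : u ≠ 0 := by
    rintro rfl
    exact hx0 (mul_zero _)
  have hn : 0 ≤ n := by
    rw [← unif_zpow_mem_iff h]
    have : ϖ ^ n = ϖ ^ n * u * u⁻¹ := by rw [mul_assoc, mul_inv_cancel₀ hu0, mul_one]
    rw [this]
    exact O.mul_mem _ _ hx hu'
  obtain ⟨m, rfl⟩ := Int.eq_ofNat_of_zero_le hn
  exact ⟨m, u, hu, hu', by rw [zpow_natCast]⟩

/-- A non-unit of `O` is divisible by `ϖ`. -/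
theorem unif_exists_eq_mul (h : IsUnif O ϖ) {x : K} (hx : x ∈ O.nonunits) :
    ∃ c ∈ O, x = ϖ * c := by
  have hxO : x ∈ O := O.nonunits_le hx
  by_cases hx0 : x = 0
  · exact ⟨0, O.zero_mem, by rw [hx0, mul_zero]⟩
  obtain ⟨n, u, hu, hu', rfl⟩ := unif_fac_mem h hxO hx0
  rcases Nat.eq_zero_or_pos n with rfl | hn
  · exfalso
    rw [pow_zero, one_mul] at hx hx0
    rw [ValuationSubring.mem_nonunits_iff] at hx
    have h1 : O.valuation u⁻¹ ≤ 1 := (O.valuation_le_one_iff _).mpr hu'
    rw [map_inv₀] at h1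
    have hu0 : O.valuation u ≠ 0 := (Valuation.ne_zero_iff _).mpr hx0
    have : 1 ≤ O.valuation u := by
      rwa [inv_le_one₀ (zero_lt_iff.mpr hu0)] at h1
    exact absurd hx (not_lt.mpr this)
  · refine ⟨ϖ ^ (n - 1) * u, O.mul_mem _ _ (O.pow_mem h.mem _) hu, ?_⟩
    rw [← mul_assoc, ← pow_succ', Nat.sub_add_cancel hn]

/-- `u, u⁻¹ ∈ O`, `u ≠ 0` gives a unit of `O`. -/
def unitOf (O : ValuationSubring K) (u : K) (hu : u ∈ O) (hu' : u⁻¹ ∈ O) (hu0 : u ≠ 0) : (↥O)ˣ where
  val := ⟨u, hu⟩
  inv := ⟨u⁻¹, hu'⟩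
  val_inv := Subtype.ext (mul_inv_cancel₀ hu0)
  inv_val := Subtype.ext (inv_mul_cancel₀ hu0)

theorem unif_isDiscreteValuationRing (h : IsUnif O ϖ) : IsDiscreteValuationRing O := by
  apply IsDiscreteValuationRing.ofHasUnitMulPowIrreducibleFactorization
  have hv1 : O.valuation ϖ < 1 := (ValuationSubring.mem_nonunits_iff O).mp h.mem_nonunits
  have hv0 : O.valuation ϖ ≠ 0 := (Valuation.ne_zero_iff _).mpr h.ne_zero
  -- valuations of elements of `O`
  have key : ∀ a : O, a ≠ 0 → ∃ n : ℕ, Associated ((⟨ϖ, h.mem⟩ : O) ^ n) a := by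
    intro a ha
    have ha0 : (a : K) ≠ 0 := fun h0 => ha (Subtype.ext h0)
    obtain ⟨n, u, hu, hu', hau⟩ := unif_fac_mem h a.2 ha0
    have hu0 : u ≠ 0 := by
      rintro rfl
      exact ha0 (by rw [hau, mul_zero])
    exact ⟨n, unitOf O u hu hu' hu0, Subtype.ext (by simp [unitOf, hau])⟩
  refine ⟨⟨ϖ, h.mem⟩, ?_, fun {x} hx => key x hx⟩
  rw [irreducible_iff]
  constructor
  · intro hu
    have := (ValuationSubring.valuation_eq_one_iff O _).mp hu
    exact absurd this hv1.ne
  · intro a b hab
    have ha : a ≠ 0 := by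
      rintro rfl
      rw [zero_mul] at hab
      exact h.ne_zero (congrArg Subtype.val hab)
    have hb : b ≠ 0 := by
      rintro rfl
      rw [mul_zero] at hab
      exact h.ne_zero (congrArg Subtype.val hab)
    obtain ⟨i, ⟨c, hc⟩⟩ := key a ha
    obtain ⟨j, ⟨d, hd⟩⟩ := key b hb
    have hva : O.valuation (a : K) = O.valuation ϖ ^ i := by
      rw [← hc]
      simp [(ValuationSubring.valuation_eq_one_iff O _).mp c.isUnit]
    have hvb : O.valuation (b : K) = O.valuation ϖ ^ j := by
      rw [← hd]
      simp [(ValuationSubring.valuation_eq_one_iff O _).mp d.isUnit]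
    have hprod : O.valuation ϖ ^ (i + j) = O.valuation ϖ ^ 1 := by
      rw [pow_add, ← hva, ← hvb, ← map_mul, pow_one]
      exact congrArg (fun z : O => O.valuation (z : K)) hab.symm
    have hij : i + j = 1 := by
      rcases Nat.lt_trichotomy (i + j) 1 with hlt | heq | hgt
      · exfalso
        have h0 : i + j = 0 := by omega
        rw [h0, pow_zero, pow_one] at hprod
        exact absurd hprod.symm hv1.ne
      · exact heq
      · exfalso
        have := pow_lt_pow_right_of_lt_one₀ (zero_lt_iff.mpr hv0) hv1 hgt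
        exact absurd hprod this.ne
    rcases Nat.eq_zero_or_pos i with hi | hi
    · left
      rw [(ValuationSubring.valuation_eq_one_iff O _), hva, hi, pow_zero]
    · right
      have hj : j = 0 := by omega
      rw [(ValuationSubring.valuation_eq_one_iff O _), hvb, hj, pow_zero]

/-- The maximal ideal of `O` is generated by `ϖ`. -/
theorem unif_maximalIdeal_eq (h : IsUnif O ϖ) :
    maximalIdeal O = Ideal.span {(⟨ϖ, h.mem⟩ : O)} := by
  apply le_antisymm
  · intro x hx
    have hx' : (x : K) ∈ O.nonunits := by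
      rw [ValuationSubring.mem_nonunits_iff]
      rw [mem_maximalIdeal, mem_nonunits_iff, ValuationSubring.valuation_eq_one_iff] at hx
      exact lt_of_le_of_ne (O.valuation_le_one x) hx
    obtain ⟨c, hc, hxc⟩ := unif_exists_eq_mul h hx'
    rw [Ideal.mem_span_singleton]
    exact ⟨⟨c, hc⟩, Subtype.ext hxc⟩
  · rw [Ideal.span_singleton_le_iff_mem, mem_maximalIdeal, mem_nonunits_iff,
      ValuationSubring.valuation_eq_one_iff]
    exact ((ValuationSubring.mem_nonunits_iff O).mp h.mem_nonunits).ne

end Unif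

/-! ### Valuation subrings above `O` -/

section Above

variable {K F : Type*} [Field K] [Field F] [Algebra K F]

/-- `V` lies above `O`: `V ∩ K = O`. -/
def IsAbove (O : ValuationSubring K) (V : ValuationSubring F) : Prop :=
  ∀ x : K, algebraMap K F x ∈ V ↔ x ∈ O

variable {O : ValuationSubring K} {V : ValuationSubring F} {ϖ : K}

/-- Criterion: `V ⊇ O` and `ϖ` is not a unit of `V`. -/
theorem isAbove_of_mem (h : IsUnif O ϖ) (hO : ∀ x ∈ O, algebraMap K F x ∈ V)
    (hϖ : (algebraMap K F ϖ)⁻¹ ∉ V) : IsAbove O V := by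
  intro x
  refine ⟨fun hx => ?_, hO x⟩
  by_cases hx0 : x = 0
  · rw [hx0]; exact O.zero_mem
  obtain ⟨n, u, hu, hu', rfl⟩ := h.exists_zpow x hx0
  have hu0 : u ≠ 0 := by
    rintro rfl
    exact hx0 (mul_zero _)
  suffices hn : 0 ≤ n from O.mul_mem _ _ ((unif_zpow_mem_iff h n).mpr hn) hu
  by_contra hlt
  push Not at hlt
  apply hϖ
  have e : (algebraMap K F ϖ)⁻¹ =
      algebraMap K F (ϖ ^ (-n - 1).toNat) * algebraMap K F (ϖ ^ n * u) * algebraMap K F u⁻¹ := by
    rw [← map_mul, ← map_mul, ← map_inv₀]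
    congr 1
    rw [← zpow_natCast, Int.toNat_of_nonneg (by omega), mul_assoc, mul_assoc, mul_inv_cancel₀ hu0,
      mul_one, ← zpow_add₀ h.ne_zero, show -n - 1 + n = -1 by ring, zpow_neg_one]
  rw [e]
  exact V.mul_mem _ _ (V.mul_mem _ _ (hO _ (O.pow_mem h.mem _)) hx) (hO _ hu')

theorem IsAbove.algebraMap_mem_nonunits_iff (hV : IsAbove O V) (x : K) :
    algebraMap K F x ∈ V.nonunits ↔ x ∈ O.nonunits := by
  rw [ValuationSubring.mem_nonunits_iff_or, ValuationSubring.mem_nonunits_iff_or, ← map_inv₀,
    hV x⁻¹, map_eq_zero]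

/-- Elements integral over `O` lie in every valuation subring above `O`. -/
theorem IsAbove.mem_of_isIntegral (hV : IsAbove O V) {x : F} (hx : IsIntegral O x) : x ∈ V := by
  let φ : O →+* V := ((algebraMap K F).comp O.subtype).codRestrict V.toSubring
    (fun a => (hV a).mpr a.2)
  have h1 : IsIntegral V (RingHom.id F x) :=
    IsIntegral.map_of_comp_eq φ (RingHom.id F) (by ext a; rfl) hx
  obtain ⟨y, hy⟩ := IsIntegrallyClosedIn.isIntegral_iff.mp h1
  rw [RingHom.id_apply] at hy
  rw [← hy]
  exact y.2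

/-- The ring of elements of `F` integral over `O` is contained in `V`. -/
theorem IsAbove.coe_mem (hV : IsAbove O V) (s : integralClosure O F) : (s : F) ∈ V :=
  hV.mem_of_isIntegral s.2

/-- The centre of `V` on the integral closure of `O` in `F`. -/
def centre (hV : IsAbove O V) : Ideal (integralClosure O F) where
  carrier := {s | (s : F) ∈ V.nonunits}
  add_mem' := fun {a b} ha hb => V.nonunits.add_mem ha hb
  zero_mem' := V.nonunits.zero_mem
  smul_mem' := fun c {s} hs => by
    change ((c * s : integralClosure O F) : F) ∈ V.nonunits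
    rw [Subalgebra.coe_mul, ValuationSubring.mem_nonunits_iff, map_mul]
    exact mul_lt_one_of_nonneg_of_lt_one_right ((V.valuation_le_one_iff _).mpr (hV.coe_mem c))
      zero_le ((ValuationSubring.mem_nonunits_iff V).mp hs)

theorem mem_centre_iff (hV : IsAbove O V) (s : integralClosure O F) :
    s ∈ centre hV ↔ (s : F) ∈ V.nonunits := Iff.rfl

theorem not_mem_centre_iff (hV : IsAbove O V) (s : integralClosure O F) :
    s ∉ centre hV ↔ (s : F)⁻¹ ∈ V ∧ (s : F) ≠ 0 := by
  rw [mem_centre_iff, ValuationSubring.mem_nonunits_iff_or]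
  push Not
  exact and_comm

instance centre_isPrime (hV : IsAbove O V) : (centre hV).IsPrime := by
  refine ⟨?_, ?_⟩
  · intro htop
    have h1 : (1 : integralClosure O F) ∈ centre hV := by rw [htop]; trivial
    rw [mem_centre_iff, ValuationSubring.mem_nonunits_iff] at h1
    simp at h1
  · intro a b hab
    rw [mem_centre_iff, Subalgebra.coe_mul, ValuationSubring.mem_nonunits_iff, map_mul] at hab
    by_contra hcon
    push Not at hcon
    rw [mem_centre_iff, mem_centre_iff, ValuationSubring.mem_nonunits_iff,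
      ValuationSubring.mem_nonunits_iff] at hcon
    push Not at hcon
    have ha : V.valuation (a : F) = 1 :=
      le_antisymm ((V.valuation_le_one_iff _).mpr (hV.coe_mem a)) hcon.1
    have hb : V.valuation (b : F) = 1 :=
      le_antisymm ((V.valuation_le_one_iff _).mpr (hV.coe_mem b)) hcon.2
    rw [ha, hb, mul_one] at hab
    exact lt_irrefl _ hab

theorem algebraMap_mem_centre_iff (hV : IsAbove O V) (a : O) :
    algebraMap O (integralClosure O F) a ∈ centre hV ↔ a ∈ maximalIdeal O := by
  rw [mem_centre_iff, ← ValuationSubring.coe_mem_nonunits_iff, ← hV.algebraMap_mem_nonunits_iff]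
  rfl

instance centre_liesOver (hV : IsAbove O V) : (centre hV).LiesOver (maximalIdeal O) := by
  constructor
  ext a
  rw [Ideal.under_def, Ideal.mem_comap, algebraMap_mem_centre_iff]

end Above

/-! ### The integral closure of a discrete valuation ring in a finite separable extension -/

section Dedekind

variable {K F : Type*} [Field K] [Field F] [Algebra K F] [FiniteDimensional K F]
  [Algebra.IsSeparable K F] {O : ValuationSubring K} [IsDiscreteValuationRing O]
  {V V' : ValuationSubring F}

theorem isDedekindDomain_closure : IsDedekindDomain (integralClosure O F) :=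
  integralClosure.isDedekindDomain O K F

omit [Algebra.IsSeparable K F] [IsDiscreteValuationRing O] in
theorem isFractionRing_closure : IsFractionRing (integralClosure O F) F :=
  integralClosure.isFractionRing_of_finite_extension K F

theorem finite_closure : Module.Finite O (integralClosure O F) :=
  IsIntegralClosure.finite O K F (integralClosure O F)

theorem free_closure : Module.Free O (integralClosure O F) :=
  IsIntegralClosure.module_free O K F (integralClosure O F)

theorem finrank_closure : Module.finrank O (integralClosure O F) = Module.finrank K F :=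
  IsIntegralClosure.rank O K F (integralClosure O F)

omit [FiniteDimensional K F] [Algebra.IsSeparable K F] in
theorem centre_ne_bot (hV : IsAbove O V) : centre hV ≠ ⊥ := by
  obtain ⟨a, ha, ha0⟩ := Submodule.exists_mem_ne_zero_of_ne_bot
    (IsDiscreteValuationRing.not_a_field O)
  intro hbot
  have h1 : algebraMap O (integralClosure O F) a ∈ centre hV :=
    (algebraMap_mem_centre_iff hV a).mpr ha
  rw [hbot, Ideal.mem_bot] at h1
  apply ha0
  have h2 : algebraMap K F (a : K) = 0 := congrArg Subtype.val h1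
  rw [map_eq_zero] at h2
  exact Subtype.ext h2

theorem centre_isMaximal (hV : IsAbove O V) : (centre hV).IsMaximal := by
  have := isDedekindDomain_closure (K := K) (F := F) (O := O)
  exact Ideal.IsPrime.isMaximal (centre_isPrime hV) (centre_ne_bot hV)

/-- `V` is the localisation of the integral closure at its centre. -/
theorem exists_eq_div (hV : IsAbove O V) {x : F} (hx : x ∈ V) :
    ∃ a s : integralClosure O F, s ∉ centre hV ∧ x = (a : F) / (s : F) := by
  have hD := isDedekindDomain_closure (K := K) (F := F) (O := O)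
  have hFr := isFractionRing_closure (K := K) (F := F) (O := O)
  set P := centre hV with hP
  let T : Subalgebra (integralClosure O F) F :=
    Localization.subalgebra.ofField F P.primeCompl P.primeCompl_le_nonZeroDivisors
  have hloc : IsLocalization.AtPrime T P :=
    Localization.subalgebra.isLocalization_ofField F P.primeCompl P.primeCompl_le_nonZeroDivisors
  have hfrT : IsFractionRing T F :=
    Localization.subalgebra.isFractionRing_ofField F P.primeCompl P.primeCompl_le_nonZeroDivisors
  have hdvr : IsDiscreteValuationRing T :=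
    IsLocalization.AtPrime.isDiscreteValuationRing_of_dedekind_domain (integralClosure O F)
      (centre_ne_bot hV) T
  have hmemT : ∀ z : F, z ∈ T → ∃ a s : integralClosure O F, s ∉ P ∧ z = (a : F) / (s : F) := by
    rintro z ⟨a, s, hs, rfl⟩
    exact ⟨a, s, hs, by rw [div_eq_mul_inv]; rfl⟩
  rcases ValuationRing.isInteger_or_isInteger T x with ⟨t, ht⟩ | ⟨t, ht⟩
  · have : x ∈ T := by rw [← ht]; exact t.2
    exact hmemT x this
  · have hxi : x⁻¹ ∈ T := by rw [← ht]; exact t.2
    obtain ⟨a, s, hs, hx'⟩ := hmemT _ hxi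
    by_cases hx0 : x = 0
    · exact ⟨0, 1, (Ideal.ne_top_iff_one P).mp (centre_isPrime hV).ne_top, by simp [hx0]⟩
    by_cases ha : a ∈ P
    · exfalso
      -- then `x⁻¹` is a non-unit of `V`
      have hs' := (not_mem_centre_iff hV s).mp hs
      have h1 : x⁻¹ ∈ V.nonunits := by
        rw [hx', div_eq_mul_inv, ValuationSubring.mem_nonunits_iff, map_mul]
        exact mul_lt_one_of_nonneg_of_lt_one_left zero_le
          ((ValuationSubring.mem_nonunits_iff V).mp ((mem_centre_iff hV a).mp ha))
          ((V.valuation_le_one_iff _).mpr hs'.1)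
      rw [ValuationSubring.inv_mem_nonunits_iff] at h1
      rcases h1 with h1 | h1
      · exact hx0 h1
      · exact h1 hx
    · refine ⟨s, a, ha, ?_⟩
      rw [← inv_inv x, hx', inv_div]
  
/-- A valuation subring above `O` is determined by its centre. -/
theorem eq_of_centre_eq (hV : IsAbove O V) (hV' : IsAbove O V') (h : centre hV = centre hV') :
    V = V' := by
  have key : ∀ {W W' : ValuationSubring F} (hW : IsAbove O W) (hW' : IsAbove O W'),
      centre hW = centre hW' → W ≤ W' := by
    intro W W' hW hW' hc x hx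
    obtain ⟨a, s, hs, rfl⟩ := exists_eq_div hW hx
    rw [hc] at hs
    rw [div_eq_mul_inv]
    exact W'.mul_mem _ _ (hW'.coe_mem a) ((not_mem_centre_iff hW' s).mp hs).1
  exact le_antisymm (key hV hV' h) (key hV' hV h.symm)

omit [FiniteDimensional K F] [Algebra.IsSeparable K F] [IsDiscreteValuationRing O] in
theorem mul_mem_nonunits {x y : F} (hx : x ∈ V) (hy : y ∈ V.nonunits) : x * y ∈ V.nonunits := by
  rw [ValuationSubring.mem_nonunits_iff, map_mul]
  exact mul_lt_one_of_nonneg_of_lt_one_right ((V.valuation_le_one_iff _).mpr hx) zero_le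
    ((ValuationSubring.mem_nonunits_iff V).mp hy)

/-- Every residue class of `V` is represented by an element of the integral closure; more
precisely modulo any power of the centre. -/
theorem exists_sub_eq_mul (hV : IsAbove O V) {b : F} (hb : b ∈ V) (n : ℕ) :
    ∃ s : integralClosure O F, ∃ i ∈ centre hV ^ n, (s : F) - b = b * (i : F) := by
  obtain ⟨a, t, ht, rfl⟩ := exists_eq_div hV hb
  have hmax := centre_isMaximal hV
  obtain ⟨y, i, hi, hyi⟩ := Ideal.IsMaximal.exists_inv_pow (centre hV) ht n
  have ht0 : (t : F) ≠ 0 := ((not_mem_centre_iff hV t).mp ht).2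
  refine ⟨a * y, -i, (centre hV ^ n).neg_mem hi, ?_⟩
  have e : (y : F) * (t : F) + (i : F) = 1 := by
    have := congrArg (Subtype.val : integralClosure O F → F) hyi
    simpa using this
  have e' : (i : F) = 1 - (y : F) * (t : F) := by rw [← e]; ring
  push_cast
  rw [e']
  field_simp
  ring

theorem exists_sub_mem_nonunits (hV : IsAbove O V) {b : F} (hb : b ∈ V) :
    ∃ s : integralClosure O F, (s : F) - b ∈ V.nonunits := by
  obtain ⟨s, i, hi, hs⟩ := exists_sub_eq_mul hV hb 1
  rw [pow_one] at hi
  exact ⟨s, by rw [hs]; exact mul_mem_nonunits hb ((mem_centre_iff hV i).mp hi)⟩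

/-- Lower bound for the inertia degree from elements independent modulo the maximal ideal. -/
theorem le_inertiaDeg (hV : IsAbove O V) {f : ℕ}
    (hf : ∃ b : Fin f → F, (∀ j, b j ∈ V) ∧ ∀ c : Fin f → K, (∀ j, c j ∈ O) →
      ∑ j, algebraMap K F (c j) * b j ∈ V.nonunits → ∀ j, c j ∈ O.nonunits) :
    f ≤ (centre hV).inertiaDeg O := by
  obtain ⟨b, hbV, hb⟩ := hf
  have hmax := centre_isMaximal hV
  have hfin := finite_closure (K := K) (F := F) (O := O)
  rw [Ideal.inertiaDeg_eq_of_isMaximal (maximalIdeal O) (centre hV)]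
  choose s hs using fun j => exists_sub_mem_nonunits hV (hbV j)
  have hli : LinearIndependent (O ⧸ maximalIdeal O)
      (fun j => (Ideal.Quotient.mk (centre hV) (s j) : integralClosure O F ⧸ centre hV)) := by
    rw [Fintype.linearIndependent_iff]
    intro g hg j
    choose c hc using fun j => Ideal.Quotient.mk_surjective (g j)
    have h1 : ∑ j, g j • (Ideal.Quotient.mk (centre hV) (s j) : integralClosure O F ⧸ centre hV)
        = Ideal.Quotient.mk (centre hV) (∑ j, algebraMap O (integralClosure O F) (c j) * s j) := by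
      rw [map_sum]
      refine Finset.sum_congr rfl fun j _ => ?_
      rw [← hc j, Algebra.smul_def, Ideal.Quotient.algebraMap_mk_of_liesOver, map_mul]
    rw [h1, Ideal.Quotient.eq_zero_iff_mem, mem_centre_iff] at hg
    have h2 : ((∑ j, algebraMap O (integralClosure O F) (c j) * s j : integralClosure O F) : F)
        = ∑ j, algebraMap K F (c j : K) * (s j : F) := by
      push_cast
      rfl
    rw [h2] at hg
    have h3 : ∑ j, algebraMap K F (c j : K) * b j ∈ V.nonunits := by
      have : ∑ j, algebraMap K F (c j : K) * b j = ∑ j, algebraMap K F (c j : K) * (s j : F)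
          - ∑ j, algebraMap K F (c j : K) * ((s j : F) - b j) := by
        rw [← Finset.sum_sub_distrib]
        exact Finset.sum_congr rfl fun j _ => by ring
      rw [this]
      refine V.nonunits.sub_mem hg (V.nonunits.sum_mem fun j _ => ?_)
      exact mul_mem_nonunits ((hV _).mpr (c j).2) (hs j)
    have h4 := hb (fun j => (c j : K)) (fun j => (c j).2) h3 j
    rw [← hc j, Ideal.Quotient.eq_zero_iff_mem]
    exact ValuationSubring.coe_mem_nonunits_iff.mp h4
  have := hli.fintype_card_le_finrank
  simpa using this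

variable {ϖ : K}

omit [FiniteDimensional K F] [Algebra.IsSeparable K F] [IsDiscreteValuationRing O] in
theorem map_maximalIdeal_eq (hu : IsUnif O ϖ) :
    (maximalIdeal O).map (algebraMap O (integralClosure O F)) =
      Ideal.span {algebraMap O (integralClosure O F) ⟨ϖ, hu.mem⟩} := by
  rw [unif_maximalIdeal_eq hu, Ideal.map_span, Set.image_singleton]

omit [FiniteDimensional K F] [Algebra.IsSeparable K F] [IsDiscreteValuationRing O] in
theorem algebraMap_unif_ne_zero (hu : IsUnif O ϖ) :
    algebraMap O (integralClosure O F) ⟨ϖ, hu.mem⟩ ≠ 0 := by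
  intro h0
  have h2 : algebraMap K F ϖ = 0 := congrArg Subtype.val h0
  rw [map_eq_zero] at h2
  exact hu.ne_zero h2

omit [FiniteDimensional K F] [Algebra.IsSeparable K F] [IsDiscreteValuationRing O] in
theorem map_maximalIdeal_ne_bot (hu : IsUnif O ϖ) :
    (maximalIdeal O).map (algebraMap O (integralClosure O F)) ≠ ⊥ := by
  rw [map_maximalIdeal_eq hu, Ne, Ideal.span_singleton_eq_bot]
  exact algebraMap_unif_ne_zero hu

/-- If `ϖ = d ^ e * c` in `V` with `d` a non-unit, then `ϖ` lies in the `e`-th power of the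
centre. -/
theorem algebraMap_unif_mem_pow (hu : IsUnif O ϖ) (hV : IsAbove O V) {e : ℕ}
    (he : ∃ d c : F, d ∈ V.nonunits ∧ c ∈ V ∧ algebraMap K F ϖ = d ^ e * c) :
    algebraMap O (integralClosure O F) ⟨ϖ, hu.mem⟩ ∈ centre hV ^ e := by
  have hD := isDedekindDomain_closure (K := K) (F := F) (O := O)
  obtain ⟨d, c, hd, hc, hdc⟩ := he
  obtain ⟨a, s, hs, rfl⟩ := exists_eq_div hV (V.nonunits_le hd)
  obtain ⟨b, t, ht, rfl⟩ := exists_eq_div hV hc
  have hs0 : (s : F) ≠ 0 := ((not_mem_centre_iff hV s).mp hs).2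
  have ht0 : (t : F) ≠ 0 := ((not_mem_centre_iff hV t).mp ht).2
  have ha : a ∈ centre hV := by
    rw [mem_centre_iff]
    have : (a : F) = (s : F) * ((a : F) / (s : F)) := by field_simp
    rw [this]
    exact mul_mem_nonunits (hV.coe_mem s) hd
  have hmem : (s ^ e * t) * algebraMap O (integralClosure O F) ⟨ϖ, hu.mem⟩ ∈ centre hV ^ e := by
    have e1 : (s ^ e * t) * algebraMap O (integralClosure O F) ⟨ϖ, hu.mem⟩ = a ^ e * b := by
      apply Subtype.ext
      have h1 : algebraMap O F ⟨ϖ, hu.mem⟩ = algebraMap K F ϖ := rfl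
      push_cast
      rw [h1, hdc, div_pow]
      have hse : (s : F) ^ e ≠ 0 := pow_ne_zero e hs0
      field_simp
    rw [e1]
    exact Ideal.mul_mem_right _ _ (Ideal.pow_mem_pow ha e)
  rcases Ideal.IsPrime.mul_mem_pow (centre hV) hmem with h | h
  · exfalso
    rcases (centre_isPrime hV).mem_or_mem h with h' | h'
    · exact hs ((centre_isPrime hV).mem_of_pow_mem e h')
    · exact ht h'
  · exact h

/-- Product form: if `ϖ = (∏ d j) * c` in `V` with `n` non-units `d j`, then `ϖ` lies in the
`n`-th power of the centre. -/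
theorem algebraMap_unif_mem_pow_of_prod (hu : IsUnif O ϖ) (hV : IsAbove O V) {n : ℕ}
    (d : Fin n → F) (c : F) (hd : ∀ j, d j ∈ V.nonunits) (hc : c ∈ V)
    (hdc : algebraMap K F ϖ = (∏ j, d j) * c) :
    algebraMap O (integralClosure O F) ⟨ϖ, hu.mem⟩ ∈ centre hV ^ n := by
  have hD := isDedekindDomain_closure (K := K) (F := F) (O := O)
  choose a s hs hds using fun j => exists_eq_div hV (V.nonunits_le (hd j))
  obtain ⟨b, t, ht, rfl⟩ := exists_eq_div hV hc
  have hs0 : ∀ j, (s j : F) ≠ 0 := fun j => ((not_mem_centre_iff hV (s j)).mp (hs j)).2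
  have ht0 : (t : F) ≠ 0 := ((not_mem_centre_iff hV t).mp ht).2
  have ha : ∀ j, a j ∈ centre hV := by
    intro j
    rw [mem_centre_iff]
    have : (a j : F) = (s j : F) * d j := by rw [hds j]; field_simp [hs0 j]
    rw [this]
    exact mul_mem_nonunits (hV.coe_mem (s j)) (hd j)
  have hmem : ((∏ j, s j) * t) * algebraMap O (integralClosure O F) ⟨ϖ, hu.mem⟩ ∈
      centre hV ^ n := by
    have e1 : ((∏ j, s j) * t) * algebraMap O (integralClosure O F) ⟨ϖ, hu.mem⟩ =
        (∏ j, a j) * b := by
      apply Subtype.ext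
      have h1 : algebraMap O F ⟨ϖ, hu.mem⟩ = algebraMap K F ϖ := rfl
      have hps : (∏ j, (s j : F)) ≠ 0 := Finset.prod_ne_zero_iff.mpr fun j _ => hs0 j
      have h2 : ∏ j, d j = (∏ j, (a j : F)) / ∏ j, (s j : F) := by
        rw [← Finset.prod_div_distrib]
        exact Finset.prod_congr rfl fun j _ => hds j
      push_cast
      rw [h1, hdc, h2]
      field_simp
    rw [e1]
    refine Ideal.mul_mem_right _ _ ?_
    have := Ideal.prod_mem_prod (s := Finset.univ) (I := fun _ : Fin n => centre hV)
      (x := a) (fun j _ => ha j)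
    rwa [Finset.prod_const, Finset.card_univ, Fintype.card_fin] at this
  rcases Ideal.IsPrime.mul_mem_pow (centre hV) hmem with h | h
  · exfalso
    rcases (centre_isPrime hV).mem_or_mem h with h' | h'
    · obtain ⟨j, -, hj⟩ := (Ideal.IsPrime.prod_mem_iff (hp := centre_isPrime hV)).mp h'
      exact hs j hj
    · exact ht h'
  · exact h

/-- `ϖ` is not a product of more than `e` non-units of `V` (`e` the ramification index). -/
theorem le_ramificationIdx_of_prod (hu : IsUnif O ϖ) (hV : IsAbove O V) {n : ℕ}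
    (d : Fin n → F) (c : F) (hd : ∀ j, d j ∈ V.nonunits) (hc : c ∈ V)
    (hdc : algebraMap K F ϖ = (∏ j, d j) * c) : n ≤ (centre hV).ramificationIdx O := by
  have hD := isDedekindDomain_closure (K := K) (F := F) (O := O)
  rw [Ideal.IsDedekindDomain.ramificationIdx_eq_multiplicity (maximalIdeal O) (centre hV)
    (map_maximalIdeal_ne_bot hu)]
  apply FiniteMultiplicity.le_multiplicity_of_pow_dvd
  · apply FiniteMultiplicity.of_not_isUnit
    · rw [Ideal.isUnit_iff]
      exact (centre_isPrime hV).ne_top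
    · exact map_maximalIdeal_ne_bot hu
  · rw [Ideal.dvd_iff_le, map_maximalIdeal_eq hu, Ideal.span_singleton_le_iff_mem]
    exact algebraMap_unif_mem_pow_of_prod hu hV d c hd hc hdc

/-- Lower bound for the ramification index. -/
theorem le_ramificationIdx (hu : IsUnif O ϖ) (hV : IsAbove O V) {e : ℕ}
    (he : ∃ d c : F, d ∈ V.nonunits ∧ c ∈ V ∧ algebraMap K F ϖ = d ^ e * c) :
    e ≤ (centre hV).ramificationIdx O := by
  have hD := isDedekindDomain_closure (K := K) (F := F) (O := O)
  rw [Ideal.IsDedekindDomain.ramificationIdx_eq_multiplicity (maximalIdeal O) (centre hV)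
    (map_maximalIdeal_ne_bot hu)]
  apply FiniteMultiplicity.le_multiplicity_of_pow_dvd
  · apply FiniteMultiplicity.of_not_isUnit
    · rw [Ideal.isUnit_iff]
      exact (centre_isPrime hV).ne_top
    · exact map_maximalIdeal_ne_bot hu
  · rw [Ideal.dvd_iff_le, map_maximalIdeal_eq hu, Ideal.span_singleton_le_iff_mem]
    exact algebraMap_unif_mem_pow hu hV he

/-- Exactness of the ramification index: elements of the `n * e`-th power of the centre are
divisible by `ϖ ^ n` in `V`. -/
theorem exists_eq_unif_pow_mul (hu : IsUnif O ϖ) (hV : IsAbove O V) (n : ℕ)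
    {z : integralClosure O F} (hz : z ∈ centre hV ^ (n * (centre hV).ramificationIdx O)) :
    ∃ c ∈ V, (z : F) = algebraMap K F ϖ ^ n * c := by
  have hD := isDedekindDomain_closure (K := K) (F := F) (O := O)
  have hmax := centre_isMaximal hV
  obtain ⟨Q, hQ, hI⟩ := Ideal.eq_prime_pow_mul_coprime (map_maximalIdeal_ne_bot (F := F) hu)
    (centre hV)
  rw [← Ideal.IsDedekindDomain.ramificationIdx_eq_normalizedFactors_count (maximalIdeal O)
    (centre hV) (map_maximalIdeal_ne_bot hu)] at hI
  obtain ⟨t, htQ, ht⟩ : ∃ t ∈ Q, t ∉ centre hV := by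
    by_contra hcon
    push Not at hcon
    have : centre hV ⊔ Q = centre hV := sup_eq_left.mpr hcon
    rw [this] at hQ
    exact hmax.ne_top hQ
  have h1 : z * t ^ n ∈ Ideal.span {algebraMap O (integralClosure O F) ⟨ϖ, hu.mem⟩ ^ n} := by
    rw [← Ideal.span_singleton_pow, ← map_maximalIdeal_eq hu, hI, mul_pow, ← pow_mul']
    exact Ideal.mul_mem_mul hz (Ideal.pow_mem_pow htQ n)
  obtain ⟨w, hw⟩ := Ideal.mem_span_singleton'.mp h1
  have ht' := (not_mem_centre_iff hV t).mp ht
  refine ⟨(w : F) * ((t : F)⁻¹) ^ n, V.mul_mem _ _ (hV.coe_mem w) (V.pow_mem ht'.1 n), ?_⟩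
  have h2 := congrArg (Subtype.val : integralClosure O F → F) hw
  have h3 : algebraMap O F ⟨ϖ, hu.mem⟩ = algebraMap K F ϖ := rfl
  push_cast at h2
  rw [h3] at h2
  have ht0 : (t : F) ^ n ≠ 0 := pow_ne_zero n ht'.2
  rw [inv_pow, ← mul_assoc, mul_comm (algebraMap K F ϖ ^ n), h2, mul_assoc, mul_inv_cancel₀ ht0,
    mul_one]

end Dedekind

/-! ### The count -/

section Count

variable {K F : Type*} [Field K] [Field F] [Algebra K F] [FiniteDimensional K F]
  [Algebra.IsSeparable K F] {ι : Type*} [Fintype ι]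

/-- A finite family `V` of pairwise distinct valuation subrings of `F` above the discrete
valuation subring `O` of `K` (uniformiser `ϖ`), with lower bounds `e i` for the ramification
indices and `f i` for the residue degrees such that `[F : K] ≤ ∑ e i * f i`. -/
structure Family (O : ValuationSubring K) (ϖ : K) (V : ι → ValuationSubring F) (e f : ι → ℕ) :
    Prop where
  unif : IsUnif O ϖ
  above : ∀ i, IsAbove O (V i)
  inj : Function.Injective V
  ram : ∀ i, ∃ d c : F, d ∈ (V i).nonunits ∧ c ∈ V i ∧ algebraMap K F ϖ = d ^ e i * c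
  res : ∀ i, ∃ b : Fin (f i) → F, (∀ j, b j ∈ V i) ∧ ∀ c : Fin (f i) → K, (∀ j, c j ∈ O) →
      ∑ j, algebraMap K F (c j) * b j ∈ (V i).nonunits → ∀ j, c j ∈ O.nonunits
  deg : Module.finrank K F ≤ ∑ i, e i * f i

variable {O : ValuationSubring K} {ϖ : K} {V : ι → ValuationSubring F} {e f : ι → ℕ}

/-- **The count.**  The family exhausts the valuation subrings above `O`, the bounds `e`, `f` are
the exact ramification indices and residue degrees, and `[F : K] = ∑ e i * f i`. -/
theorem Family.count (h : Family O ϖ V e f) :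
    (∀ V' : ValuationSubring F, IsAbove O V' → ∃ i, V' = V i) ∧
      (∀ i, (centre (h.above i)).ramificationIdx O = e i ∧
        (centre (h.above i)).inertiaDeg O = f i) ∧
      Module.finrank K F = ∑ i, e i * f i := by
  classical
  have hdvr := unif_isDiscreteValuationRing h.unif
  have hD := isDedekindDomain_closure (K := K) (F := F) (O := O)
  have hfin := finite_closure (K := K) (F := F) (O := O)
  have hfree := free_closure (K := K) (F := F) (O := O)
  set p := maximalIdeal O with hp
  have hfinite : Finite (p.primesOver (integralClosure O F)) :=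
    (Algebra.QuasiFinite.finite_primesOver p).to_subtype
  let _ : Fintype (p.primesOver (integralClosure O F)) := Fintype.ofFinite _
  have hsum := Ideal.sum_ramification_inertia_eq_finrank p (integralClosure O F)
  rw [finrank_closure] at hsum
  let φ : ι → p.primesOver (integralClosure O F) := fun i =>
    ⟨centre (h.above i), centre_isPrime _, centre_liesOver _⟩
  have hφ : Function.Injective φ := fun i j hij =>
    h.inj (eq_of_centre_eq (h.above i) (h.above j) (congrArg Subtype.val hij))
  let g : p.primesOver (integralClosure O F) → ℕ := fun q =>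
    q.1.ramificationIdx O * q.1.inertiaDeg O
  have hgpos : ∀ q, 0 < g q := fun q =>
    have : q.1.IsPrime := q.2.1
    Nat.mul_pos (Ideal.ramificationIdx_pos q.1 O) (Ideal.inertiaDeg_pos q.1 O)
  have hle : ∀ i, e i * f i ≤ g (φ i) := fun i =>
    Nat.mul_le_mul (le_ramificationIdx h.unif (h.above i) (h.ram i))
      (le_inertiaDeg (h.above i) (h.res i))
  have himage : ∑ i, g (φ i) = ∑ q ∈ Finset.univ.image φ, g q :=
    (Finset.sum_image (fun i _ j _ hij => hφ hij)).symm
  have hsub : ∑ q ∈ Finset.univ.image φ, g q ≤ ∑ q, g q :=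
    Finset.sum_le_sum_of_subset (Finset.subset_univ _)
  have h1 : ∑ i, e i * f i ≤ ∑ i, g (φ i) := Finset.sum_le_sum fun i _ => hle i
  have hg : ∑ q, g q = Module.finrank K F := hsum
  have heq1 : ∑ i, e i * f i = ∑ i, g (φ i) := by
    apply le_antisymm h1
    rw [himage]
    exact hsub.trans (hg.le.trans h.deg)
  have heq2 : ∑ q ∈ Finset.univ.image φ, g q = ∑ q, g q := by
    apply le_antisymm hsub
    rw [← himage, ← heq1, hg]
    exact h.deg
  have hterm : ∀ i, e i * f i = g (φ i) := fun i =>
    (Finset.sum_eq_sum_iff_of_le (fun i _ => hle i)).mp heq1 i (Finset.mem_univ i)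
  have hall : ∀ q, q ∈ Finset.univ.image φ := by
    intro q
    by_contra hq
    have := Finset.sum_lt_sum_of_subset (f := g) (Finset.subset_univ (Finset.univ.image φ))
      (Finset.mem_univ q) hq (hgpos q) (fun j _ _ => Nat.zero_le _)
    exact absurd heq2 this.ne
  refine ⟨fun V' hV' => ?_, fun i => ?_, ?_⟩
  · obtain ⟨i, -, hi⟩ := Finset.mem_image.mp
      (hall ⟨centre hV', centre_isPrime _, centre_liesOver _⟩)
    exact ⟨i, (eq_of_centre_eq (h.above i) hV' (congrArg Subtype.val hi)).symm⟩
  · have hE := le_ramificationIdx h.unif (h.above i) (h.ram i)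
    have hF := le_inertiaDeg (h.above i) (h.res i)
    have hEpos : 0 < (centre (h.above i)).ramificationIdx O :=
      Ideal.ramificationIdx_pos _ O
    have hFpos : 0 < (centre (h.above i)).inertiaDeg O := Ideal.inertiaDeg_pos _ O
    have ht : e i * f i =
        (centre (h.above i)).ramificationIdx O * (centre (h.above i)).inertiaDeg O := hterm i
    have hf' : (centre (h.above i)).inertiaDeg O = f i := by
      by_contra hne
      have hlt : f i < (centre (h.above i)).inertiaDeg O := lt_of_le_of_ne hF (Ne.symm hne)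
      have : e i * f i < (centre (h.above i)).ramificationIdx O *
          (centre (h.above i)).inertiaDeg O :=
        lt_of_le_of_lt (Nat.mul_le_mul_right _ hE) (Nat.mul_lt_mul_of_pos_left hlt hEpos)
      exact absurd ht this.ne
    refine ⟨?_, hf'⟩
    rw [hf'] at ht hFpos
    exact (Nat.eq_of_mul_eq_mul_right hFpos ht).symm
  · rw [heq1, himage, heq2, hg]

theorem Family.eq_of_isAbove (h : Family O ϖ V e f) (V' : ValuationSubring F)
    (hV' : IsAbove O V') : ∃ i, V' = V i := h.count.1 V' hV'

theorem Family.finrank_eq (h : Family O ϖ V e f) : Module.finrank K F = ∑ i, e i * f i :=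
  h.count.2.2

theorem Family.ramificationIdx_eq (h : Family O ϖ V e f) (i : ι) :
    (centre (h.above i)).ramificationIdx O = e i := (h.count.2.1 i).1

theorem Family.inertiaDeg_eq (h : Family O ϖ V e f) (i : ι) :
    (centre (h.above i)).inertiaDeg O = f i := (h.count.2.1 i).2

/-- **Exactness of `e`.**  `ϖ` is not a product of more than `e i` non-units of `V i` (times an
element of `V i`). -/
theorem Family.not_prod_of_lt (h : Family O ϖ V e f) (i : ι) {n : ℕ} (hn : e i < n)
    (d : Fin n → F) (c : F) (hd : ∀ j, d j ∈ (V i).nonunits) (hc : c ∈ V i) :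
    algebraMap K F ϖ ≠ (∏ j, d j) * c := by
  have hdvr := unif_isDiscreteValuationRing h.unif
  intro hdc
  have := le_ramificationIdx_of_prod h.unif (h.above i) d c hd hc hdc
  rw [h.ramificationIdx_eq i] at this
  omega

/-- **Uniformisers.**  If `ϖ = d ^ e i * c` with `d` a non-unit of `V i` and `c ∈ V i`, then `c`
is a unit of `V i` and `d` generates the maximal ideal of `V i`. -/
theorem Family.isUniformizer (h : Family O ϖ V e f) (i : ι) {d c : F}
    (hd : d ∈ (V i).nonunits) (hc : c ∈ V i) (hdc : algebraMap K F ϖ = d ^ e i * c) :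
    c⁻¹ ∈ V i ∧ ∀ z ∈ (V i).nonunits, ∃ w ∈ V i, z = d * w := by
  have hdvr := unif_isDiscreteValuationRing h.unif
  have hfin := finite_closure (K := K) (F := F) (O := O)
  have hϖ0 : algebraMap K F ϖ ≠ 0 := (map_ne_zero _).mpr h.unif.ne_zero
  have hc0 : c ≠ 0 := by
    rintro rfl
    exact hϖ0 (by rw [hdc, mul_zero])
  have hei : 0 < e i := by
    rw [← h.ramificationIdx_eq i]
    exact Ideal.ramificationIdx_pos _ O
  have hd0 : d ≠ 0 := by
    rintro rfl
    exact hϖ0 (by rw [hdc, zero_pow hei.ne', zero_mul])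
  constructor
  · by_contra hci
    have hcn : c ∈ (V i).nonunits :=
      (ValuationSubring.mem_nonunits_iff_or (V i)).mpr (Or.inr hci)
    refine h.not_prod_of_lt i (Nat.lt_succ_self _) (Fin.snoc (fun _ => d) c) 1 ?_
      (V i).one_mem ?_
    · intro j
      refine Fin.lastCases ?_ (fun j => ?_) j
      · rw [Fin.snoc_last]; exact hcn
      · rw [Fin.snoc_castSucc]; exact hd
    · rw [Fin.prod_univ_castSucc, mul_one]
      simp only [Fin.snoc_castSucc, Fin.snoc_last, Finset.prod_const, Finset.card_univ,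
        Fintype.card_fin]
      exact hdc
  · intro z hz
    by_cases hz0 : z = 0
    · exact ⟨0, (V i).zero_mem, by rw [hz0, mul_zero]⟩
    by_contra hcon
    push Not at hcon
    have hzd : z / d ∉ V i := fun hmem => hcon (z / d) hmem (by field_simp)
    have hw : d / z ∈ (V i).nonunits := by
      rw [ValuationSubring.mem_nonunits_iff_or]
      right
      rwa [inv_div]
    obtain ⟨m, hm⟩ : ∃ m, e i = m + 1 := ⟨e i - 1, by omega⟩
    -- `ϖ = d^m * z * (d/z) * c`
    refine h.not_prod_of_lt i (n := m + 2) (by omega)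
      (Fin.snoc (Fin.snoc (fun _ : Fin m => d) z) (d / z)) c ?_ hc ?_
    · intro j
      refine Fin.lastCases ?_ (fun j => ?_) j
      · rw [Fin.snoc_last]; exact hw
      · rw [Fin.snoc_castSucc]
        refine Fin.lastCases ?_ (fun j' => ?_) j
        · rw [Fin.snoc_last]; exact hz
        · rw [Fin.snoc_castSucc]; exact hd
    · rw [Fin.prod_univ_castSucc, Fin.prod_univ_castSucc]
      simp only [Fin.snoc_castSucc, Fin.snoc_last, Finset.prod_const, Finset.card_univ,
        Fintype.card_fin]
      rw [hdc, hm, pow_succ]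
      field_simp

/-- **The integral closure is the intersection.**  An element lying in all the `V i` is integral
over `O`. -/
theorem Family.isIntegral_of_forall_mem (h : Family O ϖ V e f) {x : F} (hx : ∀ i, x ∈ V i) :
    IsIntegral O x := by
  by_contra hx'
  have hxR : x ∉ (integralClosure O F).toSubring := hx'
  obtain ⟨W, hW, hxW⟩ := Subring.exists_le_valuationSubring_of_isIntegrallyClosedIn hxR
  have hO : ∀ a ∈ O, algebraMap K F a ∈ W := fun a ha =>
    hW (show algebraMap K F a ∈ (integralClosure O F).toSubring from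
      isIntegral_algebraMap (R := O) (A := F) (x := ⟨a, ha⟩))
  by_cases hϖ : (algebraMap K F ϖ)⁻¹ ∈ W
  · -- then `W ⊇ K`, hence `W = F`
    have hKW : ∀ y : K, algebraMap K F y ∈ W := by
      intro y
      by_cases hy0 : y = 0
      · rw [hy0, map_zero]; exact W.zero_mem
      obtain ⟨n, u, hu, hu', rfl⟩ := h.unif.exists_zpow y hy0
      rw [map_mul]
      refine W.mul_mem _ _ ?_ (hO u hu)
      rcases le_or_gt 0 n with hn | hn
      · exact hO _ ((unif_zpow_mem_iff h.unif n).mpr hn)
      · have e1 : algebraMap K F (ϖ ^ n) = (algebraMap K F ϖ)⁻¹ ^ (-n).toNat := by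
          rw [← map_inv₀, ← map_pow, ← zpow_natCast, Int.toNat_of_nonneg (by omega), inv_zpow,
            zpow_neg, inv_inv]
        rw [e1]
        exact W.pow_mem hϖ _
    let φ : K →+* W := (algebraMap K F).codRestrict W.toSubring hKW
    have h1 : IsIntegral W (RingHom.id F x) :=
      IsIntegral.map_of_comp_eq φ (RingHom.id F) (by ext a; rfl) (IsIntegral.of_finite K x)
    obtain ⟨y, hy⟩ := IsIntegrallyClosedIn.isIntegral_iff.mp h1
    rw [RingHom.id_apply] at hy
    exact hxW (hy ▸ y.2)
  · obtain ⟨i, rfl⟩ := h.eq_of_isAbove W (isAbove_of_mem h.unif hO hϖ)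
    exact hxW (hx i)

theorem Family.isIntegral_iff (h : Family O ϖ V e f) {x : F} :
    IsIntegral O x ↔ ∀ i, x ∈ V i :=
  ⟨fun hx i => (h.above i).mem_of_isIntegral hx, h.isIntegral_of_forall_mem⟩

omit [FiniteDimensional K F] [Algebra.IsSeparable K F] [Fintype ι] in
theorem Family.centre_injective {O : ValuationSubring K} {V : ι → ValuationSubring F}
    (hV : ∀ i, IsAbove O (V i)) (hinj : Function.Injective V)
    [FiniteDimensional K F] [Algebra.IsSeparable K F] [IsDiscreteValuationRing O] {i j : ι}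
    (hij : i ≠ j) : centre (hV i) ≠ centre (hV j) := fun hc =>
  hij (hinj (eq_of_centre_eq (hV i) (hV j) hc))

/-- **Approximation (CRT).**  Elements `r i ∈ V i` can be simultaneously approximated modulo
`ϖ ^ n` by an element integral over `O`. -/
theorem Family.exists_approx (h : Family O ϖ V e f) (r : ι → F) (hr : ∀ i, r i ∈ V i) (n : ℕ) :
    ∃ x : F, IsIntegral O x ∧ ∀ i, ∃ c ∈ V i, x - r i = algebraMap K F ϖ ^ n * c := by
  classical
  have hdvr := unif_isDiscreteValuationRing h.unif
  have hD := isDedekindDomain_closure (K := K) (F := F) (O := O)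
  set N : ι → ℕ := fun i => n * (centre (h.above i)).ramificationIdx O with hN
  choose s j hj hs using fun i => exists_sub_eq_mul (h.above i) (hr i) (N i)
  obtain ⟨y, hy⟩ := IsDedekindDomain.exists_forall_sub_mem_ideal (s := Finset.univ)
    (fun i => centre (h.above i)) N
    (fun i _ => Ideal.prime_of_isPrime (centre_ne_bot (h.above i)) (centre_isPrime (h.above i)))
    (fun i _ j _ hij => Family.centre_injective h.above h.inj hij) (fun i => s i)
  refine ⟨y, y.2, fun i => ?_⟩
  obtain ⟨c1, hc1, e1⟩ := exists_eq_unif_pow_mul h.unif (h.above i) n (hy i (Finset.mem_univ i))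
  obtain ⟨c2, hc2, e2⟩ := exists_eq_unif_pow_mul h.unif (h.above i) n (hj i)
  refine ⟨c1 + r i * c2, (V i).add_mem _ _ hc1 ((V i).mul_mem _ _ (hr i) hc2), ?_⟩
  have e3 : (y : F) - r i = ((y - s i : integralClosure O F) : F) + ((s i : F) - r i) := by
    push_cast; ring
  rw [e3, e1, hs i, e2]
  ring

/-- **Joint surjectivity** onto the residue fields. -/
theorem Family.exists_sub_mem_nonunits (h : Family O ϖ V e f) (r : ι → F)
    (hr : ∀ i, r i ∈ V i) : ∃ x : F, IsIntegral O x ∧ ∀ i, x - r i ∈ (V i).nonunits := by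
  obtain ⟨x, hx, hc⟩ := h.exists_approx r hr 1
  refine ⟨x, hx, fun i => ?_⟩
  obtain ⟨c, hc, e1⟩ := hc i
  rw [e1, pow_one, mul_comm]
  exact mul_mem_nonunits hc
    (((h.above i).algebraMap_mem_nonunits_iff ϖ).mpr h.unif.mem_nonunits)

omit [Algebra.IsSeparable K F] [Fintype ι] in
/-- Some power of `ϖ` moves a given element into a valuation subring above `O`. -/
theorem exists_zpow_mul_mem {V' : ValuationSubring F} (hu : IsUnif O ϖ) (hV : IsAbove O V')
    (y : F) : ∃ n : ℤ, algebraMap K F ϖ ^ n * y ∈ V' := by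
  have hdvr := unif_isDiscreteValuationRing hu
  have halg : IsAlgebraic O y :=
    (IsFractionRing.isAlgebraic_iff O K F).mpr (IsIntegral.of_finite K y).isAlgebraic
  obtain ⟨a, ha0, ha⟩ := halg.exists_integral_multiple
  have ha0' : (a : K) ≠ 0 := fun h0 => ha0 (Subtype.ext h0)
  obtain ⟨m, u, hu1, hu2, hau⟩ := unif_fac_mem hu a.2 ha0'
  have hu0 : u ≠ 0 := by
    rintro rfl
    exact ha0' (by rw [hau, mul_zero])
  refine ⟨m, ?_⟩
  have e1 : algebraMap K F ϖ ^ (m : ℤ) * y = algebraMap K F u⁻¹ * (a • y) := by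
    rw [Algebra.smul_def]
    change _ = algebraMap K F u⁻¹ * (algebraMap K F (a : K) * y)
    rw [hau, ← mul_assoc, ← map_mul, zpow_natCast, ← map_pow]
    congr 2
    field_simp
  rw [e1]
  exact V'.mul_mem _ _ ((hV _).mpr hu2) (hV.mem_of_isIntegral ha)

omit [Algebra.IsSeparable K F] in
/-- **Scaling.**  Every nonzero element of `F` has a `ϖ`-power multiple which lies in all the
`V i` and is not divisible by `ϖ` in all of them. -/
theorem Family.exists_zpow_mul (h : Family O ϖ V e f) (y : F) (hy : y ≠ 0) :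
    ∃ n : ℤ, (∀ i, algebraMap K F ϖ ^ n * y ∈ V i) ∧
      ∃ i, algebraMap K F ϖ ^ (n - 1) * y ∉ V i := by
  have hϖ0 : algebraMap K F ϖ ≠ 0 := (map_ne_zero _).mpr h.unif.ne_zero
  -- upward closed
  have hup : ∀ i (n m : ℤ), n ≤ m → algebraMap K F ϖ ^ n * y ∈ V i →
      algebraMap K F ϖ ^ m * y ∈ V i := by
    intro i n m hnm hn
    have e1 : algebraMap K F ϖ ^ m * y = algebraMap K F (ϖ ^ (m - n)) *
        (algebraMap K F ϖ ^ n * y) := by
      rw [map_zpow₀, ← mul_assoc, ← zpow_add₀ hϖ0, sub_add_cancel]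
    rw [e1]
    exact (V i).mul_mem _ _ (((h.above i) _).mpr ((unif_zpow_mem_iff h.unif _).mpr (by omega))) hn
  -- nonempty index set
  have hne : Nonempty ι := by
    by_contra hemp
    rw [not_nonempty_iff] at hemp
    have := h.deg
    rw [Finset.univ_eq_empty, Finset.sum_empty] at this
    exact absurd (Module.finrank_pos (R := K) (M := F)) (by omega)
  obtain ⟨i0⟩ := hne
  have hex : ∃ n : ℤ, ∀ i, algebraMap K F ϖ ^ n * y ∈ V i := by
    choose n hn using fun i => exists_zpow_mul_mem h.unif (h.above i) y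
    refine ⟨∑ i, |n i|, fun i => hup i (n i) _ ?_ (hn i)⟩
    exact (le_abs_self _).trans
      (Finset.single_le_sum (f := fun i => |n i|) (fun j _ => abs_nonneg _) (Finset.mem_univ i))
  have hbdd : ∃ b : ℤ, ∀ z : ℤ, (∀ i, algebraMap K F ϖ ^ z * y ∈ V i) → b ≤ z := by
    obtain ⟨m, hm⟩ := exists_zpow_mul_mem h.unif (h.above i0) y⁻¹
    refine ⟨-m, fun z hz => ?_⟩
    by_contra hlt
    push Not at hlt
    have h1 : algebraMap K F ϖ ^ (z + m) ∈ V i0 := by
      have e1 : algebraMap K F ϖ ^ (z + m) =
          (algebraMap K F ϖ ^ z * y) * (algebraMap K F ϖ ^ m * y⁻¹) := by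
        rw [zpow_add₀ hϖ0]
        field_simp
      rw [e1]
      exact (V i0).mul_mem _ _ (hz i0) hm
    rw [← map_zpow₀, (h.above i0) _, unif_zpow_mem_iff h.unif] at h1
    omega
  obtain ⟨n, hn, hmin⟩ := Int.exists_least_of_bdd hbdd hex
  refine ⟨n, hn, ?_⟩
  by_contra hcon
  push Not at hcon
  have := hmin (n - 1) hcon
  omega

end Count

/-! ### Charts: the integral closure of a two-dimensional base ring

`R0 ⊆ O` a subring of `K` (e.g. `A[J]`), `R1 = R0[1/ϖ]` (e.g. `L[J]`) integrally closed in `K`,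
`R0 = R1 ∩ O`, and `O` is a localisation of `R0`.  Then the integral closure `B` of `R0` in `F` is
`(integral closure of R1) ∩ ⋂ V i`, the primes of `B` minimal over `ϖ` are exactly the centres of
the `V i`, and `V i` is the localisation of `B` at its centre. -/

section Chart

open Polynomial

variable {K F : Type*} [Field K] [Field F] [Algebra K F]

/-- Chart data: `R1` is integrally closed in `K`, `R0 = R1 ∩ O`, `O` is a localisation of `R0`
at elements which are units of `O`, and `ϖ` is invertible in `R1`. -/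
structure Chart (O : ValuationSubring K) (ϖ : K) (R0 R1 : Type*) [CommRing R0] [CommRing R1]
    [Algebra R0 K] [Algebra R1 K] : Prop where
  closed : ∀ x : K, IsIntegral R1 x → x ∈ (algebraMap R1 K).range
  inter : ∀ x : K, x ∈ (algebraMap R0 K).range ↔ x ∈ (algebraMap R1 K).range ∧ x ∈ O
  loc : ∀ x ∈ O, ∃ t : R0, algebraMap R0 K t ≠ 0 ∧ (algebraMap R0 K t)⁻¹ ∈ O ∧
    algebraMap R0 K t * x ∈ (algebraMap R0 K).range
  unif_inv : ϖ⁻¹ ∈ (algebraMap R1 K).range

variable {O : ValuationSubring K} {ϖ : K}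
  {R0 R1 : Type*} [CommRing R0] [CommRing R1] [Algebra R0 K] [Algebra R1 K]
  [Algebra R0 F] [Algebra R1 F] [IsScalarTower R0 K F] [IsScalarTower R1 K F]

/-- Integrality transfers along an inclusion of images in `K`. -/
theorem isIntegral_of_range_le {A B : Type*} [CommRing A] [CommRing B] [Algebra A K]
    [Algebra B K] [Algebra A F] [Algebra B F] [IsScalarTower A K F] [IsScalarTower B K F]
    (hAB : ∀ a : A, algebraMap A K a ∈ (algebraMap B K).range) {x : F} (hx : IsIntegral A x) :
    IsIntegral B x := by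
  obtain ⟨p, hpm, hp⟩ := hx
  have hl : p.map (algebraMap A K) ∈ lifts (algebraMap B K) := by
    rw [lifts_iff_coeff_lifts]
    intro n
    rw [coeff_map]
    exact hAB _
  obtain ⟨q, hq, -, hqm⟩ := lifts_and_natDegree_eq_and_monic hl (hpm.map _)
  refine ⟨q, hqm, ?_⟩
  rw [← aeval_def, ← aeval_map_algebraMap K, hq, aeval_map_algebraMap, aeval_def, hp]

theorem Chart.algebraMap_mem (hc : Chart O ϖ R0 R1) (a : R0) : algebraMap R0 K a ∈ O :=
  ((hc.inter _).mp ⟨a, rfl⟩).2

theorem Chart.isIntegral_R1 (hc : Chart O ϖ R0 R1) {x : F} (hx : IsIntegral R0 x) :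
    IsIntegral R1 x :=
  isIntegral_of_range_le (fun a => ((hc.inter _).mp ⟨a, rfl⟩).1) hx

omit [Algebra R1 F] [IsScalarTower R1 K F] in
theorem Chart.isIntegral_O (hc : Chart O ϖ R0 R1) {x : F} (hx : IsIntegral R0 x) :
    IsIntegral O x :=
  isIntegral_of_range_le (K := K) (A := R0) (B := O)
    (fun a => ⟨⟨algebraMap R0 K a, hc.algebraMap_mem a⟩, rfl⟩) hx

/-- The coefficients of the minimal polynomial over `K` of an element integral over `A` are
integral over `A`. -/
theorem isIntegral_coeff_minpoly {A : Type*} [CommRing A] [Algebra A K] [Algebra A F]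
    [IsScalarTower A K F] [FiniteDimensional K F] {x : F} (hA : IsIntegral A x) (n : ℕ) :
    IsIntegral A ((minpoly K x).coeff n) := by
  have hm : (minpoly K x).Monic := minpoly.monic (IsIntegral.of_finite K x)
  obtain ⟨p, hpm, hp⟩ := hA
  have hd : minpoly K x ∣ p.map (algebraMap A K) :=
    minpoly.dvd K x (by rw [aeval_map_algebraMap, aeval_def, hp])
  have hl := integralClosure.mem_lifts_of_monic_of_dvd_map K hpm hm hd
  rw [lifts_iff_coeff_lifts] at hl
  obtain ⟨y, hy⟩ := hl n
  rw [← hy]
  exact y.2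

/-- **`B = B₁ ∩ S`**: an element integral over `R1` and over `O` is integral over `R0`. -/
theorem Chart.isIntegral (hc : Chart O ϖ R0 R1) [FiniteDimensional K F] {x : F}
    (h1 : IsIntegral R1 x) (hO : IsIntegral O x) : IsIntegral R0 x := by
  have hm : (minpoly K x).Monic := minpoly.monic (IsIntegral.of_finite K x)
  have hl : minpoly K x ∈ lifts (algebraMap R0 K) := by
    rw [lifts_iff_coeff_lifts]
    intro n
    refine (hc.inter _).mpr ⟨hc.closed _ (isIntegral_coeff_minpoly h1 n), ?_⟩
    obtain ⟨y, hy⟩ := IsIntegrallyClosedIn.isIntegral_iff.mp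
      (isIntegral_coeff_minpoly (K := K) hO n)
    rw [← hy]
    exact y.2
  obtain ⟨q, hq, -, hqm⟩ := lifts_and_natDegree_eq_and_monic hl hm
  refine ⟨q, hqm, ?_⟩
  rw [← aeval_def, ← aeval_map_algebraMap K, hq, minpoly.aeval]

omit [Algebra R1 F] [IsScalarTower R1 K F] in
/-- Clearing denominators: an element integral over `O` becomes integral over `R0` after
multiplication by an element of `R0` which is a unit of `O`. -/
theorem Chart.exists_mul_isIntegral (hc : Chart O ϖ R0 R1) {a : F} (ha : IsIntegral O a) :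
    ∃ t : R0, algebraMap R0 K t ≠ 0 ∧ (algebraMap R0 K t)⁻¹ ∈ O ∧
      IsIntegral R0 (algebraMap R0 F t * a) := by
  classical
  obtain ⟨p, hpm, hp⟩ := ha
  choose t ht0 htinv ht using fun j : ℕ => hc.loc (p.coeff j : K) (p.coeff j).2
  set T : R0 := ∏ j ∈ Finset.range p.natDegree, t j with hT
  have hT0 : algebraMap R0 K T ≠ 0 := by
    rw [hT, map_prod]
    exact Finset.prod_ne_zero_iff.mpr fun j _ => ht0 j
  have hTinv : (algebraMap R0 K T)⁻¹ ∈ O := by
    rw [hT, map_prod, ← Finset.prod_inv_distrib]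
    exact Subring.prod_mem O.toSubring fun j _ => htinv j
  have hTc : ∀ j < p.natDegree,
      algebraMap R0 K T * (p.coeff j : K) ∈ (algebraMap R0 K).range := by
    intro j hj
    have hjm : j ∈ Finset.range p.natDegree := Finset.mem_range.mpr hj
    rw [hT, ← Finset.prod_erase_mul _ _ hjm, map_mul, mul_assoc]
    exact Subring.mul_mem _ ⟨_, rfl⟩ (ht j)
  set pK : K[X] := p.map (algebraMap O K) with hpK
  have hpKm : pK.Monic := hpm.map _
  have hroot : aeval a pK = 0 := by rw [hpK, aeval_map_algebraMap, aeval_def, hp]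
  set τ : K := algebraMap R0 K T with hτ
  have hroot' : aeval (algebraMap K F τ * a) (pK.scaleRoots τ) = 0 :=
    scaleRoots_aeval_eq_zero hroot
  have hdeg : pK.natDegree = p.natDegree := hpm.natDegree_map _
  have hl : pK.scaleRoots τ ∈ lifts (algebraMap R0 K) := by
    rw [lifts_iff_coeff_lifts]
    intro n
    rw [coeff_scaleRoots, hdeg]
    change _ ∈ (algebraMap R0 K).range
    rcases lt_trichotomy n p.natDegree with hn | hn | hn
    · have e1 : pK.coeff n * τ ^ (p.natDegree - n) =
          (τ * (p.coeff n : K)) * τ ^ (p.natDegree - n - 1) := by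
        rw [hpK, coeff_map]
        change (p.coeff n : K) * _ = _
        have : p.natDegree - n = (p.natDegree - n - 1) + 1 := by omega
        conv_lhs => rw [this, pow_succ]
        ring
      rw [e1]
      have hτr : τ ∈ (algebraMap R0 K).range := ⟨T, rfl⟩
      exact Subring.mul_mem _ (hTc n hn) (Subring.pow_mem _ hτr _)
    · rw [hn, Nat.sub_self, pow_zero, mul_one, ← hdeg, hpKm.coeff_natDegree]
      exact Subring.one_mem _
    · rw [coeff_eq_zero_of_natDegree_lt (by omega), zero_mul]
      exact Subring.zero_mem _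
  obtain ⟨q, hq, -, hqm⟩ := lifts_and_natDegree_eq_and_monic hl
    ((monic_scaleRoots_iff τ).mpr hpKm)
  refine ⟨T, hT0, hTinv, q, hqm, ?_⟩
  rw [← aeval_def, ← aeval_map_algebraMap K, hq, IsScalarTower.algebraMap_apply R0 K F]
  exact hroot'

end Chart

section ChartFamily

variable {K F : Type*} [Field K] [Field F] [Algebra K F] [FiniteDimensional K F]
  [Algebra.IsSeparable K F] {ι : Type*} [Fintype ι]
  {O : ValuationSubring K} {ϖ : K} {V : ι → ValuationSubring F} {e f : ι → ℕ}
  {R0 R1 : Type*} [CommRing R0] [CommRing R1] [Algebra R0 K] [Algebra R1 K]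
  [Algebra R0 F] [Algebra R1 F] [IsScalarTower R0 K F] [IsScalarTower R1 K F]

omit [FiniteDimensional K F] [Algebra.IsSeparable K F] [Algebra R1 F] [IsScalarTower R1 K F] in
/-- `B ⊆ V i`. -/
theorem Family.algebraMap_closure_mem (h : Family O ϖ V e f) (hc : Chart O ϖ R0 R1) (i : ι)
    (b : integralClosure R0 F) : algebraMap (integralClosure R0 F) F b ∈ V i :=
  (h.above i).mem_of_isIntegral (hc.isIntegral_O b.2)

/-- **`B = (integral closure of R1) ∩ ⋂ V i`.** -/
theorem Family.isIntegral_chart (h : Family O ϖ V e f) (hc : Chart O ϖ R0 R1) {x : F}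
    (h1 : IsIntegral R1 x) (hx : ∀ i, x ∈ V i) : IsIntegral R0 x :=
  hc.isIntegral h1 (h.isIntegral_of_forall_mem hx)

omit [Algebra R1 F] [IsScalarTower R1 K F] in
/-- **`V i` is the localisation of `B` at its centre.** -/
theorem Family.exists_eq_div_chart (h : Family O ϖ V e f) (hc : Chart O ϖ R0 R1) (i : ι) {x : F}
    (hx : x ∈ V i) : ∃ b s : integralClosure R0 F, (s : F) ≠ 0 ∧ (s : F)⁻¹ ∈ V i ∧
      x = (b : F) / (s : F) := by
  have hdvr := unif_isDiscreteValuationRing h.unif
  obtain ⟨a, s0, hs0, rfl⟩ := exists_eq_div (h.above i) hx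
  obtain ⟨hs0inv, hs00⟩ := (not_mem_centre_iff (h.above i) s0).mp hs0
  obtain ⟨ta, hta0, htainv, hta⟩ := hc.exists_mul_isIntegral a.2
  obtain ⟨ts, hts0, htsinv, hts⟩ := hc.exists_mul_isIntegral s0.2
  have e1 : ∀ t : R0, algebraMap R0 F t = algebraMap K F (algebraMap R0 K t) := fun t =>
    IsScalarTower.algebraMap_apply R0 K F t
  have hta0' : algebraMap R0 F ta ≠ 0 := by rw [e1]; exact (map_ne_zero _).mpr hta0
  have hts0' : algebraMap R0 F ts ≠ 0 := by rw [e1]; exact (map_ne_zero _).mpr hts0
  have htaV : (algebraMap R0 F ta)⁻¹ ∈ V i := by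
    rw [e1, ← map_inv₀]; exact ((h.above i) _).mpr htainv
  have htsV : (algebraMap R0 F ts)⁻¹ ∈ V i := by
    rw [e1, ← map_inv₀]; exact ((h.above i) _).mpr htsinv
  refine ⟨⟨algebraMap R0 F ts * (algebraMap R0 F ta * a), IsIntegral.mul isIntegral_algebraMap hta⟩,
    ⟨algebraMap R0 F ta * (algebraMap R0 F ts * s0), IsIntegral.mul isIntegral_algebraMap hts⟩,
    ?_, ?_, ?_⟩
  · exact mul_ne_zero hta0' (mul_ne_zero hts0' hs00)
  · change (algebraMap R0 F ta * (algebraMap R0 F ts * (s0 : F)))⁻¹ ∈ V i
    rw [mul_inv, mul_inv]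
    exact (V i).mul_mem _ _ htaV ((V i).mul_mem _ _ htsV hs0inv)
  · change (a : F) / (s0 : F) = (algebraMap R0 F ts * (algebraMap R0 F ta * (a : F))) /
      (algebraMap R0 F ta * (algebraMap R0 F ts * (s0 : F)))
    field_simp

/-- Every prime of `B` containing `ϖ` contains the centre of one of the `V i`. -/
theorem Family.exists_centre_le (h : Family O ϖ V e f) (hc : Chart O ϖ R0 R1) (ϖ0 : R0)
    (hϖ0 : algebraMap R0 K ϖ0 = ϖ) (𝔮 : Ideal (integralClosure R0 F)) [h𝔮 : 𝔮.IsPrime]
    (hq : algebraMap R0 (integralClosure R0 F) ϖ0 ∈ 𝔮) :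
    ∃ i, Local.centre (V i) (h.algebraMap_closure_mem hc i) ≤ 𝔮 := by
  classical
  have hdvr := unif_isDiscreteValuationRing h.unif
  by_contra hcon
  push Not at hcon
  have hex : ∀ i, ∃ b, b ∈ Local.centre (V i) (h.algebraMap_closure_mem hc i) ∧ b ∉ 𝔮 :=
    fun i => SetLike.not_le_iff_exists.mp (hcon i)
  choose b hb hbq using hex
  set β : integralClosure R0 F := ∏ i, b i with hβdef
  have hβq : β ∉ 𝔮 := by
    rw [hβdef, Ideal.IsPrime.prod_mem_iff]
    push Not
    exact fun i _ => hbq i
  have hβ : ∀ i, (β : F) ∈ (V i).nonunits := by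
    intro i
    rw [hβdef, ← Finset.mul_prod_erase _ _ (Finset.mem_univ i), Subalgebra.coe_mul, mul_comm]
    refine mul_mem_nonunits ?_ ((Local.mem_centre_iff _ _ _).mp (hb i))
    exact h.algebraMap_closure_mem hc i _
  set E : ℕ := ∑ i, (centre (h.above i)).ramificationIdx O with hE
  have hϖ0' : algebraMap K F ϖ ≠ 0 := (map_ne_zero _).mpr h.unif.ne_zero
  have hγ : ∀ i, (β : F) ^ E * (algebraMap K F ϖ)⁻¹ ∈ V i := by
    intro i
    let βS : integralClosure O F := ⟨(β : F), hc.isIntegral_O β.2⟩
    have hβS : βS ∈ centre (h.above i) := hβ i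
    have hpow : βS ^ (centre (h.above i)).ramificationIdx O ∈
        centre (h.above i) ^ (1 * (centre (h.above i)).ramificationIdx O) := by
      rw [one_mul]; exact Ideal.pow_mem_pow hβS _
    obtain ⟨c, hcV, e1⟩ := exists_eq_unif_pow_mul h.unif (h.above i) 1 hpow
    have e1' : (β : F) ^ (centre (h.above i)).ramificationIdx O = algebraMap K F ϖ * c := by
      rw [pow_one] at e1
      rw [← e1]
      rfl
    have hle : (centre (h.above i)).ramificationIdx O ≤ E :=
      Finset.single_le_sum (f := fun i => (centre (h.above i)).ramificationIdx O)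
        (fun _ _ => Nat.zero_le _) (Finset.mem_univ i)
    have e2 : (β : F) ^ E * (algebraMap K F ϖ)⁻¹ =
        (β : F) ^ (E - (centre (h.above i)).ramificationIdx O) * c := by
      conv_lhs => rw [← Nat.sub_add_cancel hle, pow_add, e1']
      field_simp
    rw [e2]
    exact (V i).mul_mem _ _ ((V i).pow_mem ((V i).nonunits_le (hβ i)) _) hcV
  have hγO : IsIntegral O ((β : F) ^ E * (algebraMap K F ϖ)⁻¹) := h.isIntegral_of_forall_mem hγ
  have hγ1 : IsIntegral R1 ((β : F) ^ E * (algebraMap K F ϖ)⁻¹) := by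
    obtain ⟨r, hr⟩ := hc.unif_inv
    have e3 : (algebraMap K F ϖ)⁻¹ = algebraMap R1 F r := by
      rw [IsScalarTower.algebraMap_apply R1 K F, hr, map_inv₀]
    rw [e3]
    exact IsIntegral.mul (IsIntegral.pow (hc.isIntegral_R1 β.2) E) isIntegral_algebraMap
  have hγ0 : IsIntegral R0 ((β : F) ^ E * (algebraMap K F ϖ)⁻¹) := hc.isIntegral hγ1 hγO
  have e4 : β ^ E = algebraMap R0 (integralClosure R0 F) ϖ0 * ⟨_, hγ0⟩ := by
    apply Subtype.ext
    have e5 : ((algebraMap R0 (integralClosure R0 F) ϖ0 : integralClosure R0 F) : F) =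
        algebraMap K F ϖ := by
      rw [← hϖ0, ← IsScalarTower.algebraMap_apply R0 K F]
      rfl
    rw [Subalgebra.coe_mul, e5, Subalgebra.coe_pow]
    field_simp
  have hmem : β ^ E ∈ 𝔮 := by
    rw [e4]
    exact 𝔮.mul_mem_right _ hq
  exact hβq (h𝔮.mem_of_pow_mem E hmem)

omit [Algebra R1 F] [IsScalarTower R1 K F] in
/-- The centres on `B` are pairwise incomparable. -/
theorem Family.exists_mem_centre_notMem (h : Family O ϖ V e f) (hc : Chart O ϖ R0 R1) {i j : ι}
    (hij : i ≠ j) : ∃ b : integralClosure R0 F,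
      b ∈ Local.centre (V j) (h.algebraMap_closure_mem hc j) ∧
      b ∉ Local.centre (V i) (h.algebraMap_closure_mem hc i) := by
  classical
  obtain ⟨x, hx, hxr⟩ := h.exists_sub_mem_nonunits (fun l => if l = j then 0 else 1)
    (fun l => by
      split_ifs
      · exact (V l).zero_mem
      · exact (V l).one_mem)
  obtain ⟨t, ht0, htinv, ht⟩ := hc.exists_mul_isIntegral hx
  have e1 : algebraMap R0 F t = algebraMap K F (algebraMap R0 K t) :=
    IsScalarTower.algebraMap_apply R0 K F t
  have ht0' : algebraMap R0 F t ≠ 0 := by rw [e1]; exact (map_ne_zero _).mpr ht0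
  refine ⟨⟨_, ht⟩, ?_, ?_⟩
  · rw [Local.mem_centre_iff]
    change algebraMap R0 F t * x ∈ (V j).nonunits
    have hj := hxr j
    rw [if_pos rfl, sub_zero] at hj
    refine mul_mem_nonunits ?_ hj
    rw [e1]
    exact ((h.above j) _).mpr (hc.algebraMap_mem t)
  · rw [Local.mem_centre_iff]
    change algebraMap R0 F t * x ∉ (V i).nonunits
    intro hmem
    have hi := hxr i
    rw [if_neg hij] at hi
    have htV : (algebraMap R0 F t)⁻¹ ∈ V i := by
      rw [e1, ← map_inv₀]; exact ((h.above i) _).mpr htinv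
    have hxn : x ∈ (V i).nonunits := by
      have : x = (algebraMap R0 F t)⁻¹ * (algebraMap R0 F t * x) := by
        rw [← mul_assoc, inv_mul_cancel₀ ht0', one_mul]
      rw [this]
      exact mul_mem_nonunits htV hmem
    have h1 : (1 : F) ∈ (V i).nonunits := by
      have : (1 : F) = x - (x - 1) := by ring
      rw [this]
      exact (V i).nonunits.sub_mem hxn hi
    rw [ValuationSubring.mem_nonunits_iff, map_one] at h1
    exact lt_irrefl _ h1

omit [FiniteDimensional K F] [Algebra.IsSeparable K F] [Algebra R1 F] [IsScalarTower R1 K F] in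
theorem Family.unif_mem_centre (h : Family O ϖ V e f) (hc : Chart O ϖ R0 R1) (ϖ0 : R0)
    (hϖ0 : algebraMap R0 K ϖ0 = ϖ) (i : ι) :
    algebraMap R0 (integralClosure R0 F) ϖ0 ∈
      Local.centre (V i) (h.algebraMap_closure_mem hc i) := by
  rw [Local.mem_centre_iff]
  change algebraMap R0 F ϖ0 ∈ (V i).nonunits
  rw [IsScalarTower.algebraMap_apply R0 K F, hϖ0]
  exact ((h.above i).algebraMap_mem_nonunits_iff ϖ).mpr h.unif.mem_nonunits

/-- **The primes of `B` minimal over `ϖ` are centres of the `V i`** (the hypothesis `hmin` of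
`CAR/Local/Exhaust.exists_centre_le_of_mem`). -/
theorem Family.minimalPrimes_chart (h : Family O ϖ V e f) (hc : Chart O ϖ R0 R1) (ϖ0 : R0)
    (hϖ0 : algebraMap R0 K ϖ0 = ϖ) :
    ∀ 𝔮 ∈ (Ideal.span {algebraMap R0 (integralClosure R0 F) ϖ0}).minimalPrimes,
      ∃ i, 𝔮 = Local.centre (V i) (h.algebraMap_closure_mem hc i) := by
  intro 𝔮 h𝔮
  have hprime : 𝔮.IsPrime := h𝔮.1.1
  obtain ⟨i, hi⟩ := h.exists_centre_le hc ϖ0 hϖ0 𝔮 (h𝔮.1.2 (Ideal.mem_span_singleton_self _))
  refine ⟨i, le_antisymm (h𝔮.2 ⟨Local.centre_isPrime _ _, ?_⟩ hi) hi⟩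
  rw [Ideal.span_singleton_le_iff_mem]
  exact h.unif_mem_centre hc ϖ0 hϖ0 i

/-- Conversely every centre is minimal over `ϖ`. -/
theorem Family.centre_mem_minimalPrimes (h : Family O ϖ V e f) (hc : Chart O ϖ R0 R1) (ϖ0 : R0)
    (hϖ0 : algebraMap R0 K ϖ0 = ϖ) (i : ι) :
    Local.centre (V i) (h.algebraMap_closure_mem hc i) ∈
      (Ideal.span {algebraMap R0 (integralClosure R0 F) ϖ0}).minimalPrimes := by
  refine ⟨⟨Local.centre_isPrime _ _, ?_⟩, ?_⟩
  · rw [Ideal.span_singleton_le_iff_mem]
    exact h.unif_mem_centre hc ϖ0 hϖ0 i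
  · rintro 𝔮 ⟨hprime, hle⟩ hle'
    obtain ⟨j, hj⟩ := h.exists_centre_le hc ϖ0 hϖ0 𝔮 (hle (Ideal.mem_span_singleton_self _))
    by_cases hji : j = i
    · subst hji
      exact hj
    · exfalso
      obtain ⟨b, hbj, hbi⟩ := h.exists_mem_centre_notMem hc (i := i) (j := j) (Ne.symm hji)
      exact hbi (hle' (hj hbj))

end ChartFamily

end Fermat.Agent.CAR.V3.CountAbs
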