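import Mathlib
import Fermat.Agent.CAR.V3.CountAbs

/-!
# CAR / V3-Count, brick (G): the abstract Gauss package

`L ⊆ E` fields, `A` a valuation subring of `L`, `x : E`, `O` a valuation subring of `E` with
(`IsGauss A x O`)

* `hA  : ∀ a : L, algebraMap L E a ∈ O ↔ a ∈ A`           (`O ∩ L = A`),
* `hx  : x ∈ O`,
* `htr : ∀ P : A[X]` with a unit coefficient, `P(x) ∉ O.nonunits`  (the residue of `x` is
  transcendental over the residue field of `A`).

`K = L(x)`, `Ox L x O = O ∩ K`.  Then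

* `IsGauss.aeval_mem_iff`  : `P(x) ∈ O ↔ P ∈ A[X]` for `P ∈ L[X]`;
* `IsGauss.transcendental` : `x` is transcendental over `L`;
* `IsGauss.exists_normal`  : every nonzero `y ∈ K` is `c · R(x)/S(x)`, `c ∈ Lˣ`, `R, S ∈ A[X]`
  primitive;
* `IsGauss.isUnif`   (G1)  : `IsUnif A ϖ → IsUnif (Ox L x O) (algebraMap L K ϖ)`;
* `IsGauss.chart`    (G2)  : `CountAbs.Chart (Ox L x O) (algebraMap L K ϖ) R0 R1` for ANY
  commutative rings `R0`, `R1` with algebra maps to `K` whose images are `A[x]` and `L[x]`;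
  `IsGauss.chart_poly` : the case `R0 = A[X]`, `R1 = L[X]`.
-/

set_option autoImplicit false

noncomputable section

namespace Fermat.Agent.CAR.V3.GaussPkg

open Polynomial IntermediateField
open Fermat.Agent.CAR.Formal (IsUnif)
open Fermat.Agent.CAR.V3.CountAbs

open scoped IntermediateField.algebraAdjoinAdjoin

variable {L E : Type*} [Field L] [Field E] [Algebra L E]

/-- The restriction of `O` to `L(x)`. -/
def Ox (L : Type*) {E : Type*} [Field L] [Field E] [Algebra L E] (x : E) (O : ValuationSubring E) :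
    ValuationSubring ↥(L⟮x⟯) :=
  O.comap (algebraMap ↥(L⟮x⟯) E)

theorem mem_Ox_iff (x : E) (O : ValuationSubring E) (c : ↥(L⟮x⟯)) :
    c ∈ Ox L x O ↔ (c : E) ∈ O := Iff.rfl

/-- `O` lies above `Ox`. -/
theorem isAbove_Ox (x : E) (O : ValuationSubring E) : IsAbove (Ox L x O) O := fun _ => Iff.rfl

/-- The Gauss hypotheses: `O ∩ L = A`, `x ∈ O`, and primitive polynomials in `x` are units. -/
structure IsGauss (A : ValuationSubring L) (x : E) (O : ValuationSubring E) : Prop where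
  hA : ∀ a : L, algebraMap L E a ∈ O ↔ a ∈ A
  hx : x ∈ O
  htr : ∀ P : Polynomial A, (∃ n, ((P.coeff n : A) : L) ∉ A.nonunits) →
    Polynomial.aeval x (P.map A.subtype) ∉ O.nonunits

/-- Primitive scaling: a nonzero polynomial over `L` is a constant multiple of a polynomial over
`A` one of whose coefficients is `1`. -/
theorem exists_primitive (A : ValuationSubring L) (P : L[X]) (hP : P ≠ 0) :
    ∃ c : L, c ≠ 0 ∧ ∃ P₀ : Polynomial A, P₀.map A.subtype = C c * P ∧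
      ∃ n, ((P₀.coeff n : A) : L) ∉ A.nonunits := by
  classical
  obtain ⟨j, hj, hmax⟩ := Finset.exists_max_image P.support (fun i => A.valuation (P.coeff i))
    (Polynomial.support_nonempty.mpr hP)
  have hcj : P.coeff j ≠ 0 := Polynomial.mem_support_iff.mp hj
  have hcoeff : ∀ i, (C (P.coeff j)⁻¹ * P).coeff i ∈ A := by
    intro i
    rw [coeff_C_mul]
    by_cases hi : i ∈ P.support
    · rw [← A.valuation_le_one_iff, map_mul, map_inv₀,
        inv_mul_le_iff₀ (lt_of_le_of_ne zero_le (Ne.symm ((map_ne_zero A.valuation).mpr hcj))),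
        mul_one]
      exact hmax i hi
    · rw [Polynomial.notMem_support_iff.mp hi, mul_zero]
      exact A.zero_mem
  have hl : C (P.coeff j)⁻¹ * P ∈ Polynomial.lifts A.subtype := by
    rw [lifts_iff_coeff_lifts]
    intro i
    exact ⟨⟨_, hcoeff i⟩, rfl⟩
  obtain ⟨P₀, hP₀'⟩ := hl
  have hP₀ : P₀.map A.subtype = C (P.coeff j)⁻¹ * P := hP₀'
  refine ⟨(P.coeff j)⁻¹, inv_ne_zero hcj, P₀, hP₀, j, ?_⟩
  have h1 : ((P₀.coeff j : A) : L) = 1 := by
    have h2 := congrArg (fun Q : L[X] => Q.coeff j) hP₀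
    simp only [coeff_map, coeff_C_mul] at h2
    rw [show ((P₀.coeff j : A) : L) = A.subtype (P₀.coeff j) from rfl, h2, inv_mul_cancel₀ hcj]
  rw [h1, ValuationSubring.mem_nonunits_iff, map_one]
  exact lt_irrefl _

namespace IsGauss

variable {A : ValuationSubring L} {x : E} {O : ValuationSubring E}

theorem algebraMap_mem (h : IsGauss A x O) (a : A) : algebraMap L E (a : L) ∈ O :=
  (h.hA _).mpr a.2

/-- `P(x) ∈ O` for `P ∈ A[X]`. -/
theorem aeval_map_mem (h : IsGauss A x O) (P : Polynomial A) :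
    aeval x (P.map A.subtype) ∈ O := by
  rw [aeval_def, eval₂_map, eval₂_eq_sum_range]
  exact sum_mem fun i _ => O.mul_mem _ _ (h.algebraMap_mem _) (pow_mem h.hx i)

theorem aeval_map_ne_zero (h : IsGauss A x O) (P : Polynomial A)
    (hP : ∃ n, ((P.coeff n : A) : L) ∉ A.nonunits) : aeval x (P.map A.subtype) ≠ 0 := by
  have h1 := h.htr P hP
  rw [ValuationSubring.mem_nonunits_iff_or, not_or] at h1
  exact h1.1

theorem inv_aeval_map_mem (h : IsGauss A x O) (P : Polynomial A)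
    (hP : ∃ n, ((P.coeff n : A) : L) ∉ A.nonunits) : (aeval x (P.map A.subtype))⁻¹ ∈ O := by
  have h1 := h.htr P hP
  rw [ValuationSubring.mem_nonunits_iff_or, not_or, not_not] at h1
  exact h1.2

/-- `x` is transcendental over `L`: nonzero polynomials do not vanish at `x`. -/
theorem aeval_ne_zero (h : IsGauss A x O) {P : L[X]} (hP : P ≠ 0) : aeval x P ≠ 0 := by
  obtain ⟨c, hc, P₀, hP₀, hprim⟩ := exists_primitive A P hP
  have h1 := h.aeval_map_ne_zero P₀ hprim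
  rw [hP₀, map_mul, aeval_C] at h1
  exact right_ne_zero_of_mul h1

theorem transcendental (h : IsGauss A x O) : Transcendental L x := by
  rw [transcendental_iff]
  intro P hP
  by_contra hne
  exact h.aeval_ne_zero hne hP

/-- **`L[x] ∩ O = A[x]`.** -/
theorem aeval_mem_iff (h : IsGauss A x O) (P : L[X]) :
    aeval x P ∈ O ↔ ∃ P₀ : Polynomial A, P₀.map A.subtype = P := by
  constructor
  · intro hP
    rcases eq_or_ne P 0 with rfl | hP0
    · exact ⟨0, Polynomial.map_zero _⟩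
    obtain ⟨c, hc, P₀, hP₀, hprim⟩ := exists_primitive A P hP0
    have hu := h.inv_aeval_map_mem P₀ hprim
    have hne := h.aeval_map_ne_zero P₀ hprim
    have hcinv : c⁻¹ ∈ A := by
      rw [← h.hA]
      have h2 : algebraMap L E c⁻¹ = aeval x P * (aeval x (P₀.map A.subtype))⁻¹ := by
        rw [hP₀, map_mul, aeval_C] at hne ⊢
        have hc' : algebraMap L E c ≠ 0 := left_ne_zero_of_mul hne
        have hP' : aeval x P ≠ 0 := right_ne_zero_of_mul hne
        rw [map_inv₀]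
        field_simp
      rw [h2]
      exact O.mul_mem _ _ hP hu
    refine ⟨C ⟨c⁻¹, hcinv⟩ * P₀, ?_⟩
    rw [Polynomial.map_mul, map_C, hP₀, ← mul_assoc, ← C_mul]
    show C (c⁻¹ * c) * P = P
    rw [inv_mul_cancel₀ hc, C_1, one_mul]
  · rintro ⟨P₀, rfl⟩
    exact h.aeval_map_mem P₀

/-- Every element of `L(x)` is a quotient of polynomials in `x` with nonzero denominator. -/
theorem exists_div (y : ↥(L⟮x⟯)) :
    ∃ r s : L[X], s ≠ 0 ∧ (y : E) = aeval x r / aeval x s := by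
  obtain ⟨r, s, hrs⟩ := (mem_adjoin_simple_iff L (y : E)).mp y.2
  rcases eq_or_ne s 0 with rfl | hs
  · refine ⟨0, 1, one_ne_zero, ?_⟩
    rw [hrs, map_zero, div_zero, zero_div]
  · exact ⟨r, s, hs, hrs⟩

/-- **Normal form**: a nonzero element of `L(x)` is a nonzero constant times a quotient of
primitive polynomials over `A` evaluated at `x`. -/
theorem exists_normal (h : IsGauss A x O) (y : ↥(L⟮x⟯)) (hy : y ≠ 0) :
    ∃ (c : L) (R S : Polynomial A), c ≠ 0 ∧ (∃ n, ((R.coeff n : A) : L) ∉ A.nonunits) ∧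
      (∃ n, ((S.coeff n : A) : L) ∉ A.nonunits) ∧
      (y : E) = algebraMap L E c * (aeval x (R.map A.subtype) / aeval x (S.map A.subtype)) := by
  obtain ⟨r, s, hs, hrs⟩ := exists_div y
  have hy' : (y : E) ≠ 0 := fun h0 => hy (Subtype.ext h0)
  have hr : r ≠ 0 := by
    rintro rfl
    rw [map_zero, zero_div] at hrs
    exact hy' hrs
  obtain ⟨c₁, hc₁, R, hR, hRp⟩ := exists_primitive A r hr
  obtain ⟨c₂, hc₂, S, hS, hSp⟩ := exists_primitive A s hs
  refine ⟨c₂ / c₁, R, S, div_ne_zero hc₂ hc₁, hRp, hSp, ?_⟩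
  have hs' := h.aeval_ne_zero hs
  have h1 : algebraMap L E c₁ ≠ 0 := (_root_.map_ne_zero _).mpr hc₁
  have h2 : algebraMap L E c₂ ≠ 0 := (_root_.map_ne_zero _).mpr hc₂
  rw [hrs, hR, hS, map_mul, map_mul, aeval_C, aeval_C, map_div₀]
  field_simp

/-- **(G1)**: a uniformiser of `A` is a uniformiser of the Gauss valuation ring of `L(x)`. -/
theorem isUnif (h : IsGauss A x O) {ϖ : L} (hϖ : IsUnif A ϖ) :
    IsUnif (Ox L x O) (algebraMap L ↥(L⟮x⟯) ϖ) where
  mem := by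
    show algebraMap L E ϖ ∈ O
    exact (h.hA ϖ).mpr hϖ.mem
  inv_notMem := by
    intro hmem
    have h1 : algebraMap L E ϖ⁻¹ ∈ O := by
      have h2 : (((algebraMap L ↥(L⟮x⟯) ϖ)⁻¹ : ↥(L⟮x⟯)) : E) ∈ O := hmem
      rw [map_inv₀]
      exact h2
    exact hϖ.inv_notMem ((h.hA _).mp h1)
  exists_zpow := by
    intro y hy
    obtain ⟨c, R, S, hc, hRp, hSp, hyE⟩ := h.exists_normal y hy
    obtain ⟨n, u₀, hu₀, hu₀', rfl⟩ := hϖ.exists_zpow c hc
    have hϖ0 : ϖ ≠ 0 := hϖ.ne_zero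
    have hu0 : u₀ ≠ 0 := right_ne_zero_of_mul hc
    have hϖK : algebraMap L ↥(L⟮x⟯) ϖ ≠ 0 := (_root_.map_ne_zero _).mpr hϖ0
    have hϖE : algebraMap L E ϖ ≠ 0 := (_root_.map_ne_zero _).mpr hϖ0
    have hRne := h.aeval_map_ne_zero R hRp
    have hSne := h.aeval_map_ne_zero S hSp
    have huE : algebraMap L E u₀ ≠ 0 := (_root_.map_ne_zero _).mpr hu0
    set u : ↥(L⟮x⟯) := ((algebraMap L ↥(L⟮x⟯) ϖ) ^ n)⁻¹ * y with hu
    have hcoe : (u : E) = algebraMap L E u₀ *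
        (aeval x (R.map A.subtype) / aeval x (S.map A.subtype)) := by
      have h3 : (u : E) = ((algebraMap L E ϖ) ^ n)⁻¹ * (y : E) := by
        show algebraMap ↥(L⟮x⟯) E u = _
        rw [hu, map_mul, map_inv₀, map_zpow₀, ← IsScalarTower.algebraMap_apply L ↥(L⟮x⟯) E]
        rfl
      rw [h3, hyE, map_mul, map_zpow₀]
      field_simp
    refine ⟨n, u, ?_, ?_, ?_⟩
    · show (u : E) ∈ O
      rw [hcoe, div_eq_mul_inv]
      exact O.mul_mem _ _ ((h.hA _).mpr hu₀)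
        (O.mul_mem _ _ (h.aeval_map_mem R) (h.inv_aeval_map_mem S hSp))
    · show ((u⁻¹ : ↥(L⟮x⟯)) : E) ∈ O
      have h4 : ((u⁻¹ : ↥(L⟮x⟯)) : E) = algebraMap L E u₀⁻¹ *
          (aeval x (S.map A.subtype) * (aeval x (R.map A.subtype))⁻¹) := by
        rw [IntermediateField.coe_inv, hcoe, map_inv₀]
        field_simp
      rw [h4]
      exact O.mul_mem _ _ ((h.hA _).mpr hu₀')
        (O.mul_mem _ _ (h.aeval_map_mem S) (h.inv_aeval_map_mem R hRp))
    · rw [hu, ← mul_assoc, mul_inv_cancel₀ (zpow_ne_zero n hϖK), one_mul]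

/-- `L[x]` is integrally closed in `L(x)`: an element of `L(x)` integral over a ring whose image
lies in `L[x]` is a polynomial in `x`. -/
theorem exists_aeval_of_isIntegral (h : IsGauss A x O) {R1 : Type*} [CommRing R1]
    [Algebra R1 ↥(L⟮x⟯)]
    (h1 : ∀ a : R1, ∃ P : L[X], ((algebraMap R1 ↥(L⟮x⟯) a : ↥(L⟮x⟯)) : E) = aeval x P)
    {y : ↥(L⟮x⟯)} (hy : IsIntegral R1 y) : ∃ P : L[X], (y : E) = aeval x P := by
  have hcl : IsIntegrallyClosed ↥(Algebra.adjoin L {x}) :=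
    IsIntegrallyClosed.of_equiv
      (Polynomial.algEquivOfTranscendental L x h.transcendental).toRingEquiv
  have hint : IsIntegral ↥(Algebra.adjoin L {x}) y := by
    refine isIntegral_of_range_le (K := ↥(L⟮x⟯)) (F := ↥(L⟮x⟯)) (fun a => ?_) hy
    obtain ⟨P, hP⟩ := h1 a
    refine ⟨⟨aeval x P, Polynomial.aeval_mem_adjoin_singleton L x⟩, ?_⟩
    apply Subtype.ext
    rw [hP]
    rfl
  obtain ⟨s, hs⟩ := (IsIntegrallyClosed.isIntegral_iff (R := ↥(Algebra.adjoin L {x}))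
    (K := ↥(L⟮x⟯))).mp hint
  have hsmem : (s : E) ∈ (Polynomial.aeval (R := L) x).range := by
    rw [← Algebra.adjoin_singleton_eq_range_aeval]
    exact s.2
  obtain ⟨P, hP⟩ := hsmem
  have hP' : aeval x P = (s : E) := hP
  refine ⟨P, ?_⟩
  rw [← hs, hP']
  rfl

/-- **(G2)**: chart data for the Gauss valuation ring of `L(x)`, for any rings `R0`, `R1` whose
images in `L(x)` are `A[x]` and `L[x]`. -/
theorem chart (h : IsGauss A x O) (ϖ : L) {R0 R1 : Type*} [CommRing R0] [CommRing R1]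
    [Algebra R0 ↥(L⟮x⟯)] [Algebra R1 ↥(L⟮x⟯)]
    (h0 : ∀ y : ↥(L⟮x⟯), y ∈ (algebraMap R0 ↥(L⟮x⟯)).range ↔
      ∃ P : Polynomial A, (y : E) = aeval x (P.map A.subtype))
    (h1 : ∀ y : ↥(L⟮x⟯), y ∈ (algebraMap R1 ↥(L⟮x⟯)).range ↔
      ∃ P : L[X], (y : E) = aeval x P) :
    Chart (Ox L x O) (algebraMap L ↥(L⟮x⟯) ϖ) R0 R1 where
  closed := by
    intro y hy
    rw [h1]
    exact h.exists_aeval_of_isIntegral (fun a => (h1 _).mp ⟨a, rfl⟩) hy
  inter := by
    intro y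
    rw [h0, h1]
    constructor
    · rintro ⟨P, hP⟩
      refine ⟨⟨P.map A.subtype, hP⟩, ?_⟩
      show (y : E) ∈ O
      rw [hP]
      exact h.aeval_map_mem P
    · rintro ⟨⟨P, hP⟩, hyO⟩
      have hyO' : (y : E) ∈ O := hyO
      rw [hP] at hyO'
      obtain ⟨P₀, rfl⟩ := (h.aeval_mem_iff P).mp hyO'
      exact ⟨P₀, hP⟩
  loc := by
    intro y hy
    have hyO : (y : E) ∈ O := hy
    obtain ⟨r, s, hs, hrs⟩ := exists_div y
    obtain ⟨c, hc, S, hS, hSp⟩ := exists_primitive A s hs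
    set tK : ↥(L⟮x⟯) := aeval (AdjoinSimple.gen L x) (S.map A.subtype) with htKdef
    have htK : (tK : E) = aeval x (S.map A.subtype) := by
      rw [htKdef, ← IntermediateField.aeval_coe, AdjoinSimple.coe_gen]
    obtain ⟨t, ht⟩ := (h0 tK).mpr ⟨S, htK⟩
    have hSne := h.aeval_map_ne_zero S hSp
    refine ⟨t, ?_, ?_, ?_⟩
    · intro h0'
      apply hSne
      rw [← htK, ← ht, h0']
      rfl
    · show (((algebraMap R0 ↥(L⟮x⟯) t)⁻¹ : ↥(L⟮x⟯)) : E) ∈ O
      rw [IntermediateField.coe_inv, ht, htK]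
      exact h.inv_aeval_map_mem S hSp
    · have ht' : algebraMap R0 ↥(L⟮x⟯) t = tK := ht
      rw [ht', h0]
      have h2 : ((tK * y : ↥(L⟮x⟯)) : E) = aeval x (C c * r) := by
        have hs' := h.aeval_ne_zero hs
        rw [IntermediateField.coe_mul, htK, hrs, hS, map_mul, map_mul, aeval_C]
        field_simp
      have h3 : aeval x (C c * r) ∈ O := by
        rw [← h2, IntermediateField.coe_mul, htK]
        exact O.mul_mem _ _ (h.aeval_map_mem S) hyO
      obtain ⟨P₀, hP₀⟩ := (h.aeval_mem_iff _).mp h3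
      exact ⟨P₀, by rw [h2, hP₀]⟩
  unif_inv := by
    rw [h1]
    refine ⟨C ϖ⁻¹, ?_⟩
    rw [aeval_C, IntermediateField.coe_inv, map_inv₀]
    rfl

/-- **(G2)** for `R0 = A[X]`, `R1 = L[X]` with algebra maps `P ↦ P(x)`. -/
theorem chart_poly (h : IsGauss A x O) (ϖ : L) [Algebra (Polynomial A) ↥(L⟮x⟯)]
    [Algebra L[X] ↥(L⟮x⟯)]
    (h0 : ∀ P : Polynomial A, ((algebraMap (Polynomial A) ↥(L⟮x⟯) P : ↥(L⟮x⟯)) : E)
      = aeval x (P.map A.subtype))
    (h1 : ∀ P : L[X], ((algebraMap L[X] ↥(L⟮x⟯) P : ↥(L⟮x⟯)) : E) = aeval x P) :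
    Chart (Ox L x O) (algebraMap L ↥(L⟮x⟯) ϖ) (Polynomial A) L[X] := by
  refine h.chart ϖ (fun y => ?_) (fun y => ?_)
  · constructor
    · rintro ⟨P, rfl⟩
      exact ⟨P, h0 P⟩
    · rintro ⟨P, hP⟩
      exact ⟨P, Subtype.ext (by rw [hP]; exact h0 P)⟩
  · constructor
    · rintro ⟨P, rfl⟩
      exact ⟨P, h1 P⟩
    · rintro ⟨P, hP⟩
      exact ⟨P, Subtype.ext (by rw [hP]; exact h1 P)⟩

/-- (G1) for any element `ϖ'` of `L(x)` equal to the constant `ϖ` (instance-free form). -/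
theorem isUnif_of_coe (h : IsGauss A x O) {ϖ : L} (hϖ : IsUnif A ϖ) (ϖ' : ↥(L⟮x⟯))
    (hϖ' : (ϖ' : E) = algebraMap L E ϖ) : IsUnif (Ox L x O) ϖ' := by
  have h1 : ϖ' = algebraMap L ↥(L⟮x⟯) ϖ := Subtype.ext hϖ'
  rw [h1]
  exact h.isUnif hϖ

/-- (G2) for any element `ϖ'` of `L(x)` equal to the constant `ϖ` (instance-free form). -/
theorem chart_of_coe (h : IsGauss A x O) (ϖ : L) (ϖ' : ↥(L⟮x⟯))
    (hϖ' : (ϖ' : E) = algebraMap L E ϖ) {R0 R1 : Type*} [CommRing R0] [CommRing R1]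
    [Algebra R0 ↥(L⟮x⟯)] [Algebra R1 ↥(L⟮x⟯)]
    (h0 : ∀ y : ↥(L⟮x⟯), y ∈ (algebraMap R0 ↥(L⟮x⟯)).range ↔
      ∃ P : Polynomial A, (y : E) = aeval x (P.map A.subtype))
    (h1 : ∀ y : ↥(L⟮x⟯), y ∈ (algebraMap R1 ↥(L⟮x⟯)).range ↔
      ∃ P : L[X], (y : E) = aeval x P) :
    Chart (Ox L x O) ϖ' R0 R1 := by
  have h2 : ϖ' = algebraMap L ↥(L⟮x⟯) ϖ := Subtype.ext hϖ'
  rw [h2]
  exact h.chart ϖ h0 h1

end IsGauss

end Fermat.Agent.CAR.V3.GaussPkg
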