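import Mathlib
import Fermat.Agent.CAR.V3.GaussPkg
import Fermat.Agent.Lib.Red.BaseData

/-!
# CAR / V3-Count, brick (B1): the good-reduction family `Ow / Ov`

RED setting `(L, A, π, k)`, level `N` with `(N : k) ≠ 0`, base function data `B`
(`x = B.x`, `K = L(x)`, `F' = L·F_N`).  The Gauss valuation ring `Ow` of `F'` is the ONLY
valuation subring of `F'` above the Gauss valuation ring `B.Ov` of `L(x)`, with `e = 1`,
`f = [F' : L(x)]`:

* `isGauss`     : `GaussPkg.IsGauss A B.x Ow` (so (G1), (G2) apply to `B.Ov = Ox L B.x Ow`);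
* `isUnif_Ov_of_coe`, `isUnif_Ov` : a uniformiser of `A` is a uniformiser of `B.Ov`;
* `goodFamily_of_coe`, `goodFamily` :
  `∃ n, CountAbs.Family (B.Ov hNk) ϖ (fun _ : Unit => Ow) (fun _ => 1) (fun _ => n)`;
* `finiteDimensional`, `isSeparable` : the instance arguments of the `CountAbs.Family` API.

The `_of_coe` forms take the uniformiser as an element `ϖ' : L(x)` with
`(ϖ' : F') = algebraMap L F' ϖ`, so that no instance `Algebra L ↥(L⟮B.x⟯)` occurs (its default
synthesis, `IntermediateField.algebra'`, needs `synthInstance.maxHeartbeats` above the default).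
-/

set_option autoImplicit false

noncomputable section

namespace Fermat.Agent.CAR.V3.CountGood

open HahnSeries ModularCurve Polynomial AlgebraicCurve Fermat.Agent.S28 IntermediateField
open Fermat.Agent.Lib.Red Fermat.Agent.Lib.Red.BaseFn
open Fermat.Agent.CAR.Formal (IsUnif)
open Fermat.Agent.CAR.V3.CountAbs Fermat.Agent.CAR.V3.GaussPkg

variable {L : Type*} [Field L] [Algebra ℚ L] {A : ValuationSubring L} {k : Type} [Field k]
  {π : A →+* k} {N : ℕ} [NeZero N] (B : BaseFn.Data A π N)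

/-- The Gauss hypotheses for `(A, x, Ow)`. -/
theorem isGauss (hπ : ∀ a : A, ¬ IsUnit a → π a = 0) (hNk : (N : k) ≠ 0) :
    IsGauss A B.x (Ow A π N hNk) where
  hA := algebraMap_mem_Ow_iff hπ hNk
  hx := B.x_mem_Ow hNk
  htr := by
    rintro P ⟨n, hn⟩
    have hunit : IsUnit (P.coeff n) := by
      by_contra hnu
      exact hn (ValuationSubring.coe_mem_nonunits_iff.mpr
        ((IsLocalRing.mem_maximalIdeal _).mpr hnu))
    have hP : P.map π ≠ 0 := by
      intro h0
      have h1 : π (P.coeff n) = 0 := by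
        have := congrArg (fun Q : Polynomial k => Q.coeff n) h0
        simpa [coeff_map] using this
      exact (hunit.map π).ne_zero h1
    have hu := B.isUnit_aeval_map hπ hNk P hP
    intro hmem
    have h2 := (ValuationSubring.coe_mem_nonunits_iff
      (a := (⟨_, B.aeval_map_mem_Ow hNk P⟩ : Ow A π N hNk))).mp hmem
    exact (IsLocalRing.mem_maximalIdeal _).mp h2 hu

/-- `B.Ov` is the restriction of `Ow` to `L(x)`. -/
theorem Ov_eq (hNk : (N : k) ≠ 0) : B.Ov hNk = Ox L B.x (Ow A π N hNk) := rfl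

/-- A uniformiser of `A` is a uniformiser of the Gauss valuation ring of `L(x)`. -/
theorem isUnif_Ov_of_coe (hπ : ∀ a : A, ¬ IsUnit a → π a = 0) (hNk : (N : k) ≠ 0) {ϖ : L}
    (hϖ : IsUnif A ϖ) (ϖ' : ↥(L⟮B.x⟯))
    (hϖ' : (ϖ' : ↥(laurentBaseChange L (modularFunctionFieldFull N))) = algebraMap L _ ϖ) :
    IsUnif (B.Ov hNk) ϖ' :=
  (isGauss B hπ hNk).isUnif_of_coe hϖ ϖ' hϖ'

/-- `F'` is finite over `L(x)`. -/
theorem finiteDimensional (hπ : ∀ a : A, ¬ IsUnit a → π a = 0) (hsurj : Function.Surjective π)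
    (hNk : (N : k) ≠ 0) :
    FiniteDimensional ↥(L⟮B.x⟯) ↥(laurentBaseChange L (modularFunctionFieldFull N)) :=
  B.finite_L hπ hsurj hNk

/-- `F'` is separable over `L(x)` (characteristic zero). -/
theorem isSeparable (hπ : ∀ a : A, ¬ IsUnit a → π a = 0) (hsurj : Function.Surjective π)
    (hNk : (N : k) ≠ 0) :
    Algebra.IsSeparable ↥(L⟮B.x⟯) ↥(laurentBaseChange L (modularFunctionFieldFull N)) := by
  have hfin : FiniteDimensional ↥(L⟮B.x⟯) ↥(laurentBaseChange L (modularFunctionFieldFull N)) :=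
    B.finite_L hπ hsurj hNk
  have hL : CharZero L := algebraRat.charZero L
  have hF : CharZero ↥(laurentBaseChange L (modularFunctionFieldFull N)) :=
    charZero_of_injective_algebraMap
      (algebraMap L ↥(laurentBaseChange L (modularFunctionFieldFull N))).injective
  have hK : CharZero ↥(L⟮B.x⟯) := by
    refine ⟨fun a b hab => ?_⟩
    have h1 : ((a : ↥(L⟮B.x⟯)) : ↥(laurentBaseChange L (modularFunctionFieldFull N)))
        = ((b : ↥(L⟮B.x⟯)) : ↥(laurentBaseChange L (modularFunctionFieldFull N))) := by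
      rw [hab]
    have h2 : ((a : ℕ) : ↥(laurentBaseChange L (modularFunctionFieldFull N))) = (b : ℕ) := by
      simpa using h1
    exact_mod_cast h2
  have hperf : PerfectField ↥(L⟮B.x⟯) := PerfectField.ofCharZero
  have halg : Algebra.IsAlgebraic ↥(L⟮B.x⟯)
      ↥(laurentBaseChange L (modularFunctionFieldFull N)) := Algebra.IsAlgebraic.of_finite _ _
  exact Algebra.IsAlgebraic.isSeparable_of_perfectField

/-- **(B1)**: `Ow` is the unique valuation subring of `F'` above `B.Ov`, unramified, of residue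
degree `[F' : L(x)]` (uniformiser given as an element of `L(x)`). -/
theorem goodFamily_of_coe (hπ : ∀ a : A, ¬ IsUnit a → π a = 0) (hsurj : Function.Surjective π)
    (hNk : (N : k) ≠ 0) {ϖ : L} (hϖ : IsUnif A ϖ) (ϖ' : ↥(L⟮B.x⟯))
    (hϖ' : (ϖ' : ↥(laurentBaseChange L (modularFunctionFieldFull N))) = algebraMap L _ ϖ) :
    ∃ n : ℕ, Family (B.Ov hNk) ϖ' (fun _ : Unit => Ow A π N hNk) (fun _ => 1) (fun _ => n) := by
  obtain ⟨n, ⟨G⟩⟩ := B.exists_goodBasis hπ hsurj hNk
  refine ⟨n, ?_⟩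
  refine
    { unif := isUnif_Ov_of_coe B hπ hNk hϖ ϖ' hϖ'
      above := fun _ c => (B.mem_Ov_iff hNk c).symm
      inj := fun a b _ => Subsingleton.elim a b
      ram := ?_
      res := ?_
      deg := ?_ }
  · intro _
    refine ⟨algebraMap ↥(L⟮B.x⟯) ↥(laurentBaseChange L (modularFunctionFieldFull N)) ϖ', 1, ?_,
      (Ow A π N hNk).one_mem, by rw [pow_one, mul_one]⟩
    rw [ValuationSubring.mem_nonunits_iff_or]
    right
    intro hmem
    have h1 : algebraMap L ↥(laurentBaseChange L (modularFunctionFieldFull N)) ϖ⁻¹ ∈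
        Ow A π N hNk := by
      rw [map_inv₀, ← hϖ']
      exact hmem
    exact hϖ.inv_notMem ((algebraMap_mem_Ow_iff hπ hNk _).mp h1)
  · intro _
    refine ⟨fun j => ((G.b j : Ow A π N hNk) :
      ↥(laurentBaseChange L (modularFunctionFieldFull N))), fun j => (G.b j).2, ?_⟩
    intro c hc hsum j
    -- the element of `Ow`
    set Y : Ow A π N hNk := ∑ j, ⟨algebraMap ↥(L⟮B.x⟯) _ (c j),
      G.compat.algebraMap_mem ⟨c j, hc j⟩⟩ * G.b j with hY
    have hYcoe : ((Y : Ow A π N hNk) : ↥(laurentBaseChange L (modularFunctionFieldFull N))) =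
        ∑ j, algebraMap ↥(L⟮B.x⟯) _ (c j) *
          ((G.b j : Ow A π N hNk) : ↥(laurentBaseChange L (modularFunctionFieldFull N))) := by
      rw [hY, AddSubmonoidClass.coe_finsetSum]
      rfl
    have hYnu : ¬ IsUnit Y := by
      have h1 : ((Y : Ow A π N hNk) : ↥(laurentBaseChange L (modularFunctionFieldFull N))) ∈
          (Ow A π N hNk).nonunits := by
        rw [hYcoe]
        exact hsum
      exact (IsLocalRing.mem_maximalIdeal _).mp (ValuationSubring.coe_mem_nonunits_iff.mp h1)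
    have hred : redF A π N hπ hNk Y = 0 := (G.compat.ker Y).mpr hYnu
    rw [hY, map_sum] at hred
    have hred' : ∑ j, (B.redv hπ hNk ⟨c j, hc j⟩) • redF A π N hπ hNk (G.b j) = 0 := by
      rw [← hred]
      refine Finset.sum_congr rfl fun j _ => ?_
      rw [map_mul, G.compat.red_algebraMap ⟨c j, hc j⟩, Algebra.smul_def]
    have hzero := (Fintype.linearIndependent_iff.mp G.ind) _ hred' j
    have hnu : ¬ IsUnit (⟨c j, hc j⟩ : B.Ov hNk) := (G.compat.ker₀ _).mp hzero
    exact ValuationSubring.coe_mem_nonunits_iff.mpr ((IsLocalRing.mem_maximalIdeal _).mpr hnu)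
  · rw [Module.finrank_eq_card_basis G.basisF]
    simp

/-- (G2) for `B.Ov`: chart data for any rings `R0`, `R1` with images `A[x]`, `L[x]` in `L(x)`. -/
theorem chart_Ov_of_coe (hπ : ∀ a : A, ¬ IsUnit a → π a = 0) (hNk : (N : k) ≠ 0) (ϖ : L)
    (ϖ' : ↥(L⟮B.x⟯))
    (hϖ' : (ϖ' : ↥(laurentBaseChange L (modularFunctionFieldFull N))) = algebraMap L _ ϖ)
    {R0 R1 : Type*} [CommRing R0] [CommRing R1] [Algebra R0 ↥(L⟮B.x⟯)] [Algebra R1 ↥(L⟮B.x⟯)]
    (h0 : ∀ y : ↥(L⟮B.x⟯), y ∈ (algebraMap R0 ↥(L⟮B.x⟯)).range ↔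
      ∃ P : Polynomial A, (y : ↥(laurentBaseChange L (modularFunctionFieldFull N)))
        = aeval B.x (P.map A.subtype))
    (h1 : ∀ y : ↥(L⟮B.x⟯), y ∈ (algebraMap R1 ↥(L⟮B.x⟯)).range ↔
      ∃ P : Polynomial L, (y : ↥(laurentBaseChange L (modularFunctionFieldFull N)))
        = aeval B.x P) :
    Chart (B.Ov hNk) ϖ' R0 R1 :=
  (isGauss B hπ hNk).chart_of_coe ϖ ϖ' hϖ' h0 h1

set_option synthInstance.maxHeartbeats 400000 in
/-- `isUnif_Ov_of_coe` for the literal constant `algebraMap L ↥(L⟮B.x⟯) ϖ` (default instance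
`IntermediateField.algebra'`; its synthesis needs the raised `synthInstance.maxHeartbeats`). -/
theorem isUnif_Ov (hπ : ∀ a : A, ¬ IsUnit a → π a = 0) (hNk : (N : k) ≠ 0) {ϖ : L}
    (hϖ : IsUnif A ϖ) : IsUnif (B.Ov hNk) (algebraMap L ↥(L⟮B.x⟯) ϖ) :=
  isUnif_Ov_of_coe B hπ hNk hϖ _ rfl

set_option synthInstance.maxHeartbeats 400000 in
/-- **(B1)**, literal form: the uniformiser is `algebraMap L ↥(L⟮B.x⟯) ϖ`. -/
theorem goodFamily (hπ : ∀ a : A, ¬ IsUnit a → π a = 0) (hsurj : Function.Surjective π)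
    (hNk : (N : k) ≠ 0) {ϖ : L} (hϖ : IsUnif A ϖ) :
    ∃ n : ℕ, Family (B.Ov hNk) (algebraMap L ↥(L⟮B.x⟯) ϖ)
      (fun _ : Unit => Ow A π N hNk) (fun _ => 1) (fun _ => n) :=
  goodFamily_of_coe B hπ hsurj hNk hϖ _ rfl

end Fermat.Agent.CAR.V3.CountGood
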