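/-
CAR / V3 (AL3): the Atkin–Lehner involutions without roots of unity.

* `exists_isAL_of_charZero` : for EVERY field `L ⊇ ℚ` (no root-of-unity hypothesis) and a prime
  `ℓ ∤ M` there is an Atkin–Lehner involution `W` of `L·F_{Mℓ}` (`IsAL M ℓ W`): the involution
  over `AlgebraicClosure L` (`TwoVal.exists_isAL`) permutes the generators `J(q^d)`, hence descends
  along the coefficientwise base change `bcK`;
* `exists_al3` : the Atkin–Lehner involution `w` of `L·F_{M'q²}` at `q²` (`q ∤ M'` prime):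
  `w ∘ π_0^* = π_2^*`, `w ∘ π_1^* = π_1^*`, `w ∘ π_2^* = π_0^*`.  Construction:
  `F_{M'q²} = α(F_{M'q})(J(q^{q²}))` has degree `q` (`LevelDeg.finrank_alpha_of_dvd`), the minimal
  polynomial of `J(q^{q²})` is `Φ_q(X, J(q^q)) / (X - J(q))`, and `J(q)` is a root of its image
  `Φ_q(X, J(q^q)) / (X - J(q^{q²}))` under `β ∘ W₁`; so `α(f) ↦ β(W₁ f)`, `J(q^{q²}) ↦ J(q)`
  extends to a field endomorphism, which is an involution.
-/
import Mathlib
import Fermat.Agent.CAR.V3.Inf
import Fermat.Agent.ESJ.Cong.LevelDeg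
import Fermat.Agent.ESJ.Dict.Bc

set_option autoImplicit false
set_option linter.style.haveILetI false

namespace Fermat.Agent.CAR.V3.AL3

open ModularCurve AlgebraicCurve Polynomial Fermat.Agent.S28
open Fermat.Agent.ESJ.Cong.LevelGen Fermat.Agent.BAD.TwoVal Fermat.Agent.ESJ.Dict.Bc

noncomputable section

/-! ### Abstract lemmas -/

/-- Descent of a ring endomorphism along an injective ring homomorphism. -/
theorem exists_descent {R S : Type*} [Semiring R] [Semiring S] (b : R →+* S)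
    (hb : Function.Injective b) (W' : S →+* S) (h : ∀ x, W' (b x) ∈ Set.range b) :
    ∃ W : R →+* R, ∀ x, b (W x) = W' (b x) := by
  choose g hg using h
  refine ⟨{ toFun := g, map_one' := ?_, map_mul' := ?_, map_zero' := ?_, map_add' := ?_ }, hg⟩
  · apply hb; rw [hg, map_one, map_one]
  · intro x y; apply hb; rw [hg, map_mul, map_mul, map_mul, hg, hg]
  · apply hb; rw [hg, map_zero, map_zero]
  · intro x y; apply hb; rw [hg, map_add, map_add, map_add, hg, hg]

/-- If `a` is a root of `Q` and `t ≠ φ a` is a root of `φ(Q)`, then `t` is a root of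
`φ(Q / (X - a))`. -/
theorem eval_map_divByMonic_eq_zero {K₀ Ω : Type*} [Field K₀] [Field Ω] (φ : K₀ →+* Ω)
    (Q : Polynomial K₀) (a : K₀) (ha : Q.eval a = 0) (t : Ω) (ht : (Q.map φ).eval t = 0)
    (hne : t ≠ φ a) : ((Q /ₘ (X - C a)).map φ).eval t = 0 := by
  have h1 : (X - C a) * (Q /ₘ (X - C a)) = Q := Polynomial.mul_divByMonic_eq_iff_isRoot.mpr ha
  have h2 : (Q.map φ).eval t = (t - φ a) * ((Q /ₘ (X - C a)).map φ).eval t := by
    conv_lhs => rw [← h1]
    rw [Polynomial.map_mul, Polynomial.eval_mul, Polynomial.map_sub, Polynomial.map_X,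
      Polynomial.map_C, Polynomial.eval_sub, Polynomial.eval_X, Polynomial.eval_C]
  rw [ht] at h2
  rcases mul_eq_zero.mp h2.symm with h | h
  · exact absurd (sub_eq_zero.mp h) hne
  · exact h

/-! ### Base change and the degeneracy maps -/

section Bc

variable {K L : Type*} [Field K] [Field L] [Algebra ℚ K] [Algebra ℚ L] (ι : K →+* L)
  (N ℓ : ℕ) [NeZero N] [NeZero ℓ]

theorem bcK_heckeAlphaBar (x : laurentBaseChange K (modularFunctionFieldFull N)) :
    bcK ι (modularFunctionFieldFull (N * ℓ)) (heckeAlphaBar K N ℓ x) =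
      heckeAlphaBar L N ℓ (bcK ι (modularFunctionFieldFull N) x) := by
  apply Subtype.ext
  rw [coe_bcK, coe_heckeAlphaBar, coe_heckeAlphaBar, coe_bcK]

omit [NeZero N] in
theorem bcK_heckeBetaBar (x : laurentBaseChange K (modularFunctionFieldFull N)) :
    bcK ι (modularFunctionFieldFull (N * ℓ)) (heckeBetaBar K N ℓ x) =
      heckeBetaBar L N ℓ (bcK ι (modularFunctionFieldFull N) x) := by
  apply Subtype.ext
  rw [coe_bcK, coe_heckeBetaBar, coe_heckeBetaBar, coe_bcK, Kummer.coeffMap_qExpand']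

theorem bcK_jLevel :
    bcK ι (modularFunctionFieldFull N) (jLevel K N) = jLevel L N := by
  apply Subtype.ext
  rw [coe_bcK, coe_jLevel, coe_jLevel, TD.coeffMap_Jd]

end Bc

/-! ### The Atkin–Lehner involution of `F_{Mℓ}` over an arbitrary field `L ⊇ ℚ` -/

/-- **Atkin–Lehner without roots of unity**: for every field `L ⊇ ℚ` and every prime `ℓ ∤ M`
there is an `L`-automorphism of `L·F_{Mℓ}` exchanging the two degeneracy maps. -/
theorem exists_isAL_of_charZero {L : Type} [Field L] [Algebra ℚ L] (M ℓ : ℕ) [NeZero M] [NeZero ℓ]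
    (hℓ : ℓ.Prime) (hℓM : ¬ ℓ ∣ M) :
    ∃ W : laurentBaseChange L (modularFunctionFieldFull (M * ℓ)) ≃ₐ[L]
      laurentBaseChange L (modularFunctionFieldFull (M * ℓ)), IsAL M ℓ W := by
  haveI : CharZero L := algebraRat.charZero L
  haveI : NeZero (ℓ : L) := ⟨Nat.cast_ne_zero.mpr hℓ.ne_zero⟩
  obtain ⟨ζ0, hζ0⟩ := HasEnoughRootsOfUnity.exists_primitiveRoot (AlgebraicClosure L) ℓ
  obtain ⟨ζ, rfl⟩ := hζ0.isUnit hℓ.ne_zero
  obtain ⟨W', hW'⟩ := exists_isAL (L := AlgebraicClosure L) M ℓ hℓ hℓM ζ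
    (IsPrimitiveRoot.coe_units_iff.mp hζ0)
  let ι : L →+* AlgebraicClosure L := algebraMap L (AlgebraicClosure L)
  let b := bcK ι (modularFunctionFieldFull (M * ℓ))
  have hb : Function.Injective b := bcK_injective _ _
  have hle : Subfield.closure (Set.range (heckeAlphaBar L M ℓ) ∪
      {heckeBetaBar L M ℓ (jLevel L M)}) ≤
      (b.fieldRange).comap ((W'.toRingEquiv.toRingHom).comp b) := by
    rw [Subfield.closure_le]
    rintro y (⟨x, rfl⟩ | hy)
    · show W' (b (heckeAlphaBar L M ℓ x)) ∈ b.fieldRange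
      rw [show b (heckeAlphaBar L M ℓ x) = heckeAlphaBar (AlgebraicClosure L) M ℓ
        (bcK ι (modularFunctionFieldFull M) x) from bcK_heckeAlphaBar ι M ℓ x, hW'.alpha,
        ← bcK_heckeBetaBar ι M ℓ x]
      exact ⟨_, rfl⟩
    · rw [Set.mem_singleton_iff] at hy
      rw [hy]
      show W' (b (heckeBetaBar L M ℓ (jLevel L M))) ∈ b.fieldRange
      rw [show b (heckeBetaBar L M ℓ (jLevel L M)) = heckeBetaBar (AlgebraicClosure L) M ℓ
        (bcK ι (modularFunctionFieldFull M) (jLevel L M)) from bcK_heckeBetaBar ι M ℓ _,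
        hW'.beta, ← bcK_heckeAlphaBar ι M ℓ]
      exact ⟨_, rfl⟩
  rw [closure_range_heckeAlphaBar_union L M ℓ hℓ hℓM] at hle
  have hS : ∀ x, (W'.toRingEquiv.toRingHom) (b x) ∈ Set.range b := fun x =>
    hle (Subfield.mem_top x)
  obtain ⟨W, hW⟩ := exists_descent b hb W'.toRingEquiv.toRingHom hS
  have hW1 : ∀ x, b (W x) = W' (b x) := hW
  have hα : ∀ x, W (heckeAlphaBar L M ℓ x) = heckeBetaBar L M ℓ x := by
    intro x
    apply hb
    rw [hW1, show b (heckeAlphaBar L M ℓ x) = heckeAlphaBar (AlgebraicClosure L) M ℓ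
        (bcK ι (modularFunctionFieldFull M) x) from bcK_heckeAlphaBar ι M ℓ x, hW'.alpha]
    exact (bcK_heckeBetaBar ι M ℓ x).symm
  have hβ : ∀ x, W (heckeBetaBar L M ℓ x) = heckeAlphaBar L M ℓ x := by
    intro x
    apply hb
    rw [hW1, show b (heckeBetaBar L M ℓ x) = heckeBetaBar (AlgebraicClosure L) M ℓ
        (bcK ι (modularFunctionFieldFull M) x) from bcK_heckeBetaBar ι M ℓ x, hW'.beta]
    exact (bcK_heckeAlphaBar ι M ℓ x).symm
  have hinv : ∀ z, W (W z) = z := by
    intro z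
    apply hb
    rw [hW1, hW1, hW'.invol hℓ hℓM]
  have hcomm : ∀ c : L, W (algebraMap L _ c) = algebraMap L _ c := by
    intro c
    apply hb
    rw [hW1]
    show W' (bcK ι (modularFunctionFieldFull (M * ℓ)) (algebraMap L _ c)) =
      bcK ι (modularFunctionFieldFull (M * ℓ)) (algebraMap L _ c)
    rw [bcK_algebraMap, AlgEquiv.commutes]
  let WA : laurentBaseChange L (modularFunctionFieldFull (M * ℓ)) →ₐ[L]
      laurentBaseChange L (modularFunctionFieldFull (M * ℓ)) := { W with commutes' := hcomm }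
  have hWA : ∀ z, WA z = W z := fun z => rfl
  refine ⟨AlgEquiv.ofAlgHom WA WA (AlgHom.ext fun z => ?_) (AlgHom.ext fun z => ?_), ⟨hα, hβ⟩⟩
  · rw [AlgHom.comp_apply, hWA, hWA, hinv, AlgHom.id_apply]
  · rw [AlgHom.comp_apply, hWA, hWA, hinv, AlgHom.id_apply]

/-! ### The Atkin–Lehner involution of `F_{M'q²}` at `q²` -/

section Sq

variable {L : Type} [Field L] [Algebra ℚ L] (M' q : ℕ) [NeZero M'] [NeZero q]

/-- `β(α f) = α(β f)`: both are `f(q^q)`. -/
theorem heckeBetaBar_heckeAlphaBar (y : laurentBaseChange L (modularFunctionFieldFull M')) :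
    heckeBetaBar L (M' * q) q (heckeAlphaBar L M' q y) =
      heckeAlphaBar L (M' * q) q (heckeBetaBar L M' q y) := by
  apply Subtype.ext
  rw [coe_heckeBetaBar, coe_heckeAlphaBar, coe_heckeAlphaBar, coe_heckeBetaBar]

theorem heckeAlphaBar_jLevel :
    heckeAlphaBar L M' q (jLevel L M') = jLevel L (M' * q) := by
  apply Subtype.ext
  rw [coe_heckeAlphaBar, coe_jLevel, coe_jLevel]

/-- The extension step: given an Atkin–Lehner involution `W₁` of `F_{M'q}`, a ring endomorphism
`w` of `F_{M'q²}` with `w ∘ α = β ∘ W₁` and `w (J(q^{q²})) = J(q)`. -/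
theorem exists_ringHom_sq (hq : q.Prime) (hqM : ¬ q ∣ M')
    (W₁ : laurentBaseChange L (modularFunctionFieldFull (M' * q)) ≃ₐ[L]
      laurentBaseChange L (modularFunctionFieldFull (M' * q))) (hW₁ : IsAL M' q W₁) :
    ∃ w : laurentBaseChange L (modularFunctionFieldFull (M' * q * q)) →+*
        laurentBaseChange L (modularFunctionFieldFull (M' * q * q)),
      (∀ x, w (heckeAlphaBar L (M' * q) q x) = heckeBetaBar L (M' * q) q (W₁ x)) ∧
      w (piStar2 L M' q (jLevel L M')) = piStar0 L M' q (jLevel L M') := by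
  haveI : CharZero L := algebraRat.charZero L
  obtain ⟨D⟩ := modEq_prime q hq
  -- notation
  let F₁ : IntermediateField L (LaurentSeries L) :=
    laurentBaseChange L (modularFunctionFieldFull (M' * q))
  let F : IntermediateField L (LaurentSeries L) :=
    laurentBaseChange L (modularFunctionFieldFull (M' * q * q))
  let α : F₁ →ₐ[L] F := heckeAlphaBar L (M' * q) q
  let β : F₁ →ₐ[L] F := heckeBetaBar L (M' * q) q
  let a : F₁ := jLevel L (M' * q)
  let c : F₁ := heckeBetaBar L M' q (jLevel L M')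
  let θ : F := piStar2 L M' q (jLevel L M')
  let ρ : F := piStar0 L M' q (jLevel L M')
  have hcoe_a : ((a : F₁) : LaurentSeries L) = TD.Jd L 1 := coe_jLevel L (M' * q)
  have hcoe_c : ((c : F₁) : LaurentSeries L) = TD.Jd L q := coe_heckeBetaBar_jLevel L M' q
  have hcoe_θ : ((θ : F) : LaurentSeries L) = TD.Jd L (q * q) := coe_piStar2_jLevel L M' q
  have hcoe_ρ : ((ρ : F) : LaurentSeries L) = TD.Jd L 1 := coe_piStar0_jLevel L M' q
  have hθρ : θ ≠ ρ := by
    intro h
    have h1 : TD.Jd L (q * q) = TD.Jd L 1 := by rw [← hcoe_θ, ← hcoe_ρ, h]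
    have h2 := Chain.Jd_injective L (Nat.mul_ne_zero hq.ne_zero hq.ne_zero) one_ne_zero h1
    have h3 : q = 1 := Nat.eq_one_of_mul_eq_one_left h2
    exact hq.one_lt.ne' h3
  -- the polynomial `Φ_q(X, J(q^q))` over `F₁`
  let Q : Polynomial F₁ := TD.polyAt D.Φ c
  have hQm : Q.Monic := TD.polyAt_monic D.monic c
  have hQdeg : Q.natDegree = q + 1 := by
    rw [TD.polyAt_natDegree D.monic, D.natDegree_eq]
  have hQa : Q.eval a = 0 := by
    apply Subtype.val_injective
    have h2 := TD.map_eval_polyAt (F₁.val : F₁ →+* LaurentSeries L) D.Φ a c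
    have h5 := D.rel₁' hq.ne_zero L 1 one_ne_zero
    rw [one_mul] at h5
    have h6 : (((TD.polyAt D.Φ c).eval a : F₁) : LaurentSeries L) =
        (TD.polyAt D.Φ (TD.Jd L q)).eval (TD.Jd L 1) := by
      rw [← hcoe_a, ← hcoe_c]
      exact h2
    rw [h6, h5]
    rfl
  let Q' : Polynomial F₁ := Q /ₘ (X - C a)
  have hQQ' : (X - C a) * Q' = Q := Polynomial.mul_divByMonic_eq_iff_isRoot.mpr hQa
  have hQ'm : Q'.Monic := by
    have h1 : ((X - C a) * Q').Monic := by rw [hQQ']; exact hQm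
    exact Polynomial.Monic.of_mul_monic_left (Polynomial.monic_X_sub_C a) h1
  have hQ'deg : Q'.natDegree = q := by
    have h1 := (Polynomial.monic_X_sub_C a).natDegree_mul hQ'm
    rw [hQQ', hQdeg, Polynomial.natDegree_X_sub_C] at h1
    omega
  -- `θ = J(q^{q²})` is a root of `α(Q)`
  have hαc : ((α c : F) : LaurentSeries L) = TD.Jd L q := by
    rw [← hcoe_c]; exact coe_heckeAlphaBar (M' * q) q c
  have hαa : α a = ρ := by
    apply Subtype.ext
    rw [hcoe_ρ, ← hcoe_a]; exact coe_heckeAlphaBar (M' * q) q a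
  have hQθ : (Q.map (α : F₁ →+* F)).eval θ = 0 := by
    rw [show Q.map (α : F₁ →+* F) = TD.polyAt D.Φ (α c) from TD.polyAt_map (α : F₁ →+* F) D.Φ c]
    apply Subtype.val_injective
    have h2 := TD.map_eval_polyAt (F.val : F →+* LaurentSeries L) D.Φ θ (α c)
    have h5 := D.rel₂' hq.ne_zero L q hq.ne_zero
    have h6 : (((TD.polyAt D.Φ (α c)).eval θ : F) : LaurentSeries L) =
        (TD.polyAt D.Φ (TD.Jd L q)).eval (TD.Jd L (q * q)) := by
      rw [← hcoe_θ, ← hαc]
      exact h2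
    rw [h6, h5]
    rfl
  have hQ'θ : (Q'.map (α : F₁ →+* F)).eval θ = 0 :=
    eval_map_divByMonic_eq_zero (α : F₁ →+* F) Q a hQa θ hQθ (by
      show θ ≠ α a
      rw [hαa]; exact hθρ)
  -- `ρ = J(q)` is a root of `(β ∘ W₁)(Q')`
  let ψ : F₁ →+* F := (β : F₁ →+* F).comp (W₁ : F₁ →+* F₁)
  have hψc : ((ψ c : F) : LaurentSeries L) = TD.Jd L q := by
    show ((β (W₁ (heckeBetaBar L M' q (jLevel L M'))) : F) : LaurentSeries L) = _
    rw [hW₁.beta]
    show ((heckeBetaBar L (M' * q) q (heckeAlphaBar L M' q (jLevel L M')) : F) :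
      LaurentSeries L) = _
    rw [coe_heckeBetaBar, coe_heckeAlphaBar, coe_jLevel, TD.qExpand_Jd L q 1 one_ne_zero, mul_one]
  have hψa : ψ a = θ := by
    show β (W₁ (jLevel L (M' * q))) = piStar2 L M' q (jLevel L M')
    rw [← heckeAlphaBar_jLevel M' q, hW₁.alpha]
    rfl
  have hQρ : (Q.map ψ).eval ρ = 0 := by
    rw [show Q.map ψ = TD.polyAt D.Φ (ψ c) from TD.polyAt_map ψ D.Φ c]
    apply Subtype.val_injective
    have h2 := TD.map_eval_polyAt (F.val : F →+* LaurentSeries L) D.Φ ρ (ψ c)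
    have h5 := D.rel₁' hq.ne_zero L 1 one_ne_zero
    rw [one_mul] at h5
    have h6 : (((TD.polyAt D.Φ (ψ c)).eval ρ : F) : LaurentSeries L) =
        (TD.polyAt D.Φ (TD.Jd L q)).eval (TD.Jd L 1) := by
      rw [← hcoe_ρ, ← hψc]
      exact h2
    rw [h6, h5]
    rfl
  have hQ'ρ : (Q'.map ψ).eval ρ = 0 :=
    eval_map_divByMonic_eq_zero ψ Q a hQa ρ hQρ (by rw [hψa]; exact hθρ.symm)
  -- generation and the degree
  have hgen : Subfield.closure (Set.range α ∪ {θ}) = ⊤ :=
    closure_range_heckeAlphaBar_union_sq L M' q hq hqM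
  have hfin : finrankAlong L α = q :=
    Fermat.Agent.ESJ.Cong.LevelDeg.finrank_alpha_of_dvd L (M' * q) q hq (dvd_mul_left q M')
  have hmin : ∀ g : Polynomial F₁, g.degree < Q'.degree →
      g.eval₂ (α : F₁ →+* F) θ = 0 → g = 0 := by
    letI := algebraAlong α
    intro g hg hg0
    by_contra hne
    have hint : IsIntegral F₁ θ := ⟨Q', hQ'm, by
      rw [← Polynomial.eval_map]; exact hQ'θ⟩
    have h1 : IntermediateField.adjoin F₁ {θ} = ⊤ := by
      apply IntermediateField.toSubfield_injective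
      rw [IntermediateField.adjoin_toSubfield, IntermediateField.top_toSubfield]
      exact hgen
    have hdeg : (minpoly F₁ θ).natDegree = q := by
      rw [← IntermediateField.adjoin.finrank hint, h1, IntermediateField.finrank_top']
      exact hfin
    have hdvd : minpoly F₁ θ ∣ g := minpoly.dvd F₁ θ hg0
    have h2 := Polynomial.natDegree_le_of_dvd hdvd hne
    have h3 : g.natDegree < Q'.natDegree := Polynomial.natDegree_lt_natDegree hne hg
    omega
  obtain ⟨M, w, hM, hwi, hwθ⟩ :=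
    Fermat.Agent.ESJ.Cong.AtkinLehner.exists_lift (α : F₁ →+* F) ψ θ Q' hQ'm
      (by rw [Polynomial.eval₂_eq_eval_map]; exact hQ'θ) hmin ρ
      (by rw [Polynomial.eval₂_eq_eval_map]; exact hQ'ρ)
  have hMtop : ∀ x : F, x ∈ M := fun x => by
    rw [hM]
    have : Subfield.closure (Set.range (α : F₁ →+* F) ∪ {θ}) = ⊤ := hgen
    rw [this]
    exact Subfield.mem_top x
  refine ⟨w.comp (RingHom.codRestrict (RingHom.id F) M hMtop), fun x => ?_, ?_⟩
  · exact hwi x (hMtop _)
  · exact hwθ (hMtop _)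

/-- **The Atkin–Lehner involution at `q²`**, relative to a given Atkin–Lehner involution `W₁` of
`F_{M'q}`: an `L`-automorphism `w` of `F_{M'q²}` with `w ∘ α = β ∘ W₁`, `w ∘ β = α ∘ W₁`,
`w ∘ w = id`. -/
theorem exists_al_sq (hq : q.Prime) (hqM : ¬ q ∣ M')
    (W₁ : laurentBaseChange L (modularFunctionFieldFull (M' * q)) ≃ₐ[L]
      laurentBaseChange L (modularFunctionFieldFull (M' * q))) (hW₁ : IsAL M' q W₁) :
    ∃ w : laurentBaseChange L (modularFunctionFieldFull (M' * q * q)) ≃ₐ[L]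
        laurentBaseChange L (modularFunctionFieldFull (M' * q * q)),
      (∀ x, w (heckeAlphaBar L (M' * q) q x) = heckeBetaBar L (M' * q) q (W₁ x)) ∧
      (∀ x, w (heckeBetaBar L (M' * q) q x) = heckeAlphaBar L (M' * q) q (W₁ x)) ∧
      ∀ z, w (w z) = z := by
  obtain ⟨w, hwα, hwθ⟩ := exists_ringHom_sq M' q hq hqM W₁ hW₁
  -- `w ∘ β = α ∘ W₁`
  have hwβ : ∀ x, w (heckeBetaBar L (M' * q) q x) = heckeAlphaBar L (M' * q) q (W₁ x) := by
    intro x
    have hle : Subfield.closure (Set.range (heckeAlphaBar L M' q) ∪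
        {heckeBetaBar L M' q (jLevel L M')}) ≤
        (w.comp ((heckeBetaBar L (M' * q) q : _ →ₐ[L] _) : _ →+* _)).eqLocusField
          (((heckeAlphaBar L (M' * q) q : _ →ₐ[L] _) : _ →+* _).comp
            (W₁.toRingEquiv.toRingHom)) := by
      rw [Subfield.closure_le]
      rintro y (⟨x, rfl⟩ | hy)
      · show w (heckeBetaBar L (M' * q) q (heckeAlphaBar L M' q x)) =
          heckeAlphaBar L (M' * q) q (W₁ (heckeAlphaBar L M' q x))
        rw [heckeBetaBar_heckeAlphaBar, hwα, hW₁.beta, hW₁.alpha, heckeBetaBar_heckeAlphaBar]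
      · rw [Set.mem_singleton_iff] at hy
        rw [hy]
        show w (heckeBetaBar L (M' * q) q (heckeBetaBar L M' q (jLevel L M'))) =
          heckeAlphaBar L (M' * q) q (W₁ (heckeBetaBar L M' q (jLevel L M')))
        rw [hW₁.beta]
        exact hwθ
    rw [closure_range_heckeAlphaBar_union L M' q hq hqM] at hle
    exact hle (Subfield.mem_top x)
  -- involution
  have hinv : ∀ z, w (w z) = z := by
    intro z
    have hle : Subfield.closure (Set.range (heckeAlphaBar L (M' * q) q) ∪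
        {piStar2 L M' q (jLevel L M')}) ≤ (w.comp w).eqLocusField (RingHom.id _) := by
      rw [Subfield.closure_le]
      rintro y (⟨x, rfl⟩ | hy)
      · show w (w (heckeAlphaBar L (M' * q) q x)) = heckeAlphaBar L (M' * q) q x
        rw [hwα, hwβ, hW₁.invol hq hqM]
      · rw [Set.mem_singleton_iff] at hy
        rw [hy]
        show w (w (piStar2 L M' q (jLevel L M'))) = piStar2 L M' q (jLevel L M')
        rw [hwθ, piStar0_apply, hwα, hW₁.alpha]
        rfl
    rw [closure_range_heckeAlphaBar_union_sq L M' q hq hqM] at hle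
    exact hle (Subfield.mem_top z)
  have hcomm : ∀ c : L, w (algebraMap L _ c) = algebraMap L _ c := by
    intro c
    have h1 : algebraMap L (laurentBaseChange L (modularFunctionFieldFull (M' * q * q))) c =
        heckeAlphaBar L (M' * q) q (algebraMap L _ c) :=
      ((heckeAlphaBar L (M' * q) q).commutes c).symm
    rw [h1, hwα, AlgEquiv.commutes, AlgHom.commutes]
    exact h1
  let wA : laurentBaseChange L (modularFunctionFieldFull (M' * q * q)) →ₐ[L]
      laurentBaseChange L (modularFunctionFieldFull (M' * q * q)) := { w with commutes' := hcomm }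
  have hwA : ∀ z, wA z = w z := fun z => rfl
  refine ⟨AlgEquiv.ofAlgHom wA wA (AlgHom.ext fun z => ?_) (AlgHom.ext fun z => ?_),
    hwα, hwβ, hinv⟩
  · rw [AlgHom.comp_apply, hwA, hwA, hinv, AlgHom.id_apply]
  · rw [AlgHom.comp_apply, hwA, hwA, hinv, AlgHom.id_apply]

/-- **The Atkin–Lehner involution of `F_{M'q²}` at `q²`** (`q ∤ M'` prime), over EVERY field
`L ⊇ ℚ` (no roots of unity): `w ∘ π_0^* = π_2^*`, `w ∘ π_1^* = π_1^*`, `w ∘ π_2^* = π_0^*`. -/
theorem exists_al3 (hq : q.Prime) (hqM : ¬ q ∣ M') :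
    ∃ w : laurentBaseChange L (modularFunctionFieldFull (M' * q * q)) ≃ₐ[L]
        laurentBaseChange L (modularFunctionFieldFull (M' * q * q)),
      (∀ y, w (piStar0 L M' q y) = piStar2 L M' q y) ∧
      (∀ y, w (piStar1 L M' q y) = piStar1 L M' q y) ∧
      (∀ y, w (piStar2 L M' q y) = piStar0 L M' q y) := by
  obtain ⟨W₁, hW₁⟩ := exists_isAL_of_charZero (L := L) M' q hq hqM
  obtain ⟨w, hwα, hwβ, -⟩ := exists_al_sq M' q hq hqM W₁ hW₁
  refine ⟨w, fun y => ?_, fun y => ?_, fun y => ?_⟩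
  · rw [piStar0_apply, hwα, hW₁.alpha, piStar2_apply]
  · rw [piStar1_apply, hwα, hW₁.beta, heckeBetaBar_heckeAlphaBar]
  · rw [piStar2_apply, hwβ, hW₁.beta, piStar0_apply]

end Sq

end

end Fermat.Agent.CAR.V3.AL3
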