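import Mathlib
import Fermat.Agent.Lib.Red.GaussRing

/-!
# CAR (V3): over a discretely valued coefficient field the Gauss ring is a valuation ring

`A` a valuation subring of `L`, `π : A →+* k`, `L₁ ≤ L` a subfield on which `A` is discrete with
uniformiser `ϖ` (`IsUnifOn A L₁ ϖ`).  Then on the field `fracRat A L₁` of quotients of series with
coefficients in `L₁ ∩ A` (it contains every field generated over `L₁` by such series:
`closure_le_fracRat`) every nonzero element is `C (ϖ ^ n) * u` with `u` a unit of the Gauss ring: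

* `exists_zpow_mul_unit`, `mem_or_inv_mem`;
* `vsOfEmb τ h : ValuationSubring F` for a ring hom `τ : F →+* LaurentSeries L` from a field with
  `τ f ∈ gaussRing ∨ (τ f)⁻¹ ∈ gaussRing`, its residue map `redOfEmb` and `redOfEmb_eq_zero_iff`.

No Newton approximation / immediate-extension argument is needed.
-/

set_option autoImplicit false

noncomputable section

namespace Fermat.Agent.CAR.V3.GaussDVR

open HahnSeries ModularCurve Fermat.Agent.Lib.Red

variable {L : Type*} [Field L] (A : ValuationSubring L) {k : Type*} [Field k] (π : A →+* k)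

/-- `ϖ` is a uniformiser of the restriction of `A` to the subfield `L₁`. -/
structure IsUnifOn (L₁ : Subfield L) (ϖ : L) : Prop where
  mem : ϖ ∈ L₁
  ne_zero : ϖ ≠ 0
  lt_one : A.valuation ϖ < 1
  exists_zpow : ∀ x ∈ L₁, x ≠ 0 → ∃ n : ℤ, A.valuation x = A.valuation ϖ ^ n

variable {A}

/-- The unit form of the hypothesis: `x = ϖ ^ n * u` with `u` a unit of `A`. -/
theorem isUnifOn_of_unit {L₁ : Subfield L} {ϖ : L} (hm : ϖ ∈ L₁) (h0 : ϖ ≠ 0)
    (hA : ϖ ∈ A) (hinv : ϖ⁻¹ ∉ A)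
    (h : ∀ x ∈ L₁, x ≠ 0 → ∃ (n : ℤ) (u : L), u ∈ A ∧ u⁻¹ ∈ A ∧ x = ϖ ^ n * u) :
    IsUnifOn A L₁ ϖ where
  mem := hm
  ne_zero := h0
  lt_one := by
    have h1 : A.valuation ϖ ≤ 1 := (A.valuation_le_one_iff ϖ).mpr hA
    refine lt_of_le_of_ne h1 fun h2 => hinv ?_
    rw [← A.valuation_le_one_iff, map_inv₀, h2, inv_one]
  exists_zpow := by
    intro x hx hx0
    obtain ⟨n, u, hu, hu', rfl⟩ := h x hx hx0
    refine ⟨n, ?_⟩
    have hu0 : u ≠ 0 := by
      rintro rfl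
      exact hx0 (mul_zero _)
    have h1 : A.valuation u ≤ 1 := (A.valuation_le_one_iff u).mpr hu
    have h2 : (A.valuation u)⁻¹ ≤ 1 := by
      rw [← map_inv₀]
      exact (A.valuation_le_one_iff _).mpr hu'
    have h3 : A.valuation u = 1 := by
      refine le_antisymm h1 ?_
      have hne : A.valuation u ≠ 0 := (Valuation.ne_zero_iff _).mpr hu0
      rwa [inv_le_one₀ (zero_lt_iff.mpr hne)] at h2
    rw [map_mul, map_zpow₀, h3, mul_one]

variable (A)

/-- Series with coefficients in `L₁ ∩ A`. -/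
def intRat (L₁ : Subfield L) : Subring (LaurentSeries L) where
  carrier := {y | ∀ n, y.coeff n ∈ L₁ ∧ y.coeff n ∈ A}
  mul_mem' := by
    intro x y hx hy n
    rw [HahnSeries.coeff_mul]
    exact ⟨sum_mem fun ij _ => mul_mem (hx ij.1).1 (hy ij.2).1,
      sum_mem fun ij _ => mul_mem (hx ij.1).2 (hy ij.2).2⟩
  one_mem' := by
    intro n
    rw [HahnSeries.coeff_one]
    split_ifs
    · exact ⟨one_mem _, one_mem _⟩
    · exact ⟨zero_mem _, zero_mem _⟩
  add_mem' := by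
    intro x y hx hy n
    rw [HahnSeries.coeff_add]
    exact ⟨add_mem (hx n).1 (hy n).1, add_mem (hx n).2 (hy n).2⟩
  zero_mem' := by
    intro n
    rw [HahnSeries.coeff_zero]
    exact ⟨zero_mem _, zero_mem _⟩
  neg_mem' := by
    intro x hx n
    rw [HahnSeries.coeff_neg]
    exact ⟨neg_mem (hx n).1, neg_mem (hx n).2⟩

theorem mem_intRat {L₁ : Subfield L} {y : LaurentSeries L} :
    y ∈ intRat A L₁ ↔ ∀ n, y.coeff n ∈ L₁ ∧ y.coeff n ∈ A := Iff.rfl

theorem C_mem_intRat {L₁ : Subfield L} {c : L} (hc : c ∈ L₁) (hcA : c ∈ A) :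
    (HahnSeries.C c : LaurentSeries L) ∈ intRat A L₁ := by
  intro n
  rw [show (HahnSeries.C c : LaurentSeries L) = HahnSeries.single 0 c from rfl]
  rcases eq_or_ne n 0 with rfl | hn
  · rw [HahnSeries.coeff_single_same]
    exact ⟨hc, hcA⟩
  · rw [HahnSeries.coeff_single_of_ne hn]
    exact ⟨zero_mem _, zero_mem _⟩

/-- The field of quotients of `L₁ ∩ A`-integral series inside `L((q))`. -/
def fracRat (L₁ : Subfield L) : Subfield (LaurentSeries L) where
  carrier := {y | ∃ P s : LaurentSeries L, P ∈ intRat A L₁ ∧ s ∈ intRat A L₁ ∧ s ≠ 0 ∧ s * y = P}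
  mul_mem' := by
    rintro x y ⟨P, s, hP, hs, hs0, h⟩ ⟨P', s', hP', hs', hs0', h'⟩
    exact ⟨P * P', s * s', mul_mem hP hP', mul_mem hs hs', mul_ne_zero hs0 hs0', by
      rw [← h, ← h']; ring⟩
  one_mem' := ⟨1, 1, one_mem _, one_mem _, one_ne_zero, one_mul 1⟩
  add_mem' := by
    rintro x y ⟨P, s, hP, hs, hs0, h⟩ ⟨P', s', hP', hs', hs0', h'⟩
    exact ⟨P * s' + P' * s, s * s', add_mem (mul_mem hP hs') (mul_mem hP' hs), mul_mem hs hs',
      mul_ne_zero hs0 hs0', by rw [← h, ← h']; ring⟩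
  zero_mem' := ⟨0, 1, zero_mem _, one_mem _, one_ne_zero, mul_zero 1⟩
  neg_mem' := by
    rintro x ⟨P, s, hP, hs, hs0, h⟩
    exact ⟨-P, s, neg_mem hP, hs, hs0, by rw [← h]; ring⟩
  inv_mem' := by
    rintro x ⟨P, s, hP, hs, hs0, h⟩
    rcases eq_or_ne x 0 with rfl | hx
    · rw [inv_zero]
      exact ⟨0, 1, zero_mem _, one_mem _, one_ne_zero, mul_zero 1⟩
    · have hP0 : P ≠ 0 := by
        rw [← h]
        exact mul_ne_zero hs0 hx
      exact ⟨s, P, hs, hP, hP0, by rw [← h, mul_assoc, mul_inv_cancel₀ hx, mul_one]⟩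

theorem mem_fracRat {L₁ : Subfield L} {y : LaurentSeries L} :
    y ∈ fracRat A L₁ ↔
      ∃ P s : LaurentSeries L, P ∈ intRat A L₁ ∧ s ∈ intRat A L₁ ∧ s ≠ 0 ∧ s * y = P := Iff.rfl

theorem intRat_le_fracRat {L₁ : Subfield L} {y : LaurentSeries L} (hy : y ∈ intRat A L₁) :
    y ∈ fracRat A L₁ :=
  ⟨y, 1, hy, one_mem _, one_ne_zero, one_mul y⟩

theorem C_mem_fracRat {L₁ : Subfield L} {c : L} (hc : c ∈ L₁) :
    (HahnSeries.C c : LaurentSeries L) ∈ fracRat A L₁ := by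
  rcases A.mem_or_inv_mem c with h | h
  · exact intRat_le_fracRat A (C_mem_intRat A hc h)
  · rcases eq_or_ne c 0 with rfl | hc0
    · rw [map_zero]; exact zero_mem _
    · have h1 : (HahnSeries.C c : LaurentSeries L) = (HahnSeries.C c⁻¹)⁻¹ := by
        rw [← map_inv₀, inv_inv]
      rw [h1]
      exact inv_mem (intRat_le_fracRat A (C_mem_intRat A (inv_mem hc) h))

/-- Every field generated over `L₁` by `L₁ ∩ A`-integral series lies in `fracRat`. -/
theorem closure_le_fracRat {L₁ : Subfield L} (S : Set (LaurentSeries L))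
    (hS : ∀ y ∈ S, y ∈ intRat A L₁) :
    Subfield.closure (Set.range (fun c : L₁ => (HahnSeries.C (c : L) : LaurentSeries L)) ∪ S)
      ≤ fracRat A L₁ := by
  rw [Subfield.closure_le]
  rintro y (⟨c, rfl⟩ | hy)
  · exact C_mem_fracRat A c.2
  · exact intRat_le_fracRat A (hS y hy)

variable {A}

/-- A nonzero element of `L₁ ∩ A` has valuation `v(ϖ)^n` with `n : ℕ`. -/
theorem IsUnifOn.exists_pow {L₁ : Subfield L} {ϖ : L} (hϖ : IsUnifOn A L₁ ϖ) {x : L}
    (hx : x ∈ L₁) (hxA : x ∈ A) (hx0 : x ≠ 0) : ∃ n : ℕ, A.valuation x = A.valuation ϖ ^ n := by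
  obtain ⟨n, hn⟩ := hϖ.exists_zpow x hx hx0
  have hv0 : A.valuation ϖ ≠ 0 := (Valuation.ne_zero_iff _).mpr hϖ.ne_zero
  rcases le_or_gt 0 n with h | h
  · obtain ⟨m, rfl⟩ := Int.eq_ofNat_of_zero_le h
    exact ⟨m, by rw [hn, zpow_natCast]⟩
  · exfalso
    obtain ⟨m, rfl⟩ : ∃ m : ℕ, n = -(m : ℤ) := ⟨(-n).toNat, by omega⟩
    have hm : m ≠ 0 := by
      rintro rfl
      simp at h
    have h1 : A.valuation x ≤ 1 := (A.valuation_le_one_iff x).mpr hxA
    rw [hn, zpow_neg, zpow_natCast] at h1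
    have h2 : A.valuation ϖ ^ m < 1 := pow_lt_one₀ zero_le hϖ.lt_one hm
    have h3 : (1 : A.ValueGroup) < (A.valuation ϖ ^ m)⁻¹ := by
      rw [one_lt_inv₀ (zero_lt_iff.mpr (pow_ne_zero m hv0))]
      exact h2
    exact absurd h1 (not_le.mpr h3)

/-- **Normalisation**: a nonzero series with coefficients in `L₁ ∩ A` is `C (ϖ ^ n)` times an
`A`-integral series with nonzero reduction. -/
theorem IsUnifOn.exists_normal {L₁ : Subfield L} {ϖ : L} (hϖ : IsUnifOn A L₁ ϖ)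
    {P : LaurentSeries L} (hP : P ∈ intRat A L₁) (hP0 : P ≠ 0) :
    ∃ (n : ℕ) (g : LaurentSeries A), rbar A π g ≠ 0 ∧ P = HahnSeries.C (ϖ ^ n) * incl A g := by
  classical
  have hv0 : A.valuation ϖ ≠ 0 := (Valuation.ne_zero_iff _).mpr hϖ.ne_zero
  -- the set of exponents
  have hex : ∃ n : ℕ, ∃ m : ℤ, P.coeff m ≠ 0 ∧ A.valuation (P.coeff m) = A.valuation ϖ ^ n := by
    obtain ⟨m, hm⟩ : ∃ m, P.coeff m ≠ 0 := by
      by_contra hcon
      exact hP0 (HahnSeries.ext (funext fun m => by_contra fun hm => hcon ⟨m, hm⟩))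
    obtain ⟨n, hn⟩ := hϖ.exists_pow (hP m).1 (hP m).2 hm
    exact ⟨n, m, hm, hn⟩
  set n := Nat.find hex with hn
  obtain ⟨m₀, hm₀, hvm₀⟩ := Nat.find_spec hex
  have hmin : ∀ m, P.coeff m ≠ 0 → A.valuation (P.coeff m) ≤ A.valuation ϖ ^ n := by
    intro m hm
    obtain ⟨n', hn'⟩ := hϖ.exists_pow (hP m).1 (hP m).2 hm
    have h1 : n ≤ n' := Nat.find_min' hex ⟨m, hm, hn'⟩
    rw [hn']
    exact pow_le_pow_of_le_one zero_le hϖ.lt_one.le h1
  have hϖn : ϖ ^ n ≠ 0 := pow_ne_zero n hϖ.ne_zero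
  -- the normalised series
  have hcoef : ∀ m, (HahnSeries.C (ϖ ^ n)⁻¹ * P).coeff m = (ϖ ^ n)⁻¹ * P.coeff m := by
    intro m
    rw [HahnSeries.C_mul_eq_smul, HahnSeries.coeff_smul, smul_eq_mul]
  have hint : ∀ m, (HahnSeries.C (ϖ ^ n)⁻¹ * P).coeff m ∈ A := by
    intro m
    rw [hcoef, ← A.valuation_le_one_iff, map_mul, map_inv₀, map_pow]
    rcases eq_or_ne (P.coeff m) 0 with h0 | h0
    · rw [h0, map_zero, mul_zero]
      exact zero_le
    · rw [inv_mul_le_iff₀ (zero_lt_iff.mpr (pow_ne_zero n hv0)), mul_one]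
      exact hmin m h0
  obtain ⟨g, hg⟩ := exists_incl_eq A _ hint
  refine ⟨n, g, ?_, ?_⟩
  · intro h0
    have h1 : π (g.coeff m₀) = 0 := by
      have := congrArg (fun f : LaurentSeries k => f.coeff m₀) h0
      simpa [rbar_coeff] using this
    have h2 : ((g.coeff m₀ : A) : L) = (ϖ ^ n)⁻¹ * P.coeff m₀ := by
      rw [← incl_coeff, hg, hcoef]
    have h3 : IsUnit (g.coeff m₀) := by
      rw [A.valuation_eq_one_iff, h2, map_mul, map_inv₀, map_pow, hvm₀,
        inv_mul_cancel₀ (pow_ne_zero _ hv0)]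
    exact (h3.map π).ne_zero h1
  · rw [hg, ← mul_assoc, ← map_mul, mul_inv_cancel₀ hϖn, map_one, one_mul]

/-- **Every nonzero element of `fracRat` is `ϖ^n` times a unit of the Gauss ring.** -/
theorem IsUnifOn.exists_zpow_mul_unit {L₁ : Subfield L} {ϖ : L} (hϖ : IsUnifOn A L₁ ϖ)
    {y : LaurentSeries L} (hy : y ∈ fracRat A L₁) (hy0 : y ≠ 0) :
    ∃ (n : ℤ) (u : LaurentSeries L) (hu : u ∈ gaussRing A π),
      red A π ⟨u, hu⟩ ≠ 0 ∧ y = HahnSeries.C (ϖ ^ n) * u := by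
  obtain ⟨P, s, hP, hs, hs0, h⟩ := hy
  have hP0 : P ≠ 0 := by
    rw [← h]
    exact mul_ne_zero hs0 hy0
  obtain ⟨a, g, hg, hPg⟩ := hϖ.exists_normal π hP hP0
  obtain ⟨b, t, ht, hst⟩ := hϖ.exists_normal π hs hs0
  have hgG := incl_mem_gaussRing A π g
  have htG := incl_mem_gaussRing A π t
  have htred : red A π ⟨incl A t, htG⟩ ≠ 0 := by rw [red_incl]; exact ht
  have hu : incl A g / incl A t ∈ gaussRing A π := div_mem_gaussRing A π hgG htG htred
  refine ⟨(a : ℤ) - b, incl A g / incl A t, hu, ?_, ?_⟩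
  · rw [red_div A π hgG htG htred hu, red_incl, red_incl]
    exact div_ne_zero hg ht
  · have ht0 : incl A t ≠ 0 := by
      intro h0
      apply ht
      have : t = 0 := incl_injective A (by rw [h0, map_zero])
      rw [this, map_zero]
    have hCb : (HahnSeries.C (ϖ ^ b) : LaurentSeries L) ≠ 0 := by
      intro h0
      have h3 : (HahnSeries.C (ϖ ^ b) : LaurentSeries L) = HahnSeries.C 0 := by rw [h0, map_zero]
      exact pow_ne_zero b hϖ.ne_zero (HahnSeries.C_injective h3)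
    have hz : (HahnSeries.C (ϖ ^ ((a : ℤ) - b)) : LaurentSeries L)
        = HahnSeries.C (ϖ ^ a) / HahnSeries.C (ϖ ^ b) := by
      rw [zpow_sub₀ hϖ.ne_zero, zpow_natCast, zpow_natCast, map_div₀]
    rw [hz]
    have h1 : y = P / s := by
      rw [← h, mul_div_cancel_left₀ _ hs0]
    rw [h1, hPg, hst]
    field_simp

/-- The Gauss ring is a valuation ring on `fracRat`. -/
theorem IsUnifOn.mem_or_inv_mem {L₁ : Subfield L} {ϖ : L}
    (hϖ : IsUnifOn A L₁ ϖ) {y : LaurentSeries L} (hy : y ∈ fracRat A L₁) :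
    y ∈ gaussRing A π ∨ y⁻¹ ∈ gaussRing A π := by
  rcases eq_or_ne y 0 with rfl | hy0
  · exact Or.inl (zero_mem _)
  obtain ⟨n, u, hu, hured, rfl⟩ := hϖ.exists_zpow_mul_unit π hy hy0
  have hϖA : ϖ ∈ A := (A.valuation_le_one_iff ϖ).mp hϖ.lt_one.le
  rcases le_or_gt 0 n with h | h
  · left
    obtain ⟨m, rfl⟩ := Int.eq_ofNat_of_zero_le h
    rw [zpow_natCast]
    exact mul_mem (C_mem_gaussRing A π (pow_mem hϖA m)) hu
  · right
    obtain ⟨m, rfl⟩ : ∃ m : ℕ, n = -(m : ℤ) := ⟨(-n).toNat, by omega⟩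
    rw [mul_inv, ← map_inv₀, zpow_neg, inv_inv, zpow_natCast]
    exact mul_mem (C_mem_gaussRing A π (pow_mem hϖA m)) (inv_mem_gaussRing A π hu hured)

/-- `C (ϖ ^ n)` has zero reduction for `n > 0`. -/
theorem IsUnifOn.red_C_pow (hπ : ∀ a : A, ¬ IsUnit a → π a = 0) {L₁ : Subfield L} {ϖ : L}
    (hϖ : IsUnifOn A L₁ ϖ) {m : ℕ} (hm : m ≠ 0)
    (h : (HahnSeries.C (ϖ ^ m) : LaurentSeries L) ∈ gaussRing A π) :
    red A π ⟨HahnSeries.C (ϖ ^ m), h⟩ = 0 := by
  have hϖA : ϖ ∈ A := (A.valuation_le_one_iff ϖ).mp hϖ.lt_one.le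
  have hmem : ϖ ^ m ∈ A := pow_mem hϖA m
  rw [red_C A π hmem h, hπ, map_zero]
  rw [A.valuation_eq_one_iff]
  show A.valuation (ϖ ^ m) ≠ 1
  rw [map_pow]
  exact (pow_lt_one₀ zero_le hϖ.lt_one hm).ne

/-- `C (ϖ ^ n) * u` (`u` a Gauss unit) is in the Gauss ring iff `0 ≤ n`. -/
theorem IsUnifOn.zpow_mul_mem_iff (hπ : ∀ a : A, ¬ IsUnit a → π a = 0) {L₁ : Subfield L} {ϖ : L}
    (hϖ : IsUnifOn A L₁ ϖ) (n : ℤ) {u : LaurentSeries L} (hu : u ∈ gaussRing A π)
    (hured : red A π ⟨u, hu⟩ ≠ 0) :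
    HahnSeries.C (ϖ ^ n) * u ∈ gaussRing A π ↔ 0 ≤ n := by
  have hϖA : ϖ ∈ A := (A.valuation_le_one_iff ϖ).mp hϖ.lt_one.le
  have hu0 : u ≠ 0 := by
    rintro rfl
    apply hured
    have : (⟨0, hu⟩ : gaussRing A π) = 0 := rfl
    rw [this, map_zero]
  constructor
  · intro h
    by_contra hn
    obtain ⟨m, rfl⟩ : ∃ m : ℕ, n = -(m : ℤ) := ⟨(-n).toNat, by omega⟩
    have hm : m ≠ 0 := by
      rintro rfl
      simp at hn
    have hC : (HahnSeries.C (ϖ ^ (-(m : ℤ))) : LaurentSeries L) ∈ gaussRing A π := by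
      have h1 := mul_mem h (inv_mem_gaussRing A π hu hured)
      rwa [mul_assoc, mul_inv_cancel₀ hu0, mul_one] at h1
    have hCm : (HahnSeries.C (ϖ ^ m) : LaurentSeries L) ∈ gaussRing A π :=
      C_mem_gaussRing A π (pow_mem hϖA m)
    have h2 : (⟨HahnSeries.C (ϖ ^ m), hCm⟩ : gaussRing A π) * ⟨HahnSeries.C (ϖ ^ (-(m : ℤ))), hC⟩
        = 1 := by
      apply Subtype.ext
      show (HahnSeries.C (ϖ ^ m) : LaurentSeries L) * HahnSeries.C (ϖ ^ (-(m : ℤ))) = 1
      rw [← map_mul, zpow_neg, zpow_natCast, mul_inv_cancel₀ (pow_ne_zero m hϖ.ne_zero), map_one]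
    have h3 := congrArg (red A π) h2
    rw [map_mul, hϖ.red_C_pow π hπ hm hCm, zero_mul, map_one] at h3
    exact zero_ne_one h3
  · intro h
    obtain ⟨m, rfl⟩ := Int.eq_ofNat_of_zero_le h
    rw [zpow_natCast]
    exact mul_mem (C_mem_gaussRing A π (pow_mem hϖA m)) hu

/-- `C (ϖ ^ n) * u` (`u` a Gauss unit, `n > 0`) has zero reduction. -/
theorem IsUnifOn.red_zpow_mul (hπ : ∀ a : A, ¬ IsUnit a → π a = 0) {L₁ : Subfield L} {ϖ : L}
    (hϖ : IsUnifOn A L₁ ϖ) {n : ℤ} (hn : 0 < n) {u : LaurentSeries L} (hu : u ∈ gaussRing A π)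
    (h : HahnSeries.C (ϖ ^ n) * u ∈ gaussRing A π) :
    red A π ⟨HahnSeries.C (ϖ ^ n) * u, h⟩ = 0 := by
  have hϖA : ϖ ∈ A := (A.valuation_le_one_iff ϖ).mp hϖ.lt_one.le
  obtain ⟨m, rfl⟩ := Int.eq_ofNat_of_zero_le hn.le
  have hm : m ≠ 0 := by
    rintro rfl
    simp at hn
  have hCm : (HahnSeries.C (ϖ ^ m) : LaurentSeries L) ∈ gaussRing A π :=
    C_mem_gaussRing A π (pow_mem hϖA m)
  have h1 : (⟨HahnSeries.C (ϖ ^ (m : ℤ)) * u, h⟩ : gaussRing A π)
      = ⟨HahnSeries.C (ϖ ^ m), hCm⟩ * ⟨u, hu⟩ := by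
    apply Subtype.ext
    show HahnSeries.C (ϖ ^ (m : ℤ)) * u = HahnSeries.C (ϖ ^ m) * u
    rw [zpow_natCast]
  rw [h1, map_mul, hϖ.red_C_pow π hπ hm hCm, zero_mul]

/-! ### The valuation subring of an embedded field -/

section Emb

variable {π}
variable {F : Type*} [Field F] (τ : F →+* LaurentSeries L)
  (h : ∀ f : F, τ f ∈ gaussRing A π ∨ (τ f)⁻¹ ∈ gaussRing A π)

/-- The valuation subring `{f | τ f ∈ gaussRing}` of a field embedded in `L((q))`. -/
def vsOfEmb : ValuationSubring F where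
  carrier := {f | τ f ∈ gaussRing A π}
  mul_mem' := fun {a b} ha hb => by
    show τ (a * b) ∈ gaussRing A π
    rw [map_mul]; exact mul_mem ha hb
  one_mem' := by
    show τ 1 ∈ gaussRing A π
    rw [map_one]; exact one_mem _
  add_mem' := fun {a b} ha hb => by
    show τ (a + b) ∈ gaussRing A π
    rw [map_add]; exact add_mem ha hb
  zero_mem' := by
    show τ 0 ∈ gaussRing A π
    rw [map_zero]; exact zero_mem _
  neg_mem' := fun {a} ha => by
    show τ (-a) ∈ gaussRing A π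
    rw [map_neg]; exact neg_mem ha
  mem_or_inv_mem' := fun f => by
    rcases h f with h1 | h1
    · exact Or.inl h1
    · right
      show τ f⁻¹ ∈ gaussRing A π
      rw [map_inv₀]; exact h1

theorem mem_vsOfEmb (f : F) : f ∈ vsOfEmb τ h ↔ τ f ∈ gaussRing A π := Iff.rfl

/-- The residue map of `vsOfEmb`, with values in `k((q))`. -/
def redOfEmb : vsOfEmb τ h →+* LaurentSeries k :=
  (red A π).comp ((τ.comp (vsOfEmb τ h).subtype).codRestrict (gaussRing A π) (fun f => f.2))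

theorem redOfEmb_apply (f : vsOfEmb τ h) :
    redOfEmb τ h f = red A π ⟨τ (f : F), f.2⟩ := rfl

/-- The kernel of the residue map is the set of non-units. -/
theorem redOfEmb_eq_zero_iff (f : vsOfEmb τ h) : redOfEmb τ h f = 0 ↔ ¬ IsUnit f := by
  constructor
  · intro h0 hu
    have := (hu.map (redOfEmb τ h)).ne_zero
    exact this h0
  · intro hnu
    by_contra hne
    apply hnu
    have hinv : (τ (f : F))⁻¹ ∈ gaussRing A π := inv_mem_gaussRing A π f.2 hne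
    have hf0 : (f : F) ≠ 0 := by
      intro h0
      apply hne
      rw [redOfEmb_apply]
      have h1 : τ (f : F) = 0 := by rw [h0, map_zero]
      have : (⟨τ (f : F), f.2⟩ : gaussRing A π) = 0 := Subtype.ext h1
      rw [this, map_zero]
    refine IsUnit.of_mul_eq_one (⟨(f : F)⁻¹, ?_⟩ : vsOfEmb τ h) (Subtype.ext ?_)
    · show τ (f : F)⁻¹ ∈ gaussRing A π
      rw [map_inv₀]; exact hinv
    · show (f : F) * (f : F)⁻¹ = 1
      exact mul_inv_cancel₀ hf0

end Emb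

end Fermat.Agent.CAR.V3.GaussDVR

end
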