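import Fermat.Agent.ESJ.Cong.ConjAnalytic

/-!
# CAR / V3 : the middle-cusp embeddings of `F_{M' ℓ²}` over `F_{M' ℓ}`

`ℓ` a prime, `ℓ ∤ M'`, `N = M' ℓ`.  The field `F_{N ℓ} = F_{M' ℓ²}` has degree `ℓ` over `α F_N`.
Besides the inclusion (the expansion at `∞`), its conjugate embeddings into `ℚ̄((q))` over
`α F_N` are the expansions at the `ℓ - 1` *middle cusps* `a / (ℓ M')`: for every `ℓ`-th root of
unity `w ≠ 1` of `ℚ̄` there is a field embedding `τ_w : F_{M' ℓ²} → ℚ̄((q))` with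

* `τ_w (α x) = x` for `x ∈ F_{M' ℓ}` (`α` = the inclusion), and
* `τ_w (β (β y)) = y(w q)` for `y ∈ F_{M'}` (`β` = the substitution `q ↦ q^ℓ`),

i.e. on the generators `j(q^d) ↦ j(q^d)` if `ℓ² ∤ d` and `j(q^{ℓ² d'}) ↦ j(w^{d'} q^{d'})`.

Proof: on `ℍ`, `τ_w` is `G ↦ G ∘ γ` for `γ = [1 0; a ℓ M' 1] ∈ Γ₀(M' ℓ)`, which satisfies
`[ℓ² 0; 0 1] γ = γ' [ℓ b; 0 ℓ]` with `γ' ∈ Γ₀(M')` and `a b M' ≡ 1 (mod ℓ)`; same analytic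
transfer as in `ESJ/Cong/ConjAnalytic`.

Main statements: `exists_midCusp_of_zetaU`, `exists_midCusp`.
-/

set_option autoImplicit false
set_option linter.unusedSectionVars false

open UpperHalfPlane ModularForm Filter Function
open scoped MatrixGroups Manifold Topology

namespace Fermat.Agent.CAR.V3

open ModularCurve Fermat.Agent.S24 Fermat.Agent.S24.QExp Fermat.Agent.S28.Chain Fermat.Agent.S28
open Fermat.Agent.ESJ.Cong.ConjAnalytic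

noncomputable section

/-! ### The matrices -/

/-- For `b M'` coprime to `ℓ`: `γ ∈ Γ₀(M' ℓ)` and `γ' ∈ Γ₀(M')` with
`[ℓ² 0; 0 1] γ = γ' [ℓ b; 0 ℓ]`, in Möbius form. -/
theorem exists_gamma_mid (M' ℓ : ℕ) (hℓ0 : ℓ ≠ 0) (b : ℕ) (hcop : Nat.Coprime (b * M') ℓ) :
    ∃ γ γ' : SL(2, ℤ), γ ∈ CongruenceSubgroup.Gamma0 (M' * ℓ) ∧
      γ' ∈ CongruenceSubgroup.Gamma0 M' ∧
      ∀ z u : ℍ, (u : ℂ) = (z : ℂ) + (b : ℂ) / ℓ →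
        ((γ' • u : ℍ) : ℂ) = ((ℓ : ℂ) ^ 2) * ((γ • z : ℍ) : ℂ) := by
  have hcop' : IsCoprime ((b * M' : ℕ) : ℤ) (ℓ : ℤ) := by
    rw [Nat.isCoprime_iff_coprime]; exact hcop
  obtain ⟨a, y, hay⟩ := hcop'
  -- a * (b * M') + y * ℓ = 1
  have hay' : a * ((b : ℤ) * M') + y * ℓ = 1 := by
    have := hay; push_cast at this; exact this
  let γ : SL(2, ℤ) := ⟨!![1, 0; a * (ℓ : ℤ) * (M' : ℤ), 1], by
    rw [Matrix.det_fin_two_of]; ring⟩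
  let γ' : SL(2, ℤ) := ⟨!![(ℓ : ℤ), -(b : ℤ); a * (M' : ℤ), y], by
    rw [Matrix.det_fin_two_of]; linear_combination hay'⟩
  refine ⟨γ, γ', ?_, ?_, ?_⟩
  · rw [CongruenceSubgroup.Gamma0_mem]
    show ((a * (ℓ : ℤ) * (M' : ℤ) : ℤ) : ZMod (M' * ℓ)) = 0
    have : (a * (ℓ : ℤ) * (M' : ℤ) : ℤ) = a * ((M' * ℓ : ℕ) : ℤ) := by push_cast; ring
    rw [this, Int.cast_mul, Int.cast_natCast, ZMod.natCast_self, mul_zero]
  · rw [CongruenceSubgroup.Gamma0_mem]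
    show ((a * (M' : ℤ) : ℤ) : ZMod M') = 0
    simp
  · intro z u hu
    have hℓC : (ℓ : ℂ) ≠ 0 := by exact_mod_cast hℓ0
    have hden1 : ((a * (ℓ : ℤ) * (M' : ℤ) : ℤ) : ℂ) * (z : ℂ) + ((1 : ℤ) : ℂ) ≠ 0 := by
      intro h0
      have him : ((a * (ℓ : ℤ) * (M' : ℤ) : ℤ) : ℝ) * z.im = 0 := by
        have := congrArg Complex.im h0
        simpa using this
      have hc0 : (a * (ℓ : ℤ) * (M' : ℤ) : ℤ) = 0 := by
        rcases mul_eq_zero.mp him with h1 | h1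
        · exact_mod_cast h1
        · exact absurd h1 z.im_pos.ne'
      rw [hc0] at h0
      simp at h0
    rw [coe_specialLinearGroup_apply, coe_specialLinearGroup_apply]
    show ((((ℓ : ℤ) : ℤ) : ℂ) * (u : ℂ) + ((-(b : ℤ) : ℤ) : ℂ)) /
        (((a * (M' : ℤ) : ℤ) : ℂ) * (u : ℂ) + ((y : ℤ) : ℂ)) =
      ((ℓ : ℂ) ^ 2) * ((((1 : ℤ) : ℂ) * (z : ℂ) + ((0 : ℤ) : ℂ)) /
        (((a * (ℓ : ℤ) * (M' : ℤ) : ℤ) : ℂ) * (z : ℂ) + ((1 : ℤ) : ℂ)))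
    have hnum : (((ℓ : ℤ) : ℤ) : ℂ) * (u : ℂ) + ((-(b : ℤ) : ℤ) : ℂ) = (ℓ : ℂ) * (z : ℂ) := by
      rw [hu]
      push_cast
      field_simp
      ring
    have hayC : (a : ℂ) * ((b : ℂ) * (M' : ℂ)) + (y : ℂ) * (ℓ : ℂ) = 1 := by
      exact_mod_cast hay'
    have hden : ((a * (M' : ℤ) : ℤ) : ℂ) * (u : ℂ) + ((y : ℤ) : ℂ) =
        (((a * (ℓ : ℤ) * (M' : ℤ) : ℤ) : ℂ) * (z : ℂ) + ((1 : ℤ) : ℂ)) / ℓ := by
      rw [hu]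
      push_cast
      field_simp
      linear_combination hayC
    have h1c : ((1 : ℤ) : ℂ) * (z : ℂ) + ((0 : ℤ) : ℂ) = (z : ℂ) := by push_cast; ring
    rw [hnum, hden, h1c]
    field_simp

/-! ### The functions -/

/-- `J (ℓ² d (γ z)) = J (d z + d b / ℓ)` for `d ∣ M'`. -/
theorem trans_Jabd_sq (M' ℓ : ℕ) [NeZero M'] (hℓ0 : 0 < ℓ) {γ γ' : SL(2, ℤ)}
    (hγ' : γ' ∈ CongruenceSubgroup.Gamma0 M') (b : ℕ)
    (hrel : ∀ z u : ℍ, (u : ℂ) = (z : ℂ) + (b : ℂ) / ℓ →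
      ((γ' • u : ℍ) : ℂ) = ((ℓ : ℂ) ^ 2) * ((γ • z : ℍ) : ℂ))
    (d : ℕ) (hd : d ∣ M') :
    trans γ⁻¹ (Jabd (ℓ ^ 2 * d) 0 1) = Jabd (ℓ * d) (d * b) ℓ := by
  have hd0 : 0 < d := Nat.pos_of_dvd_of_pos hd (Nat.pos_of_ne_zero (NeZero.ne M'))
  funext z
  show Jabd (ℓ ^ 2 * d) 0 1 ((γ⁻¹)⁻¹ • z) = Jabd (ℓ * d) (d * b) ℓ z
  rw [inv_inv, HNFMod.Jabd_eq (ℓ ^ 2 * d) 0 1 (Nat.mul_pos (pow_pos hℓ0 2) hd0) one_pos,
    HNFMod.Jabd_eq (ℓ * d) (d * b) ℓ (Nat.mul_pos hℓ0 hd0) hℓ0]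
  set u : ℍ := HNFMod.affPt ℓ b ℓ hℓ0 hℓ0 z with hu
  have hℓC : (ℓ : ℂ) ≠ 0 := by exact_mod_cast hℓ0.ne'
  have huc : (u : ℂ) = (z : ℂ) + (b : ℂ) / ℓ := by
    rw [hu, HNFMod.coe_affPt]
    field_simp
  have h1 := hrel z u huc
  exact HNF.invariant_of_mem_Gamma0 Jfun JPt.Jfun_smul M' d hd γ' hγ' u _ _
    (by rw [HNFMod.coe_affPt, h1]; push_cast; ring)
    (by rw [HNFMod.coe_affPt, huc]; push_cast; field_simp)

/-! ### The expansions in `q` -/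

theorem hasQExp_Jabd_one (d : ℕ) [NeZero d] : HasQExp 1 (Jabd d 0 1) (TD.Jd ℂ d) := by
  have h1 := hasQExp_Jabd_scale d
  rw [jqC_eq, ← TD.Jd_eq ℂ d] at h1
  exact h1

theorem qParam_pow_level (ℓ : ℕ) [NeZero ℓ] (τ : ℂ) :
    Function.Periodic.qParam ((ℓ : ℕ) : ℝ) τ ^ ℓ = Function.Periodic.qParam ((1 : ℕ) : ℝ) τ := by
  rw [Function.Periodic.qParam, Function.Periodic.qParam, ← Complex.exp_nat_mul]
  congr 1
  have hm : (ℓ : ℂ) ≠ 0 := by exact_mod_cast NeZero.ne ℓ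
  push_cast
  field_simp

/-- Expansion of `z ↦ J (d z + d b / ℓ)` in `q` : the twist of `J(q^d)` by `exp (2 π i b / ℓ)`. -/
theorem hasQExp_Jabd_mid (ℓ : ℕ) [NeZero ℓ] (d : ℕ) [NeZero d] (b : ℕ) :
    HasQExp 1 (Jabd (ℓ * d) (d * b) ℓ) (rot (zetaU ℓ b) (TD.Jd ℂ d)) := by
  intro τ
  have h1 := hasQExp_Jabd (ℓ * d) (d * b) ℓ τ
  rw [jqC_eq, hasSum_qExpand] at h1
  rw [TD.Jd_eq ℂ d, rot_qExpand, zetaU_pow, hasSum_qExpand]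
  have e : ((d * b : ℕ) : ℤ) = (d : ℤ) * ((b : ℕ) : ℤ) := by push_cast; ring
  rw [e] at h1
  have e2 : Function.Periodic.qParam ((ℓ : ℕ) : ℝ) (τ : ℂ) ^ (ℓ * d)
      = Function.Periodic.qParam ((1 : ℕ) : ℝ) (τ : ℂ) ^ d := by
    rw [pow_mul, qParam_pow_level]
  rw [e2] at h1
  exact h1

/-- The series attached to the generator of index `d ∣ M' ℓ²` at a middle cusp:
`J(w^{d'} q^{d'})` if `d = ℓ² d'`, and `J(q^d)` otherwise. -/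
def serMid (ℓ : ℕ) (w : KQˣ) (d : ℕ) : LaurentSeries KQ :=
  if ℓ ^ 2 ∣ d then rot w (TD.Jd KQ (d / ℓ ^ 2)) else TD.Jd KQ d

theorem dvd_of_dvd_mul_sq (M' ℓ : ℕ) (hℓ : ℓ.Prime) {d : ℕ} (hd : d ∣ M' * ℓ * ℓ)
    (h2 : ¬ ℓ ^ 2 ∣ d) : d ∣ M' * ℓ := by
  by_cases h1 : ℓ ∣ d
  · obtain ⟨e, rfl⟩ := h1
    have he : ¬ ℓ ∣ e := by
      rintro ⟨f, rfl⟩
      exact h2 ⟨f, by ring⟩
    have h3 : e ∣ M' * ℓ := by
      have : ℓ * e ∣ ℓ * (M' * ℓ) := by rw [mul_comm ℓ (M' * ℓ)]; exact hd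
      exact (Nat.mul_dvd_mul_iff_left hℓ.pos).mp this
    have h4 : e ∣ M' :=
      Nat.Coprime.dvd_of_dvd_mul_right ((Nat.Prime.coprime_iff_not_dvd hℓ).mpr he).symm h3
    rw [mul_comm M' ℓ]
    exact Nat.mul_dvd_mul_left ℓ h4
  · have hc : Nat.Coprime d ℓ := ((Nat.Prime.coprime_iff_not_dvd hℓ).mpr h1).symm
    exact Nat.Coprime.dvd_of_dvd_mul_right hc hd

theorem hasQExp_serMid (M' ℓ : ℕ) [NeZero M'] [NeZero ℓ] (hℓ : ℓ.Prime) (b : ℕ) (w : KQˣ)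
    (hw : Units.map (iotaK : KQ →* ℂ) w = zetaU ℓ b) {γ γ' : SL(2, ℤ)}
    (hγ : γ ∈ CongruenceSubgroup.Gamma0 (M' * ℓ)) (hγ' : γ' ∈ CongruenceSubgroup.Gamma0 M')
    (hrel : ∀ z u : ℍ, (u : ℂ) = (z : ℂ) + (b : ℂ) / ℓ →
      ((γ' • u : ℍ) : ℂ) = ((ℓ : ℂ) ^ 2) * ((γ • z : ℍ) : ℂ))
    (d : Dv (M' * ℓ * ℓ)) :
    HasQExp 1 (trans γ⁻¹ (Jabd d.1 0 1)) (coeffMap iotaK (serMid ℓ w d.1)) := by
  unfold serMid
  split_ifs with hdvd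
  · obtain ⟨d', hd'⟩ := hdvd
    have hdM : d' ∣ M' := by
      have h2 := d.2
      rw [hd', mul_assoc, ← pow_two, mul_comm M' (ℓ ^ 2)] at h2
      exact (Nat.mul_dvd_mul_iff_left (pow_pos hℓ.pos 2)).mp h2
    have : NeZero d' := ⟨fun h0 => NeZero.ne M' (by rw [h0] at hdM; exact zero_dvd_iff.mp hdM)⟩
    rw [hd', Nat.mul_div_cancel_left d' (pow_pos hℓ.pos 2),
      trans_Jabd_sq M' ℓ hℓ.pos hγ' b hrel d' hdM, coeffMap_rot, hw, TD.coeffMap_Jd]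
    exact hasQExp_Jabd_mid ℓ d' b
  · have hdN : d.1 ∣ M' * ℓ := dvd_of_dvd_mul_sq M' ℓ hℓ d.2 hdvd
    have : NeZero d.1 := d.neZero
    rw [trans_Jabd_of_dvd_N (M' * ℓ) hγ d.1 hdN, TD.coeffMap_Jd]
    exact hasQExp_Jabd_one d.1

/-! ### The middle-cusp embeddings -/

theorem serMid_inclD (M' ℓ : ℕ) [NeZero M'] [NeZero ℓ] (hℓ : ℓ.Prime) (hℓM : ¬ ℓ ∣ M')
    (w : KQˣ) (d : Dv (M' * ℓ)) :
    serMid ℓ w (inclD (M' * ℓ) ℓ d).1 = (jFormal (M' * ℓ) d : LaurentSeries KQ) := by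
  have h2 : ¬ ℓ ^ 2 ∣ d.1 := by
    intro h
    have h3 : ℓ ^ 2 ∣ M' * ℓ := h.trans d.2
    rw [pow_two, mul_comm M' ℓ] at h3
    exact hℓM ((Nat.mul_dvd_mul_iff_left hℓ.pos).mp h3)
  show serMid ℓ w d.1 = _
  rw [serMid, if_neg h2, coe_jFormal]

theorem serMid_inclL_inclL (M' ℓ : ℕ) [NeZero M'] [NeZero ℓ] (hℓ : ℓ.Prime)
    (w : KQˣ) (d : Dv M') :
    serMid ℓ w (inclL (M' * ℓ) ℓ (inclL M' ℓ d)).1 = rot w (jFormal M' d : LaurentSeries KQ) := by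
  show serMid ℓ w (ℓ * (ℓ * d.1)) = _
  have e : ℓ * (ℓ * d.1) = ℓ ^ 2 * d.1 := by ring
  rw [serMid, e, if_pos (dvd_mul_right _ _), Nat.mul_div_cancel_left d.1 (pow_pos hℓ.pos 2),
    coe_jFormal]

/-- **The middle-cusp embedding**, analytic form: for `ℓ ∤ b M'` and `w ∈ ℚ̄` with
`ι w = exp(2πi b/ℓ)`: a field embedding `τ : F_{M' ℓ²} → ℚ̄((q))` which is the identity on
`F_{M' ℓ}` and sends `y(q^{ℓ²})` to `y(w q)` for `y ∈ F_{M'}`. -/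
theorem exists_midCusp_of_zetaU (M' ℓ : ℕ) [NeZero M'] [NeZero ℓ] (hℓ : ℓ.Prime)
    (hℓM : ¬ ℓ ∣ M') (b : ℕ) (hb : ¬ ℓ ∣ b) (w : KQˣ)
    (hw : Units.map (iotaK : KQ →* ℂ) w = zetaU ℓ b) :
    ∃ τ : modularFunctionFieldBar (M' * ℓ * ℓ) →+* LaurentSeries KQ,
      (∀ P : MvPolynomial (Dv (M' * ℓ * ℓ)) KQ,
        τ (fm (M' * ℓ * ℓ) P) = MvPolynomial.aeval (fun d => serMid ℓ w d.1) P) ∧
      (∀ x : modularFunctionFieldBar (M' * ℓ),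
        τ (heckeAlphaBar KQ (M' * ℓ) ℓ x) = (x : LaurentSeries KQ)) ∧
      (∀ y : modularFunctionFieldBar M',
        τ (heckeBetaBar KQ (M' * ℓ) ℓ (heckeBetaBar KQ M' ℓ y)) = rot w (y : LaurentSeries KQ)) := by
  have hcop : Nat.Coprime (b * M') ℓ := by
    apply Nat.Coprime.symm
    rw [Nat.Prime.coprime_iff_not_dvd hℓ]
    intro h
    rcases (Nat.Prime.dvd_mul hℓ).mp h with h | h
    · exact hb h
    · exact hℓM h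
  obtain ⟨γ, γ', hγ, hγ', hrel⟩ := exists_gamma_mid M' ℓ hℓ.ne_zero b hcop
  obtain ⟨τ, hτ⟩ := exists_hom_of_series (M' * ℓ * ℓ) 1 γ⁻¹ (fun d => serMid ℓ w d.1)
    (hasQExp_serMid M' ℓ hℓ b w hw hγ hγ' hrel)
  have keyα : ∀ P : MvPolynomial (Dv (M' * ℓ)) KQ,
      τ (heckeAlphaBar KQ (M' * ℓ) ℓ (fm (M' * ℓ) P)) =
        ((fm (M' * ℓ) P : FN (M' * ℓ)) : LaurentSeries KQ) := by
    intro P
    have hfun : (fun d : Dv (M' * ℓ * ℓ) => serMid ℓ w d.1) ∘ inclD (M' * ℓ) ℓ =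
        fun d : Dv (M' * ℓ) => (jFormal (M' * ℓ) d : LaurentSeries KQ) := by
      funext d
      exact serMid_inclD M' ℓ hℓ hℓM w d
    rw [alpha_fm, hτ, MvPolynomial.aeval_rename, coe_fm, hfun]
  have keyβ : ∀ P : MvPolynomial (Dv M') KQ,
      τ (heckeBetaBar KQ (M' * ℓ) ℓ (heckeBetaBar KQ M' ℓ (fm M' P))) =
        rot w ((fm M' P : FN M') : LaurentSeries KQ) := by
    intro P
    have hfun : ((fun d : Dv (M' * ℓ * ℓ) => serMid ℓ w d.1) ∘ inclL (M' * ℓ) ℓ) ∘ inclL M' ℓ =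
        fun d : Dv M' => rot w (jFormal M' d : LaurentSeries KQ) := by
      funext d
      exact serMid_inclL_inclL M' ℓ hℓ w d
    rw [beta_fm, beta_fm, hτ, MvPolynomial.aeval_rename, MvPolynomial.aeval_rename, coe_fm,
      rot_aeval, hfun]
  refine ⟨τ, hτ, fun x => ?_, fun y => ?_⟩
  · obtain ⟨P, Q, hQ, hx⟩ := exists_isRep (M' * ℓ) x
    rw [hx, map_div₀, map_div₀, keyα, keyα, IntermediateField.coe_div]
  · obtain ⟨P, Q, hQ, hy⟩ := exists_isRep M' y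
    rw [hy, map_div₀, map_div₀, map_div₀, keyβ, keyβ, IntermediateField.coe_div, map_div₀]

/-- **The middle-cusp embedding**, root-of-unity form: for every `ℓ`-th root of unity `w ≠ 1`
of `ℚ̄`. -/
theorem exists_midCusp (M' ℓ : ℕ) [NeZero M'] [NeZero ℓ] (hℓ : ℓ.Prime) (hℓM : ¬ ℓ ∣ M')
    (w : KQˣ) (hw : w ^ ℓ = 1) (hw1 : w ≠ 1) :
    ∃ τ : modularFunctionFieldBar (M' * ℓ * ℓ) →+* LaurentSeries KQ,
      (∀ P : MvPolynomial (Dv (M' * ℓ * ℓ)) KQ,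
        τ (fm (M' * ℓ * ℓ) P) = MvPolynomial.aeval (fun d => serMid ℓ w d.1) P) ∧
      (∀ x : modularFunctionFieldBar (M' * ℓ),
        τ (heckeAlphaBar KQ (M' * ℓ) ℓ x) = (x : LaurentSeries KQ)) ∧
      (∀ y : modularFunctionFieldBar M',
        τ (heckeBetaBar KQ (M' * ℓ) ℓ (heckeBetaBar KQ M' ℓ y)) = rot w (y : LaurentSeries KQ)) := by
  obtain ⟨b, hb⟩ := exists_zetaU_of_pow_eq_one ℓ w hw
  refine exists_midCusp_of_zetaU M' ℓ hℓ hℓM b ?_ w hb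
  rintro ⟨c, rfl⟩
  apply hw1
  have h1 : zetaU ℓ ((ℓ * c : ℕ) : ℤ) = 1 := by
    ext
    simp only [zetaU, Units.val_mk0, Units.val_one]
    have hℓC : (ℓ : ℂ) ≠ 0 := by exact_mod_cast hℓ.ne_zero
    have : 2 * (Real.pi : ℂ) * Complex.I * ((ℓ * c : ℕ) : ℤ) / ℓ = (c : ℤ) * (2 * Real.pi * Complex.I) := by
      push_cast
      field_simp
    rw [this]
    exact Complex.exp_int_mul_two_pi_mul_I c
  rw [h1] at hb
  have hinj : Function.Injective (Units.map (iotaK : KQ →* ℂ)) :=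
    Units.map_injective (iotaK : KQ →+* ℂ).injective
  exact hinj (by rw [hb, map_one])

end

end Fermat.Agent.CAR.V3
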