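import Mathlib
import Fermat.Agent.Lib.Red.GaussRing
import Fermat.Agent.S28.Rot
import Fermat.Agent.CAR.Local.ThetaJ

/-!
# CAR (V3), the series half of (C1): `(f(ζ q) - f(q)) / (ζ - 1) ≡ θ f`

`L` is a field, `A` a valuation subring, `π : A →+* k` a ring homomorphism to a field (the residue
map in the applications), `gaussRing A π ⊆ L((q))` the Gauss ring of `Lib/Red/GaussRing` with its
reduction `red A π : gaussRing A π →+* k((q))`, `rot ζ` the substitution `q ↦ ζ q`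
(`S28/Rot`), `thetaL k` the derivation `θ = q d/dq` (`CAR/Local/ThetaJ`).

For a unit `ζ` of `A` with `π ζ = 1` (e.g. a `q`-th root of unity when `k` has characteristic `q`):

* `rot_mem_gaussRing`, `red_rot` : `rot ζ` preserves the Gauss ring and commutes with `red`;
* `exists_rot_sub_eq` : for `y` in the Gauss ring, `rot ζ y - y = (ζ - 1) · z` with `z` in the
  Gauss ring and `red z = θ (red y)`;
* `exists_unit_natCast_eq` : for a primitive `q`-th root of unity `ζ` (`q` prime),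
  `q = u · (1 - ζ)^(q-1)` with `u ∈ A`, `π u = -1` (Wilson);
* `pow_div_mem_gaussRing`, `red_pow_div` : `(rot ζ y - y)^(q-1) / q` lies in the Gauss ring and
  reduces to `-(θ (red y))^(q-1)`;
* `exists_rot_sub_eq_unit` : if `θ (red y) ≠ 0`, then `rot ζ y - y = (ζ - 1) · (unit)`.
-/

set_option autoImplicit false

noncomputable section

namespace Fermat.Agent.CAR.V3.MidSeries

open ModularCurve Fermat.Agent.Lib.Red Fermat.Agent.S28.Chain Fermat.Agent.CAR.Local.ThetaJ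

variable {L : Type*} [Field L] (A : ValuationSubring L) {k : Type*} [Field k] (π : A →+* k)

/-! ### Quantum integers -/

theorem pi_inv_eq_one (ζ : Lˣ) (hζ : (ζ : L) ∈ A) (hζ' : ((ζ⁻¹ : Lˣ) : L) ∈ A)
    (hπ : π ⟨ζ, hζ⟩ = 1) : π ⟨((ζ⁻¹ : Lˣ) : L), hζ'⟩ = 1 := by
  have h1 : (⟨(ζ : L), hζ⟩ : A) * ⟨((ζ⁻¹ : Lˣ) : L), hζ'⟩ = 1 :=
    Subtype.ext (by simp)
  have h2 := congrArg π h1
  rw [map_mul, hπ, one_mul, map_one] at h2
  exact h2

/-- `ζ^n - 1 = (ζ - 1) · [n]_ζ` with `[n]_ζ ∈ A` and `π [n]_ζ = n`, for every integer `n`. -/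
theorem exists_qint (ζ : Lˣ) (hζ : (ζ : L) ∈ A) (hζ' : ((ζ⁻¹ : Lˣ) : L) ∈ A)
    (hπ : π ⟨ζ, hζ⟩ = 1) (n : ℤ) :
    ∃ c : A, ((ζ ^ n : Lˣ) : L) - 1 = ((ζ : L) - 1) * (c : L) ∧ π c = (n : k) := by
  have hπ' := pi_inv_eq_one A π ζ hζ hζ' hπ
  induction n using Int.induction_on with
  | zero => exact ⟨0, by simp, by simp⟩
  | succ n ih =>
    obtain ⟨c, hc, hcπ⟩ := ih
    refine ⟨⟨ζ, hζ⟩ * c + 1, ?_, ?_⟩
    · have h1 : ((ζ ^ (n : ℤ) : Lˣ) : L) = 1 + ((ζ : L) - 1) * (c : L) := by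
        rw [← hc]; ring
      rw [zpow_add_one, Units.val_mul, h1]
      push_cast
      ring
    · rw [map_add, map_mul, hπ, hcπ, map_one]
      push_cast
      ring
  | pred n ih =>
    obtain ⟨c, hc, hcπ⟩ := ih
    refine ⟨⟨((ζ⁻¹ : Lˣ) : L), hζ'⟩ * c - ⟨((ζ⁻¹ : Lˣ) : L), hζ'⟩, ?_, ?_⟩
    · have h1 : ((ζ ^ (-(n : ℤ)) : Lˣ) : L) = 1 + ((ζ : L) - 1) * (c : L) := by
        rw [← hc]; ring
      have h2 : ((ζ⁻¹ : Lˣ) : L) * (ζ : L) = 1 := by simp
      rw [zpow_sub_one, Units.val_mul, h1]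
      show (1 + ((ζ : L) - 1) * (c : L)) * ((ζ⁻¹ : Lˣ) : L) - 1
        = ((ζ : L) - 1) * (((ζ⁻¹ : Lˣ) : L) * (c : L) - ((ζ⁻¹ : Lˣ) : L))
      linear_combination h2
    · rw [map_sub, map_mul, hπ', hcπ]
      push_cast
      ring

/-- A choice of quantum integers. -/
def qint (ζ : Lˣ) (hζ : (ζ : L) ∈ A) (hζ' : ((ζ⁻¹ : Lˣ) : L) ∈ A)
    (hπ : π ⟨ζ, hζ⟩ = 1) (n : ℤ) : A :=
  Classical.choose (exists_qint A π ζ hζ hζ' hπ n)

theorem qint_spec (ζ : Lˣ) (hζ : (ζ : L) ∈ A) (hζ' : ((ζ⁻¹ : Lˣ) : L) ∈ A)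
    (hπ : π ⟨ζ, hζ⟩ = 1) (n : ℤ) :
    ((ζ ^ n : Lˣ) : L) - 1 = ((ζ : L) - 1) * (qint A π ζ hζ hζ' hπ n : L) :=
  (Classical.choose_spec (exists_qint A π ζ hζ hζ' hπ n)).1

theorem pi_qint (ζ : Lˣ) (hζ : (ζ : L) ∈ A) (hζ' : ((ζ⁻¹ : Lˣ) : L) ∈ A)
    (hπ : π ⟨ζ, hζ⟩ = 1) (n : ℤ) : π (qint A π ζ hζ hζ' hπ n) = (n : k) :=
  (Classical.choose_spec (exists_qint A π ζ hζ hζ' hπ n)).2

/-! ### Coefficientwise multiplication -/

variable {A}

/-- Coefficientwise multiplication of an `A`-integral series by a family of constants. -/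
def cmul (c : ℤ → A) (P : LaurentSeries A) : LaurentSeries A :=
  ⟨fun n => c n * P.coeff n, P.isPWO_support.mono (fun n hn => by
    rw [Function.mem_support] at hn
    rw [HahnSeries.mem_support]
    intro h
    exact hn (by rw [h, mul_zero]))⟩

@[simp]
theorem cmul_coeff (c : ℤ → A) (P : LaurentSeries A) (n : ℤ) :
    (cmul c P).coeff n = c n * P.coeff n := rfl

variable (A)

/-- `rot ζ P = P + (ζ - 1) · P₁` for an `A`-integral series `P`, with `P₁` integral. -/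
theorem rot_incl (ζ : Lˣ) (hζ : (ζ : L) ∈ A) (hζ' : ((ζ⁻¹ : Lˣ) : L) ∈ A)
    (hπ : π ⟨ζ, hζ⟩ = 1) (P : LaurentSeries A) :
    rot ζ (incl A P) = incl A P
      + HahnSeries.C ((ζ : L) - 1) * incl A (cmul (qint A π ζ hζ hζ' hπ) P) := by
  ext n
  rw [rot_coeff, HahnSeries.coeff_add, HahnSeries.C_mul_eq_smul, HahnSeries.coeff_smul,
    incl_coeff, incl_coeff, cmul_coeff, smul_eq_mul]
  have h := qint_spec A π ζ hζ hζ' hπ n
  show ((ζ ^ n : Lˣ) : L) * (P.coeff n : L)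
    = (P.coeff n : L) + ((ζ : L) - 1) * ((qint A π ζ hζ hζ' hπ n : L) * (P.coeff n : L))
  linear_combination (P.coeff n : L) * h

theorem rbar_cmul_qint (ζ : Lˣ) (hζ : (ζ : L) ∈ A) (hζ' : ((ζ⁻¹ : Lˣ) : L) ∈ A)
    (hπ : π ⟨ζ, hζ⟩ = 1) (P : LaurentSeries A) :
    rbar A π (cmul (qint A π ζ hζ hζ' hπ) P) = thetaL k (rbar A π P) := by
  ext n
  rw [rbar_coeff, cmul_coeff, map_mul, pi_qint, coeff_thetaL, rbar_coeff]

/-- The integral series `rot ζ P`. -/
def rotA (ζ : Lˣ) (hζ : (ζ : L) ∈ A) (hζ' : ((ζ⁻¹ : Lˣ) : L) ∈ A)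
    (hπ : π ⟨ζ, hζ⟩ = 1) (P : LaurentSeries A) : LaurentSeries A :=
  P + HahnSeries.C (⟨(ζ : L), hζ⟩ - 1 : A) * cmul (qint A π ζ hζ hζ' hπ) P

theorem incl_rotA (ζ : Lˣ) (hζ : (ζ : L) ∈ A) (hζ' : ((ζ⁻¹ : Lˣ) : L) ∈ A)
    (hπ : π ⟨ζ, hζ⟩ = 1) (P : LaurentSeries A) :
    incl A (rotA A π ζ hζ hζ' hπ P) = rot ζ (incl A P) := by
  rw [rot_incl A π ζ hζ hζ' hπ, rotA, map_add, map_mul, incl_C]
  rfl

theorem rbar_rotA (ζ : Lˣ) (hζ : (ζ : L) ∈ A) (hζ' : ((ζ⁻¹ : Lˣ) : L) ∈ A)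
    (hπ : π ⟨ζ, hζ⟩ = 1) (P : LaurentSeries A) :
    rbar A π (rotA A π ζ hζ hζ' hπ P) = rbar A π P := by
  rw [rotA, map_add, map_mul, rbar_C, map_sub, hπ, map_one, sub_self, map_zero, zero_mul,
    add_zero]

/-! ### The Gauss ring -/

/-- `rot ζ` preserves the Gauss ring. -/
theorem rot_mem_gaussRing (ζ : Lˣ) (hζ : (ζ : L) ∈ A) (hζ' : ((ζ⁻¹ : Lˣ) : L) ∈ A)
    (hπ : π ⟨ζ, hζ⟩ = 1) {y : LaurentSeries L} (hy : y ∈ gaussRing A π) :
    rot ζ y ∈ gaussRing A π := by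
  obtain ⟨s, P, hs, h⟩ := (mem_gaussRing_iff A π _).mp hy
  refine ⟨rotA A π ζ hζ hζ' hπ s, rotA A π ζ hζ hζ' hπ P, ?_, ?_⟩
  · rw [rbar_rotA]; exact hs
  · rw [incl_rotA, incl_rotA, ← map_mul, h]

/-- `rot ζ` commutes with the reduction. -/
theorem red_rot (ζ : Lˣ) (hζ : (ζ : L) ∈ A) (hζ' : ((ζ⁻¹ : Lˣ) : L) ∈ A)
    (hπ : π ⟨ζ, hζ⟩ = 1) {y : LaurentSeries L} (hy : y ∈ gaussRing A π)
    (hy' : rot ζ y ∈ gaussRing A π) :
    red A π ⟨rot ζ y, hy'⟩ = red A π ⟨y, hy⟩ := by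
  obtain ⟨s, P, hs, h⟩ := (mem_gaussRing_iff A π _).mp hy
  rw [red_eq A π ⟨y, hy⟩ hs h,
    red_eq A π ⟨rot ζ y, hy'⟩ (s := rotA A π ζ hζ hζ' hπ s) (P := rotA A π ζ hζ hζ' hπ P)
      (by rw [rbar_rotA]; exact hs) (by rw [incl_rotA, incl_rotA, ← map_mul, h]),
    rbar_rotA, rbar_rotA]

/-- **(C1), series form.** For `y` in the Gauss ring, `y(ζ q) - y(q) = (ζ - 1) · z` with `z` in
the Gauss ring and `red z = θ (red y)`. -/
theorem exists_rot_sub_eq (ζ : Lˣ) (hζ : (ζ : L) ∈ A) (hζ' : ((ζ⁻¹ : Lˣ) : L) ∈ A)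
    (hπ : π ⟨ζ, hζ⟩ = 1) (y : gaussRing A π) :
    ∃ z : gaussRing A π,
      rot ζ (y : LaurentSeries L) - (y : LaurentSeries L) = HahnSeries.C ((ζ : L) - 1) * (z : LaurentSeries L) ∧
      red A π z = thetaL k (red A π y) := by
  obtain ⟨s, P, hs, h⟩ := (mem_gaussRing_iff A π _).mp y.2
  set c := qint A π ζ hζ hζ' hπ with hc
  set s' := rotA A π ζ hζ hζ' hπ s with hs'
  -- numerator and denominator of `z`
  set N : LaurentSeries A := s * cmul c P - cmul c s * P with hN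
  set S : LaurentSeries A := s * s' with hS
  have hSbar : rbar A π S ≠ 0 := by
    rw [hS, map_mul, hs', rbar_rotA]
    exact mul_ne_zero hs hs
  have hS0 : incl A S ≠ 0 := by
    intro h0
    apply hSbar
    have : S = 0 := incl_injective A (by rw [h0, map_zero])
    rw [this, map_zero]
  have hzmem : incl A N / incl A S ∈ gaussRing A π :=
    ⟨S, N, hSbar, by rw [mul_div_cancel₀ _ hS0]⟩
  refine ⟨⟨incl A N / incl A S, hzmem⟩, ?_, ?_⟩
  · -- `s s' (rot y - y) = (ζ - 1) N`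
    have h1 : incl A s' * rot ζ (y : LaurentSeries L) = rot ζ (incl A P) := by
      rw [hs', incl_rotA, ← map_mul, h]
    have h2 : incl A S * (rot ζ (y : LaurentSeries L) - (y : LaurentSeries L))
        = HahnSeries.C ((ζ : L) - 1) * incl A N := by
      have e1 : incl A s' = incl A s + HahnSeries.C ((ζ : L) - 1) * incl A (cmul c s) := by
        rw [hs', incl_rotA, rot_incl A π ζ hζ hζ' hπ]
      have e2 : rot ζ (incl A P) = incl A P + HahnSeries.C ((ζ : L) - 1) * incl A (cmul c P) :=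
        rot_incl A π ζ hζ hζ' hπ P
      have eN : incl A N = incl A s * incl A (cmul c P) - incl A (cmul c s) * incl A P := by
        rw [hN, map_sub, map_mul, map_mul]
      have eS : incl A S = incl A s * incl A s' := by
        rw [hS, map_mul]
      rw [eN, eS]
      rw [e2] at h1
      rw [e1] at h1 ⊢
      linear_combination (incl A s) * h1 - (incl A s + HahnSeries.C ((ζ : L) - 1) *
        incl A (cmul c s)) * h
    show rot ζ (y : LaurentSeries L) - (y : LaurentSeries L) = HahnSeries.C ((ζ : L) - 1) * (incl A N / incl A S)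
    rw [mul_div_assoc', eq_div_iff hS0, ← h2]
    ring
  · rw [red_eq A π ⟨incl A N / incl A S, hzmem⟩ hSbar (by rw [mul_div_cancel₀ _ hS0]),
      red_eq A π y hs h]
    have hθ : thetaL k (rbar A π P / rbar A π s)
        = (rbar A π s * thetaL k (rbar A π P) - thetaL k (rbar A π s) * rbar A π P)
          / (rbar A π s * rbar A π s) := by
      have e : rbar A π P = (rbar A π P / rbar A π s) * rbar A π s := by
        rw [div_mul_cancel₀ _ hs]
      have e' := congrArg (thetaL k) e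
      rw [Derivation.leibniz, smul_eq_mul, smul_eq_mul] at e'
      rw [eq_div_iff (mul_ne_zero hs hs), e']
      field_simp
      ring
    rw [hθ, hN, hS, map_sub, map_mul, map_mul, map_mul, hs', rbar_rotA, hc, rbar_cmul_qint,
      rbar_cmul_qint]

/-- If moreover `θ (red y) ≠ 0` then `y(ζ q) - y(q) = (ζ - 1) · (unit of the Gauss ring)`. -/
theorem exists_rot_sub_eq_unit (ζ : Lˣ) (hζ : (ζ : L) ∈ A) (hζ' : ((ζ⁻¹ : Lˣ) : L) ∈ A)
    (hπ : π ⟨ζ, hζ⟩ = 1) (y : gaussRing A π) (hθ : thetaL k (red A π y) ≠ 0) :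
    ∃ z : gaussRing A π,
      rot ζ (y : LaurentSeries L) - (y : LaurentSeries L) = HahnSeries.C ((ζ : L) - 1) * (z : LaurentSeries L) ∧
      red A π z = thetaL k (red A π y) ∧ (z : LaurentSeries L)⁻¹ ∈ gaussRing A π := by
  obtain ⟨z, hz, hzr⟩ := exists_rot_sub_eq A π ζ hζ hζ' hπ y
  exact ⟨z, hz, hzr, inv_mem_gaussRing A π z.2 (by rw [hzr]; exact hθ)⟩

/-! ### Roots of unity of prime order -/

/-- Roots of unity lie in every valuation subring. -/
theorem mem_of_pow_eq_one {ζ : L} {n : ℕ} (hn : n ≠ 0) (h : ζ ^ n = 1) : ζ ∈ A := by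
  rcases A.mem_or_inv_mem ζ with h1 | h1
  · exact h1
  · have h2 : ζ = (ζ⁻¹) ^ (n - 1) := by
      have hζ0 : ζ ≠ 0 := by
        rintro rfl
        rw [zero_pow hn] at h
        exact zero_ne_one h
      have h3 : ζ ^ n = ζ ^ (n - 1) * ζ := by
        rw [← pow_succ, Nat.sub_add_cancel (Nat.pos_of_ne_zero hn)]
      rw [inv_pow]
      rw [h3] at h
      exact (eq_inv_of_mul_eq_one_right h)
    rw [h2]
    exact pow_mem h1 _

/-- In characteristic `q`, a `q`-th root of unity of `A` reduces to `1`. -/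
theorem pi_eq_one_of_pow_eq_one (q : ℕ) [Fact q.Prime] [CharP k q] {ζ : L} (hζA : ζ ∈ A)
    (h : ζ ^ q = 1) : π ⟨ζ, hζA⟩ = 1 := by
  have h1 : (⟨ζ, hζA⟩ : A) ^ q = 1 := Subtype.ext h
  have h2 : (π ⟨ζ, hζA⟩ - 1) ^ q = 0 := by
    rw [sub_pow_char, one_pow, ← map_pow, h1, map_one, sub_self]
  exact sub_eq_zero.mp (pow_eq_zero_iff (Fact.out : q.Prime).ne_zero |>.mp h2)

/-- `1 - ζ^i = (1 - ζ) · (1 + ζ + … + ζ^(i-1))`. -/
theorem one_sub_pow_eq (ζ : L) (i : ℕ) :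
    1 - ζ ^ i = (1 - ζ) * ∑ j ∈ Finset.range i, ζ ^ j := by
  have := mul_neg_geom_sum ζ i
  linear_combination -this

/-- **Wilson.** For a primitive `q`-th root of unity `ζ ∈ A` (`q` prime) with `π ζ = 1`:
`q = u · (1 - ζ)^(q-1)` with `u ∈ A` and `π u = -1`. -/
theorem exists_unit_natCast_eq (q : ℕ) (hq : q.Prime) (ζ : L) (hζ : IsPrimitiveRoot ζ q)
    (hζA : ζ ∈ A) (hπ : π ⟨ζ, hζA⟩ = 1) :
    ∃ u : A, (q : L) = (u : L) * (1 - ζ) ^ (q - 1) ∧ π u = -1 := by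
  obtain ⟨n, rfl⟩ : ∃ n, q = n + 1 := ⟨q - 1, (Nat.sub_add_cancel hq.one_lt.le).symm⟩
  have hprod := hζ.prod_one_sub_pow_eq_order
  -- the quantum integers `1 + ζ + … + ζ^i`
  set g : ℕ → A := fun i => ∑ j ∈ Finset.range (i + 1), (⟨ζ, hζA⟩ : A) ^ j with hg
  have hgL : ∀ i, (g i : L) = ∑ j ∈ Finset.range (i + 1), ζ ^ j := by
    intro i
    rw [hg]
    push_cast
    rfl
  have hgπ : ∀ i, π (g i) = ((i + 1 : ℕ) : k) := by
    intro i
    rw [hg, map_sum]
    simp only [map_pow, hπ, one_pow, Finset.sum_const, Finset.card_range, nsmul_eq_mul, mul_one]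
  refine ⟨∏ i ∈ Finset.range n, g i, ?_, ?_⟩
  · have h1 : ∏ i ∈ Finset.range n, (1 - ζ ^ (i + 1))
        = (1 - ζ) ^ n * ∏ i ∈ Finset.range n, (g i : L) := by
      rw [← Finset.card_range n, ← Finset.prod_const, Finset.card_range,
        ← Finset.prod_mul_distrib]
      refine Finset.prod_congr rfl (fun i _ => ?_)
      rw [hgL, one_sub_pow_eq]
    rw [Nat.add_sub_cancel]
    push_cast
    rw [← hprod, h1, mul_comm]
  · have hqk : ((n + 1 : ℕ) : k) = 0 := by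
      -- `π q = π u · π (1 - ζ)^n = 0`
      have hn : n ≠ 0 := by
        rintro rfl
        exact hq.ne_one rfl
      have h1 : ((n + 1 : ℕ) : A) = (∏ i ∈ Finset.range n, g i) * (1 - ⟨ζ, hζA⟩) ^ n := by
        apply Subtype.ext
        push_cast
        have h2 : ∏ i ∈ Finset.range n, (1 - ζ ^ (i + 1))
            = (1 - ζ) ^ n * ∏ i ∈ Finset.range n, (g i : L) := by
          rw [← Finset.card_range n, ← Finset.prod_const, Finset.card_range,
            ← Finset.prod_mul_distrib]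
          refine Finset.prod_congr rfl (fun i _ => ?_)
          rw [hgL, one_sub_pow_eq]
        have h3 := hprod
        rw [h2] at h3
        rw [← h3, mul_comm]
      have h4 := congrArg π h1
      rw [map_natCast, map_mul, map_pow, map_sub, map_one, hπ, sub_self, zero_pow hn,
        mul_zero] at h4
      exact h4
    have : Fact (n + 1).Prime := ⟨hq⟩
    have : CharP k (n + 1) := by
      refine (CharP.charP_iff_prime_eq_zero hq).mpr ?_
      exact_mod_cast hqk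
    rw [map_prod]
    simp only [hgπ]
    have hW := ZMod.wilsons_lemma (p := n + 1)
    rw [Nat.add_sub_cancel] at hW
    have h5 := congrArg (ZMod.castHom (dvd_refl (n + 1)) k) hW
    rw [map_natCast, map_neg, map_one] at h5
    rw [← h5, ← Finset.prod_range_add_one_eq_factorial]
    push_cast
    rfl

/-! ### The `(q-1)`-st power divided by `q` -/

/-- **(C1), second half.** For a primitive `q`-th root of unity `ζ` and `y` in the Gauss ring,
`(y(ζ q) - y(q))^(q-1) / q` lies in the Gauss ring and reduces to `-(θ (red y))^(q-1)`. -/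
theorem exists_pow_div (hπ0 : ∀ a : A, ¬ IsUnit a → π a = 0) (q : ℕ) (hq : q.Prime) (ζ : Lˣ)
    (hζ : IsPrimitiveRoot (ζ : L) q) (hζA : (ζ : L) ∈ A) (hζA' : ((ζ⁻¹ : Lˣ) : L) ∈ A)
    (hπ : π ⟨ζ, hζA⟩ = 1) (y : gaussRing A π) :
    ∃ t : gaussRing A π,
      (rot ζ (y : LaurentSeries L) - (y : LaurentSeries L)) ^ (q - 1)
        = HahnSeries.C (q : L) * (t : LaurentSeries L) ∧
      red A π t = -(thetaL k (red A π y)) ^ (q - 1) := by
  obtain ⟨z, hz, hzr⟩ := exists_rot_sub_eq A π ζ hζA hζA' hπ y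
  obtain ⟨u, hu, huπ⟩ := exists_unit_natCast_eq A π q hq (ζ : L) hζ hζA hπ
  -- `u` is a unit of `A`
  have huU : IsUnit u := by
    by_contra hnu
    have := hπ0 u hnu
    rw [huπ] at this
    exact one_ne_zero (neg_eq_zero.mp this)
  obtain ⟨v, hv⟩ := huU.exists_right_inv
  have hvL : (u : L) * (v : L) = 1 := congrArg Subtype.val hv
  have hvπ : π v = -1 := by
    have h1 := congrArg π hv
    rw [map_mul, huπ, map_one] at h1
    linear_combination -h1
  -- the constant `(-1)^(q-1) v`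
  set w : A := (-1) ^ (q - 1) * v with hw
  have hwC : HahnSeries.C (w : L) ∈ gaussRing A π := C_mem_gaussRing A π w.2
  have hqk : (q : k) = 0 := by
    have h1 : (q : A) = u * (1 - ⟨(ζ : L), hζA⟩) ^ (q - 1) := Subtype.ext (by
      push_cast
      exact hu)
    have h4 := congrArg π h1
    have hq1 : q - 1 ≠ 0 := Nat.sub_ne_zero_of_lt hq.one_lt
    rw [map_natCast, map_mul, map_pow, map_sub, map_one, hπ, sub_self, zero_pow hq1,
      mul_zero] at h4
    exact h4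
  have hsign : ((-1 : k)) ^ (q - 1) = 1 := by
    rcases hq.eq_two_or_odd' with rfl | hodd
    · have h2 : (2 : k) = 0 := by exact_mod_cast hqk
      have : (-1 : k) = 1 := by linear_combination -h2
      simp [this]
    · have : Even (q - 1) := by
        obtain ⟨m, hm⟩ := hodd
        exact ⟨m, by omega⟩
      exact this.neg_one_pow
  refine ⟨⟨HahnSeries.C (w : L), hwC⟩ * z ^ (q - 1), ?_, ?_⟩
  · rw [hz, mul_pow, ← map_pow]
    show HahnSeries.C (((ζ : L) - 1) ^ (q - 1)) * (z : LaurentSeries L) ^ (q - 1)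
      = HahnSeries.C (q : L) * (HahnSeries.C (w : L) * (z : LaurentSeries L) ^ (q - 1))
    rw [← mul_assoc, ← map_mul]
    congr 2
    rw [hw, hu]
    push_cast
    have h1 : ((ζ : L) - 1) ^ (q - 1) = (-1) ^ (q - 1) * (1 - (ζ : L)) ^ (q - 1) := by
      rw [← mul_pow]
      congr 1
      ring
    rw [h1]
    linear_combination (-(-1 : L) ^ (q - 1) * (1 - (ζ : L)) ^ (q - 1)) * hvL
  · rw [map_mul, map_pow, hzr, red_C A π w.2 hwC]
    have hw' : π ⟨(w : L), w.2⟩ = -1 := by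
      have : (⟨(w : L), w.2⟩ : A) = w := rfl
      rw [this, hw, map_mul, map_pow, map_neg, map_one, hsign, hvπ, one_mul]
    rw [hw', map_neg, map_one, neg_one_mul]

/-! ### Packaged forms for a root of unity of prime order `q = char k` -/

section Packaged

variable (q : ℕ) [Fact q.Prime] [CharP k q] (ζ : Lˣ) (hζ : (ζ : L) ^ q = 1)

include hζ

theorem zeta_mem : (ζ : L) ∈ A :=
  mem_of_pow_eq_one A (Fact.out : q.Prime).ne_zero hζ

theorem zeta_inv_mem : ((ζ⁻¹ : Lˣ) : L) ∈ A := by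
  refine mem_of_pow_eq_one A (Fact.out : q.Prime).ne_zero (n := q) ?_
  rw [Units.val_inv_eq_inv_val, inv_pow, hζ, inv_one]

theorem pi_zeta : π ⟨(ζ : L), zeta_mem A q ζ hζ⟩ = 1 :=
  pi_eq_one_of_pow_eq_one A π q _ hζ

/-- `rot ζ` preserves the Gauss ring (`ζ^q = 1`, `char k = q`). -/
theorem rot_mem_gaussRing' {y : LaurentSeries L} (hy : y ∈ gaussRing A π) :
    rot ζ y ∈ gaussRing A π :=
  rot_mem_gaussRing A π ζ (zeta_mem A q ζ hζ) (zeta_inv_mem A q ζ hζ) (pi_zeta A π q ζ hζ) hy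

/-- `rot ζ` commutes with the reduction (`ζ^q = 1`, `char k = q`). -/
theorem red_rot' {y : LaurentSeries L} (hy : y ∈ gaussRing A π)
    (hy' : rot ζ y ∈ gaussRing A π) : red A π ⟨rot ζ y, hy'⟩ = red A π ⟨y, hy⟩ :=
  red_rot A π ζ (zeta_mem A q ζ hζ) (zeta_inv_mem A q ζ hζ) (pi_zeta A π q ζ hζ) hy hy'

/-- **(C1), series form** (`ζ^q = 1`, `char k = q`). -/
theorem exists_rot_sub_eq' (y : gaussRing A π) :
    ∃ z : gaussRing A π,
      rot ζ (y : LaurentSeries L) - (y : LaurentSeries L)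
        = HahnSeries.C ((ζ : L) - 1) * (z : LaurentSeries L) ∧
      red A π z = thetaL k (red A π y) :=
  exists_rot_sub_eq A π ζ (zeta_mem A q ζ hζ) (zeta_inv_mem A q ζ hζ) (pi_zeta A π q ζ hζ) y

/-- **(C1), unit form** (`ζ^q = 1`, `char k = q`). -/
theorem exists_rot_sub_eq_unit' (y : gaussRing A π) (hθ : thetaL k (red A π y) ≠ 0) :
    ∃ z : gaussRing A π,
      rot ζ (y : LaurentSeries L) - (y : LaurentSeries L)
        = HahnSeries.C ((ζ : L) - 1) * (z : LaurentSeries L) ∧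
      red A π z = thetaL k (red A π y) ∧ (z : LaurentSeries L)⁻¹ ∈ gaussRing A π :=
  exists_rot_sub_eq_unit A π ζ (zeta_mem A q ζ hζ) (zeta_inv_mem A q ζ hζ)
    (pi_zeta A π q ζ hζ) y hθ

omit hζ in
/-- **(C1), second half** (`ζ` a primitive `q`-th root of unity, `char k = q`). -/
theorem exists_pow_div' (hπ0 : ∀ a : A, ¬ IsUnit a → π a = 0)
    (hζ : IsPrimitiveRoot (ζ : L) q) (y : gaussRing A π) :
    ∃ t : gaussRing A π,
      (rot ζ (y : LaurentSeries L) - (y : LaurentSeries L)) ^ (q - 1)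
        = HahnSeries.C (q : L) * (t : LaurentSeries L) ∧
      red A π t = -(thetaL k (red A π y)) ^ (q - 1) :=
  exists_pow_div A π hπ0 q Fact.out ζ hζ (zeta_mem A q ζ hζ.pow_eq_one)
    (zeta_inv_mem A q ζ hζ.pow_eq_one) (pi_zeta A π q ζ hζ.pow_eq_one) y

omit hζ in
/-- `q = u · (1 - ζ)^(q-1)` with `π u = -1` (`ζ` a primitive `q`-th root of unity, `char k = q`). -/
theorem exists_unit_natCast_eq' (hζ : IsPrimitiveRoot (ζ : L) q) :
    ∃ u : A, (q : L) = (u : L) * (1 - (ζ : L)) ^ (q - 1) ∧ π u = -1 :=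
  exists_unit_natCast_eq A π q Fact.out (ζ : L) hζ (zeta_mem A q ζ hζ.pow_eq_one)
    (pi_zeta A π q ζ hζ.pow_eq_one)

end Packaged

end Fermat.Agent.CAR.V3.MidSeries
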