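import Mathlib
import Fermat.Agent.CAR.V3.MidCusp
import Fermat.Agent.CAR.V3.MidSeries
import Fermat.Agent.CAR.V3.GaussDVR
import Fermat.Agent.CAR.Formal.DiscVal
import Fermat.Agent.CAR.K0.Zeta
import Fermat.Agent.CAR.Local.ThetaChain
import Fermat.Agent.ESJ.Dict.Bc
import Fermat.Agent.Lib.Red.Level

/-!
# CAR (V3-Mid): the middle valuation ring `O_mid` of `K0 · F_{M' q²}` and its uniformiser

`A` a valuation subring of `ℚ̄` over the prime `q`, `K0 = ℚ̄^I` its inertia field, `ζ` a primitive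
`q`-th root of unity, `M = M' q²` with `q ∤ M'`,
`F3 = laurentBaseChange K0 (modularFunctionFieldFull M)` (the `K0`-form of the function field).

* `tauMid : F3 →+* ℚ̄((q))` — the middle-cusp expansion (`MidCusp.exists_midCusp`, restricted to
  the `K0`-form): `J(q^d) ↦ J(q^d)` (`q² ∤ d`), `J(q^{q² d'}) ↦ J(ζ^{d'} q^{d'})`;
* `tauMid_mem_fracRat` : its image consists of quotients of `K0(ζ) ∩ A`-integral series, hence
  (`GaussDVR`, `K0(ζ)` is discretely valued with uniformiser `1 - ζ`)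
* `OMid : ValuationSubring F3`, `redMid : OMid →+* k((q))`, kernel = non-units;
* `dMid = J(q^{q²}) - J(q)` is a uniformiser: `exists_dMid_zpow_mul_unit`, and
  `dMid ^ (q - 1) = q · t` with `redMid t = -(θ J̄)^(q - 1)` (`exists_dMid_pow`).
-/

set_option autoImplicit false
set_option linter.unusedSectionVars false
set_option linter.style.haveILetI false

noncomputable section

namespace Fermat.Agent.CAR.V3.MidRing

open ModularCurve HahnSeries Fermat.Agent.S24 Fermat.Agent.S28 Fermat.Agent.S28.Chain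
  Fermat.Agent.Lib.Red Fermat.Agent.CAR.K0 Fermat.Agent.CAR.V3.GaussDVR
  Fermat.Agent.CAR.Local.ThetaJ Fermat.Agent.ESJ.Cong.ConjAnalytic

local notation "Qb" => AlgebraicClosure ℚ

/-! ### A generation principle -/

/-- A ring hom on a field `E = K(S)` takes values in a subfield as soon as it does on `K` and on
`S`. -/
theorem map_mem_of_adjoin {K R R' : Type*} [Field K] [Field R] [Algebra K R] [Field R']
    (E : IntermediateField K R) (S : Set R) (hE : E = IntermediateField.adjoin K S)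
    (ρ : ↥E →+* R') (T : Subfield R')
    (hS : ∀ (s : R) (hs : s ∈ E), s ∈ S → ρ ⟨s, hs⟩ ∈ T)
    (hK : ∀ c : K, ρ ⟨algebraMap K R c, E.algebraMap_mem c⟩ ∈ T) (f : E) : ρ f ∈ T := by
  subst hE
  obtain ⟨x, hx⟩ := f
  induction hx using IntermediateField.adjoin_induction with
  | mem x hx => exact hS x _ hx
  | algebraMap c => exact hK c
  | add x y hx hy hx' hy' =>
    have : (⟨x + y, add_mem hx hy⟩ : ↥(IntermediateField.adjoin K S)) = ⟨x, hx⟩ + ⟨y, hy⟩ := rfl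
    rw [this, map_add]
    exact add_mem hx' hy'
  | inv x hx hx' =>
    have : (⟨x⁻¹, inv_mem hx⟩ : ↥(IntermediateField.adjoin K S)) = (⟨x, hx⟩)⁻¹ := rfl
    rw [this, map_inv₀]
    exact inv_mem hx'
  | mul x y hx hy hx' hy' =>
    have : (⟨x * y, mul_mem hx hy⟩ : ↥(IntermediateField.adjoin K S)) = ⟨x, hx⟩ * ⟨y, hy⟩ := rfl
    rw [this, map_mul]
    exact mul_mem hx' hy'

/-! ### The `K`-form of the function field and a series embedding -/

section Generic

variable (K : IntermediateField ℚ Qb) (M : ℕ) [NeZero M]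

/-- The `K`-form `K · F_M` of the function field of level `M`. -/
abbrev FK : IntermediateField K (LaurentSeries K) :=
  laurentBaseChange K (modularFunctionFieldFull M)

/-- The coefficient extension `K · F_M → ℚ̄ · F_M`. -/
def bcQ : ↥(FK K M) →+* FN M :=
  Fermat.Agent.ESJ.Dict.Bc.bcK (algebraMap K Qb) (modularFunctionFieldFull M)

theorem coe_bcQ (f : FK K M) :
    ((bcQ K M f : FN M) : LaurentSeries Qb) = coeffMap (algebraMap K Qb) (f : LaurentSeries K) :=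
  rfl

/-- The generator `J(q^d)` of `K · F_M`. -/
def JK (d : Dv M) : FK K M :=
  ⟨TD.Jd K d.1, by
    show TD.Jd K d.1 ∈ laurentBaseChange K (modularFunctionFieldFull M)
    rw [laurentBaseChange_eq_FF]
    have := TD.Jd_mem_FF K (N := M) (m := 1) d.2
    rwa [one_mul] at this⟩

theorem coe_JK (d : Dv M) : ((JK K M d : FK K M) : LaurentSeries K) = TD.Jd K d.1 := rfl

theorem bcQ_JK (d : Dv M) : bcQ K M (JK K M d) = jFormal M d := by
  apply Subtype.ext
  rw [coe_bcQ, coe_JK, TD.coeffMap_Jd, coe_jFormal]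

/-- The constant `c ∈ K` as an element of `K · F_M`. -/
def CK (c : K) : FK K M := ⟨HahnSeries.C c, C_mem (FK K M) c⟩

theorem coe_CK (c : K) : ((CK K M c : FK K M) : LaurentSeries K) = HahnSeries.C c := rfl

theorem coe_bcQ_CK (c : K) :
    ((bcQ K M (CK K M c) : FN M) : LaurentSeries Qb) = HahnSeries.C (c : Qb) := by
  rw [coe_bcQ, coe_CK, HahnSeries.C_apply, coeffMap_single, HahnSeries.C_apply]
  rfl

theorem bcQ_CK (c : K) : bcQ K M (CK K M c) = fm M (MvPolynomial.C (c : Qb)) := by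
  apply Subtype.ext
  rw [coe_bcQ_CK, fm, MvPolynomial.aeval_C]
  exact C_eq_algebraMap (c : Qb)

variable {M}
variable (τ : FN M →+* LaurentSeries Qb) (ser : Dv M → LaurentSeries Qb)
  (hτ : ∀ P : MvPolynomial (Dv M) Qb, τ (fm M P) = MvPolynomial.aeval ser P)

/-- The embedding `K · F_M → ℚ̄((q))` induced by a series embedding of `ℚ̄ · F_M`. -/
def tauK : ↥(FK K M) →+* LaurentSeries Qb := τ.comp (bcQ K M)

include hτ

theorem tauK_JK (d : Dv M) : tauK K τ (JK K M d) = ser d := by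
  show τ (bcQ K M (JK K M d)) = ser d
  have h1 : jFormal M d = fm M (MvPolynomial.X d) := by
    rw [fm, MvPolynomial.aeval_X]
  rw [bcQ_JK, h1, hτ, MvPolynomial.aeval_X]

theorem tauK_CK (c : K) : tauK K τ (CK K M c) = HahnSeries.C (c : Qb) := by
  show τ (bcQ K M (CK K M c)) = _
  rw [bcQ_CK, hτ, MvPolynomial.aeval_C]
  exact (C_eq_algebraMap (c : Qb)).symm

/-- The image of `K · F_M` consists of quotients of `L₁ ∩ A`-integral series. -/
theorem tauK_mem_fracRat (A : ValuationSubring Qb) (L₁ : Subfield Qb)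
    (hK : ∀ c : K, (c : Qb) ∈ L₁) (hser : ∀ d, ser d ∈ intRat A L₁) (f : FK K M) :
    tauK K τ f ∈ fracRat A L₁ := by
  refine map_mem_of_adjoin (FK K M) ((fun d => TD.Jd K (1 * d)) '' {d | d ∣ M})
    (laurentBaseChange_eq_FF K M) (tauK K τ) (fracRat A L₁) ?_ ?_ f
  · rintro s hs ⟨d, hd, rfl⟩
    have h1 : (⟨(fun d => TD.Jd K (1 * d)) d, hs⟩ : FK K M) = JK K M ⟨d, hd⟩ :=
      Subtype.ext (by
        show TD.Jd K (1 * d) = TD.Jd K d
        rw [one_mul])
    rw [h1, tauK_JK K τ ser hτ]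
    exact intRat_le_fracRat A (hser _)
  · intro c
    have h1 : (⟨algebraMap K (LaurentSeries K) c, (FK K M).algebraMap_mem c⟩ : FK K M)
        = CK K M c := Subtype.ext (C_eq_algebraMap c).symm
    rw [h1, tauK_CK K τ ser hτ]
    exact C_mem_fracRat A (hK c)

end Generic

/-! ### The middle-cusp series are integral over `ℤ[ζ]` -/

section Ser

variable (A : ValuationSubring Qb)

theorem Jd_mem_intRat (L₁ : Subfield Qb) (d : ℕ) : TD.Jd Qb d ∈ intRat A L₁ := by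
  intro n
  rw [← TD.coeffMap_Jd (Int.castRingHom Qb) d, coeffMap_coeff]
  exact ⟨intCast_mem _ _, intCast_mem _ _⟩

theorem rot_mem_intRat (L₁ : Subfield Qb) (w : Qbˣ) (hw : (w : Qb) ∈ L₁)
    (hv : A.valuation (w : Qb) = 1) {y : LaurentSeries Qb} (hy : y ∈ intRat A L₁) :
    rot w y ∈ intRat A L₁ := by
  intro n
  rw [rot_coeff]
  have h1 : ((w ^ n : Qbˣ) : Qb) = (w : Qb) ^ n := Units.val_zpow_eq_zpow_val w n
  refine ⟨mul_mem ?_ (hy n).1, mul_mem ?_ (hy n).2⟩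
  · rw [h1]
    exact zpow_mem hw n
  · rw [← A.valuation_le_one_iff, h1, map_zpow₀, hv, one_zpow]

theorem serMid_mem_intRat (L₁ : Subfield Qb) (ℓ : ℕ) (w : Qbˣ) (hw : (w : Qb) ∈ L₁)
    (hv : A.valuation (w : Qb) = 1) (d : ℕ) : serMid ℓ w d ∈ intRat A L₁ := by
  unfold serMid
  split_ifs
  · exact rot_mem_intRat A L₁ w hw hv (Jd_mem_intRat A L₁ _)
  · exact Jd_mem_intRat A L₁ _

end Ser

/-! ### The instance: `O_mid` -/

section Inst

/-- `ζ` as a unit of `ℚ̄`. -/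
def zetaUnit {q : ℕ} (hq : q.Prime) {ζ : Qb} (hζ : IsPrimitiveRoot ζ q) : Qbˣ :=
  Units.mk0 ζ (hζ.ne_zero hq.ne_zero)

@[simp] theorem coe_zetaUnit {q : ℕ} (hq : q.Prime) {ζ : Qb} (hζ : IsPrimitiveRoot ζ q) :
    ((zetaUnit hq hζ : Qbˣ) : Qb) = ζ := rfl

theorem zetaUnit_pow {q : ℕ} (hq : q.Prime) {ζ : Qb} (hζ : IsPrimitiveRoot ζ q) :
    zetaUnit hq hζ ^ q = 1 := by
  ext
  rw [Units.val_pow_eq_pow_val, coe_zetaUnit, hζ.pow_eq_one, Units.val_one]

theorem zetaUnit_ne_one {q : ℕ} (hq : q.Prime) {ζ : Qb} (hζ : IsPrimitiveRoot ζ q) :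
    zetaUnit hq hζ ≠ 1 := by
  intro h
  have h1 : ζ = 1 := by
    have := congrArg (fun u : Qbˣ => (u : Qb)) h
    simpa using this
  exact hζ.ne_one hq.one_lt h1

/-- `K0(ζ)` is discretely valued at `A` with uniformiser `1 - ζ`. -/
theorem isUnifOn_zeta {q : ℕ} (hq : q.Prime) (A : ValuationSubring Qb) (hA : A.LiesOverPrime q)
    {ζ : Qb} (hζ : IsPrimitiveRoot ζ q) :
    IsUnifOn A (inertiaFieldZeta A ζ).toSubfield (1 - ζ) where
  mem := one_sub_zeta_mem_inertiaFieldZeta A ζ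
  ne_zero := one_sub_zeta_ne_zero hq hζ
  lt_one := valuation_one_sub_zeta_lt_one A hq hA hζ
  exists_zpow := fun _ hx hx0 =>
    exists_zpow_valuation_eq_of_mem_inertiaFieldZeta hq A hA hζ hx hx0

/-- `K0` is discretely valued at `A` with uniformiser `q`. -/
theorem isUnifOn_K0 {q : ℕ} (hq : q.Prime) (A : ValuationSubring Qb) (hA : A.LiesOverPrime q) :
    IsUnifOn A (inertiaField A).toSubfield (q : Qb) where
  mem := natCast_mem _ q
  ne_zero := Nat.cast_ne_zero.mpr hq.ne_zero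
  lt_one := A.mem_nonunits_iff.mp hA
  exists_zpow := fun _ hx hx0 => by
    obtain ⟨n, hn⟩ := exists_zpow_valuation_eq_of_mem_inertiaField hq A hA hx hx0
    exact ⟨n, by rw [hn, map_zpow₀]⟩

theorem valuation_zeta {q : ℕ} (hq : q.Prime) (A : ValuationSubring Qb) {ζ : Qb}
    (hζ : IsPrimitiveRoot ζ q) : A.valuation ζ = 1 :=
  valuation_eq_one_of_pow_eq_one A hq.pos hζ.pow_eq_one

variable {q : ℕ} (hq : q.Prime) (A : ValuationSubring Qb) (hA : A.LiesOverPrime q)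
  {ζ : Qb} (hζ : IsPrimitiveRoot ζ q) (M' : ℕ) [NeZero M'] [NeZero q] (hqM : ¬ q ∣ M')
  {k : Type*} [Field k] (π : A →+* k)

/-- The middle-cusp expansion of `ℚ̄ · F_{M' q²}` (a choice of `MidCusp.exists_midCusp`). -/
def tauQ : FN (M' * q * q) →+* LaurentSeries Qb :=
  Classical.choose (exists_midCusp M' q hq hqM (zetaUnit hq hζ) (zetaUnit_pow hq hζ)
    (zetaUnit_ne_one hq hζ))

theorem tauQ_fm (P : MvPolynomial (Dv (M' * q * q)) Qb) :
    tauQ hq hζ M' hqM (fm (M' * q * q) P)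
      = MvPolynomial.aeval (fun d => serMid q (zetaUnit hq hζ) d.1) P :=
  (Classical.choose_spec (exists_midCusp M' q hq hqM (zetaUnit hq hζ) (zetaUnit_pow hq hζ)
    (zetaUnit_ne_one hq hζ))).1 P

theorem tauQ_alpha (x : FN (M' * q)) :
    tauQ hq hζ M' hqM (heckeAlphaBar Qb (M' * q) q x) = (x : LaurentSeries Qb) :=
  (Classical.choose_spec (exists_midCusp M' q hq hqM (zetaUnit hq hζ) (zetaUnit_pow hq hζ)
    (zetaUnit_ne_one hq hζ))).2.1 x

theorem tauQ_beta_beta (y : FN M') :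
    tauQ hq hζ M' hqM (heckeBetaBar Qb (M' * q) q (heckeBetaBar Qb M' q y))
      = rot (zetaUnit hq hζ) (y : LaurentSeries Qb) :=
  (Classical.choose_spec (exists_midCusp M' q hq hqM (zetaUnit hq hζ) (zetaUnit_pow hq hζ)
    (zetaUnit_ne_one hq hζ))).2.2 y

/-- **The middle-cusp expansion of the `K0`-form** `K0 · F_{M' q²} → ℚ̄((q))`. -/
def tauMid : ↥(FK (inertiaField A) (M' * q * q)) →+* LaurentSeries Qb :=
  tauK (inertiaField A) (tauQ hq hζ M' hqM)

theorem tauMid_JK (d : Dv (M' * q * q)) :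
    tauMid hq A hζ M' hqM (JK (inertiaField A) (M' * q * q) d) = serMid q (zetaUnit hq hζ) d.1 :=
  tauK_JK (inertiaField A) (tauQ hq hζ M' hqM) _ (tauQ_fm hq hζ M' hqM) d

theorem tauMid_CK (c : inertiaField A) :
    tauMid hq A hζ M' hqM (CK (inertiaField A) (M' * q * q) c) = HahnSeries.C (c : Qb) :=
  tauK_CK (inertiaField A) (tauQ hq hζ M' hqM) _ (tauQ_fm hq hζ M' hqM) c

theorem tauMid_mem_fracRat (f : FK (inertiaField A) (M' * q * q)) :
    tauMid hq A hζ M' hqM f ∈ fracRat A (inertiaFieldZeta A ζ).toSubfield :=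
  tauK_mem_fracRat (inertiaField A) (tauQ hq hζ M' hqM) _ (tauQ_fm hq hζ M' hqM) A _
    (fun c => inertiaField_le_inertiaFieldZeta A ζ c.2)
    (fun d => serMid_mem_intRat A _ q (zetaUnit hq hζ) (zeta_mem_inertiaFieldZeta A ζ)
      (valuation_zeta hq A hζ) d.1) f

include hA in
theorem tauMid_mem_or (f : FK (inertiaField A) (M' * q * q)) :
    tauMid hq A hζ M' hqM f ∈ gaussRing A π ∨ (tauMid hq A hζ M' hqM f)⁻¹ ∈ gaussRing A π :=
  (isUnifOn_zeta hq A hA hζ).mem_or_inv_mem π (tauMid_mem_fracRat hq A hζ M' hqM f)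

/-- **The middle valuation ring** of `K0 · F_{M' q²}`. -/
def OMid : ValuationSubring ↥(FK (inertiaField A) (M' * q * q)) :=
  vsOfEmb (tauMid hq A hζ M' hqM) (tauMid_mem_or hq A hA hζ M' hqM π)

theorem mem_OMid_iff (f : FK (inertiaField A) (M' * q * q)) :
    f ∈ OMid hq A hA hζ M' hqM π ↔ tauMid hq A hζ M' hqM f ∈ gaussRing A π := Iff.rfl

/-- The residue map of `O_mid`, with values in `k((q))`. -/
def redMid : OMid hq A hA hζ M' hqM π →+* LaurentSeries k :=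
  redOfEmb (tauMid hq A hζ M' hqM) (tauMid_mem_or hq A hA hζ M' hqM π)

theorem redMid_apply (f : OMid hq A hA hζ M' hqM π) :
    redMid hq A hA hζ M' hqM π f
      = red A π ⟨tauMid hq A hζ M' hqM (f : ↥(FK (inertiaField A) (M' * q * q))), f.2⟩ := rfl

theorem redMid_eq_zero_iff (f : OMid hq A hA hζ M' hqM π) :
    redMid hq A hA hζ M' hqM π f = 0 ↔ ¬ IsUnit f :=
  redOfEmb_eq_zero_iff _ _ f

end Inst

/-! ### Gauss units -/

section GaussUnit

variable {L : Type*} [Field L] (A : ValuationSubring L) {k : Type*} [Field k] (π : A →+* k)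

/-- `y` is a unit of the Gauss ring. -/
def IsGaussUnit (y : LaurentSeries L) : Prop := y ∈ gaussRing A π ∧ y⁻¹ ∈ gaussRing A π

variable {A π}

theorem IsGaussUnit.inv {y : LaurentSeries L} (h : IsGaussUnit A π y) : IsGaussUnit A π y⁻¹ :=
  ⟨h.2, by rw [inv_inv]; exact h.1⟩

theorem IsGaussUnit.mul {y z : LaurentSeries L} (h : IsGaussUnit A π y)
    (h' : IsGaussUnit A π z) : IsGaussUnit A π (y * z) :=
  ⟨mul_mem h.1 h'.1, by rw [mul_inv]; exact mul_mem h.2 h'.2⟩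

theorem IsGaussUnit.neg {y : LaurentSeries L} (h : IsGaussUnit A π y) : IsGaussUnit A π (-y) :=
  ⟨neg_mem h.1, by rw [inv_neg]; exact neg_mem h.2⟩

theorem IsGaussUnit.pow {y : LaurentSeries L} (h : IsGaussUnit A π y) (n : ℕ) :
    IsGaussUnit A π (y ^ n) :=
  ⟨pow_mem h.1 n, by rw [← inv_pow]; exact pow_mem h.2 n⟩

theorem IsGaussUnit.zpow {y : LaurentSeries L} (h : IsGaussUnit A π y) (n : ℤ) :
    IsGaussUnit A π (y ^ n) := by
  rcases le_or_gt 0 n with hn | hn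
  · obtain ⟨m, rfl⟩ := Int.eq_ofNat_of_zero_le hn
    rw [zpow_natCast]
    exact h.pow m
  · obtain ⟨m, rfl⟩ : ∃ m : ℕ, n = -(m : ℤ) := ⟨(-n).toNat, by omega⟩
    rw [zpow_neg, zpow_natCast]
    exact (h.pow m).inv

theorem isGaussUnit_of_red_ne_zero {y : LaurentSeries L} (hy : y ∈ gaussRing A π)
    (hne : red A π ⟨y, hy⟩ ≠ 0) : IsGaussUnit A π y :=
  ⟨hy, inv_mem_gaussRing A π hy hne⟩

theorem IsGaussUnit.red_ne_zero {y : LaurentSeries L} (h : IsGaussUnit A π y) (hy0 : y ≠ 0) :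
    red A π ⟨y, h.1⟩ ≠ 0 := by
  intro h0
  have h1 : (⟨y, h.1⟩ : gaussRing A π) * ⟨y⁻¹, h.2⟩ = 1 :=
    Subtype.ext (mul_inv_cancel₀ hy0)
  have h2 := congrArg (red A π) h1
  rw [map_mul, h0, zero_mul, map_one] at h2
  exact zero_ne_one h2

end GaussUnit

/-! ### The generators `J(q^e)` in the Gauss ring -/

section JdGauss

variable {L : Type*} [Field L] (A : ValuationSubring L) {k : Type*} [Field k] (π : A →+* k)

theorem Jd_mem_gaussRing (e : ℕ) : TD.Jd L e ∈ gaussRing A π := by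
  rw [← TD.coeffMap_Jd A.subtype e]
  exact incl_mem_gaussRing A π (TD.Jd A e)

theorem red_Jd (e : ℕ) (h : TD.Jd L e ∈ gaussRing A π) :
    red A π ⟨TD.Jd L e, h⟩ = TD.Jd k e := by
  have h1 : (⟨TD.Jd L e, h⟩ : gaussRing A π)
      = ⟨incl A (TD.Jd A e), incl_mem_gaussRing A π _⟩ :=
    Subtype.ext (TD.coeffMap_Jd A.subtype e).symm
  rw [h1, red_incl]
  exact TD.coeffMap_Jd π e

/-- The residue characteristic. -/
theorem natCast_eq_zero_of_liesOver (hπ : ∀ a : A, ¬ IsUnit a → π a = 0) {q : ℕ}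
    (hA : (q : L) ∈ A.nonunits) : (q : k) = 0 := by
  have h1 : ¬ IsUnit ((q : ℕ) : A) := by
    intro hu
    have h2 : A.valuation (q : L) < 1 := A.mem_nonunits_iff.mp hA
    have h3 : A.valuation (((q : ℕ) : A) : L) = 1 := (A.valuation_eq_one_iff _).mp hu
    have h4 : (((q : ℕ) : A) : L) = (q : L) := by push_cast; rfl
    rw [h4] at h3
    exact h2.ne h3
  have h5 := hπ _ h1
  rwa [map_natCast] at h5

/-- A constant series lies in the Gauss ring iff the constant lies in `A`. -/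
theorem C_mem_gaussRing_iff (hπ : ∀ a : A, ¬ IsUnit a → π a = 0) (a : L) :
    HahnSeries.C a ∈ gaussRing A π ↔ a ∈ A := by
  refine ⟨fun h => ?_, fun h => C_mem_gaussRing A π h⟩
  by_contra ha
  have hinv : a⁻¹ ∈ A := (A.mem_or_inv_mem a).resolve_left ha
  have ha0 : a ≠ 0 := by
    rintro rfl
    exact ha A.zero_mem
  have hC := C_mem_gaussRing A π hinv
  have h1 : (⟨HahnSeries.C a, h⟩ : gaussRing A π) * ⟨HahnSeries.C a⁻¹, hC⟩ = 1 := by
    apply Subtype.ext
    show (HahnSeries.C a : LaurentSeries L) * HahnSeries.C a⁻¹ = 1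
    rw [← map_mul, mul_inv_cancel₀ ha0, map_one]
  have h2 := congrArg (red A π) h1
  rw [map_mul, red_C A π hinv hC, pi_inv_eq_zero A π hπ ha hinv, map_zero, mul_zero, map_one]
    at h2
  exact zero_ne_one h2

end JdGauss

/-! ### The uniformiser `d = J(q^{q²}) - J(q)` of `O_mid` -/

section Unif

/-- The divisor `1` of `M' q²`. -/
def dvOne (M' q : ℕ) : Dv (M' * q * q) := ⟨1, one_dvd _⟩

/-- The divisor `q²` of `M' q²`. -/
def dvSq (M' q : ℕ) : Dv (M' * q * q) := ⟨q * q, ⟨M', by ring⟩⟩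

/-- `d = J(q^{q²}) - J(q) = J_2 - J_0`, the uniformiser of `O_mid`. -/
def dMid (A : ValuationSubring Qb) (M' q : ℕ) [NeZero M'] [NeZero q] :
    ↥(FK (inertiaField A) (M' * q * q)) :=
  JK (inertiaField A) (M' * q * q) (dvSq M' q) - JK (inertiaField A) (M' * q * q) (dvOne M' q)

variable {q : ℕ} (hq : q.Prime) (A : ValuationSubring Qb) (hA : A.LiesOverPrime q)
  {ζ : Qb} (hζ : IsPrimitiveRoot ζ q) (M' : ℕ) [NeZero M'] [NeZero q] (hqM : ¬ q ∣ M')
  {k : Type*} [Field k] (π : A →+* k) (hπ : ∀ a : A, ¬ IsUnit a → π a = 0)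

include hq in
theorem serMid_sq (w : Qbˣ) : serMid q w (q * q) = rot w (jqModC Qb) := by
  unfold serMid
  have h1 : q ^ 2 ∣ q * q := ⟨1, by ring⟩
  have h2 : q * q / q ^ 2 = 1 := by
    rw [sq]
    exact Nat.div_self (Nat.mul_pos hq.pos hq.pos)
  rw [if_pos h1, h2, TD.Jd_one]

include hq in
theorem serMid_one (w : Qbˣ) : serMid q w 1 = jqModC Qb := by
  unfold serMid
  have h1 : ¬ q ^ 2 ∣ 1 := by
    intro h
    have h2 : q ^ 2 = 1 := Nat.dvd_one.mp h
    have h3 : q = 1 := by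
      rcases Nat.pow_eq_one.mp h2 with h | h
      · exact h
      · exact absurd h (by norm_num)
    exact hq.one_lt.ne' h3
  rw [if_neg h1, TD.Jd_one]

theorem tauMid_dMid :
    tauMid hq A hζ M' hqM (dMid A M' q) = rot (zetaUnit hq hζ) (jqModC Qb) - jqModC Qb := by
  unfold dMid
  rw [map_sub, tauMid_JK, tauMid_JK]
  show serMid q (zetaUnit hq hζ) (q * q) - serMid q (zetaUnit hq hζ) 1 = _
  rw [serMid_sq hq, serMid_one hq]

theorem jq_mem_gaussRing : jqModC Qb ∈ gaussRing A π := by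
  have h := Jd_mem_gaussRing A π 1
  rwa [TD.Jd_one] at h

theorem red_jq (h : jqModC Qb ∈ gaussRing A π) : red A π ⟨jqModC Qb, h⟩ = jqModC k := by
  have h1 : (⟨jqModC Qb, h⟩ : gaussRing A π) = ⟨TD.Jd Qb 1, Jd_mem_gaussRing A π 1⟩ :=
    Subtype.ext (TD.Jd_one Qb).symm
  rw [h1, red_Jd, TD.Jd_one]

include hA hπ in
/-- `ι_mid d = (ζ - 1) · z` with `z` a Gauss unit reducing to `θ J̄`. -/
theorem exists_tauMid_dMid :
    ∃ z : gaussRing A π,
      tauMid hq A hζ M' hqM (dMid A M' q) = HahnSeries.C (ζ - 1) * (z : LaurentSeries Qb) ∧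
      red A π z = thetaL k (jqModC k) ∧ (z : LaurentSeries Qb)⁻¹ ∈ gaussRing A π := by
  haveI : Fact q.Prime := ⟨hq⟩
  haveI : CharP k q :=
    (CharP.charP_iff_prime_eq_zero hq).mpr (natCast_eq_zero_of_liesOver A π hπ hA)
  have hpow : ((zetaUnit hq hζ : Qbˣ) : Qb) ^ q = 1 := hζ.pow_eq_one
  have hθ : thetaL k (red A π ⟨jqModC Qb, jq_mem_gaussRing A π⟩) ≠ 0 := by
    rw [red_jq]
    exact thetaL_jq_ne_zero k
  obtain ⟨z, hz, hzr, hzi⟩ := MidSeries.exists_rot_sub_eq_unit' A π q (zetaUnit hq hζ) hpow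
    ⟨jqModC Qb, jq_mem_gaussRing A π⟩ hθ
  refine ⟨z, ?_, ?_, hzi⟩
  · rw [tauMid_dMid]
    exact hz
  · rw [hzr, red_jq]

include hq hζ in
theorem zeta_mem_A : ζ ∈ A := MidSeries.mem_of_pow_eq_one A hq.ne_zero hζ.pow_eq_one

include hq hA hζ hπ in
theorem pi_zeta_sub_one (h : ζ - 1 ∈ A) : π ⟨ζ - 1, h⟩ = 0 := by
  haveI : Fact q.Prime := ⟨hq⟩
  haveI : CharP k q :=
    (CharP.charP_iff_prime_eq_zero hq).mpr (natCast_eq_zero_of_liesOver A π hπ hA)
  have h1 : (⟨ζ - 1, h⟩ : A) = ⟨ζ, zeta_mem_A hq A hζ⟩ - 1 := rfl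
  rw [h1, map_sub, map_one, MidSeries.pi_eq_one_of_pow_eq_one A π q _ hζ.pow_eq_one, sub_self]

include hA hπ in
/-- **(U1)** `d ∈ O_mid`. -/
theorem dMid_mem : dMid A M' q ∈ OMid hq A hA hζ M' hqM π := by
  obtain ⟨z, hz, -, -⟩ := exists_tauMid_dMid hq A hA hζ M' hqM π hπ
  rw [mem_OMid_iff, hz]
  exact mul_mem (C_mem_gaussRing A π (sub_mem (zeta_mem_A hq A hζ) (one_mem _))) z.2

include hA hπ in
/-- **(U1)** `d` reduces to `0`: it is a non-unit of `O_mid`. -/
theorem redMid_dMid (h : dMid A M' q ∈ OMid hq A hA hζ M' hqM π) :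
    redMid hq A hA hζ M' hqM π ⟨dMid A M' q, h⟩ = 0 := by
  obtain ⟨z, hz, -, -⟩ := exists_tauMid_dMid hq A hA hζ M' hqM π hπ
  have hmem : ζ - 1 ∈ A := sub_mem (zeta_mem_A hq A hζ) (one_mem _)
  have hC : (HahnSeries.C (ζ - 1) : LaurentSeries Qb) ∈ gaussRing A π := C_mem_gaussRing A π hmem
  have h1 : (⟨tauMid hq A hζ M' hqM (dMid A M' q), h⟩ : gaussRing A π)
      = ⟨HahnSeries.C (ζ - 1), hC⟩ * z := Subtype.ext hz
  rw [redMid_apply]
  show red A π ⟨tauMid hq A hζ M' hqM (dMid A M' q), h⟩ = 0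
  rw [h1, map_mul, red_C A π hmem hC, pi_zeta_sub_one hq A hA hζ π hπ hmem, map_zero, zero_mul]

include hq hA hζ hqM hπ in
theorem dMid_ne_zero : dMid A M' q ≠ 0 := by
  obtain ⟨z, hz, hzr, -⟩ := exists_tauMid_dMid hq A hA hζ M' hqM π hπ
  intro h0
  rw [h0, map_zero] at hz
  have hz0 : (z : LaurentSeries Qb) ≠ 0 := by
    intro h
    have h1 : z = 0 := Subtype.ext h
    rw [h1, map_zero] at hzr
    exact thetaL_jq_ne_zero k hzr.symm
  have hC0 : (HahnSeries.C (ζ - 1) : LaurentSeries Qb) ≠ 0 := by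
    intro h
    have h3 : (HahnSeries.C (ζ - 1) : LaurentSeries Qb) = HahnSeries.C 0 := by rw [h, map_zero]
    exact hζ.ne_one hq.one_lt (sub_eq_zero.mp (HahnSeries.C_injective h3))
  exact mul_ne_zero hC0 hz0 hz.symm

include hA hπ in
/-- **(U2)** every nonzero element of `K0 · F_{M' q²}` is `d^n` times a unit of `O_mid`. -/
theorem exists_dMid_zpow_mul (f : FK (inertiaField A) (M' * q * q)) (hf : f ≠ 0) :
    ∃ (n : ℤ) (u : FK (inertiaField A) (M' * q * q)),
      u ∈ OMid hq A hA hζ M' hqM π ∧ u⁻¹ ∈ OMid hq A hA hζ M' hqM π ∧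
        f = dMid A M' q ^ n * u := by
  obtain ⟨z, hz, hzr, hzi⟩ := exists_tauMid_dMid hq A hA hζ M' hqM π hπ
  have hτf0 : tauMid hq A hζ M' hqM f ≠ 0 := (map_ne_zero _).mpr hf
  obtain ⟨n, u, hu, hured, hfu⟩ := (isUnifOn_zeta hq A hA hζ).exists_zpow_mul_unit π
    (tauMid_mem_fracRat hq A hζ M' hqM f) hτf0
  have hd : tauMid hq A hζ M' hqM (dMid A M' q)
      = HahnSeries.C (1 - ζ) * (-(z : LaurentSeries Qb)) := by
    rw [hz, ← neg_sub ζ 1, map_neg]
    ring
  have hzU : IsGaussUnit A π (-(z : LaurentSeries Qb)) :=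
    IsGaussUnit.neg (y := (z : LaurentSeries Qb)) ⟨z.2, hzi⟩
  have huU : IsGaussUnit A π u := isGaussUnit_of_red_ne_zero hu hured
  have hd0 : dMid A M' q ≠ 0 := dMid_ne_zero hq A hA hζ M' hqM π hπ
  have hC0 : (HahnSeries.C (1 - ζ) : LaurentSeries Qb) ≠ 0 := by
    intro h
    have h3 : (HahnSeries.C (1 - ζ) : LaurentSeries Qb) = HahnSeries.C 0 := by rw [h, map_zero]
    exact one_sub_zeta_ne_zero hq hζ (HahnSeries.C_injective h3)
  have hz0 : -(z : LaurentSeries Qb) ≠ 0 := by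
    intro h
    rw [h, mul_zero] at hd
    exact hd0 ((map_eq_zero _).mp hd)
  have key : tauMid hq A hζ M' hqM (f * (dMid A M' q ^ n)⁻¹)
      = u * ((-(z : LaurentSeries Qb)) ^ n)⁻¹ := by
    rw [map_mul, map_inv₀, map_zpow₀, hfu, hd, mul_zpow, map_zpow₀]
    have h1 : (HahnSeries.C (1 - ζ) : LaurentSeries Qb) ^ n ≠ 0 := zpow_ne_zero n hC0
    have h2 : (-(z : LaurentSeries Qb)) ^ n ≠ 0 := zpow_ne_zero n hz0
    field_simp
  have hU : IsGaussUnit A π (tauMid hq A hζ M' hqM (f * (dMid A M' q ^ n)⁻¹)) := by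
    rw [key]
    exact huU.mul (hzU.zpow n).inv
  refine ⟨n, f * (dMid A M' q ^ n)⁻¹, ?_, ?_, ?_⟩
  · rw [mem_OMid_iff]
    exact hU.1
  · rw [mem_OMid_iff, map_inv₀]
    exact hU.2
  · have h1 : dMid A M' q ^ n ≠ 0 := zpow_ne_zero n hd0
    field_simp

include hA hπ in
/-- **(U2)** `O_mid` is a discrete valuation ring with uniformiser `d = J_2 - J_0`. -/
theorem isUnif_dMid :
    Fermat.Agent.CAR.Formal.IsUnif (OMid hq A hA hζ M' hqM π) (dMid A M' q) where
  mem := dMid_mem hq A hA hζ M' hqM π hπ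
  inv_notMem := by
    intro h
    have hm := dMid_mem hq A hA hζ M' hqM π hπ
    have h0 := redMid_dMid hq A hA hζ M' hqM π hπ hm
    rw [redMid_eq_zero_iff] at h0
    apply h0
    refine IsUnit.of_mul_eq_one (⟨(dMid A M' q)⁻¹, h⟩ : OMid hq A hA hζ M' hqM π) ?_
    apply Subtype.ext
    show dMid A M' q * (dMid A M' q)⁻¹ = 1
    exact mul_inv_cancel₀ (dMid_ne_zero hq A hA hζ M' hqM π hπ)
  exists_zpow := exists_dMid_zpow_mul hq A hA hζ M' hqM π hπ

include hA hπ in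
/-- **(U3)** `d^(q-1) = q · t` with `t ∈ O_mid` reducing to `-(θ J̄)^(q-1)`. -/
theorem exists_dMid_pow :
    ∃ t : OMid hq A hA hζ M' hqM π,
      dMid A M' q ^ (q - 1)
        = (q : FK (inertiaField A) (M' * q * q)) * (t : FK (inertiaField A) (M' * q * q)) ∧
      redMid hq A hA hζ M' hqM π t = -(thetaL k (jqModC k)) ^ (q - 1) := by
  haveI : Fact q.Prime := ⟨hq⟩
  haveI : CharP k q :=
    (CharP.charP_iff_prime_eq_zero hq).mpr (natCast_eq_zero_of_liesOver A π hπ hA)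
  obtain ⟨t, ht, htr⟩ := MidSeries.exists_pow_div' A π q (zetaUnit hq hζ) hπ hζ
    ⟨jqModC Qb, jq_mem_gaussRing A π⟩
  have hτq : tauMid hq A hζ M' hqM (q : FK (inertiaField A) (M' * q * q))
      = HahnSeries.C (q : Qb) := by
    rw [map_natCast, map_natCast]
  have hC0 : (HahnSeries.C (q : Qb) : LaurentSeries Qb) ≠ 0 := by
    intro h
    have h3 : (HahnSeries.C (q : Qb) : LaurentSeries Qb) = HahnSeries.C 0 := by rw [h, map_zero]
    exact Nat.cast_ne_zero.mpr hq.ne_zero (HahnSeries.C_injective h3)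
  have hq0 : (q : FK (inertiaField A) (M' * q * q)) ≠ 0 := by
    intro h
    rw [h, map_zero] at hτq
    exact hC0 hτq.symm
  have hτt : tauMid hq A hζ M' hqM
      (dMid A M' q ^ (q - 1) / (q : FK (inertiaField A) (M' * q * q))) = (t : LaurentSeries Qb) := by
    rw [map_div₀, map_pow, tauMid_dMid, hτq]
    show (rot (zetaUnit hq hζ) (jqModC Qb) - jqModC Qb) ^ (q - 1) / HahnSeries.C (q : Qb) = _
    rw [ht, mul_div_cancel_left₀ _ hC0]
  have hmem : dMid A M' q ^ (q - 1) / (q : FK (inertiaField A) (M' * q * q))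
      ∈ OMid hq A hA hζ M' hqM π := by
    rw [mem_OMid_iff, hτt]
    exact t.2
  refine ⟨⟨_, hmem⟩, ?_, ?_⟩
  · show dMid A M' q ^ (q - 1) = (q : FK (inertiaField A) (M' * q * q))
      * (dMid A M' q ^ (q - 1) / (q : FK (inertiaField A) (M' * q * q)))
    rw [mul_div_cancel₀ _ hq0]
  · rw [redMid_apply]
    have h1 : (⟨tauMid hq A hζ M' hqM
        (dMid A M' q ^ (q - 1) / (q : FK (inertiaField A) (M' * q * q))), hmem⟩ : gaussRing A π)
        = t := Subtype.ext hτt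
    show red A π ⟨tauMid hq A hζ M' hqM
        (dMid A M' q ^ (q - 1) / (q : FK (inertiaField A) (M' * q * q))), hmem⟩ = _
    rw [h1, htr, red_jq]

include hπ in
/-- **(U4)** constants: `c ∈ O_mid ↔ c ∈ A`. -/
theorem CK_mem_OMid_iff (c : inertiaField A) :
    CK (inertiaField A) (M' * q * q) c ∈ OMid hq A hA hζ M' hqM π ↔ (c : Qb) ∈ A := by
  rw [mem_OMid_iff, tauMid_CK]
  exact C_mem_gaussRing_iff A π hπ _

/-- **(U4)** the reduction of a constant. -/
theorem redMid_CK (c : inertiaField A) (hc : (c : Qb) ∈ A)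
    (h : CK (inertiaField A) (M' * q * q) c ∈ OMid hq A hA hζ M' hqM π) :
    redMid hq A hA hζ M' hqM π ⟨CK (inertiaField A) (M' * q * q) c, h⟩
      = HahnSeries.C (π ⟨(c : Qb), hc⟩) := by
  rw [redMid_apply]
  have hC : (HahnSeries.C (c : Qb) : LaurentSeries Qb) ∈ gaussRing A π := C_mem_gaussRing A π hc
  have h1 : (⟨tauMid hq A hζ M' hqM (CK (inertiaField A) (M' * q * q) c), h⟩ : gaussRing A π)
      = ⟨HahnSeries.C (c : Qb), hC⟩ := Subtype.ext (tauMid_CK hq A hζ M' hqM c)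
  show red A π ⟨tauMid hq A hζ M' hqM (CK (inertiaField A) (M' * q * q) c), h⟩ = _
  rw [h1, red_C A π hc hC]

include hA hπ in
/-- **(U5)** the generators `J(q^d)` lie in `O_mid`. -/
theorem JK_mem_OMid (d : Dv (M' * q * q)) :
    JK (inertiaField A) (M' * q * q) d ∈ OMid hq A hA hζ M' hqM π := by
  haveI : Fact q.Prime := ⟨hq⟩
  haveI : CharP k q :=
    (CharP.charP_iff_prime_eq_zero hq).mpr (natCast_eq_zero_of_liesOver A π hπ hA)
  have hpow : ((zetaUnit hq hζ : Qbˣ) : Qb) ^ q = 1 := hζ.pow_eq_one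
  rw [mem_OMid_iff, tauMid_JK]
  unfold serMid
  split_ifs
  · exact MidSeries.rot_mem_gaussRing' A π q (zetaUnit hq hζ) hpow (Jd_mem_gaussRing A π _)
  · exact Jd_mem_gaussRing A π _

include hA hπ in
/-- **(U5)** the reductions of the generators: `J(q^{q² d'}) ↦ J̄(q^{d'})`, the others
`J(q^d) ↦ J̄(q^d)`. -/
theorem redMid_JK (d : Dv (M' * q * q))
    (h : JK (inertiaField A) (M' * q * q) d ∈ OMid hq A hA hζ M' hqM π) :
    redMid hq A hA hζ M' hqM π ⟨JK (inertiaField A) (M' * q * q) d, h⟩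
      = TD.Jd k (if q ^ 2 ∣ d.1 then d.1 / q ^ 2 else d.1) := by
  haveI : Fact q.Prime := ⟨hq⟩
  haveI : CharP k q :=
    (CharP.charP_iff_prime_eq_zero hq).mpr (natCast_eq_zero_of_liesOver A π hπ hA)
  have hpow : ((zetaUnit hq hζ : Qbˣ) : Qb) ^ q = 1 := hζ.pow_eq_one
  rw [redMid_apply]
  show red A π ⟨tauMid hq A hζ M' hqM (JK (inertiaField A) (M' * q * q) d), h⟩ = _
  have h1 : ∀ (y : LaurentSeries Qb) (hy : y ∈ gaussRing A π),
      tauMid hq A hζ M' hqM (JK (inertiaField A) (M' * q * q) d) = y →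
      red A π ⟨tauMid hq A hζ M' hqM (JK (inertiaField A) (M' * q * q) d), h⟩
        = red A π ⟨y, hy⟩ := by
    rintro y hy rfl
    rfl
  by_cases hd : q ^ 2 ∣ d.1
  · have e : tauMid hq A hζ M' hqM (JK (inertiaField A) (M' * q * q) d)
        = rot (zetaUnit hq hζ) (TD.Jd Qb (d.1 / q ^ 2)) := by
      rw [tauMid_JK]
      unfold serMid
      rw [if_pos hd]
    rw [if_pos hd, h1 _ (MidSeries.rot_mem_gaussRing' A π q (zetaUnit hq hζ) hpow
      (Jd_mem_gaussRing A π _)) e,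
      MidSeries.red_rot' A π q (zetaUnit hq hζ) hpow (Jd_mem_gaussRing A π _), red_Jd]
  · have e : tauMid hq A hζ M' hqM (JK (inertiaField A) (M' * q * q) d) = TD.Jd Qb d.1 := by
      rw [tauMid_JK]
      unfold serMid
      rw [if_neg hd]
    rw [if_neg hd, h1 _ (Jd_mem_gaussRing A π _) e, red_Jd]

end Unif

end Fermat.Agent.CAR.V3.MidRing

end
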