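import Mathlib
import Fermat.Agent.CAR.V3.MidRing
import Fermat.Agent.CAR.V3.Inf
import Fermat.Agent.CAR.K0
import Fermat.Agent.S28.ChainCore

/-!
# CAR (V3-Mid, Mid-3): `O_mid` and the three pull-backs `π_0^*, π_1^*, π_2^*`

* `Bridge`: base change of Gauss rings along a field embedding `φ : L → L'` with `φ(A) ⊆ A'`
  and compatible residue maps (`coeffMap_mem_gaussRing_of_map`, `red_coeffMap_of_map`,
  `mem_gaussRing_of_coeffMap_mem`); instance `(K0, W0, resW0) → (ℚ̄, A, residue)`.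
* `tauMid_piStar0/1/2`: the middle-cusp expansion of `π_i^* x` is `x`, `x(q^q)`, `x(ζ q)`
  (coefficients extended to `ℚ̄`).
* `piStar_i_mem_OMid_iff`: `(π_i^*)⁻¹(O_mid) = Ow` (the Gauss valuation ring of level `M'` over
  `W0`); `redMid_piStar0/1/2`: `red_mid ∘ (π_0^*, π_1^*, π_2^*) = (red, ψ ∘ red, red)`.
-/

set_option autoImplicit false
set_option linter.unusedSectionVars false
set_option linter.style.haveILetI false

noncomputable section

namespace Fermat.Agent.CAR.V3.MidRing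

open ModularCurve HahnSeries Fermat.Agent.S24 Fermat.Agent.S28 Fermat.Agent.S28.Chain
  Fermat.Agent.Lib.Red Fermat.Agent.CAR.K0 Fermat.Agent.CAR.V3.GaussDVR
  Fermat.Agent.CAR.Local.ThetaJ Fermat.Agent.ESJ.Cong.ConjAnalytic

local notation "Qb" => AlgebraicClosure ℚ

/-! ### Base change of Gauss rings -/

section Bridge

variable {L L' : Type*} [Field L] [Field L'] (φ : L →+* L') (A : ValuationSubring L)
  (A' : ValuationSubring L') {k : Type*} [Field k] (π : A →+* k) (π' : A' →+* k)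
  (hφ : ∀ a : A, φ (a : L) ∈ A')

/-- The map `A → A'` induced by `φ`. -/
def mapVal : A →+* A' where
  toFun a := ⟨φ (a : L), hφ a⟩
  map_one' := Subtype.ext (by simp)
  map_mul' a b := Subtype.ext (by simp)
  map_zero' := Subtype.ext (by simp)
  map_add' a b := Subtype.ext (by simp)

theorem coeffMap_incl (g : LaurentSeries A) :
    coeffMap φ (incl A g) = incl A' (coeffMap (mapVal φ A A' hφ) g) := by
  ext n
  rfl

variable (hπ : ∀ a : A, π' (mapVal φ A A' hφ a) = π a)

include hπ in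
theorem rbar_coeffMap (g : LaurentSeries A) :
    rbar A' π' (coeffMap (mapVal φ A A' hφ) g) = rbar A π g := by
  ext n
  exact hπ _

include hπ in
/-- Base change preserves the Gauss ring. -/
theorem coeffMap_mem_gaussRing_of_map {y : LaurentSeries L} (hy : y ∈ gaussRing A π) :
    coeffMap φ y ∈ gaussRing A' π' := by
  obtain ⟨s, P, hs, h⟩ := hy
  refine ⟨coeffMap (mapVal φ A A' hφ) s, coeffMap (mapVal φ A A' hφ) P, ?_, ?_⟩
  · rw [rbar_coeffMap φ A A' π π' hφ hπ]
    exact hs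
  · rw [← coeffMap_incl, ← coeffMap_incl, ← map_mul, h]

include hπ in
/-- Base change commutes with the reduction. -/
theorem red_coeffMap_of_map {y : LaurentSeries L} (hy : y ∈ gaussRing A π)
    (hy' : coeffMap φ y ∈ gaussRing A' π') :
    red A' π' ⟨coeffMap φ y, hy'⟩ = red A π ⟨y, hy⟩ := by
  obtain ⟨s, P, hs, h⟩ := (mem_gaussRing_iff A π y).mp hy
  rw [red_eq A π ⟨y, hy⟩ hs h,
    red_eq A' π' ⟨coeffMap φ y, hy'⟩ (s := coeffMap (mapVal φ A A' hφ) s)
      (P := coeffMap (mapVal φ A A' hφ) P)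
      (by rw [rbar_coeffMap φ A A' π π' hφ hπ]; exact hs)
      (by rw [← coeffMap_incl, ← coeffMap_incl, ← map_mul, h]),
    rbar_coeffMap φ A A' π π' hφ hπ, rbar_coeffMap φ A A' π π' hφ hπ]

include hπ in
/-- Descent: if `y` or `y⁻¹` is in the small Gauss ring and the base change of `y` is in the big
one, then `y` is in the small one. -/
theorem mem_gaussRing_of_coeffMap_mem {y : LaurentSeries L}
    (hor : y ∈ gaussRing A π ∨ y⁻¹ ∈ gaussRing A π) (h : coeffMap φ y ∈ gaussRing A' π') :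
    y ∈ gaussRing A π := by
  rcases hor with h1 | h1
  · exact h1
  by_cases hy0 : y = 0
  · rw [hy0]
    exact zero_mem _
  by_cases hred : red A π ⟨y⁻¹, h1⟩ = 0
  · exfalso
    have h2 : coeffMap φ y⁻¹ ∈ gaussRing A' π' :=
      coeffMap_mem_gaussRing_of_map φ A A' π π' hφ hπ h1
    have h3 : red A' π' ⟨coeffMap φ y⁻¹, h2⟩ = 0 := by
      rw [red_coeffMap_of_map φ A A' π π' hφ hπ h1 h2, hred]
    have h4 : (⟨coeffMap φ y, h⟩ : gaussRing A' π') * ⟨coeffMap φ y⁻¹, h2⟩ = 1 := by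
      apply Subtype.ext
      show coeffMap φ y * coeffMap φ y⁻¹ = 1
      rw [← map_mul, mul_inv_cancel₀ hy0, map_one]
    have h5 := congrArg (red A' π') h4
    rw [map_mul, h3, mul_zero, map_one] at h5
    exact zero_ne_one h5
  · have h2 := inv_mem_gaussRing A π h1 hred
    rwa [inv_inv] at h2

end Bridge

/-! ### The instance `(K0, W0, resW0) → (ℚ̄, A, residue)` -/

section BridgeK0

variable (A : ValuationSubring Qb)

theorem residue_eq_zero_of_not_isUnit (a : A) (ha : ¬ IsUnit a) : IsLocalRing.residue A a = 0 := by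
  rw [IsLocalRing.residue_eq_zero_iff, IsLocalRing.mem_maximalIdeal, mem_nonunits_iff]
  exact ha

theorem mapVal_K0 (a : W0 A) :
    IsLocalRing.residue A (mapVal (algebraMap (inertiaField A) Qb) (W0 A) A (fun a => a.2) a)
      = resW0 A a := rfl

/-- A `W0`-Gauss series is an `A`-Gauss series after extending the coefficients. -/
theorem bc_mem_gaussRing {y : LaurentSeries (inertiaField A)}
    (hy : y ∈ gaussRing (W0 A) (resW0 A)) :
    coeffMap (algebraMap (inertiaField A) Qb) y ∈ gaussRing A (IsLocalRing.residue A) :=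
  coeffMap_mem_gaussRing_of_map (algebraMap (inertiaField A) Qb) (W0 A) A (resW0 A)
    (IsLocalRing.residue A) (fun a => a.2) (mapVal_K0 A) hy

theorem red_bc {y : LaurentSeries (inertiaField A)} (hy : y ∈ gaussRing (W0 A) (resW0 A))
    (hy' : coeffMap (algebraMap (inertiaField A) Qb) y ∈ gaussRing A (IsLocalRing.residue A)) :
    red A (IsLocalRing.residue A) ⟨coeffMap (algebraMap (inertiaField A) Qb) y, hy'⟩
      = red (W0 A) (resW0 A) ⟨y, hy⟩ :=
  red_coeffMap_of_map (algebraMap (inertiaField A) Qb) (W0 A) A (resW0 A)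
    (IsLocalRing.residue A) (fun a => a.2) (mapVal_K0 A) hy hy'

theorem mem_gaussRing_of_bc_mem {y : LaurentSeries (inertiaField A)}
    (hor : y ∈ gaussRing (W0 A) (resW0 A) ∨ y⁻¹ ∈ gaussRing (W0 A) (resW0 A))
    (h : coeffMap (algebraMap (inertiaField A) Qb) y ∈ gaussRing A (IsLocalRing.residue A)) :
    y ∈ gaussRing (W0 A) (resW0 A) :=
  mem_gaussRing_of_coeffMap_mem (algebraMap (inertiaField A) Qb) (W0 A) A (resW0 A)
    (IsLocalRing.residue A) (fun a => a.2) (mapVal_K0 A) hor h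

end BridgeK0

/-! ### Coefficient extension and the degeneracy maps -/

section BcHecke

variable (K : IntermediateField ℚ Qb) (N ℓ : ℕ) [NeZero N] [NeZero ℓ]

theorem bcQ_alpha (x : FK K N) :
    bcQ K (N * ℓ) (heckeAlphaBar K N ℓ x) = heckeAlphaBar Qb N ℓ (bcQ K N x) := by
  apply Subtype.ext
  rw [coe_bcQ, coe_heckeAlphaBar, coe_heckeAlphaBar, coe_bcQ]

theorem bcQ_beta (x : FK K N) :
    bcQ K (N * ℓ) (heckeBetaBar K N ℓ x) = heckeBetaBar Qb N ℓ (bcQ K N x) := by
  apply Subtype.ext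
  rw [coe_bcQ, coe_heckeBetaBar, coe_heckeBetaBar, coe_bcQ, coeffMap_qExpand]

end BcHecke

/-! ### The middle-cusp expansion of the three pull-backs -/

section Pull

variable {q : ℕ} (hq : q.Prime) (A : ValuationSubring Qb) (hA : A.LiesOverPrime q)
  {ζ : Qb} (hζ : IsPrimitiveRoot ζ q) (M' : ℕ) [NeZero M'] [NeZero q] (hqM : ¬ q ∣ M')

/-- `ι_mid` on the image of level `M' q`: the series itself. -/
theorem tauMid_alpha (x : FK (inertiaField A) (M' * q)) :
    tauMid hq A hζ M' hqM (heckeAlphaBar (inertiaField A) (M' * q) q x)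
      = coeffMap (algebraMap (inertiaField A) Qb) (x : LaurentSeries (inertiaField A)) := by
  show tauQ hq hζ M' hqM (bcQ (inertiaField A) (M' * q * q)
    (heckeAlphaBar (inertiaField A) (M' * q) q x)) = _
  rw [bcQ_alpha, tauQ_alpha, coe_bcQ]

/-- `ι_mid ∘ π_0^* = ` coefficient extension. -/
theorem tauMid_piStar0 (x : FK (inertiaField A) M') :
    tauMid hq A hζ M' hqM (piStar0 (inertiaField A) M' q x)
      = coeffMap (algebraMap (inertiaField A) Qb) (x : LaurentSeries (inertiaField A)) := by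
  rw [piStar0_apply, tauMid_alpha, coe_heckeAlphaBar]

/-- `ι_mid ∘ π_1^* = (q ↦ q^q) ∘ ` coefficient extension. -/
theorem tauMid_piStar1 (x : FK (inertiaField A) M') :
    tauMid hq A hζ M' hqM (piStar1 (inertiaField A) M' q x)
      = qExpand Qb q
        (coeffMap (algebraMap (inertiaField A) Qb) (x : LaurentSeries (inertiaField A))) := by
  rw [piStar1_apply, tauMid_alpha, coe_heckeBetaBar, coeffMap_qExpand]

/-- `ι_mid ∘ π_2^* = (q ↦ ζ q) ∘ ` coefficient extension. -/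
theorem tauMid_piStar2 (x : FK (inertiaField A) M') :
    tauMid hq A hζ M' hqM (piStar2 (inertiaField A) M' q x)
      = rot (zetaUnit hq hζ)
        (coeffMap (algebraMap (inertiaField A) Qb) (x : LaurentSeries (inertiaField A))) := by
  rw [piStar2_apply]
  show tauQ hq hζ M' hqM (bcQ (inertiaField A) (M' * q * q)
    (heckeBetaBar (inertiaField A) (M' * q) q (heckeBetaBar (inertiaField A) M' q x))) = _
  rw [bcQ_beta, bcQ_beta, tauQ_beta_beta, coe_bcQ]

end Pull

/-! ### `O_mid` and the three pull-backs -/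

section PullRed

variable {q : ℕ} (hq : q.Prime) (A : ValuationSubring Qb) (hA : A.LiesOverPrime q)
  {ζ : Qb} (hζ : IsPrimitiveRoot ζ q) (M' : ℕ) [NeZero M'] [NeZero q] (hqM : ¬ q ∣ M')
  (hMk : (M' : IsLocalRing.ResidueField A) ≠ 0)

/-- `π_0^*` maps the Gauss valuation ring of level `M'` into `O_mid`. -/
theorem piStar0_mem_OMid (x : FK (inertiaField A) M') (hx : x ∈ Ow (W0 A) (resW0 A) M' hMk) :
    piStar0 (inertiaField A) M' q x ∈ OMid hq A hA hζ M' hqM (IsLocalRing.residue A) := by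
  rw [mem_OMid_iff, tauMid_piStar0]
  exact bc_mem_gaussRing A hx

/-- **`red_mid ∘ π_0^* = red`.** -/
theorem redMid_piStar0 (x : FK (inertiaField A) M') (hx : x ∈ Ow (W0 A) (resW0 A) M' hMk)
    (hx' : piStar0 (inertiaField A) M' q x ∈ OMid hq A hA hζ M' hqM (IsLocalRing.residue A)) :
    redMid hq A hA hζ M' hqM (IsLocalRing.residue A) ⟨piStar0 (inertiaField A) M' q x, hx'⟩
      = ((redF (W0 A) (resW0 A) M' (resW0_eq_zero_of_not_isUnit A) hMk ⟨x, hx⟩ :
          modularFunctionFieldFullC (IsLocalRing.ResidueField A) M') :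
          LaurentSeries (IsLocalRing.ResidueField A)) := by
  rw [redMid_apply, coe_redF]
  have e : (⟨tauMid hq A hζ M' hqM (piStar0 (inertiaField A) M' q x), hx'⟩ :
      gaussRing A (IsLocalRing.residue A))
      = ⟨coeffMap (algebraMap (inertiaField A) Qb) (x : LaurentSeries (inertiaField A)),
        bc_mem_gaussRing A hx⟩ := Subtype.ext (tauMid_piStar0 hq A hζ M' hqM x)
  show red A (IsLocalRing.residue A)
    ⟨tauMid hq A hζ M' hqM (piStar0 (inertiaField A) M' q x), hx'⟩ = _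
  rw [e, red_bc A hx]
  rfl

/-- `π_1^*` maps the Gauss valuation ring of level `M'` into `O_mid`. -/
theorem piStar1_mem_OMid (x : FK (inertiaField A) M') (hx : x ∈ Ow (W0 A) (resW0 A) M' hMk) :
    piStar1 (inertiaField A) M' q x ∈ OMid hq A hA hζ M' hqM (IsLocalRing.residue A) := by
  rw [mem_OMid_iff, tauMid_piStar1]
  exact Fermat.Agent.BAD.TwoVal.qExpand_mem_gaussRing q (bc_mem_gaussRing A hx)

/-- **`red_mid ∘ π_1^* = (q ↦ q^q) ∘ red`.** -/
theorem redMid_piStar1 (x : FK (inertiaField A) M') (hx : x ∈ Ow (W0 A) (resW0 A) M' hMk)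
    (hx' : piStar1 (inertiaField A) M' q x ∈ OMid hq A hA hζ M' hqM (IsLocalRing.residue A)) :
    redMid hq A hA hζ M' hqM (IsLocalRing.residue A) ⟨piStar1 (inertiaField A) M' q x, hx'⟩
      = qExpand (IsLocalRing.ResidueField A) q
        ((redF (W0 A) (resW0 A) M' (resW0_eq_zero_of_not_isUnit A) hMk ⟨x, hx⟩ :
          modularFunctionFieldFullC (IsLocalRing.ResidueField A) M') :
          LaurentSeries (IsLocalRing.ResidueField A)) := by
  rw [redMid_apply, coe_redF]
  have hb := bc_mem_gaussRing A hx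
  have hb' := Fermat.Agent.BAD.TwoVal.qExpand_mem_gaussRing q hb
  have e : (⟨tauMid hq A hζ M' hqM (piStar1 (inertiaField A) M' q x), hx'⟩ :
      gaussRing A (IsLocalRing.residue A))
      = ⟨qExpand Qb q
          (coeffMap (algebraMap (inertiaField A) Qb) (x : LaurentSeries (inertiaField A))),
        hb'⟩ := Subtype.ext (tauMid_piStar1 hq A hζ M' hqM x)
  show red A (IsLocalRing.residue A)
    ⟨tauMid hq A hζ M' hqM (piStar1 (inertiaField A) M' q x), hx'⟩ = _
  rw [e, Fermat.Agent.BAD.TwoVal.red_qExpand q hb hb', red_bc A hx]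
  rfl

/-- `π_2^*` maps the Gauss valuation ring of level `M'` into `O_mid`. -/
theorem piStar2_mem_OMid (x : FK (inertiaField A) M') (hx : x ∈ Ow (W0 A) (resW0 A) M' hMk) :
    piStar2 (inertiaField A) M' q x ∈ OMid hq A hA hζ M' hqM (IsLocalRing.residue A) := by
  haveI : Fact q.Prime := ⟨hq⟩
  haveI : CharP (IsLocalRing.ResidueField A) q :=
    (CharP.charP_iff_prime_eq_zero hq).mpr
      (natCast_eq_zero_of_liesOver A _ (residue_eq_zero_of_not_isUnit A) hA)
  have hpow : ((zetaUnit hq hζ : Qbˣ) : Qb) ^ q = 1 := hζ.pow_eq_one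
  rw [mem_OMid_iff, tauMid_piStar2]
  exact MidSeries.rot_mem_gaussRing' A _ q (zetaUnit hq hζ) hpow (bc_mem_gaussRing A hx)

/-- **`red_mid ∘ π_2^* = red`.** -/
theorem redMid_piStar2 (x : FK (inertiaField A) M') (hx : x ∈ Ow (W0 A) (resW0 A) M' hMk)
    (hx' : piStar2 (inertiaField A) M' q x ∈ OMid hq A hA hζ M' hqM (IsLocalRing.residue A)) :
    redMid hq A hA hζ M' hqM (IsLocalRing.residue A) ⟨piStar2 (inertiaField A) M' q x, hx'⟩
      = ((redF (W0 A) (resW0 A) M' (resW0_eq_zero_of_not_isUnit A) hMk ⟨x, hx⟩ :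
          modularFunctionFieldFullC (IsLocalRing.ResidueField A) M') :
          LaurentSeries (IsLocalRing.ResidueField A)) := by
  haveI : Fact q.Prime := ⟨hq⟩
  haveI : CharP (IsLocalRing.ResidueField A) q :=
    (CharP.charP_iff_prime_eq_zero hq).mpr
      (natCast_eq_zero_of_liesOver A _ (residue_eq_zero_of_not_isUnit A) hA)
  have hpow : ((zetaUnit hq hζ : Qbˣ) : Qb) ^ q = 1 := hζ.pow_eq_one
  rw [redMid_apply, coe_redF]
  have hb := bc_mem_gaussRing A hx
  have hb' := MidSeries.rot_mem_gaussRing' A (IsLocalRing.residue A) q (zetaUnit hq hζ) hpow hb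
  have e : (⟨tauMid hq A hζ M' hqM (piStar2 (inertiaField A) M' q x), hx'⟩ :
      gaussRing A (IsLocalRing.residue A))
      = ⟨rot (zetaUnit hq hζ)
          (coeffMap (algebraMap (inertiaField A) Qb) (x : LaurentSeries (inertiaField A))),
        hb'⟩ := Subtype.ext (tauMid_piStar2 hq A hζ M' hqM x)
  show red A (IsLocalRing.residue A)
    ⟨tauMid hq A hζ M' hqM (piStar2 (inertiaField A) M' q x), hx'⟩ = _
  rw [e, MidSeries.red_rot' A (IsLocalRing.residue A) q (zetaUnit hq hζ) hpow hb hb',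
    red_bc A hx]
  rfl

/-- Descent principle: a multiplicative map `Ψ : F_{M'} → F_{M' q²}` which maps `Ow` into `O_mid`
and non-units to non-units satisfies `Ψ⁻¹(O_mid) = Ow`. -/
theorem mem_Ow_of_map_mem_OMid
    (Ψ : ↥(FK (inertiaField A) M') → ↥(FK (inertiaField A) (M' * q * q)))
    (hmul : ∀ a b, Ψ (a * b) = Ψ a * Ψ b) (hone : Ψ 1 = 1)
    (hΨ : ∀ (y : FK (inertiaField A) M') (hy : y ∈ Ow (W0 A) (resW0 A) M' hMk),
      ∃ h : Ψ y ∈ OMid hq A hA hζ M' hqM (IsLocalRing.residue A),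
        (redF (W0 A) (resW0 A) M' (resW0_eq_zero_of_not_isUnit A) hMk ⟨y, hy⟩ = 0 →
          redMid hq A hA hζ M' hqM (IsLocalRing.residue A) ⟨Ψ y, h⟩ = 0))
    (x : FK (inertiaField A) M')
    (hx : Ψ x ∈ OMid hq A hA hζ M' hqM (IsLocalRing.residue A)) :
    x ∈ Ow (W0 A) (resW0 A) M' hMk := by
  rcases (Ow (W0 A) (resW0 A) M' hMk).mem_or_inv_mem x with h1 | h1
  · exact h1
  by_cases hx0 : x = 0
  · rw [hx0]
    exact zero_mem _
  by_cases hred : redF (W0 A) (resW0 A) M' (resW0_eq_zero_of_not_isUnit A) hMk ⟨x⁻¹, h1⟩ = 0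
  · exfalso
    obtain ⟨h2, h3⟩ := hΨ x⁻¹ h1
    have h3' := h3 hred
    have h4 : (⟨Ψ x, hx⟩ : OMid hq A hA hζ M' hqM (IsLocalRing.residue A)) * ⟨Ψ x⁻¹, h2⟩ = 1 := by
      apply Subtype.ext
      show Ψ x * Ψ x⁻¹ = 1
      rw [← hmul, mul_inv_cancel₀ hx0, hone]
    have h5 := congrArg (redMid hq A hA hζ M' hqM (IsLocalRing.residue A)) h4
    rw [map_mul, h3', mul_zero, map_one] at h5
    exact zero_ne_one h5
  · have hu : IsUnit (⟨x⁻¹, h1⟩ : Ow (W0 A) (resW0 A) M' hMk) := by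
      by_contra hnu
      exact hred ((redF_eq_zero_iff (resW0_eq_zero_of_not_isUnit A) hMk _).mpr hnu)
    obtain ⟨b, hb⟩ := hu.exists_right_inv
    have hb' : x⁻¹ * (b : FK (inertiaField A) M') = 1 := congrArg Subtype.val hb
    have hbx : (b : FK (inertiaField A) M') = x := by
      have := congrArg (fun t => x * t) hb'
      simpa [← mul_assoc, mul_inv_cancel₀ hx0] using this
    rw [← hbx]
    exact b.2

/-- **`(π_0^*)⁻¹(O_mid) = Ow`.** -/
theorem piStar0_mem_OMid_iff (x : FK (inertiaField A) M') :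
    piStar0 (inertiaField A) M' q x ∈ OMid hq A hA hζ M' hqM (IsLocalRing.residue A)
      ↔ x ∈ Ow (W0 A) (resW0 A) M' hMk := by
  refine ⟨fun h => ?_, piStar0_mem_OMid hq A hA hζ M' hqM hMk x⟩
  refine mem_Ow_of_map_mem_OMid hq A hA hζ M' hqM hMk
    (fun y => piStar0 (inertiaField A) M' q y) (fun a b => map_mul _ a b) (map_one _) ?_ x h
  intro y hy
  refine ⟨piStar0_mem_OMid hq A hA hζ M' hqM hMk y hy, fun h0 => ?_⟩
  have := redMid_piStar0 hq A hA hζ M' hqM hMk y hy (piStar0_mem_OMid hq A hA hζ M' hqM hMk y hy)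
  rw [h0] at this
  exact this

/-- **`(π_1^*)⁻¹(O_mid) = Ow`.** -/
theorem piStar1_mem_OMid_iff (x : FK (inertiaField A) M') :
    piStar1 (inertiaField A) M' q x ∈ OMid hq A hA hζ M' hqM (IsLocalRing.residue A)
      ↔ x ∈ Ow (W0 A) (resW0 A) M' hMk := by
  refine ⟨fun h => ?_, piStar1_mem_OMid hq A hA hζ M' hqM hMk x⟩
  refine mem_Ow_of_map_mem_OMid hq A hA hζ M' hqM hMk
    (fun y => piStar1 (inertiaField A) M' q y) (fun a b => map_mul _ a b) (map_one _) ?_ x h
  intro y hy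
  refine ⟨piStar1_mem_OMid hq A hA hζ M' hqM hMk y hy, fun h0 => ?_⟩
  have := redMid_piStar1 hq A hA hζ M' hqM hMk y hy (piStar1_mem_OMid hq A hA hζ M' hqM hMk y hy)
  rw [h0] at this
  rw [this]
  exact map_zero _

/-- **`(π_2^*)⁻¹(O_mid) = Ow`.** -/
theorem piStar2_mem_OMid_iff (x : FK (inertiaField A) M') :
    piStar2 (inertiaField A) M' q x ∈ OMid hq A hA hζ M' hqM (IsLocalRing.residue A)
      ↔ x ∈ Ow (W0 A) (resW0 A) M' hMk := by
  refine ⟨fun h => ?_, piStar2_mem_OMid hq A hA hζ M' hqM hMk x⟩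
  refine mem_Ow_of_map_mem_OMid hq A hA hζ M' hqM hMk
    (fun y => piStar2 (inertiaField A) M' q y) (fun a b => map_mul _ a b) (map_one _) ?_ x h
  intro y hy
  refine ⟨piStar2_mem_OMid hq A hA hζ M' hqM hMk y hy, fun h0 => ?_⟩
  have := redMid_piStar2 hq A hA hζ M' hqM hMk y hy (piStar2_mem_OMid hq A hA hζ M' hqM hMk y hy)
  rw [h0] at this
  exact this

end PullRed

/-! ### `q` in `O_mid`; `d` is a unit of `O_∞` -/

section Extra

variable {q : ℕ} (hq : q.Prime) (A : ValuationSubring Qb) (hA : A.LiesOverPrime q)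
  {ζ : Qb} (hζ : IsPrimitiveRoot ζ q) (M' : ℕ) [NeZero M'] [NeZero q] (hqM : ¬ q ∣ M')
  {k : Type*} [Field k] (π : A →+* k) (hπ : ∀ a : A, ¬ IsUnit a → π a = 0)

theorem tauMid_natCast (n : ℕ) :
    tauMid hq A hζ M' hqM (n : FK (inertiaField A) (M' * q * q)) = HahnSeries.C (n : Qb) := by
  rw [map_natCast, map_natCast]

include hπ in
/-- `q⁻¹ ∉ O_mid`. -/
theorem inv_natCast_notMem_OMid :
    ((q : FK (inertiaField A) (M' * q * q)))⁻¹ ∉ OMid hq A hA hζ M' hqM π := by
  intro h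
  rw [mem_OMid_iff, map_inv₀, tauMid_natCast, ← map_inv₀, C_mem_gaussRing_iff A π hπ] at h
  have h2 : (q : Qb) ∈ A.nonunits := hA
  rw [ValuationSubring.mem_nonunits_iff_or] at h2
  rcases h2 with h2 | h2
  · exact Nat.cast_ne_zero.mpr hq.ne_zero h2
  · exact h2 h

include hπ in
/-- `q` is a non-unit of `O_mid`. -/
theorem natCast_mem_nonunits_OMid :
    (q : FK (inertiaField A) (M' * q * q)) ∈ (OMid hq A hA hζ M' hqM π).nonunits := by
  rw [ValuationSubring.mem_nonunits_iff_or]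
  exact Or.inr (inv_natCast_notMem_OMid hq A hA hζ M' hqM π hπ)

include hπ in
/-- `d` is a non-unit of `O_mid`. -/
theorem dMid_mem_nonunits_OMid :
    dMid A M' q ∈ (OMid hq A hA hζ M' hqM π).nonunits :=
  (isUnif_dMid hq A hA hζ M' hqM π hπ).mem_nonunits

include hπ in
/-- **`q = d^(q-1) · unit` in `O_mid`** (ramification index `q - 1`). -/
theorem exists_natCast_eq_dMid_pow_mul :
    ∃ c : FK (inertiaField A) (M' * q * q), c ∈ OMid hq A hA hζ M' hqM π ∧
      c⁻¹ ∈ OMid hq A hA hζ M' hqM π ∧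
      (q : FK (inertiaField A) (M' * q * q)) = dMid A M' q ^ (q - 1) * c := by
  obtain ⟨t, ht, htr⟩ := exists_dMid_pow hq A hA hζ M' hqM π hπ
  have hne : redMid hq A hA hζ M' hqM π t ≠ 0 := by
    rw [htr]
    exact neg_ne_zero.mpr (pow_ne_zero _ (thetaL_jq_ne_zero k))
  have hu : IsUnit t := by
    by_contra hnu
    exact hne ((redMid_eq_zero_iff hq A hA hζ M' hqM π t).mpr hnu)
  obtain ⟨b, hb⟩ := hu.exists_right_inv
  have hb' : (t : FK (inertiaField A) (M' * q * q)) * (b : FK (inertiaField A) (M' * q * q)) = 1 :=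
    congrArg Subtype.val hb
  have ht0 : (t : FK (inertiaField A) (M' * q * q)) ≠ 0 := left_ne_zero_of_mul_eq_one hb'
  have hbt : (b : FK (inertiaField A) (M' * q * q)) = (t : FK (inertiaField A) (M' * q * q))⁻¹ :=
    eq_inv_of_mul_eq_one_right hb'
  refine ⟨(t : FK (inertiaField A) (M' * q * q))⁻¹, ?_, ?_, ?_⟩
  · rw [← hbt]
    exact b.2
  · rw [inv_inv]
    exact t.2
  · rw [ht]
    field_simp

/-- `d = J_2 - J_0` lies in `O_∞` (the Gauss valuation ring at the cusp `∞`). -/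
theorem dMid_mem_OInf3 (h : Fermat.Agent.BAD.TwoVal.BadSetup (W0 A) (resW0 A) M' q) :
    dMid A M' q ∈ OInf3 h := by
  rw [mem_OInf3_iff]
  show TD.Jd (inertiaField A) (q * q) - TD.Jd (inertiaField A) 1 ∈ gaussRing (W0 A) (resW0 A)
  exact sub_mem (Jd_mem_gaussRing _ _ _) (Jd_mem_gaussRing _ _ _)

/-- `d = J_2 - J_0` is a unit of `O_∞`: `O_mid ≠ O_∞`. -/
theorem inv_dMid_mem_OInf3 (h : Fermat.Agent.BAD.TwoVal.BadSetup (W0 A) (resW0 A) M' q) :
    (dMid A M' q)⁻¹ ∈ OInf3 h := by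
  rw [mem_OInf3_iff]
  have h1 : TD.Jd (inertiaField A) (q * q) ∈ gaussRing (W0 A) (resW0 A) := Jd_mem_gaussRing _ _ _
  have h2 : TD.Jd (inertiaField A) 1 ∈ gaussRing (W0 A) (resW0 A) := Jd_mem_gaussRing _ _ _
  have hmem : TD.Jd (inertiaField A) (q * q) - TD.Jd (inertiaField A) 1
      ∈ gaussRing (W0 A) (resW0 A) := sub_mem h1 h2
  have hred : red (W0 A) (resW0 A) ⟨_, hmem⟩ ≠ 0 := by
    have e : (⟨TD.Jd (inertiaField A) (q * q) - TD.Jd (inertiaField A) 1, hmem⟩ :
        gaussRing (W0 A) (resW0 A)) = ⟨_, h1⟩ - ⟨_, h2⟩ := rfl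
    rw [e, map_sub, red_Jd, red_Jd, sub_ne_zero]
    intro h3
    have h4 : q * q = 1 := Fermat.Agent.S28.Chain.Jd_injective _ (Nat.mul_ne_zero h.hℓ.ne_zero h.hℓ.ne_zero) one_ne_zero h3
    have h5 : q = 1 := Nat.eq_one_of_mul_eq_one_left h4
    exact h.hℓ.one_lt.ne' h5
  exact inv_mem_gaussRing (W0 A) (resW0 A) hmem hred

end Extra

end Fermat.Agent.CAR.V3.MidRing

end
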