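/-
CAR / V3-Count: purely inseparable degree (Mathlib only).

In a field `κ` of characteristic `p`, if `x` is not a `p`-th power then the powers `x ^ a`,
`a < p ^ n`, are linearly independent over the subfield `κ ^ (p ^ n)`:

  `frob_indep : (∑ a : Fin (p ^ n), c a ^ (p ^ n) * x ^ (a : ℕ) = 0) → ∀ a, c a = 0`.
-/
import Mathlib

set_option autoImplicit false

namespace Fermat.Agent.CAR.V3.FrobIndep

open Polynomial

variable {κ : Type*} [Field κ] (p : ℕ) [hp : Fact p.Prime] [CharP κ p]

/-- The case `n = 1`: a polynomial of degree `< p` with coefficients `p`-th powers which vanishes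
at a non-`p`-th power `x` is zero. -/
theorem frob_indep_one {x : κ} (hx : ∀ y : κ, y ^ p ≠ x) (D : Fin p → κ)
    (h : ∑ r, D r ^ p * x ^ (r : ℕ) = 0) : ∀ r, D r = 0 := by
  classical
  set K0 : Subfield κ := (frobenius κ p).fieldRange with hK0
  have hmem : ∀ y : κ, y ^ p ∈ K0 := fun y => ⟨y, rfl⟩
  -- `x` is integral over `K0`
  have hxint : IsIntegral K0 x := by
    refine ⟨X ^ p - C (⟨x ^ p, hmem x⟩ : K0), monic_X_pow_sub_C _ hp.out.ne_zero, ?_⟩
    rw [eval₂_sub, eval₂_pow, eval₂_X, eval₂_C]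
    exact sub_self _
  set μ := minpoly K0 x with hμ
  have hμm : μ.Monic := minpoly.monic hxint
  -- `μ` divides `(T - x)^p`
  have hdvd : μ.map (algebraMap K0 κ) ∣ (X - C x) ^ p := by
    have h1 : μ ∣ X ^ p - C (⟨x ^ p, hmem x⟩ : K0) := by
      apply minpoly.dvd
      rw [map_sub, map_pow, aeval_X, aeval_C]
      exact sub_self _
    have h2 := Polynomial.map_dvd (algebraMap K0 κ) h1
    rw [Polynomial.map_sub, Polynomial.map_pow, map_X, map_C,
      show algebraMap K0 κ (⟨x ^ p, hmem x⟩ : K0) = x ^ p from rfl] at h2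
    have e : (X - C x) ^ p = X ^ p - C (x ^ p) := by
      rw [sub_pow_char, ← C_pow]
    rw [e]
    exact h2
  obtain ⟨m, hm, hassoc⟩ := (dvd_prime_pow (prime_X_sub_C x) p).mp hdvd
  have hmap : μ.map (algebraMap K0 κ) = (X - C x) ^ m :=
    eq_of_monic_of_associated (hμm.map _) ((monic_X_sub_C x).pow m) hassoc
  have hdeg : μ.natDegree = m := by
    have := congrArg natDegree hmap
    rwa [natDegree_map, natDegree_pow, natDegree_X_sub_C, mul_one] at this
  -- `m = p`
  have hmp : m = p := by
    by_contra hne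
    have hlt : m < p := lt_of_le_of_ne hm hne
    have hm0 : m ≠ 0 := by
      intro h0
      have h1 : μ.natDegree = 0 := by rw [hdeg, h0]
      have h2 : 0 < μ.natDegree := minpoly.natDegree_pos hxint
      omega
    -- next coefficient
    have hnext : (μ.map (algebraMap K0 κ)).nextCoeff = m • (-x) := by
      rw [hmap, (monic_X_sub_C x).nextCoeff_pow, nextCoeff_X_sub_C]
    have hcoe : (μ.map (algebraMap K0 κ)).nextCoeff = algebraMap K0 κ (μ.coeff (m - 1)) := by
      rw [nextCoeff_of_natDegree_pos (by rw [natDegree_map, hdeg]; omega), natDegree_map, hdeg,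
        coeff_map]
    obtain ⟨y, hy⟩ := (μ.coeff (m - 1)).2
    have hy' : y ^ p = m • (-x) := by
      rw [← hnext, hcoe]
      exact hy
    have hmk : (m : κ) ≠ 0 := by
      rw [Ne, CharP.cast_eq_zero_iff κ p]
      exact Nat.not_dvd_of_pos_of_lt (Nat.pos_of_ne_zero hm0) hlt
    have hfr : frobenius κ p (-y / m) = x := by
      rw [map_div₀, map_neg, map_natCast, frobenius_def, hy', nsmul_eq_mul]
      field_simp
    exact hx (-y / m) (by rw [← frobenius_def]; exact hfr)
  -- the polynomial with coefficients `D r ^ p`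
  set P : K0[X] := ∑ r : Fin p, C (⟨D r ^ p, hmem (D r)⟩ : K0) * X ^ (r : ℕ) with hP
  have hPx : aeval x P = 0 := by
    rw [hP, map_sum]
    rw [← h]
    refine Finset.sum_congr rfl fun r _ => ?_
    rw [map_mul, aeval_C, map_pow, aeval_X]
    rfl
  have hPdeg : P.natDegree < p := by
    have hle : P.natDegree ≤ p - 1 := by
      rw [hP]
      refine natDegree_sum_le_of_forall_le _ _ fun r _ => ?_
      exact (natDegree_C_mul_X_pow_le _ _).trans (by have := r.2; omega)
    have := hp.out.pos
    omega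
  have hP0 : P = 0 := by
    by_contra hne
    have h1 := natDegree_le_of_dvd (minpoly.dvd K0 x hPx) hne
    rw [← hμ, hdeg, hmp] at h1
    omega
  intro r
  have hcoef : P.coeff (r : ℕ) = (⟨D r ^ p, hmem (D r)⟩ : K0) := by
    rw [hP, finsetSum_coeff, Finset.sum_eq_single r]
    · rw [coeff_C_mul, coeff_X_pow, if_pos rfl, mul_one]
    · intro b _ hb
      rw [coeff_C_mul, coeff_X_pow, if_neg (fun hbr => hb (Fin.ext hbr.symm)), mul_zero]
    · intro hr
      exact absurd (Finset.mem_univ r) hr
  rw [hP0, coeff_zero] at hcoef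
  have h0 : D r ^ p = 0 := by
    have := congrArg (Subtype.val : K0 → κ) hcoef
    exact this.symm
  exact pow_eq_zero_iff hp.out.ne_zero |>.mp h0

theorem frob_indep_aux {x : κ} (hx : ∀ y : κ, y ^ p ≠ x) :
    ∀ (n N : ℕ), N = p ^ n → ∀ c : Fin N → κ,
      ∑ a, c a ^ (p ^ n) * x ^ (a : ℕ) = 0 → ∀ a, c a = 0 := by
  intro n
  induction n with
  | zero =>
    intro N hN c h a
    obtain rfl : N = 1 := by rw [hN, pow_zero]
    rw [Fin.sum_univ_one, pow_zero, pow_one, Fin.val_zero, pow_zero, mul_one] at h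
    rw [Subsingleton.elim a 0]
    exact h
  | succ n ih =>
    intro N hN c h t
    obtain rfl : N = p ^ n * p := by rw [hN, pow_succ]
    have hre : ∑ a, c a ^ (p ^ (n + 1)) * x ^ (a : ℕ) =
        ∑ r : Fin p, (∑ a' : Fin (p ^ n), c (finProdFinEquiv (a', r)) ^ (p ^ n) * x ^ (a' : ℕ)) ^ p
          * x ^ (r : ℕ) := by
      rw [← finProdFinEquiv.sum_comp, Fintype.sum_prod_type_right]
      refine Finset.sum_congr rfl fun r _ => ?_
      rw [sum_pow_char, Finset.sum_mul]
      refine Finset.sum_congr rfl fun a' _ => ?_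
      rw [finProdFinEquiv_apply_val, mul_pow, ← pow_mul, ← pow_mul, pow_succ, pow_add, pow_mul]
      ring
    rw [hre] at h
    have hD := frob_indep_one p hx _ h
    have h2 := ih (p ^ n) rfl (fun a' => c (finProdFinEquiv (a', (finProdFinEquiv.symm t).2)))
      (hD (finProdFinEquiv.symm t).2) (finProdFinEquiv.symm t).1
    have ht : finProdFinEquiv ((finProdFinEquiv.symm t).1, (finProdFinEquiv.symm t).2) = t := by
      rw [Prod.mk.eta, Equiv.apply_symm_apply]
    have h3 : c (finProdFinEquiv ((finProdFinEquiv.symm t).1, (finProdFinEquiv.symm t).2)) = 0 :=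
      h2
    rwa [ht] at h3

/-- **Purely inseparable independence.**  If `x` is not a `p`-th power, the powers `x ^ a`,
`a < p ^ n`, are linearly independent over the subfield of `p ^ n`-th powers. -/
theorem frob_indep {x : κ} (hx : ∀ y : κ, y ^ p ≠ x) (n : ℕ) (c : Fin (p ^ n) → κ)
    (h : ∑ a, c a ^ (p ^ n) * x ^ (a : ℕ) = 0) : ∀ a, c a = 0 :=
  frob_indep_aux p hx n (p ^ n) rfl c h

end Fermat.Agent.CAR.V3.FrobIndep
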