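/-
CAR / V3-Count: Frobenius-twisted independence in `k((q))`.

`k` a field of characteristic `q` whose Frobenius has a ring-hom section `φ` (`φ x ^ q = x`; e.g.
`k` perfect), `ψ = (q ↦ q^q) = qExpand k q`.  Then `ψ^n z = (φ^n z)^(q^n)` coefficientwise, and
since `J̄ = q⁻¹ + …` is not a `q`-th power:

  `psi_indep : (∑ a : Fin (q ^ n), ψ^[n] (c a) * J̄ ^ a = 0) → ∀ a, c a = 0`.

This is the residue-degree lower bound `f ≥ q ^ n` for the purely inseparable residue extension
`κ / ψ^n κ` (`n = 2` for `O_0` over level `M'`, `n = 1` for the degree-`q` steps).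
-/
import Mathlib
import Fermat.Agent.CAR.V3.FrobIndep
import Fermat.Agent.ESJ.Cong.FrobFibre
import Fermat.Agent.S28.StepCore

set_option autoImplicit false
set_option linter.unusedSectionVars false
set_option linter.style.haveILetI false

namespace Fermat.Agent.CAR.V3.PsiIndep

open ModularCurve HahnSeries Fermat.Agent.S28

variable {k : Type*} [Field k] (q : ℕ) [hq : Fact q.Prime] [CharP k q] [NeZero q]

/-- `ψ^n z = (φ^n z)^(q^n)`, `φ` a section of the Frobenius of `k` applied coefficientwise. -/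
theorem iterate_qExpand_eq_pow (φ : k →+* k) (hφ : ∀ x, φ x ^ q = x) (n : ℕ)
    (z : LaurentSeries k) :
    (qExpand k q)^[n] z = ((coeffMap φ)^[n] z) ^ (q ^ n) := by
  haveI : ExpChar k q := ExpChar.prime hq.out
  induction n with
  | zero => simp
  | succ n ih =>
    rw [Function.iterate_succ_apply', ih, map_pow,
      Fermat.Agent.ESJ.Cong.FrobFibre.qExpand_eq_pow_of_frob q φ hφ,
      Function.iterate_succ_apply', ← pow_mul, pow_succ, mul_comm]

/-- `J̄` is not a `q`-th power in `k((q))`. -/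
theorem pow_ne_Jd_one (y : LaurentSeries k) : y ^ q ≠ TD.Jd k 1 := by
  intro hy
  have h1 := congrArg HahnSeries.order hy
  rw [ValInd.order_Jd 1 one_ne_zero, HahnSeries.order_pow] at h1
  have h2 : (q : ℤ) ∣ 1 := ⟨-y.order, by rw [mul_neg, ← nsmul_eq_mul]; omega⟩
  have h3 : q ∣ 1 := by exact_mod_cast h2
  exact hq.out.one_lt.ne' (Nat.dvd_one.mp h3)

/-- **Frobenius-twisted independence.** -/
theorem psi_indep (φ : k →+* k) (hφ : ∀ x, φ x ^ q = x) (n : ℕ)
    (c : Fin (q ^ n) → LaurentSeries k)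
    (h : ∑ a, (qExpand k q)^[n] (c a) * TD.Jd k 1 ^ (a : ℕ) = 0) : ∀ a, c a = 0 := by
  haveI : CharP (LaurentSeries k) q :=
    charP_of_injective_algebraMap (algebraMap k (LaurentSeries k)).injective q
  have key := FrobIndep.frob_indep q (pow_ne_Jd_one q) n (fun a => (coeffMap φ)^[n] (c a)) (by
    simp_rw [← iterate_qExpand_eq_pow q φ hφ]
    exact h)
  intro a
  have hinj : Function.Injective (coeffMap φ) :=
    StepCore.coeffMap_injective_of_injective φ φ.injective
  apply hinj.iterate n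
  rw [key a, iterate_map_zero]

/-- The case `n = 1`. -/
theorem psi_indep_one (φ : k →+* k) (hφ : ∀ x, φ x ^ q = x) (c : Fin q → LaurentSeries k)
    (h : ∑ a, qExpand k q (c a) * TD.Jd k 1 ^ (a : ℕ) = 0) : ∀ a, c a = 0 := by
  have h1 := psi_indep q φ hφ 1 (fun a => c (Fin.cast (pow_one q) a)) (by
    rw [← h]
    exact Fintype.sum_equiv (finCongr (pow_one q)) _ _ (fun a => rfl))
  intro a
  have := h1 (Fin.cast (pow_one q).symm a)
  simpa using this

/-- The case `n = 2`. -/
theorem psi_indep_two (φ : k →+* k) (hφ : ∀ x, φ x ^ q = x) (c : Fin (q ^ 2) → LaurentSeries k)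
    (h : ∑ a, qExpand k q (qExpand k q (c a)) * TD.Jd k 1 ^ (a : ℕ) = 0) : ∀ a, c a = 0 :=
  psi_indep q φ hφ 2 c h

/-- A section of the Frobenius from surjectivity of `x ↦ x ^ q`. -/
theorem exists_frob_section (hperf : ∀ x : k, ∃ y : k, y ^ q = x) :
    ∃ φ : k →+* k, ∀ x, φ x ^ q = x := by
  have hbij : Function.Bijective (frobenius k q) :=
    ⟨frobenius_inj k q, fun x => by
      obtain ⟨y, hy⟩ := hperf x
      exact ⟨y, by rw [frobenius_def, hy]⟩⟩
  refine ⟨((RingEquiv.ofBijective (frobenius k q) hbij).symm : k →+* k), fun x => ?_⟩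
  have := (RingEquiv.ofBijective (frobenius k q) hbij).apply_symm_apply x
  rwa [RingEquiv.ofBijective_apply, frobenius_def] at this

end Fermat.Agent.CAR.V3.PsiIndep
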