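/-
CAR / V3 (Zero): the Atkin–Lehner involution `w = w_{q²}` of `F = L·F_{M'q²}` and the second
Gauss valuation ring `O_0 := w⁻¹(O_∞)`.

* `closure_range_heckeBetaBar_union` : `F_{Nℓ} = β(F_N)(J)` for every `N` and every prime `ℓ`;
* `IsAL3 M' q w` : `w ∘ π_0^* = π_2^*`, `w ∘ π_1^* = π_1^*`, `w ∘ π_2^* = π_0^*`;
  `IsAL3.invol`, `IsAL3.unique`;
* `exists_isAL3` : existence over EVERY field `L ⊇ ℚ` (no root of unity needed).  Over a field
  with a primitive `q`-th root of unity: `F = β(F_{M'q})(J)`, and `J` has degree `q` over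
  `β(F_{M'q})` (its `q` conjugates are the twists `J(ζ^b q)`), with minimal polynomial
  `Φ_q(X, J(q^q)) / (X - J(q^{q²}))`; so `β(f) ↦ w_q(f)`, `J ↦ J(q^{q²})` extends to a field
  homomorphism, which is the wanted involution.  In general: descent from the algebraic closure
  (the involution permutes the generators `J(q^d)`).
* `OZero3`, `redZero3`, the compatibilities `red_0 ∘ π_i^* = (q ↦ q^q)^(2-i) ∘ red`;
* `exists_sep3` (separating idempotent), `not_OInf3_le_OZero3`, `not_OZero3_le_OInf3`,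
  `joint_surjective3`.
-/
import Mathlib
import Fermat.Agent.CAR.V3.Inf
import Fermat.Agent.ESJ.Dict.Bc

set_option autoImplicit false

namespace Fermat.Agent.CAR.V3

open HahnSeries ModularCurve Polynomial AlgebraicCurve Fermat.Agent.Lib.Red Fermat.Agent.S28
open Fermat.Agent.ESJ.Cong.LevelGen Fermat.Agent.BAD.TwoVal

noncomputable section

/-! ### Reverse generation -/

section RevGen

variable (L : Type*) [Field L] [Algebra ℚ L] (N ℓ : ℕ) [NeZero N] [NeZero ℓ]

theorem coe_jLevel_mul :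
    ((jLevel L (N * ℓ) : laurentBaseChange L (modularFunctionFieldFull (N * ℓ))) :
      LaurentSeries L) = TD.Jd L 1 := rfl

/-- `F_{Nℓ} = β(F_N)(J)`, for every level `N` and every prime `ℓ`. -/
theorem closure_range_heckeBetaBar_union (hℓ : ℓ.Prime) :
    Subfield.closure (Set.range (heckeBetaBar L N ℓ) ∪ {jLevel L (N * ℓ)}) = ⊤ := by
  have hβ : ∀ z, z ∈ laurentBaseChange L (modularFunctionFieldFull N) → qExpand L ℓ z ∈
      (Subfield.closure (Set.range (heckeBetaBar L N ℓ) ∪ {jLevel L (N * ℓ)})).map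
        ((laurentBaseChange L (modularFunctionFieldFull (N * ℓ))).val :
          laurentBaseChange L (modularFunctionFieldFull (N * ℓ)) →+* LaurentSeries L) := by
    intro z hz
    have h0 : heckeBetaBar L N ℓ ⟨z, hz⟩ ∈
        Set.range (heckeBetaBar L N ℓ) ∪ {jLevel L (N * ℓ)} :=
      Or.inl (Set.mem_range_self _)
    have h2 : ((heckeBetaBar L N ℓ ⟨z, hz⟩ :
        laurentBaseChange L (modularFunctionFieldFull (N * ℓ))) : LaurentSeries L) =
        qExpand L ℓ z := coe_heckeBetaBar N ℓ ⟨z, hz⟩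
    exact Subfield.mem_map.mpr ⟨heckeBetaBar L N ℓ ⟨z, hz⟩, Subfield.subset_closure h0, h2⟩
  have hconst : ∀ c : L, algebraMap L (LaurentSeries L) c ∈
      (Subfield.closure (Set.range (heckeBetaBar L N ℓ) ∪ {jLevel L (N * ℓ)})).map
        ((laurentBaseChange L (modularFunctionFieldFull (N * ℓ))).val :
          laurentBaseChange L (modularFunctionFieldFull (N * ℓ)) →+* LaurentSeries L) := by
    intro c
    have h1 := hβ _ ((laurentBaseChange L (modularFunctionFieldFull N)).algebraMap_mem c)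
    rwa [algebraMap_laurentSeries_eq_single, qExpand_single, mul_zero,
      ← algebraMap_laurentSeries_eq_single] at h1
  have hle' : IntermediateField.adjoin L
      ((TD.FF L N ℓ : Set (LaurentSeries L)) ∪ {TD.Jd L 1}) ≤
      Subfield.toIntermediateField _ hconst := by
    rw [IntermediateField.adjoin_le_iff]
    rintro z (hz | hz)
    · have hz' : z ∈ TD.FF L N ℓ := hz
      rw [← StepCore.FF_map_one L (NeZero.ne N) ℓ] at hz'
      obtain ⟨z₀, hz₀, rfl⟩ := hz'
      exact hβ z₀ (by rw [laurentBaseChange_full_eq]; exact hz₀)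
    · rw [Set.mem_singleton_iff] at hz
      rw [hz]
      have h0 : jLevel L (N * ℓ) ∈ Set.range (heckeBetaBar L N ℓ) ∪ {jLevel L (N * ℓ)} :=
        Or.inr (Set.mem_singleton _)
      exact Subfield.mem_map.mpr ⟨jLevel L (N * ℓ), Subfield.subset_closure h0, rfl⟩
  rw [eq_top_iff]
  rintro ⟨x, hx⟩ -
  have hx' : x ∈ TD.FF L (N * ℓ) 1 := by
    rw [← laurentBaseChange_full_eq]; exact hx
  have hxT := hle' (FF_mul_le_adjoin_rev L N ℓ (NeZero.ne N) hℓ hx')
  obtain ⟨s, hs, hsx⟩ := Subfield.mem_map.mp hxT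
  have hsx' : s = ⟨x, hx⟩ := Subtype.ext hsx
  rw [← hsx']
  exact hs

end RevGen

/-! ### Distinct series -/

section Series

variable (K : Type*) [Field K]

theorem Jd_ne_of_ne {d d' : ℕ} (hd : d ≠ 0) (hd' : d' ≠ 0) (h : d ≠ d') :
    TD.Jd K d ≠ TD.Jd K d' := by
  have : NeZero d := ⟨hd⟩
  have : NeZero d' := ⟨hd'⟩
  intro e
  rw [TD.Jd_eq_jqNModC, TD.Jd_eq_jqNModC, ← Kummer.JJ_one, ← Kummer.JJ_one] at e
  exact h (Kummer.JJ_injective e).1

/-- The twists `J(ζ^b q)`, `0 ≤ b < n`, are pairwise distinct. -/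
theorem twist_Jd_injective {n : ℕ} (ζ : Kˣ) (hζ : IsPrimitiveRoot ζ n) :
    Function.Injective (fun b : Fin n => Kummer.twist (ζ ^ (b : ℕ)) (TD.Jd K 1)) := by
  intro b b' h
  have h1 := congrArg (fun f : LaurentSeries K => f.coeff (-1)) h
  simp only [Kummer.twist_coeff, TD.Jd_one, Kummer.jqModC_coeff_neg_one, mul_one] at h1
  have h2 : (ζ ^ (b : ℕ)) ^ (-1 : ℤ) = (ζ ^ (b' : ℕ)) ^ (-1 : ℤ) := Units.ext h1
  rw [zpow_neg_one, zpow_neg_one, inv_inj] at h2
  exact Fin.ext (hζ.pow_inj b.2 b'.2 h2)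

end Series

/-! ### The degree-`q` lift, over a field with a primitive `q`-th root of unity -/

section Lift

variable (L : Type) [Field L] [Algebra ℚ L] (M' q : ℕ) [NeZero M'] [NeZero q]

/-- **`w_{q²}` as a ring endomorphism**, over a field with a primitive `q`-th root of unity. -/
theorem exists_ringHom_AL3_of_zeta (hq : q.Prime) (hqM : ¬ q ∣ M') (ζ : Lˣ)
    (hζ : IsPrimitiveRoot ζ q) :
    ∃ W : laurentBaseChange L (modularFunctionFieldFull (M' * q * q)) →+*
        laurentBaseChange L (modularFunctionFieldFull (M' * q * q)),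
      (∀ y, W (piStar0 L M' q y) = piStar2 L M' q y) ∧
      (∀ y, W (piStar1 L M' q y) = piStar1 L M' q y) ∧
      (∀ y, W (piStar2 L M' q y) = piStar0 L M' q y) := by
  classical
  obtain ⟨W₁, hW₁⟩ := exists_isAL M' q hq hqM ζ hζ
  obtain ⟨D⟩ := modEq_prime q hq
  -- the two embeddings of `F_{M'q}` and the elements
  let αN : laurentBaseChange L (modularFunctionFieldFull (M' * q)) →+*
      laurentBaseChange L (modularFunctionFieldFull (M' * q * q)) :=
    (heckeAlphaBar L (M' * q) q).toRingHom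
  let i : laurentBaseChange L (modularFunctionFieldFull (M' * q)) →+*
      laurentBaseChange L (modularFunctionFieldFull (M' * q * q)) :=
    (heckeBetaBar L (M' * q) q).toRingHom
  let ψ : laurentBaseChange L (modularFunctionFieldFull (M' * q)) →+*
      laurentBaseChange L (modularFunctionFieldFull (M' * q * q)) :=
    αN.comp W₁.toRingEquiv.toRingHom
  have hαN : ∀ x, αN x = heckeAlphaBar L (M' * q) q x := fun x => rfl
  have hi : ∀ x, i x = heckeBetaBar L (M' * q) q x := fun x => rfl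
  have hψ : ∀ x, ψ x = heckeAlphaBar L (M' * q) q (W₁ x) := fun x => rfl
  set jN : laurentBaseChange L (modularFunctionFieldFull (M' * q)) := jLevel L (M' * q) with hjN
  set jβ : laurentBaseChange L (modularFunctionFieldFull (M' * q)) :=
    heckeBetaBar L M' q (jLevel L M') with hjβ
  set θ : laurentBaseChange L (modularFunctionFieldFull (M' * q * q)) :=
    jLevel L (M' * q * q) with hθdef
  set ρ : laurentBaseChange L (modularFunctionFieldFull (M' * q * q)) :=
    piStar2 L M' q (jLevel L M') with hρdef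
  let v : laurentBaseChange L (modularFunctionFieldFull (M' * q * q)) →+* LaurentSeries L :=
    (laurentBaseChange L (modularFunctionFieldFull (M' * q * q))).val
  have hv : ∀ x, v x = (x : LaurentSeries L) := fun x => rfl
  have hvinj : Function.Injective v := Subtype.val_injective
  -- coordinates
  have cjN : (jN : LaurentSeries L) = TD.Jd L 1 := rfl
  have cjβ : (jβ : LaurentSeries L) = TD.Jd L q := coe_heckeBetaBar_jLevel L M' q
  have cθ : (θ : LaurentSeries L) = TD.Jd L 1 := rfl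
  have cρ : (ρ : LaurentSeries L) = TD.Jd L (q * q) := coe_piStar2_jLevel L M' q
  have hjN' : jN = heckeAlphaBar L M' q (jLevel L M') :=
    Subtype.ext (by rw [coe_heckeAlphaBar]; rfl)
  have hijN : (i jN : LaurentSeries L) = TD.Jd L q := by
    rw [hi, coe_heckeBetaBar, cjN, TD.qExpand_Jd L q 1 one_ne_zero, mul_one]
  have hijβ : i jβ = ρ := rfl
  have hψjN : ψ jN = heckeAlphaBar L (M' * q) q jβ := by
    rw [hψ, hjN', hW₁.alpha]
  have cψjN : (ψ jN : LaurentSeries L) = TD.Jd L q := by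
    rw [hψjN, coe_heckeAlphaBar, cjβ]
  have hψjβ : ψ jβ = θ := by
    rw [hψ, hjβ, hW₁.beta]
    exact Subtype.ext (by rw [coe_heckeAlphaBar, coe_heckeAlphaBar]; rfl)
  have hne1 : TD.Jd L 1 ≠ TD.Jd L (q * q) := by
    apply Jd_ne_of_ne L one_ne_zero (Nat.mul_ne_zero hq.ne_zero hq.ne_zero)
    have := hq.two_le
    nlinarith
  have hθρ : θ - ρ ≠ 0 := by
    intro h0
    apply hne1
    have h1 := congrArg v h0
    rw [map_sub, map_zero, hv, hv, cθ, cρ] at h1
    exact sub_eq_zero.mp h1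
  -- the polynomial `Φ_q(X, J)` over `F_{M'q}` and its factor
  set Φ₀ : Polynomial (laurentBaseChange L (modularFunctionFieldFull (M' * q))) :=
    TD.polyAt D.Φ jN with hΦ₀
  have hΦ₀m : Φ₀.Monic := TD.polyAt_monic D.monic jN
  have hΦ₀d : Φ₀.natDegree = q + 1 := by
    rw [hΦ₀, TD.polyAt_natDegree D.monic, D.natDegree_eq]
  have hroot : Φ₀.IsRoot jβ := by
    show Φ₀.eval jβ = 0
    apply Subtype.val_injective
    have h1 := TD.map_eval_polyAt
      ((laurentBaseChange L (modularFunctionFieldFull (M' * q))).val :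
        laurentBaseChange L (modularFunctionFieldFull (M' * q)) →+* LaurentSeries L) D.Φ jβ jN
    have h2 := D.rel₂' hq.ne_zero L 1 one_ne_zero
    rw [one_mul] at h2
    have h3 : (((laurentBaseChange L (modularFunctionFieldFull (M' * q))).val :
        laurentBaseChange L (modularFunctionFieldFull (M' * q)) →+* LaurentSeries L) jβ) =
        TD.Jd L q := cjβ
    have h4 : (((laurentBaseChange L (modularFunctionFieldFull (M' * q))).val :
        laurentBaseChange L (modularFunctionFieldFull (M' * q)) →+* LaurentSeries L) jN) =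
        TD.Jd L 1 := cjN
    rw [h3, h4, h2] at h1
    exact h1
  obtain ⟨P₀, hP₀⟩ := Polynomial.dvd_iff_isRoot.mpr hroot
  have hXm : (Polynomial.X - Polynomial.C jβ).Monic := Polynomial.monic_X_sub_C jβ
  have hPm : P₀.Monic := by
    rw [hP₀] at hΦ₀m
    exact hXm.of_mul_monic_left hΦ₀m
  have hPd : P₀.natDegree = q := by
    have h1 := hXm.natDegree_mul hPm
    rw [← hP₀, hΦ₀d, Polynomial.natDegree_X_sub_C] at h1
    omega
  -- `θ = J` is a root of `i(P₀)`
  have hθ : P₀.eval₂ i θ = 0 := by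
    have h1 : Φ₀.eval₂ i θ = 0 := by
      rw [← Polynomial.eval_map, hΦ₀, TD.polyAt_map]
      apply hvinj
      rw [TD.map_eval_polyAt, map_zero, hv, hv, hijN, cθ]
      have h2 := D.rel₁' hq.ne_zero L 1 one_ne_zero
      rwa [one_mul] at h2
    rw [hP₀, Polynomial.eval₂_mul, Polynomial.eval₂_sub, Polynomial.eval₂_X, Polynomial.eval₂_C,
      hijβ] at h1
    exact (mul_eq_zero.mp h1).resolve_left hθρ
  -- `ρ = J(q^{q²})` is a root of `ψ(P₀)`
  have hρ : P₀.eval₂ ψ ρ = 0 := by
    have h1 : Φ₀.eval₂ ψ ρ = 0 := by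
      rw [← Polynomial.eval_map, hΦ₀, TD.polyAt_map]
      apply hvinj
      rw [TD.map_eval_polyAt, map_zero, hv, hv, cψjN, cρ]
      exact D.rel₂' hq.ne_zero L q hq.ne_zero
    rw [hP₀, Polynomial.eval₂_mul, Polynomial.eval₂_sub, Polynomial.eval₂_X, Polynomial.eval₂_C,
      hψjβ] at h1
    refine (mul_eq_zero.mp h1).resolve_left ?_
    intro h0
    exact hθρ (by rw [← neg_sub, h0, neg_zero])
  -- minimality: the `q` twists of `J` are roots
  have hmin : ∀ Q : Polynomial (laurentBaseChange L (modularFunctionFieldFull (M' * q))),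
      Q.degree < P₀.degree → Q.eval₂ i θ = 0 → Q = 0 := by
    intro Q hQ hQ0
    by_contra hne
    have hQd : Q.natDegree < q :=
      lt_of_lt_of_eq (Polynomial.natDegree_lt_natDegree hne hQ) hPd
    set f : laurentBaseChange L (modularFunctionFieldFull (M' * q)) →+* LaurentSeries L :=
      v.comp i with hf
    have hfx : ∀ x, f x = qExpand L q (x : LaurentSeries L) := fun x => rfl
    have h1 : Q.eval₂ f (TD.Jd L 1) = 0 := by
      have h2 := congrArg v hQ0
      rw [Polynomial.hom_eval₂, map_zero, hv, cθ] at h2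
      exact h2
    have h3 : ∀ b : Fin q, (Q.map f).eval (Kummer.twist (ζ ^ (b : ℕ)) (TD.Jd L 1)) = 0 := by
      intro b
      have h4 := congrArg (Kummer.twist (ζ ^ (b : ℕ))) h1
      rw [Polynomial.hom_eval₂, map_zero] at h4
      have h5 : (Kummer.twist (ζ ^ (b : ℕ))).comp f = f := by
        ext x : 1
        rw [RingHom.comp_apply, hfx, Kummer.twist_qExpand, ← pow_mul, mul_comm, pow_mul,
          hζ.pow_eq_one, one_pow, Kummer.twist_one]
      rw [h5] at h4
      rw [Polynomial.eval_map]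
      exact h4
    have h6 : Q.map f = 0 :=
      Polynomial.eq_zero_of_natDegree_lt_card_of_eval_eq_zero (Q.map f)
        (twist_Jd_injective L ζ hζ) h3
        (by
          rw [Fintype.card_fin]
          exact lt_of_le_of_lt Polynomial.natDegree_map_le hQd)
    exact hne ((Polynomial.map_eq_zero f).mp h6)
  obtain ⟨Msub, w, hM, hwi, hwθ⟩ :=
    Fermat.Agent.ESJ.Cong.AtkinLehner.exists_lift i ψ θ P₀ hPm hθ hmin ρ hρ
  have hMtop : Msub = ⊤ := by
    rw [hM]
    exact closure_range_heckeBetaBar_union L (M' * q) q hq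
  have hmem : ∀ x : laurentBaseChange L (modularFunctionFieldFull (M' * q * q)), x ∈ Msub :=
    fun x => by rw [hMtop]; exact Subfield.mem_top x
  let W : laurentBaseChange L (modularFunctionFieldFull (M' * q * q)) →+*
      laurentBaseChange L (modularFunctionFieldFull (M' * q * q)) :=
    w.comp (RingHom.codRestrict
      (RingHom.id (laurentBaseChange L (modularFunctionFieldFull (M' * q * q)))) Msub hmem)
  have hW : ∀ x, W x = w ⟨x, hmem x⟩ := fun x => rfl
  have hWβ : ∀ x, W (heckeBetaBar L (M' * q) q x) = heckeAlphaBar L (M' * q) q (W₁ x) := by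
    intro x
    rw [hW]
    exact hwi x (hmem _)
  have hWθ : W θ = ρ := by
    rw [hW]
    exact hwθ (hmem _)
  have hπ1 : ∀ x, heckeAlphaBar L (M' * q) q (heckeBetaBar L M' q x) =
      heckeBetaBar L (M' * q) q (heckeAlphaBar L M' q x) :=
    fun x => (piStar1_apply M' q x).symm.trans (piStar1_apply' M' q x)
  -- `W ∘ α = β ∘ w_q` on `F_{M'q}`
  have hWα : ∀ x, W (heckeAlphaBar L (M' * q) q x) = heckeBetaBar L (M' * q) q (W₁ x) := by
    have hle : Subfield.closure (Set.range (heckeBetaBar L M' q) ∪ {jLevel L (M' * q)}) ≤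
        (W.comp αN).eqLocusField (i.comp W₁.toRingEquiv.toRingHom) := by
      rw [Subfield.closure_le]
      rintro y (⟨x, rfl⟩ | hy)
      · show W (heckeAlphaBar L (M' * q) q (heckeBetaBar L M' q x)) =
          heckeBetaBar L (M' * q) q (W₁ (heckeBetaBar L M' q x))
        rw [hW₁.beta, hπ1, hWβ, hW₁.alpha, hπ1]
      · rw [Set.mem_singleton_iff] at hy
        rw [hy]
        show W (heckeAlphaBar L (M' * q) q jN) = heckeBetaBar L (M' * q) q (W₁ jN)
        have e1 : heckeAlphaBar L (M' * q) q jN = θ :=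
          Subtype.ext (by rw [coe_heckeAlphaBar]; rfl)
        rw [e1, hWθ, hjN', hW₁.alpha]
        rfl
    rw [closure_range_heckeBetaBar_union L M' q hq] at hle
    intro x
    exact hle (Subfield.mem_top x)
  refine ⟨W, fun y => ?_, fun y => ?_, fun y => ?_⟩
  · rw [piStar0_apply, hWα, hW₁.alpha, piStar2_apply]
  · rw [piStar1_apply, hWα, hW₁.beta]
    exact (hπ1 y).symm
  · rw [piStar2_apply, hWβ, hW₁.beta, piStar0_apply]

end Lift

/-! ### The structure `IsAL3` -/

section AL3

variable {L : Type*} [Field L] [Algebra ℚ L] (M' q : ℕ) [NeZero M'] [NeZero q]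

/-- `w` is the Atkin–Lehner involution `w_{q²}` of `F_{M'q²}`: it exchanges `π_0^*` and `π_2^*`
and fixes `π_1^*`.  (Such a `w` is unique and exists over every field: `exists_isAL3`.) -/
structure IsAL3 (w : laurentBaseChange L (modularFunctionFieldFull (M' * q * q)) ≃ₐ[L]
    laurentBaseChange L (modularFunctionFieldFull (M' * q * q))) : Prop where
  pi0 : ∀ y, w (piStar0 L M' q y) = piStar2 L M' q y
  pi1 : ∀ y, w (piStar1 L M' q y) = piStar1 L M' q y
  pi2 : ∀ y, w (piStar2 L M' q y) = piStar0 L M' q y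

variable {M' q}

/-- Two ring homomorphisms out of `F_{M'q²}` which agree on the three pull-backs are equal. -/
theorem ringHom_ext_piStar {R : Type*} [DivisionRing R] (hq : q.Prime) (hqM : ¬ q ∣ M')
    (f g : laurentBaseChange L (modularFunctionFieldFull (M' * q * q)) →+* R)
    (h0 : ∀ y, f (piStar0 L M' q y) = g (piStar0 L M' q y))
    (h1 : ∀ y, f (piStar1 L M' q y) = g (piStar1 L M' q y))
    (h2 : ∀ y, f (piStar2 L M' q y) = g (piStar2 L M' q y))
    (z : laurentBaseChange L (modularFunctionFieldFull (M' * q * q))) : f z = g z := by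
  have hle : Subfield.closure (Set.range (piStar0 L M' q) ∪
      {piStar1 L M' q (jLevel L M'), piStar2 L M' q (jLevel L M')}) ≤ f.eqLocusField g := by
    rw [Subfield.closure_le]
    rintro y (⟨x, rfl⟩ | hy | hy)
    · exact h0 x
    · rw [hy]
      exact h1 _
    · rw [Set.mem_singleton_iff] at hy
      rw [hy]
      exact h2 _
  rw [closure_range_piStar0_union L M' q hq hqM] at hle
  exact hle (Subfield.mem_top z)

variable {w : laurentBaseChange L (modularFunctionFieldFull (M' * q * q)) ≃ₐ[L]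
    laurentBaseChange L (modularFunctionFieldFull (M' * q * q))}

/-- `w_{q²}` is an involution. -/
theorem IsAL3.invol (hw : IsAL3 M' q w) (hq : q.Prime) (hqM : ¬ q ∣ M')
    (z : laurentBaseChange L (modularFunctionFieldFull (M' * q * q))) : w (w z) = z := by
  refine ringHom_ext_piStar hq hqM
    (w.toRingEquiv.toRingHom.comp w.toRingEquiv.toRingHom) (RingHom.id _) ?_ ?_ ?_ z
  · intro y
    show w (w (piStar0 L M' q y)) = piStar0 L M' q y
    rw [hw.pi0, hw.pi2]
  · intro y
    show w (w (piStar1 L M' q y)) = piStar1 L M' q y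
    rw [hw.pi1, hw.pi1]
  · intro y
    show w (w (piStar2 L M' q y)) = piStar2 L M' q y
    rw [hw.pi2, hw.pi0]

/-- Uniqueness of `w_{q²}`. -/
theorem IsAL3.unique {w' : laurentBaseChange L (modularFunctionFieldFull (M' * q * q)) ≃ₐ[L]
    laurentBaseChange L (modularFunctionFieldFull (M' * q * q))}
    (hw : IsAL3 M' q w) (hw' : IsAL3 M' q w') (hq : q.Prime) (hqM : ¬ q ∣ M')
    (z : laurentBaseChange L (modularFunctionFieldFull (M' * q * q))) : w z = w' z := by
  refine ringHom_ext_piStar hq hqM w.toRingEquiv.toRingHom w'.toRingEquiv.toRingHom ?_ ?_ ?_ z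
  · intro y
    show w (piStar0 L M' q y) = w' (piStar0 L M' q y)
    rw [hw.pi0, hw'.pi0]
  · intro y
    show w (piStar1 L M' q y) = w' (piStar1 L M' q y)
    rw [hw.pi1, hw'.pi1]
  · intro y
    show w (piStar2 L M' q y) = w' (piStar2 L M' q y)
    rw [hw.pi2, hw'.pi2]

/-- A ring endomorphism with the three properties is an `L`-algebra involution. -/
theorem exists_isAL3_of_ringHom (hq : q.Prime) (hqM : ¬ q ∣ M')
    (W : laurentBaseChange L (modularFunctionFieldFull (M' * q * q)) →+*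
      laurentBaseChange L (modularFunctionFieldFull (M' * q * q)))
    (h0 : ∀ y, W (piStar0 L M' q y) = piStar2 L M' q y)
    (h1 : ∀ y, W (piStar1 L M' q y) = piStar1 L M' q y)
    (h2 : ∀ y, W (piStar2 L M' q y) = piStar0 L M' q y) :
    ∃ w : laurentBaseChange L (modularFunctionFieldFull (M' * q * q)) ≃ₐ[L]
      laurentBaseChange L (modularFunctionFieldFull (M' * q * q)), IsAL3 M' q w := by
  have hinv : ∀ z, W (W z) = z := by
    intro z
    refine ringHom_ext_piStar hq hqM (W.comp W) (RingHom.id _) ?_ ?_ ?_ z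
    · intro y
      show W (W (piStar0 L M' q y)) = piStar0 L M' q y
      rw [h0, h2]
    · intro y
      show W (W (piStar1 L M' q y)) = piStar1 L M' q y
      rw [h1, h1]
    · intro y
      show W (W (piStar2 L M' q y)) = piStar2 L M' q y
      rw [h2, h0]
  have hcomm : ∀ c : L, W (algebraMap L _ c) = algebraMap L _ c := by
    intro c
    rw [← (piStar0 L M' q).commutes c, h0, (piStar2 L M' q).commutes c,
      (piStar0 L M' q).commutes c]
  exact ⟨{ toFun := W, invFun := W, left_inv := hinv, right_inv := hinv,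
           map_mul' := map_mul W, map_add' := map_add W, commutes' := hcomm }, ⟨h0, h1, h2⟩⟩

end AL3

/-! ### Existence of `w_{q²}` over every field -/

section Exists

open Fermat.Agent.ESJ.Dict.Bc

/-- (Zero-1) **Existence of `w_{q²}`**, over EVERY field `L ⊇ ℚ` (no root of unity is needed:
descent from the algebraic closure). -/
theorem exists_isAL3 {L : Type} [Field L] [Algebra ℚ L] (M' q : ℕ) [NeZero M'] [NeZero q]
    (hq : q.Prime) (hqM : ¬ q ∣ M') :
    ∃ w : laurentBaseChange L (modularFunctionFieldFull (M' * q * q)) ≃ₐ[L]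
      laurentBaseChange L (modularFunctionFieldFull (M' * q * q)), IsAL3 M' q w := by
  classical
  have hchar : CharZero L := algebraRat.charZero L
  have hqL : NeZero (q : L) := ⟨by exact_mod_cast hq.ne_zero⟩
  obtain ⟨ζ₀, hζ₀⟩ := HasEnoughRootsOfUnity.exists_primitiveRoot (AlgebraicClosure L) q
  obtain ⟨ζ, rfl⟩ := hζ₀.isUnit hq.ne_zero
  have hζ : IsPrimitiveRoot ζ q := IsPrimitiveRoot.coe_units_iff.mp hζ₀
  obtain ⟨W', h0', h1', h2'⟩ :=
    exists_ringHom_AL3_of_zeta (AlgebraicClosure L) M' q hq hqM ζ hζ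
  -- the coefficient extensions
  set ι : L →+* AlgebraicClosure L := algebraMap L (AlgebraicClosure L) with hι
  set Φ : laurentBaseChange L (modularFunctionFieldFull (M' * q * q)) →+*
      laurentBaseChange (AlgebraicClosure L) (modularFunctionFieldFull (M' * q * q)) :=
    bcK ι (modularFunctionFieldFull (M' * q * q)) with hΦ
  set Φ' : laurentBaseChange L (modularFunctionFieldFull M') →+*
      laurentBaseChange (AlgebraicClosure L) (modularFunctionFieldFull M') :=
    bcK ι (modularFunctionFieldFull M') with hΦ'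
  have c0 : ∀ y, Φ (piStar0 L M' q y) = piStar0 (AlgebraicClosure L) M' q (Φ' y) := by
    intro y
    apply Subtype.ext
    rw [hΦ, hΦ', coe_bcK, coe_piStar0, coe_piStar0, coe_bcK]
  have c1 : ∀ y, Φ (piStar1 L M' q y) = piStar1 (AlgebraicClosure L) M' q (Φ' y) := by
    intro y
    apply Subtype.ext
    rw [hΦ, hΦ', coe_bcK, coe_piStar1, coe_piStar1, coe_bcK, coeffMap_qExpand]
  have c2 : ∀ y, Φ (piStar2 L M' q y) = piStar2 (AlgebraicClosure L) M' q (Φ' y) := by
    intro y
    apply Subtype.ext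
    rw [hΦ, hΦ', coe_bcK, coe_piStar2, coe_piStar2, coe_bcK, coeffMap_qExpand, coeffMap_qExpand]
  -- stability of the image
  have hst : ∀ x, W' (Φ x) ∈ Φ.fieldRange := by
    have hle : Subfield.closure (Set.range (piStar0 L M' q) ∪
        {piStar1 L M' q (jLevel L M'), piStar2 L M' q (jLevel L M')}) ≤
        Φ.fieldRange.comap (W'.comp Φ) := by
      rw [Subfield.closure_le]
      rintro y (⟨x, rfl⟩ | hy | hy)
      · rw [SetLike.mem_coe, Subfield.mem_comap, RingHom.comp_apply, c0, h0', ← c2]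
        exact RingHom.mem_fieldRange.mpr ⟨_, rfl⟩
      · rw [hy, SetLike.mem_coe, Subfield.mem_comap, RingHom.comp_apply, c1, h1', ← c1]
        exact RingHom.mem_fieldRange.mpr ⟨_, rfl⟩
      · rw [Set.mem_singleton_iff] at hy
        rw [hy, SetLike.mem_coe, Subfield.mem_comap, RingHom.comp_apply, c2, h2', ← c0]
        exact RingHom.mem_fieldRange.mpr ⟨_, rfl⟩
    rw [closure_range_piStar0_union L M' q hq hqM] at hle
    intro x
    have h := hle (Subfield.mem_top x)
    rwa [Subfield.mem_comap, RingHom.comp_apply] at h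
  choose g hg using fun x => RingHom.mem_fieldRange.mp (hst x)
  have hΦinj : Function.Injective Φ := Φ.injective
  let W : laurentBaseChange L (modularFunctionFieldFull (M' * q * q)) →+*
      laurentBaseChange L (modularFunctionFieldFull (M' * q * q)) :=
    { toFun := g
      map_one' := hΦinj (by rw [hg, map_one, map_one])
      map_mul' := fun x y => hΦinj (by rw [hg, map_mul, map_mul, map_mul, hg, hg])
      map_zero' := hΦinj (by rw [hg, map_zero, map_zero])
      map_add' := fun x y => hΦinj (by rw [hg, map_add, map_add, map_add, hg, hg]) }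
  have hW : ∀ x, Φ (W x) = W' (Φ x) := hg
  refine exists_isAL3_of_ringHom hq hqM W (fun y => hΦinj ?_) (fun y => hΦinj ?_)
    (fun y => hΦinj ?_)
  · rw [hW, c0, h0', c2]
  · rw [hW, c1, h1']
  · rw [hW, c2, h2', c0]

end Exists

/-! ### `O_0` and its residue map -/

section Zero

variable {L : Type*} [Field L] [Algebra ℚ L] {A : ValuationSubring L} {k : Type} [Field k]
  {π : A →+* k} {M' q : ℕ} [NeZero M'] [NeZero q]
  {w : laurentBaseChange L (modularFunctionFieldFull (M' * q * q)) ≃ₐ[L]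
    laurentBaseChange L (modularFunctionFieldFull (M' * q * q))}

/-- (Zero-2) The second Gauss valuation ring `O_0 := w⁻¹(O_∞)` of `F_{M'q²}`. -/
def OZero3 (h : BadSetup A π M' q)
    (w : laurentBaseChange L (modularFunctionFieldFull (M' * q * q)) ≃ₐ[L]
      laurentBaseChange L (modularFunctionFieldFull (M' * q * q))) :
    ValuationSubring ↥(laurentBaseChange L (modularFunctionFieldFull (M' * q * q))) :=
  (OInf3 h).comap w.toRingEquiv.toRingHom

theorem mem_OZero3_iff (h : BadSetup A π M' q)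
    (f : laurentBaseChange L (modularFunctionFieldFull (M' * q * q))) :
    f ∈ OZero3 h w ↔ w f ∈ OInf3 h := Iff.rfl

/-- The residue map of `O_0`: `red_0 := red_∞ ∘ w`. -/
def redZero3 (h : BadSetup A π M' q)
    (w : laurentBaseChange L (modularFunctionFieldFull (M' * q * q)) ≃ₐ[L]
      laurentBaseChange L (modularFunctionFieldFull (M' * q * q))) :
    OZero3 h w →+* ↥(modularFunctionFieldFullC k M') :=
  (redInf3 h).comp ((w.toRingEquiv.toRingHom.comp (OZero3 h w).subtype).codRestrict (OInf3 h)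
    (fun f => f.2))

theorem redZero3_mk (h : BadSetup A π M' q)
    (f : laurentBaseChange L (modularFunctionFieldFull (M' * q * q))) (hf : f ∈ OZero3 h w) :
    redZero3 h w ⟨f, hf⟩ = redInf3 h ⟨w f, hf⟩ := rfl

/-- `redZero3_mk` with an explicit proof of `w f ∈ O_∞` (use this form for concrete `f`: it
spares the kernel the unfolding of `f ∈ w⁻¹(O_∞)`). -/
theorem redZero3_apply (h : BadSetup A π M' q)
    (f : laurentBaseChange L (modularFunctionFieldFull (M' * q * q))) (hf : f ∈ OZero3 h w)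
    (hf' : w f ∈ OInf3 h) :
    redZero3 h w ⟨f, hf⟩ = redInf3 h ⟨w f, hf'⟩ := rfl

theorem inv_mem_OZero3 (h : BadSetup A π M' q)
    (f : laurentBaseChange L (modularFunctionFieldFull (M' * q * q))) (hf : f ∈ OZero3 h w)
    (hne : redZero3 h w ⟨f, hf⟩ ≠ 0) : f⁻¹ ∈ OZero3 h w := by
  rw [mem_OZero3_iff, map_inv₀]
  have hf' : w f ∈ OInf3 h := (mem_OZero3_iff h f).mp hf
  rw [redZero3_apply h f hf hf'] at hne
  exact inv_mem_OInf3 h (w f) hf' hne

theorem redZero3_ne_zero_of_inv_mem (h : BadSetup A π M' q)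
    (f : laurentBaseChange L (modularFunctionFieldFull (M' * q * q))) (hf0 : f ≠ 0)
    (hf : f ∈ OZero3 h w) (hinv : f⁻¹ ∈ OZero3 h w) : redZero3 h w ⟨f, hf⟩ ≠ 0 := by
  have hf' : w f ∈ OInf3 h := (mem_OZero3_iff h f).mp hf
  rw [redZero3_apply h f hf hf']
  refine redInf3_ne_zero_of_inv_mem h (w f) ?_ hf' ?_
  · intro h0
    exact hf0 (w.injective (by rw [h0, map_zero]))
  · rw [← map_inv₀]
    exact (mem_OZero3_iff h f⁻¹).mp hinv

/-- The kernel of `red_0` is the maximal ideal. -/
theorem redZero3_eq_zero_iff (h : BadSetup A π M' q) (f : OZero3 h w) :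
    redZero3 h w f = 0 ↔ ¬ IsUnit f := by
  constructor
  · intro h0 hu
    have := hu.map (redZero3 h w)
    rw [h0] at this
    exact not_isUnit_zero this
  · intro hnu
    by_contra hne
    apply hnu
    have hinv := inv_mem_OZero3 h
      (f : laurentBaseChange L (modularFunctionFieldFull (M' * q * q))) f.2 hne
    have hf0 : (f : laurentBaseChange L (modularFunctionFieldFull (M' * q * q))) ≠ 0 := by
      intro h0
      apply hne
      have : f = 0 := Subtype.ext h0
      rw [this, map_zero]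
    refine IsUnit.of_mul_eq_one (⟨(f : laurentBaseChange L
      (modularFunctionFieldFull (M' * q * q)))⁻¹, hinv⟩ : OZero3 h w) ?_
    apply Subtype.ext
    exact mul_inv_cancel₀ hf0

/-- `O_0 ∩ L = A`. -/
theorem algebraMap_mem_OZero3_iff (h : BadSetup A π M' q) (a : L) :
    algebraMap L ↥(laurentBaseChange L (modularFunctionFieldFull (M' * q * q))) a ∈ OZero3 h w ↔
      a ∈ A := by
  rw [mem_OZero3_iff, w.commutes]
  exact algebraMap_mem_OInf3_iff h a

theorem redZero3_algebraMap (h : BadSetup A π M' q) (a : A)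
    (ha : algebraMap L ↥(laurentBaseChange L (modularFunctionFieldFull (M' * q * q))) (a : L) ∈
      OZero3 h w) :
    redZero3 h w ⟨_, ha⟩ = algebraMap k ↥(modularFunctionFieldFullC k M') (π a) := by
  have ha' := (mem_OZero3_iff h _).mp ha
  rw [redZero3_apply h _ ha ha', redInf3_congr h (w.commutes (a : L)) ha'
    ((algebraMap_mem_OInf3_iff h (a : L)).mpr a.2)]
  exact redInf3_algebraMap h a _

/-- Every nonzero function is a nonzero constant times a unit of `O_0`. -/
theorem exists_scaling_OZero3 (h : BadSetup A π M' q)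
    (f : laurentBaseChange L (modularFunctionFieldFull (M' * q * q))) (hf : f ≠ 0) :
    ∃ a : L, a ≠ 0 ∧ ∃ hm : algebraMap L _ a * f ∈ OZero3 h w, redZero3 h w ⟨_, hm⟩ ≠ 0 := by
  have hwf : w f ≠ 0 := fun h0 => hf (w.injective (by rw [h0, map_zero]))
  obtain ⟨a, ha, hm, hne⟩ := exists_scaling_OInf3 h (w f) hwf
  have e : w (algebraMap L _ a * f) = algebraMap L _ a * w f := by
    rw [map_mul, w.commutes]
  have hm' : algebraMap L _ a * f ∈ OZero3 h w := by
    rw [mem_OZero3_iff, e]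
    exact hm
  refine ⟨a, ha, hm', ?_⟩
  have hm'' := (mem_OZero3_iff h _).mp hm'
  rw [redZero3_apply h _ hm' hm'', redInf3_congr h e hm'' hm]
  exact hne

/-! ### `O_0` and the three pull-backs -/

theorem piStar0_mem_OZero3_iff (h : BadSetup A π M' q) (hw : IsAL3 M' q w)
    (x : laurentBaseChange L (modularFunctionFieldFull M')) :
    piStar0 L M' q x ∈ OZero3 h w ↔ x ∈ Ow A π M' h.hMk := by
  rw [mem_OZero3_iff, hw.pi0]
  exact piStar2_mem_OInf3_iff h x

theorem piStar1_mem_OZero3_iff (h : BadSetup A π M' q) (hw : IsAL3 M' q w)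
    (x : laurentBaseChange L (modularFunctionFieldFull M')) :
    piStar1 L M' q x ∈ OZero3 h w ↔ x ∈ Ow A π M' h.hMk := by
  rw [mem_OZero3_iff, hw.pi1]
  exact piStar1_mem_OInf3_iff h x

theorem piStar2_mem_OZero3_iff (h : BadSetup A π M' q) (hw : IsAL3 M' q w)
    (x : laurentBaseChange L (modularFunctionFieldFull M')) :
    piStar2 L M' q x ∈ OZero3 h w ↔ x ∈ Ow A π M' h.hMk := by
  rw [mem_OZero3_iff, hw.pi2]
  exact piStar0_mem_OInf3_iff h x

/-- `red_0 ∘ π_2^* = red`. -/
theorem redZero3_piStar2 (h : BadSetup A π M' q) (hw : IsAL3 M' q w)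
    (x : laurentBaseChange L (modularFunctionFieldFull M')) (hx : x ∈ Ow A π M' h.hMk)
    (hx' : piStar2 L M' q x ∈ OZero3 h w) :
    redZero3 h w ⟨piStar2 L M' q x, hx'⟩ = redF A π M' h.hπ h.hMk ⟨x, hx⟩ := by
  have hα : piStar0 L M' q x ∈ OInf3 h := (piStar0_mem_OInf3_iff h x).mpr hx
  have hx'' : w (piStar2 L M' q x) ∈ OInf3 h := (mem_OZero3_iff h _).mp hx'
  rw [redZero3_apply h _ hx' hx'', redInf3_congr h (hw.pi2 x) hx'' hα]
  exact redInf3_piStar0 h x hx hα

/-- `red_0 ∘ π_1^* = (q ↦ q^q) ∘ red`. -/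
theorem coe_redZero3_piStar1 (h : BadSetup A π M' q) (hw : IsAL3 M' q w)
    (x : laurentBaseChange L (modularFunctionFieldFull M')) (hx : x ∈ Ow A π M' h.hMk)
    (hx' : piStar1 L M' q x ∈ OZero3 h w) :
    ((redZero3 h w ⟨piStar1 L M' q x, hx'⟩ : modularFunctionFieldFullC k M') : LaurentSeries k) =
      qExpand k q ((redF A π M' h.hπ h.hMk ⟨x, hx⟩ : modularFunctionFieldFullC k M') :
        LaurentSeries k) := by
  have hβ : piStar1 L M' q x ∈ OInf3 h := (piStar1_mem_OInf3_iff h x).mpr hx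
  have hx'' : w (piStar1 L M' q x) ∈ OInf3 h := (mem_OZero3_iff h _).mp hx'
  rw [redZero3_apply h _ hx' hx'', redInf3_congr h (hw.pi1 x) hx'' hβ]
  exact coe_redInf3_piStar1 h x hx hβ

/-- `red_0 ∘ π_0^* = (q ↦ q^(q²)) ∘ red`. -/
theorem coe_redZero3_piStar0 (h : BadSetup A π M' q) (hw : IsAL3 M' q w)
    (x : laurentBaseChange L (modularFunctionFieldFull M')) (hx : x ∈ Ow A π M' h.hMk)
    (hx' : piStar0 L M' q x ∈ OZero3 h w) :
    ((redZero3 h w ⟨piStar0 L M' q x, hx'⟩ : modularFunctionFieldFullC k M') : LaurentSeries k) =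
      qExpand k q (qExpand k q ((redF A π M' h.hπ h.hMk ⟨x, hx⟩ :
        modularFunctionFieldFullC k M') : LaurentSeries k)) := by
  have hβ : piStar2 L M' q x ∈ OInf3 h := (piStar2_mem_OInf3_iff h x).mpr hx
  have hx'' : w (piStar0 L M' q x) ∈ OInf3 h := (mem_OZero3_iff h _).mp hx'
  rw [redZero3_apply h _ hx' hx'', redInf3_congr h (hw.pi0 x) hx'' hβ]
  exact coe_redInf3_piStar2 h x hx hβ

/-! ### Separation of `O_∞` and `O_0` -/

omit [Algebra ℚ L] [NeZero M'] in
/-- `J(q^q) - J(q^{q²})^q` lies in the Gauss ring with nonzero reduction. -/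
theorem sep3_ne_zero (h : BadSetup A π M' q) :
    ∃ hT : TD.Jd L q - TD.Jd L (q * q) ^ q ∈ gaussRing A π, red A π ⟨_, hT⟩ ≠ 0 := by
  obtain ⟨hT', hTred'⟩ := sep_ne_zero (M := M') h
  have e : TD.Jd L q - TD.Jd L (q * q) ^ q = qExpand L q (TD.Jd L 1 - TD.Jd L q ^ q) := by
    rw [map_sub, map_pow, TD.qExpand_Jd L q 1 one_ne_zero, mul_one,
      TD.qExpand_Jd L q q (NeZero.ne q)]
  have hT : TD.Jd L q - TD.Jd L (q * q) ^ q ∈ gaussRing A π := by
    rw [e]
    exact qExpand_mem_gaussRing q hT'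
  refine ⟨hT, ?_⟩
  have hT2 : qExpand L q (TD.Jd L 1 - TD.Jd L q ^ q) ∈ gaussRing A π :=
    qExpand_mem_gaussRing q hT'
  have e2 : (⟨TD.Jd L q - TD.Jd L (q * q) ^ q, hT⟩ : gaussRing A π) = ⟨_, hT2⟩ := Subtype.ext e
  rw [e2, red_qExpand q hT' hT2]
  intro h0
  exact hTred' (qExpand_injective q (by rw [h0, map_zero]))

/-- (Sep) **The separating idempotent**: a function in `O_∞ ∩ O_0` with residues `(0, 1)`. -/
theorem exists_sep3 (h : BadSetup A π M' q) (hw : IsAL3 M' q w) :
    ∃ e : laurentBaseChange L (modularFunctionFieldFull (M' * q * q)),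
      ∃ (h1 : e ∈ OInf3 h) (h2 : e ∈ OZero3 h w),
        redInf3 h ⟨e, h1⟩ = 0 ∧ redZero3 h w ⟨e, h2⟩ = 1 := by
  set t : laurentBaseChange L (modularFunctionFieldFull (M' * q * q)) :=
    piStar1 L M' q (jLevel L M') - piStar0 L M' q (jLevel L M') ^ q with ht
  set t' : laurentBaseChange L (modularFunctionFieldFull (M' * q * q)) :=
    piStar1 L M' q (jLevel L M') - piStar2 L M' q (jLevel L M') ^ q with ht'
  have hwt : w t = t' := by
    rw [ht, ht', map_sub, map_pow, hw.pi1, hw.pi0]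
  have hwt' : w t' = t := by
    rw [ht, ht', map_sub, map_pow, hw.pi1, hw.pi2]
  have hct : (t : LaurentSeries L) = TD.Jd L q - TD.Jd L 1 ^ q := by
    rw [ht]
    show ((piStar1 L M' q (jLevel L M') : laurentBaseChange L
      (modularFunctionFieldFull (M' * q * q))) : LaurentSeries L) -
      ((piStar0 L M' q (jLevel L M') : laurentBaseChange L
      (modularFunctionFieldFull (M' * q * q))) : LaurentSeries L) ^ q = _
    rw [coe_piStar1_jLevel, coe_piStar0_jLevel]
  have hct' : (t' : LaurentSeries L) = TD.Jd L q - TD.Jd L (q * q) ^ q := by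
    rw [ht']
    show ((piStar1 L M' q (jLevel L M') : laurentBaseChange L
      (modularFunctionFieldFull (M' * q * q))) : LaurentSeries L) -
      ((piStar2 L M' q (jLevel L M') : laurentBaseChange L
      (modularFunctionFieldFull (M' * q * q))) : LaurentSeries L) ^ q = _
    rw [coe_piStar1_jLevel, coe_piStar2_jLevel]
  obtain ⟨hT, hTred⟩ := sep_zero (M := M') h
  obtain ⟨hT', hTred'⟩ := sep3_ne_zero (M' := M') h
  have htO : t ∈ OInf3 h := by
    rw [mem_OInf3_iff, hct]
    exact hT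
  have ht'O : t' ∈ OInf3 h := by
    rw [mem_OInf3_iff, hct']
    exact hT'
  have hredt : redInf3 h ⟨t, htO⟩ = 0 := by
    apply Subtype.ext
    rw [coe_redInf3]
    have e : (⟨(t : LaurentSeries L), htO⟩ : gaussRing A π) = ⟨_, hT⟩ := Subtype.ext hct
    rw [e, hTred]
    rfl
  have hredt' : redInf3 h ⟨t', ht'O⟩ ≠ 0 := by
    intro h0
    apply hTred'
    have e : (⟨(t' : LaurentSeries L), ht'O⟩ : gaussRing A π) = ⟨_, hT'⟩ := Subtype.ext hct'
    rw [← e, ← coe_redInf3 h t' ht'O, h0]
    rfl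
  set u : laurentBaseChange L (modularFunctionFieldFull (M' * q * q)) := t + t' with hu
  have huO : u ∈ OInf3 h := add_mem htO ht'O
  have hredu : redInf3 h ⟨u, huO⟩ = redInf3 h ⟨t', ht'O⟩ := by
    have e : (⟨u, huO⟩ : OInf3 h) = ⟨t, htO⟩ + ⟨t', ht'O⟩ := rfl
    rw [e, map_add, hredt, zero_add]
  have hwu : w u = u := by
    have e0 : w (t + t') = w t + w t' := map_add w.toRingEquiv t t'
    rw [hu, e0, hwt, hwt', add_comm]
  have huinv : u⁻¹ ∈ OInf3 h := inv_mem_OInf3 h u huO (by rw [hredu]; exact hredt')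
  have hu0 : u ≠ 0 := by
    intro h0
    apply hredt'
    rw [← hredu]
    have : (⟨u, huO⟩ : OInf3 h) = 0 := Subtype.ext h0
    rw [this, map_zero]
  have hmul : redInf3 h ⟨u, huO⟩ * redInf3 h ⟨u⁻¹, huinv⟩ = 1 := by
    rw [← map_mul]
    have : (⟨u, huO⟩ : OInf3 h) * ⟨u⁻¹, huinv⟩ = 1 := Subtype.ext (mul_inv_cancel₀ hu0)
    rw [this, map_one]
  have he1 : t * u⁻¹ ∈ OInf3 h := mul_mem htO huinv
  have hwe : w (t * u⁻¹) = t' * u⁻¹ := by
    rw [map_mul, map_inv₀, hwt, hwu]
  have he2' : t' * u⁻¹ ∈ OInf3 h := mul_mem ht'O huinv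
  have he2 : t * u⁻¹ ∈ OZero3 h w := by
    rw [mem_OZero3_iff, hwe]
    exact he2'
  refine ⟨t * u⁻¹, he1, he2, ?_, ?_⟩
  · have e : (⟨t * u⁻¹, he1⟩ : OInf3 h) = ⟨t, htO⟩ * ⟨u⁻¹, huinv⟩ := rfl
    rw [e, map_mul, hredt, zero_mul]
  · have he2'' := (mem_OZero3_iff h _).mp he2
    rw [redZero3_apply h _ he2 he2'', redInf3_congr h hwe he2'' he2']
    have e : (⟨t' * u⁻¹, he2'⟩ : OInf3 h) = ⟨t', ht'O⟩ * ⟨u⁻¹, huinv⟩ := rfl
    rw [e, map_mul, ← hredu]
    exact hmul

/-- `O_0` is not contained in `O_∞`. -/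
theorem not_OZero3_le_OInf3 (h : BadSetup A π M' q) (hw : IsAL3 M' q w) :
    ¬ OZero3 h w ≤ OInf3 h := by
  obtain ⟨e, h1, h2, hr1, hr2⟩ := exists_sep3 h hw
  intro hle
  have hinv : e⁻¹ ∈ OZero3 h w := inv_mem_OZero3 h e h2 (by rw [hr2]; exact one_ne_zero)
  have he0 : e ≠ 0 := by
    intro h0
    have : (⟨e, h2⟩ : OZero3 h w) = 0 := Subtype.ext h0
    rw [this, map_zero] at hr2
    exact zero_ne_one hr2
  exact redInf3_ne_zero_of_inv_mem h e he0 h1 (hle hinv) hr1

/-- `O_∞` is not contained in `O_0`. -/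
theorem not_OInf3_le_OZero3 (h : BadSetup A π M' q) (hw : IsAL3 M' q w) :
    ¬ OInf3 h ≤ OZero3 h w := by
  obtain ⟨e, h1, h2, hr1, hr2⟩ := exists_sep3 h hw
  intro hle
  have h1' : 1 - e ∈ OInf3 h := sub_mem (one_mem _) h1
  have h2' : 1 - e ∈ OZero3 h w := sub_mem (one_mem _) h2
  have hr1' : redInf3 h ⟨1 - e, h1'⟩ = 1 := by
    have e' : (⟨1 - e, h1'⟩ : OInf3 h) = 1 - ⟨e, h1⟩ := rfl
    rw [e', map_sub, map_one, hr1, sub_zero]
  have hr2' : redZero3 h w ⟨1 - e, h2'⟩ = 0 := by
    have e' : (⟨1 - e, h2'⟩ : OZero3 h w) = 1 - ⟨e, h2⟩ := rfl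
    rw [e', map_sub, map_one, hr2, sub_self]
  have hinv : (1 - e)⁻¹ ∈ OInf3 h :=
    inv_mem_OInf3 h (1 - e) h1' (by rw [hr1']; exact one_ne_zero)
  have he0 : 1 - e ≠ 0 := by
    intro h0
    have : (⟨1 - e, h1'⟩ : OInf3 h) = 0 := Subtype.ext h0
    rw [this, map_zero] at hr1'
    exact zero_ne_one hr1'
  exact redZero3_ne_zero_of_inv_mem h (1 - e) he0 h2' (hle hinv) hr2'

theorem OInf3_ne_OZero3 (h : BadSetup A π M' q) (hw : IsAL3 M' q w) :
    OInf3 h ≠ OZero3 h w := by
  intro e
  exact not_OInf3_le_OZero3 h hw (le_of_eq e)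

/-- **Joint surjectivity** for the pair `(∞, 0)`: every pair of residues is attained by a function
in `O_∞ ∩ O_0`. -/
theorem joint_surjective3 (h : BadSetup A π M' q) (hw : IsAL3 M' q w)
    (hsurj : Function.Surjective π) (a b : modularFunctionFieldFullC k M') :
    ∃ f : laurentBaseChange L (modularFunctionFieldFull (M' * q * q)),
      ∃ (h1 : f ∈ OInf3 h) (h2 : f ∈ OZero3 h w),
        redInf3 h ⟨f, h1⟩ = a ∧ redZero3 h w ⟨f, h2⟩ = b := by
  obtain ⟨x, rfl⟩ := redF_surjective h.hπ hsurj h.hMk a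
  obtain ⟨y, rfl⟩ := redF_surjective h.hπ hsurj h.hMk b
  obtain ⟨e, h1, h2, hr1, hr2⟩ := exists_sep3 h hw
  have hx1 : piStar0 L M' q (x : laurentBaseChange L (modularFunctionFieldFull M')) ∈
      OInf3 h := (piStar0_mem_OInf3_iff h _).mpr x.2
  have hx2 : piStar0 L M' q (x : laurentBaseChange L (modularFunctionFieldFull M')) ∈
      OZero3 h w := (piStar0_mem_OZero3_iff h hw _).mpr x.2
  have hy1 : piStar2 L M' q (y : laurentBaseChange L (modularFunctionFieldFull M')) ∈
      OInf3 h := (piStar2_mem_OInf3_iff h _).mpr y.2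
  have hy2 : piStar2 L M' q (y : laurentBaseChange L (modularFunctionFieldFull M')) ∈
      OZero3 h w := (piStar2_mem_OZero3_iff h hw _).mpr y.2
  have h1' : 1 - e ∈ OInf3 h := sub_mem (one_mem _) h1
  have h2' : 1 - e ∈ OZero3 h w := sub_mem (one_mem _) h2
  have hf1 : (1 - e) * piStar0 L M' q (x : laurentBaseChange L (modularFunctionFieldFull M')) +
      e * piStar2 L M' q (y : laurentBaseChange L (modularFunctionFieldFull M')) ∈ OInf3 h :=
    add_mem (mul_mem h1' hx1) (mul_mem h1 hy1)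
  have hf2 : (1 - e) * piStar0 L M' q (x : laurentBaseChange L (modularFunctionFieldFull M')) +
      e * piStar2 L M' q (y : laurentBaseChange L (modularFunctionFieldFull M')) ∈ OZero3 h w :=
    add_mem (mul_mem h2' hx2) (mul_mem h2 hy2)
  refine ⟨_, hf1, hf2, ?_, ?_⟩
  · have e' : (⟨_, hf1⟩ : OInf3 h) = (1 - ⟨e, h1⟩) * ⟨_, hx1⟩ + ⟨e, h1⟩ * ⟨_, hy1⟩ := rfl
    rw [e', map_add, map_mul, map_mul, map_sub, map_one, hr1, sub_zero, one_mul, zero_mul,
      add_zero]
    exact redInf3_piStar0 h _ x.2 hx1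
  · have e' : (⟨_, hf2⟩ : OZero3 h w) = (1 - ⟨e, h2⟩) * ⟨_, hx2⟩ + ⟨e, h2⟩ * ⟨_, hy2⟩ := rfl
    rw [e', map_add, map_mul, map_mul, map_sub, map_one, hr2, sub_self, zero_mul, one_mul,
      zero_add]
    exact redZero3_piStar2 h hw _ y.2 hy2

end Zero

end

end Fermat.Agent.CAR.V3
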