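/-
CAR-4 (V3-Count), instance: exactly three valuation rings of `F = L·F_{M'q²}` above the Gauss
valuation ring `Ow` of `F' = L·F_{M'}` along `π_0^*`.

`F'` is made an `F`-... via `π_0^* = piStar0 L M' q` (`y(z) ↦ y(z)`), a finite separable extension
of degree `(q + 1) q`.  The three valuation rings `O_∞ = OInf3 h`, `O_mid`, `O_0 = OZero3 h w`
lie above `Ow`, with `e = (1, q - 1, 1)` and `f ≥ (1, 1, q²)`; since `1 + (q - 1) + q² = (q + 1) q`
the abstract count (`CountAbs.Family`) gives: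

* `family3` : the `CountAbs.Family` (generic `(L, A, π)`, the middle ring through its
  uniformiser `d` with `q = d^(q-1)·c`);
* `family3_K0` : the instance `(L, A, π) = (K0, W0, resW0)`, `O_mid = MidRing.OMid`;
* consequences: `eq_of_isAbove3` (exactly three), `exists_sub_piStar0_mem_nonunits` (the residue
  field of `O_mid` is that of `Ow`), `redMid_mem_fullC` (values of `redMid` in the function field
  `κ`), `redMidK`.
-/
import Mathlib
import Fermat.Agent.CAR.V3.CountAbs
import Fermat.Agent.CAR.V3.CountRes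
import Fermat.Agent.CAR.V3.PsiIndep
import Fermat.Agent.CAR.V3.Zero
import Fermat.Agent.CAR.V3.MidPull
import Fermat.Agent.CAR.V3.Restrict
import Fermat.Agent.Lib.FF.CharP.ModLInst

set_option autoImplicit false
set_option linter.unusedSectionVars false
set_option linter.style.haveILetI false

namespace Fermat.Agent.CAR.V3.Count

open HahnSeries ModularCurve AlgebraicCurve Fermat.Agent.Lib.Red Fermat.Agent.S28
open Fermat.Agent.ESJ.Cong.LevelGen Fermat.Agent.BAD.TwoVal Fermat.Agent.CAR.Formal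
open Fermat.Agent.CAR.V3 Fermat.Agent.CAR.V3.CountAbs

noncomputable section

/-! ### Generalities -/

theorem mem_nonunits_iff_not_isUnit {F : Type*} [Field F] (V : ValuationSubring F) (x : V) :
    (x : F) ∈ V.nonunits ↔ ¬ IsUnit x := by
  rw [ValuationSubring.coe_mem_nonunits_iff, IsLocalRing.mem_maximalIdeal, mem_nonunits_iff]

section Generic

variable {L : Type} [Field L] [Algebra ℚ L] {A : ValuationSubring L} {k : Type} [Field k]
  {π : A →+* k} {M' q : ℕ} [NeZero M'] [NeZero q]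
  {w : laurentBaseChange L (modularFunctionFieldFull (M' * q * q)) ≃ₐ[L]
    laurentBaseChange L (modularFunctionFieldFull (M' * q * q))}

/-- The algebra structure `F_{M'} → F_{M'q²}` along `π_0^*`. -/
abbrev alg0 (L : Type) [Field L] [Algebra ℚ L] (M' q : ℕ) [NeZero M'] [NeZero q] :
    Algebra ↥(laurentBaseChange L (modularFunctionFieldFull M'))
      ↥(laurentBaseChange L (modularFunctionFieldFull (M' * q * q))) :=
  algebraAlong (piStar0 L M' q)

/-- The Gauss valuation ring of level `M'` is discrete, with the uniformiser of `A`. -/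
theorem isUnif_Ow (hπ : ∀ a : A, ¬ IsUnit a → π a = 0) (hMk : (M' : k) ≠ 0) {ϖ : L}
    (hA : IsUnif A ϖ) :
    IsUnif (Ow A π M' hMk)
      (algebraMap L ↥(laurentBaseChange L (modularFunctionFieldFull M')) ϖ) := by
  refine ⟨(algebraMap_mem_Ow_iff hπ hMk ϖ).mpr hA.mem, ?_, ?_⟩
  · rw [← map_inv₀]
    exact fun h => hA.inv_notMem ((algebraMap_mem_Ow_iff hπ hMk ϖ⁻¹).mp h)
  · intro f hf
    obtain ⟨a, ha, hm, hne⟩ := exists_scaling_Ow (A := A) (π := π) hπ hMk f hf
    have hu : IsUnit (⟨_, hm⟩ : Ow A π M' hMk) := by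
      by_contra hnu
      exact hne ((redF_eq_zero_iff hπ hMk _).mpr hnu)
    obtain ⟨b, hb⟩ := hu.exists_right_inv
    have hb' : (algebraMap L ↥(laurentBaseChange L (modularFunctionFieldFull M')) a * f) *
        (b : ↥(laurentBaseChange L (modularFunctionFieldFull M'))) = 1 := congrArg Subtype.val hb
    have hinv : (algebraMap L ↥(laurentBaseChange L (modularFunctionFieldFull M')) a * f)⁻¹ ∈
        Ow A π M' hMk := by
      rw [← eq_inv_of_mul_eq_one_right hb']
      exact b.2
    obtain ⟨n, v, hv, hv', hav⟩ := hA.exists_zpow a⁻¹ (inv_ne_zero ha)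
    refine ⟨n, algebraMap L _ v * (algebraMap L _ a * f), ?_, ?_, ?_⟩
    · exact (Ow A π M' hMk).mul_mem _ _ ((algebraMap_mem_Ow_iff hπ hMk v).mpr hv) hm
    · rw [mul_inv, ← map_inv₀]
      exact (Ow A π M' hMk).mul_mem _ _ ((algebraMap_mem_Ow_iff hπ hMk v⁻¹).mpr hv') hinv
    · have e1 : f = algebraMap L ↥(laurentBaseChange L (modularFunctionFieldFull M')) a⁻¹ *
          (algebraMap L _ a * f) := by
        rw [← mul_assoc, ← map_mul, inv_mul_cancel₀ ha, map_one, one_mul]
      have e2 : algebraMap L ↥(laurentBaseChange L (modularFunctionFieldFull M')) a⁻¹ =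
          algebraMap L _ ϖ ^ n * algebraMap L _ v := by
        rw [hav, map_mul, map_zpow₀]
      rw [← mul_assoc, ← e2]
      exact e1

/-- The natural-number form. -/
theorem isUnif_Ow_natCast (hπ : ∀ a : A, ¬ IsUnit a → π a = 0) (hMk : (M' : k) ≠ 0) (n : ℕ)
    (hA : IsUnif A (n : L)) :
    IsUnif (Ow A π M' hMk) ((n : ℕ) : ↥(laurentBaseChange L (modularFunctionFieldFull M'))) := by
  have h := isUnif_Ow hπ hMk hA
  rwa [map_natCast] at h

/-- `J` lies in the Gauss valuation ring of level `M'`. -/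
theorem jLevel_mem_Ow (hMk : (M' : k) ≠ 0) : jLevel L M' ∈ Ow A π M' hMk :=
  MidRing.Jd_mem_gaussRing A π 1

/-- The reduction of `J` is `J̄`. -/
theorem coe_redF_jLevel (hπ : ∀ a : A, ¬ IsUnit a → π a = 0) (hMk : (M' : k) ≠ 0)
    (hJ : jLevel L M' ∈ Ow A π M' hMk) :
    ((redF A π M' hπ hMk ⟨jLevel L M', hJ⟩ : ↥(modularFunctionFieldFullC k M')) :
      LaurentSeries k) = TD.Jd k 1 := by
  rw [coe_redF]
  exact MidRing.red_Jd A π 1 _

/-- **The residue degree of `O_0` over `Ow` along `π_0^*` is at least `q²`**: the powers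
`(π_2^* J)^a`, `a < q²`, are independent modulo the maximal ideal. -/
theorem res_zero (h : BadSetup A π M' q) (hw : IsAL3 M' q w) (φ : k →+* k)
    (hφ : ∀ x, φ x ^ q = x) :
    letI := alg0 L M' q
    ∃ b : Fin (q ^ 2) → ↥(laurentBaseChange L (modularFunctionFieldFull (M' * q * q))),
      (∀ j, b j ∈ OZero3 h w) ∧
      ∀ c : Fin (q ^ 2) → ↥(laurentBaseChange L (modularFunctionFieldFull M')),
        (∀ j, c j ∈ Ow A π M' h.hMk) →
        ∑ j, algebraMap ↥(laurentBaseChange L (modularFunctionFieldFull M'))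
          ↥(laurentBaseChange L (modularFunctionFieldFull (M' * q * q))) (c j) * b j ∈
            (OZero3 h w).nonunits →
        ∀ j, c j ∈ (Ow A π M' h.hMk).nonunits := by
  letI := alg0 L M' q
  haveI : Fact q.Prime := ⟨h.hℓ⟩
  haveI : CharP k q := h.charP
  have hJ : jLevel L M' ∈ Ow A π M' h.hMk := jLevel_mem_Ow h.hMk
  have hJ2 : piStar2 L M' q (jLevel L M') ∈ OZero3 h w := (piStar2_mem_OZero3_iff h hw _).mpr hJ
  refine ⟨fun a => piStar2 L M' q (jLevel L M') ^ (a : ℕ),
    fun j => (OZero3 h w).pow_mem hJ2 _, ?_⟩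
  intro c hc hsum j
  have hc' : ∀ j, piStar0 L M' q (c j) ∈ OZero3 h w := fun j =>
    (piStar0_mem_OZero3_iff h hw _).mpr (hc j)
  -- the sum as an element of `O_0`
  set S : OZero3 h w := ∑ j, (⟨piStar0 L M' q (c j), hc' j⟩ : OZero3 h w) *
    (⟨piStar2 L M' q (jLevel L M'), hJ2⟩ : OZero3 h w) ^ (j : ℕ) with hS
  have hScoe : ((S : OZero3 h w) : ↥(laurentBaseChange L (modularFunctionFieldFull (M' * q * q))))
      = ∑ j, piStar0 L M' q (c j) * piStar2 L M' q (jLevel L M') ^ (j : ℕ) := by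
    rw [hS]
    push_cast
    rfl
  have hSnu : ¬ IsUnit S := by
    rw [← mem_nonunits_iff_not_isUnit, hScoe]
    exact hsum
  have hred : redZero3 h w S = 0 := (redZero3_eq_zero_iff h S).mpr hSnu
  rw [hS, map_sum] at hred
  have hred' : ∑ j, qExpand k q (qExpand k q
      ((redF A π M' h.hπ h.hMk ⟨c j, hc j⟩ : ↥(modularFunctionFieldFullC k M')) :
        LaurentSeries k)) * TD.Jd k 1 ^ (j : ℕ) = 0 := by
    have h1 := congrArg (fun z : ↥(modularFunctionFieldFullC k M') => (z : LaurentSeries k)) hred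
    simp only [ZeroMemClass.coe_zero] at h1
    rw [← h1]
    have h2 : ((∑ j, redZero3 h w ((⟨piStar0 L M' q (c j), hc' j⟩ : OZero3 h w) *
        (⟨piStar2 L M' q (jLevel L M'), hJ2⟩ : OZero3 h w) ^ (j : ℕ)) :
        ↥(modularFunctionFieldFullC k M')) : LaurentSeries k)
        = ∑ j, ((redZero3 h w ((⟨piStar0 L M' q (c j), hc' j⟩ : OZero3 h w) *
          (⟨piStar2 L M' q (jLevel L M'), hJ2⟩ : OZero3 h w) ^ (j : ℕ)) :
          ↥(modularFunctionFieldFullC k M')) : LaurentSeries k) := by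
      push_cast
      rfl
    rw [h2]
    refine Finset.sum_congr rfl fun j _ => ?_
    rw [map_mul, map_pow, redZero3_piStar2 h hw _ hJ hJ2]
    push_cast
    rw [coe_redZero3_piStar0 h hw (c j) (hc j) (hc' j), coe_redF_jLevel h.hπ h.hMk hJ]
  have h3 := PsiIndep.psi_indep_two q φ hφ
    (fun a => ((redF A π M' h.hπ h.hMk ⟨c a, hc a⟩ : ↥(modularFunctionFieldFullC k M')) :
      LaurentSeries k)) hred' j
  have h4 : redF A π M' h.hπ h.hMk ⟨c j, hc j⟩ = 0 := Subtype.ext h3
  have h5 := (redF_eq_zero_iff h.hπ h.hMk _).mp h4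
  exact (mem_nonunits_iff_not_isUnit (Ow A π M' h.hMk) ⟨c j, hc j⟩).mpr h5

/-- `F_{M'q²}` is finite over `π_0^* F_{M'}`. -/
theorem finiteDimensional0 (L : Type) [Field L] [Algebra ℚ L] (M' q : ℕ) [NeZero M'] [NeZero q]
    (hq : q.Prime) (hqM : ¬ q ∣ M') :
    letI := alg0 L M' q
    FiniteDimensional ↥(laurentBaseChange L (modularFunctionFieldFull M'))
      ↥(laurentBaseChange L (modularFunctionFieldFull (M' * q * q))) :=
  Fermat.Agent.ESJ.Cong.LevelDeg.finiteAlong_of_finrank_ne_zero (piStar0 L M' q) (by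
    have h1 : finrankAlong L (piStar0 L M' q) = (q + 1) * q :=
      Fermat.Agent.ESJ.Cong.LevelDeg.finrank_alpha_alpha L M' q hq hqM
    rw [h1]
    exact Nat.mul_ne_zero (Nat.succ_ne_zero q) hq.ne_zero)

/-- `[F_{M'q²} : π_0^* F_{M'}] = (q + 1) q`. -/
theorem finrank0 (L : Type) [Field L] [Algebra ℚ L] (M' q : ℕ) [NeZero M'] [NeZero q]
    (hq : q.Prime) (hqM : ¬ q ∣ M') :
    (letI := alg0 L M' q
    Module.finrank ↥(laurentBaseChange L (modularFunctionFieldFull M'))
      ↥(laurentBaseChange L (modularFunctionFieldFull (M' * q * q)))) = (q + 1) * q :=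
  Fermat.Agent.ESJ.Cong.LevelDeg.finrank_alpha_alpha L M' q hq hqM

/-- The level-`N` function field has characteristic zero. -/
theorem charZero_FN (L : Type) [Field L] [Algebra ℚ L] (N : ℕ) :
    CharZero ↥(laurentBaseChange L (modularFunctionFieldFull N)) := by
  haveI : CharZero L := algebraRat.charZero L
  exact charZero_of_injective_algebraMap
    (algebraMap L ↥(laurentBaseChange L (modularFunctionFieldFull N))).injective

/-- `F_{M'q²}` is separable over `π_0^* F_{M'}`. -/
theorem isSeparable0 (L : Type) [Field L] [Algebra ℚ L] (M' q : ℕ) [NeZero M'] [NeZero q]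
    (hq : q.Prime) (hqM : ¬ q ∣ M') :
    letI := alg0 L M' q
    Algebra.IsSeparable ↥(laurentBaseChange L (modularFunctionFieldFull M'))
      ↥(laurentBaseChange L (modularFunctionFieldFull (M' * q * q))) := by
  letI := alg0 L M' q
  haveI := finiteDimensional0 L M' q hq hqM
  haveI := charZero_FN L M'
  exact Algebra.IsAlgebraic.isSeparable_of_perfectField

/-- **The count at level `M' q²` over level `M'`.**  `O_∞`, `O_mid`, `O_0` form a `Family` above
the Gauss valuation ring of level `M'` along `π_0^*`, with `e = (1, q - 1, 1)` and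
`f = (1, 1, q²)`.  The middle ring enters through a non-unit `d` with `q = d^(q-1)·c` which is a
unit of `O_∞` and of `O_0`. -/
theorem family3 (h : BadSetup A π M' q) (hw : IsAL3 M' q w) (hAq : IsUnif A ((q : ℕ) : L))
    (φ : k →+* k) (hφ : ∀ x, φ x ^ q = x)
    (OM : ValuationSubring ↥(laurentBaseChange L (modularFunctionFieldFull (M' * q * q))))
    (d : ↥(laurentBaseChange L (modularFunctionFieldFull (M' * q * q))))
    (hMabove : ∀ x : ↥(laurentBaseChange L (modularFunctionFieldFull M')),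
      piStar0 L M' q x ∈ OM ↔ x ∈ Ow A π M' h.hMk)
    (hd : d ∈ OM.nonunits)
    (hdq : ∃ c ∈ OM,
      ((q : ℕ) : ↥(laurentBaseChange L (modularFunctionFieldFull (M' * q * q)))) = d ^ (q - 1) * c)
    (hdInf : d⁻¹ ∈ OInf3 h) (hdZero : d⁻¹ ∈ OZero3 h w) :
    letI := alg0 L M' q
    Family (Ow A π M' h.hMk) ((q : ℕ) : ↥(laurentBaseChange L (modularFunctionFieldFull M')))
      ![OInf3 h, OM, OZero3 h w] ![1, q - 1, 1] ![1, 1, q ^ 2] := by
  letI := alg0 L M' q
  have hq := h.hℓ
  have hunif := isUnif_Ow_natCast h.hπ h.hMk q hAq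
  haveI := charZero_FN L (M' * q * q)
  have hq0 : ((q : ℕ) : ↥(laurentBaseChange L (modularFunctionFieldFull (M' * q * q)))) ≠ 0 :=
    Nat.cast_ne_zero.mpr hq.ne_zero
  have hd0 : d ≠ 0 := by
    rintro rfl
    obtain ⟨c, -, hc⟩ := hdq
    rw [zero_pow (Nat.sub_ne_zero_of_lt hq.one_lt), zero_mul] at hc
    exact hq0 hc
  have hdinv : d⁻¹ ∉ OM := by
    rw [ValuationSubring.mem_nonunits_iff_or] at hd
    rcases hd with h0 | h0
    · exact absurd h0 hd0
    · exact h0
  have h01 : OInf3 h ≠ OM := fun e => hdinv (e ▸ hdInf)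
  have h12 : OM ≠ OZero3 h w := fun e => hdinv (e.symm ▸ hdZero)
  have h02 : OInf3 h ≠ OZero3 h w := OInf3_ne_OZero3 h hw
  have ha0 : IsAbove (Ow A π M' h.hMk) (OInf3 h) := fun x => piStar0_mem_OInf3_iff h x
  have ha1 : IsAbove (Ow A π M' h.hMk) OM := hMabove
  have ha2 : IsAbove (Ow A π M' h.hMk) (OZero3 h w) := fun x => piStar0_mem_OZero3_iff h hw x
  refine ⟨hunif, ?_, ?_, ?_, ?_, ?_⟩
  · intro i
    fin_cases i
    · exact ha0
    · exact ha1
    · exact ha2
  · have key : ∀ i j : Fin 3, i < j →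
        (![OInf3 h, OM, OZero3 h w] : Fin 3 → ValuationSubring _) i ≠
          (![OInf3 h, OM, OZero3 h w] : Fin 3 → ValuationSubring _) j := by
      intro i j hlt
      fin_cases i <;> fin_cases j <;>
        first
        | exact absurd hlt (by decide)
        | exact h01
        | exact h02
        | exact h12
    intro i j hij
    by_contra hne
    rcases lt_or_gt_of_ne hne with hlt | hlt
    · exact key i j hlt hij
    · exact key j i hlt hij.symm
  · intro i
    fin_cases i
    · exact ram_of_isAbove hunif ha0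
    · obtain ⟨c, hc, hqc⟩ := hdq
      refine ⟨d, c, hd, hc, ?_⟩
      rw [map_natCast]
      exact hqc
    · exact ram_of_isAbove hunif ha2
  · intro i
    fin_cases i
    · exact res_of_isAbove ha0
    · exact res_of_isAbove ha1
    · exact res_zero h hw φ hφ
  · rw [finrank0 L M' q hq h.not_dvd, Fin.sum_univ_three]
    show (q + 1) * q ≤ 1 * 1 + (q - 1) * 1 + 1 * q ^ 2
    have h1 : q - 1 + 1 = q := Nat.sub_add_cancel hq.one_le
    have h2 : (q + 1) * q = q ^ 2 + q := by ring
    rw [h2]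
    omega

/-! ### Consequences of the count (generic form) -/

section Consequences

variable (h : BadSetup A π M' q)
  {OM : ValuationSubring ↥(laurentBaseChange L (modularFunctionFieldFull (M' * q * q)))}
  (hF : letI := alg0 L M' q
    Family (Ow A π M' h.hMk) ((q : ℕ) : ↥(laurentBaseChange L (modularFunctionFieldFull M')))
      ![OInf3 h, OM, OZero3 h w] ![1, q - 1, 1] ![1, 1, q ^ 2])

include hF

/-- **Exactly three.**  A valuation subring of `F_{M'q²}` whose restriction along `π_0^*` is the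
Gauss valuation ring of level `M'` is `O_∞`, `O_mid` or `O_0`. -/
theorem eq_of_isAbove3
    (V' : ValuationSubring ↥(laurentBaseChange L (modularFunctionFieldFull (M' * q * q))))
    (hV' : ∀ x : ↥(laurentBaseChange L (modularFunctionFieldFull M')),
      piStar0 L M' q x ∈ V' ↔ x ∈ Ow A π M' h.hMk) :
    V' = OInf3 h ∨ V' = OM ∨ V' = OZero3 h w := by
  letI := alg0 L M' q
  haveI := finiteDimensional0 L M' q h.hℓ h.not_dvd
  haveI := isSeparable0 L M' q h.hℓ h.not_dvd
  obtain ⟨i, hi⟩ := hF.eq_of_isAbove V' hV'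
  fin_cases i
  · exact Or.inl hi
  · exact Or.inr (Or.inl hi)
  · exact Or.inr (Or.inr hi)

/-- **The residue field of `O_mid` is that of `Ow`**: every element of `O_mid` is congruent
modulo the maximal ideal to `π_0^* y` for some `y` in the Gauss valuation ring of level `M'`. -/
theorem exists_sub_piStar0_mem_nonunits_mid
    {x : ↥(laurentBaseChange L (modularFunctionFieldFull (M' * q * q)))} (hx : x ∈ OM) :
    ∃ y ∈ Ow A π M' h.hMk, x - piStar0 L M' q y ∈ OM.nonunits := by
  letI := alg0 L M' q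
  haveI := finiteDimensional0 L M' q h.hℓ h.not_dvd
  haveI := isSeparable0 L M' q h.hℓ h.not_dvd
  exact hF.exists_sub_algebraMap_mem_nonunits 1 rfl hx

/-- The same for `O_∞`. -/
theorem exists_sub_piStar0_mem_nonunits_inf
    {x : ↥(laurentBaseChange L (modularFunctionFieldFull (M' * q * q)))} (hx : x ∈ OInf3 h) :
    ∃ y ∈ Ow A π M' h.hMk, x - piStar0 L M' q y ∈ (OInf3 h).nonunits := by
  letI := alg0 L M' q
  haveI := finiteDimensional0 L M' q h.hℓ h.not_dvd
  haveI := isSeparable0 L M' q h.hℓ h.not_dvd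
  exact hF.exists_sub_algebraMap_mem_nonunits 0 rfl hx

/-- **Joint surjectivity (CRT).**  Three elements of the three valuation rings are simultaneously
approximated modulo `q ^ n` by an element integral over `Ow`. -/
theorem exists_approx3 (n : ℕ)
    {r0 r1 r2 : ↥(laurentBaseChange L (modularFunctionFieldFull (M' * q * q)))}
    (h0 : r0 ∈ OInf3 h) (h1 : r1 ∈ OM) (h2 : r2 ∈ OZero3 h w) :
    ∃ x : ↥(laurentBaseChange L (modularFunctionFieldFull (M' * q * q))),
      x ∈ OInf3 h ∧ x ∈ OM ∧ x ∈ OZero3 h w ∧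
      (∃ c ∈ OInf3 h, x - r0 = ((q : ℕ) : ↥(laurentBaseChange L
        (modularFunctionFieldFull (M' * q * q)))) ^ n * c) ∧
      (∃ c ∈ OM, x - r1 = ((q : ℕ) : ↥(laurentBaseChange L
        (modularFunctionFieldFull (M' * q * q)))) ^ n * c) ∧
      (∃ c ∈ OZero3 h w, x - r2 = ((q : ℕ) : ↥(laurentBaseChange L
        (modularFunctionFieldFull (M' * q * q)))) ^ n * c) := by
  letI := alg0 L M' q
  haveI := finiteDimensional0 L M' q h.hℓ h.not_dvd
  haveI := isSeparable0 L M' q h.hℓ h.not_dvd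
  obtain ⟨x, hx, hc⟩ := hF.exists_approx ![r0, r1, r2] (by
    intro i
    fin_cases i
    · exact h0
    · exact h1
    · exact h2) n
  have hmem := hF.isIntegral_iff.mp hx
  have e : algebraMap ↥(laurentBaseChange L (modularFunctionFieldFull M'))
      ↥(laurentBaseChange L (modularFunctionFieldFull (M' * q * q)))
      ((q : ℕ) : ↥(laurentBaseChange L (modularFunctionFieldFull M'))) =
      ((q : ℕ) : ↥(laurentBaseChange L (modularFunctionFieldFull (M' * q * q)))) := map_natCast _ q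
  refine ⟨x, hmem 0, hmem 1, hmem 2, ?_, ?_, ?_⟩
  · obtain ⟨c, hc0, hc1⟩ := hc 0
    exact ⟨c, hc0, by rw [← e]; exact hc1⟩
  · obtain ⟨c, hc0, hc1⟩ := hc 1
    exact ⟨c, hc0, by rw [← e]; exact hc1⟩
  · obtain ⟨c, hc0, hc1⟩ := hc 2
    exact ⟨c, hc0, by rw [← e]; exact hc1⟩

end Consequences

end Generic

/-! ### The instance `(L, A, π) = (K0, W0, resW0)` -/

section K0Inst

open Fermat.Agent.CAR.K0 Fermat.Agent.CAR.V3.MidRing

local notation "Qb" => AlgebraicClosure ℚ

variable {q : ℕ} [NeZero q] (hq : q.Prime) (A : ValuationSubring Qb) (hA : A.LiesOverPrime q)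
  {ζ : Qb} (hζ : IsPrimitiveRoot ζ q) (M' : ℕ) [NeZero M'] (hqM : ¬ q ∣ M')
  {w : laurentBaseChange ↥(K0 A) (modularFunctionFieldFull (M' * q * q)) ≃ₐ[↥(K0 A)]
    laurentBaseChange ↥(K0 A) (modularFunctionFieldFull (M' * q * q))}

/-- `d = π_2^* J - π_0^* J`. -/
theorem dMid_eq : dMid A M' q =
    piStar2 ↥(K0 A) M' q (jLevel ↥(K0 A) M') - piStar0 ↥(K0 A) M' q (jLevel ↥(K0 A) M') := by
  apply Subtype.ext
  show TD.Jd (inertiaField A) (q * q) - TD.Jd (inertiaField A) 1 = _
  rw [AddSubgroupClass.coe_sub, coe_piStar2_jLevel, coe_piStar0_jLevel]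

/-- `d` is a unit of `O_0`: `O_mid ≠ O_0`. -/
theorem inv_dMid_mem_OZero3 (hw : IsAL3 M' q w) :
    (dMid A M' q)⁻¹ ∈ OZero3 (badSetup_W0 hq hA M' hqM) w := by
  rw [mem_OZero3_iff, map_inv₀]
  have e : w (dMid A M' q) = -dMid A M' q := by
    rw [dMid_eq, map_sub, hw.pi2, hw.pi0, neg_sub]
  rw [e, inv_neg]
  exact (OInf3 _).neg_mem _ (inv_dMid_mem_OInf3 A M' _)

include hq hA hqM in
/-- The Frobenius of the residue field of `A` has a section. -/
theorem exists_frob_section_residueField :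
    ∃ φ : IsLocalRing.ResidueField A →+* IsLocalRing.ResidueField A, ∀ x, φ x ^ q = x := by
  haveI : Fact q.Prime := ⟨hq⟩
  haveI : CharP (IsLocalRing.ResidueField A) q := (badSetup_W0 hq hA M' hqM).charP
  haveI : IsAlgClosed (IsLocalRing.ResidueField A) :=
    Fermat.Agent.Lib.FF.CharP.isAlgClosed_residueField A
  exact PsiIndep.exists_frob_section q (fun x => IsAlgClosed.exists_pow_nat_eq x hq.pos)

/-- **The count over the inertia field.**  `O_∞`, `O_mid`, `O_0` form a `Family` above the Gauss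
valuation ring of `K0·F_{M'}` along `π_0^*`: `e = (1, q - 1, 1)`, `f = (1, 1, q²)`. -/
theorem family3_K0 (hw : IsAL3 M' q w) :
    letI := alg0 ↥(K0 A) M' q
    Family (Ow (W0 A) (resW0 A) M' (badSetup_W0 hq hA M' hqM).hMk)
      ((q : ℕ) : ↥(laurentBaseChange ↥(K0 A) (modularFunctionFieldFull M')))
      ![OInf3 (badSetup_W0 hq hA M' hqM), OMid hq A hA hζ M' hqM (IsLocalRing.residue A),
        OZero3 (badSetup_W0 hq hA M' hqM) w] ![1, q - 1, 1] ![1, 1, q ^ 2] := by
  obtain ⟨φ, hφ⟩ := exists_frob_section_residueField hq A hA M' hqM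
  obtain ⟨c, hc, -, hqc⟩ := exists_natCast_eq_dMid_pow_mul hq A hA hζ M' hqM
    (IsLocalRing.residue A) (residue_eq_zero_of_not_isUnit A)
  exact family3 (badSetup_W0 hq hA M' hqM) hw (Restrict.isUnif_W0 hq hA) φ hφ
    (OMid hq A hA hζ M' hqM (IsLocalRing.residue A)) (dMid A M' q)
    (fun x => piStar0_mem_OMid_iff hq A hA hζ M' hqM _ x)
    (dMid_mem_nonunits_OMid hq A hA hζ M' hqM (IsLocalRing.residue A)
      (residue_eq_zero_of_not_isUnit A))
    ⟨c, hc, hqc⟩ (inv_dMid_mem_OInf3 A M' _) (inv_dMid_mem_OZero3 hq A hA M' hqM hw)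

/-- **Exactly three** (instance). -/
theorem eq_of_isAbove3_K0 (hw : IsAL3 M' q w)
    (V' : ValuationSubring ↥(laurentBaseChange ↥(K0 A) (modularFunctionFieldFull (M' * q * q))))
    (hV' : ∀ x : ↥(laurentBaseChange ↥(K0 A) (modularFunctionFieldFull M')),
      piStar0 ↥(K0 A) M' q x ∈ V' ↔ x ∈ Ow (W0 A) (resW0 A) M' (badSetup_W0 hq hA M' hqM).hMk) :
    V' = OInf3 (badSetup_W0 hq hA M' hqM) ∨
      V' = OMid hq A hA hζ M' hqM (IsLocalRing.residue A) ∨
      V' = OZero3 (badSetup_W0 hq hA M' hqM) w :=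
  eq_of_isAbove3 (badSetup_W0 hq hA M' hqM) (family3_K0 hq A hA hζ M' hqM hw) V' hV'

/-- **`red_mid` takes its values in the function field `κ` of level `M'`**: the residue field of
`O_mid` is that of the Gauss valuation ring of level `M'` (`f(mid) = 1`). -/
theorem redMid_mem_fullC (f : OMid hq A hA hζ M' hqM (IsLocalRing.residue A)) :
    redMid hq A hA hζ M' hqM (IsLocalRing.residue A) f ∈
      modularFunctionFieldFullC (IsLocalRing.ResidueField A) M' := by
  obtain ⟨w, hw⟩ := exists_isAL3 (L := ↥(K0 A)) M' q hq hqM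
  obtain ⟨y, hy, hxy⟩ := exists_sub_piStar0_mem_nonunits_mid (badSetup_W0 hq hA M' hqM)
    (family3_K0 hq A hA hζ M' hqM hw) f.2
  have hy' := piStar0_mem_OMid hq A hA hζ M' hqM _ y hy
  have hn : ((f : ↥(laurentBaseChange ↥(K0 A) (modularFunctionFieldFull (M' * q * q)))) -
      piStar0 ↥(K0 A) M' q y) ∈ OMid hq A hA hζ M' hqM (IsLocalRing.residue A) :=
    sub_mem f.2 hy'
  have e : f = ⟨piStar0 ↥(K0 A) M' q y, hy'⟩ + ⟨_, hn⟩ := by
    apply Subtype.ext
    show (f : ↥(laurentBaseChange ↥(K0 A) (modularFunctionFieldFull (M' * q * q)))) =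
      piStar0 ↥(K0 A) M' q y + ((f : ↥(laurentBaseChange ↥(K0 A)
        (modularFunctionFieldFull (M' * q * q)))) - piStar0 ↥(K0 A) M' q y)
    ring
  have h0 : redMid hq A hA hζ M' hqM (IsLocalRing.residue A) ⟨_, hn⟩ = 0 :=
    (redMid_eq_zero_iff hq A hA hζ M' hqM (IsLocalRing.residue A) _).mpr
      ((mem_nonunits_iff_not_isUnit _ ⟨_, hn⟩).mp hxy)
  rw [e, RingHom.map_add, h0, add_zero, redMid_piStar0 hq A hA hζ M' hqM _ y hy hy']
  exact SetLike.coe_mem _

end K0Inst

end

end Fermat.Agent.CAR.V3.Count
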