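import Mathlib
import Fermat.Agent.CAR.V3.MidPull
import Fermat.Agent.CAR.V3.RestrictNF
import Fermat.Agent.CAR.K0.Setup

/-!
# CAR (V3-Mid): restriction of `O_mid` along the two degeneracy maps `F_{M'q} → F_{M'q²}`

`A` a valuation subring of `ℚ̄` over `q`, `K0 = ℚ̄^I`, `W0 = A ∩ K0`, `k` the residue field of `A`,
`F_N = K0 · F_{M' q}`, `F = K0 · F_{M' q²}`, `α^* = heckeAlphaBar K0 (M' q) q` (`z ↦ z`),
`β^* = heckeBetaBar K0 (M' q) q` (`z ↦ q z`), `O_∞`, `O_0 = W⁻¹(O_∞)` the two Gauss valuation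
rings of `F_N` (`BAD/TwoVal/Pair`, for the base `(K0, W0, resW0)`), `O_mid` the middle valuation
ring of `F` (`CAR/V3/MidRing`).  On top of `CAR/V3/MidPull` (bridge `K0`/`ℚ̄`, `tauMid_alpha`).

* `tauMid_beta` : `τ_mid ∘ β^* = rot_ζ ∘` (coefficient extension) `∘ W` for the Atkin–Lehner
  involution `W` of level `M' q`;
* `alpha_mem_OMid_iff`, `OMid_comap_alpha` : `α^*⁻¹(O_mid) = O_∞`; `redMid_alpha` :
  `ρ_mid ∘ α^* = r_∞`;
* `beta_mem_OMid_iff`, `OMid_comap_beta` : `β^*⁻¹(O_mid) = O_0`; `redMid_beta` :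
  `ρ_mid ∘ β^* = r_0`;
* `resαb`, `resβb` : the residue extensions of `O_mid` over `O_∞` (along `α^*`) and over `O_0`
  (along `β^*`) are trivial, given `hκ : red_mid(O_mid) ⊆ κ` (output of the count);
* `dataK0_of_count` : the record `Formal.NF.Data` over `K0` from the count fields only
  (`RestrictNF.dataK0_of_mid` with the four middle fields `αb βb resαb resβb` filled in).
-/

set_option autoImplicit false
set_option linter.unusedSectionVars false
set_option linter.style.haveILetI false

noncomputable section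

namespace Fermat.Agent.CAR.V3.MidRestrict

open ModularCurve HahnSeries Fermat.Agent.S24 Fermat.Agent.S28 Fermat.Agent.S28.Chain
  Fermat.Agent.Lib.Red Fermat.Agent.CAR.K0 Fermat.Agent.CAR.V3.GaussDVR
  Fermat.Agent.CAR.V3.MidRing Fermat.Agent.BAD.TwoVal Fermat.Agent.ESJ.Cong.LevelGen
  Fermat.Agent.CAR.V3.RestrictNF Fermat.Agent.CAR.Formal

local notation "Qb" => AlgebraicClosure ℚ

/-! ### Generic abbreviations

The instance `Algebra K0 ↥(K0 · F_N)` is very slow to synthesise for `K0 = inertiaField A`; the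
abbreviations below are elaborated once for a generic constant field `L`, so that the statements
about `K0` contain the same instance terms as the generic statements of `BAD/TwoVal/Pair`. -/

section Generic

variable (L : Type*) [Field L] [Algebra ℚ L]

/-- The type of the `L`-automorphisms of `L · F_{M ℓ}` (Atkin–Lehner involutions live here). -/
abbrev ALAut (M ℓ : ℕ) [NeZero M] [NeZero ℓ] : Type _ :=
  laurentBaseChange L (modularFunctionFieldFull (M * ℓ)) ≃ₐ[L]
    laurentBaseChange L (modularFunctionFieldFull (M * ℓ))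

/-- A valuation subring is the preimage of another one as soon as membership corresponds. -/
theorem comap_eq_of_forall {K₁ K₂ : Type*} [Field K₁] [Field K₂] (V : ValuationSubring K₂)
    (V' : ValuationSubring K₁) (f : K₁ →+* K₂) (h : ∀ y, f y ∈ V ↔ y ∈ V') : V.comap f = V' := by
  ext y
  exact h y

/-- `y ↦ (W y : L((q)))` as a ring homomorphism. -/
abbrev coeAL (M ℓ : ℕ) [NeZero M] [NeZero ℓ] (W : ALAut L M ℓ) :
    ↥(laurentBaseChange L (modularFunctionFieldFull (M * ℓ))) →+* LaurentSeries L :=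
  (laurentBaseChange L (modularFunctionFieldFull (M * ℓ))).val.toRingHom.comp
    W.toRingEquiv.toRingHom

end Generic

/-! ### `rot` by a `q`-th root of unity and the Gauss ring -/

section Rot

variable (A : ValuationSubring Qb) {k : Type*} [Field k] (π : A →+* k)
  (q : ℕ) [Fact q.Prime] [CharP k q] (w : Qbˣ) (hw : w ^ q = 1)

include hw

theorem rot_mem_gaussRing_iff (y : LaurentSeries Qb) :
    rot w y ∈ gaussRing A π ↔ y ∈ gaussRing A π := by
  have h1 : ((w : Qbˣ) : Qb) ^ q = 1 := by
    rw [← Units.val_pow_eq_pow_val, hw, Units.val_one]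
  have h2 : ((w⁻¹ : Qbˣ) : Qb) ^ q = 1 := by
    rw [← Units.val_pow_eq_pow_val, inv_pow, hw, inv_one, Units.val_one]
  refine ⟨fun h => ?_, fun h => MidSeries.rot_mem_gaussRing' A π q w h1 h⟩
  have h3 := MidSeries.rot_mem_gaussRing' A π q w⁻¹ h2 h
  rwa [rot_rot, inv_mul_cancel, rot_one_apply] at h3

theorem red_rot_eq {y : LaurentSeries Qb} (hy : y ∈ gaussRing A π)
    (hy' : rot w y ∈ gaussRing A π) : red A π ⟨rot w y, hy'⟩ = red A π ⟨y, hy⟩ := by
  have h1 : ((w : Qbˣ) : Qb) ^ q = 1 := by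
    rw [← Units.val_pow_eq_pow_val, hw, Units.val_one]
  exact MidSeries.red_rot' A π q w h1 hy hy'

end Rot

/-! ### The instance -/

section Inst

variable {q : ℕ} (hq : q.Prime) (A : ValuationSubring Qb) (hA : A.LiesOverPrime q)
  {ζ : Qb} (hζ : IsPrimitiveRoot ζ q) (M' : ℕ) [NeZero M'] [NeZero q] (hqM : ¬ q ∣ M')

/-- `τ_mid ∘ β^* ∘ β^*` is `rot_ζ` of the coefficient extension. -/
theorem tauMid_beta_beta (x : FK (inertiaField A) M') :
    tauMid hq A hζ M' hqM (heckeBetaBar (inertiaField A) (M' * q) q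
        (heckeBetaBar (inertiaField A) M' q x))
      = rot (zetaUnit hq hζ)
          (coeffMap (algebraMap (inertiaField A) Qb) (x : LaurentSeries (inertiaField A))) := by
  show tauQ hq hζ M' hqM (bcQ (inertiaField A) (M' * q * q)
    (heckeBetaBar (inertiaField A) (M' * q) q (heckeBetaBar (inertiaField A) M' q x))) = _
  rw [bcQ_beta, bcQ_beta, tauQ_beta_beta, coe_bcQ]

/-- `β^* ∘ α^* = α^* ∘ β^*` (both are `y ↦ y(q z)` into level `M' q²`). -/
theorem beta_alpha_eq (x : FK (inertiaField A) M') :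
    heckeBetaBar (inertiaField A) (M' * q) q (heckeAlphaBar (inertiaField A) M' q x)
      = heckeAlphaBar (inertiaField A) (M' * q) q (heckeBetaBar (inertiaField A) M' q x) := by
  apply Subtype.ext
  rw [coe_heckeBetaBar, coe_heckeAlphaBar, coe_heckeAlphaBar, coe_heckeBetaBar]

variable {W : ALAut (inertiaField A) M' q}

/-- **`τ_mid ∘ β^* = rot_ζ ∘ (coefficient extension) ∘ W`** for the Atkin–Lehner involution `W`
of level `M' q`. -/
theorem tauMid_beta (hW : IsAL M' q W) (y : FK (inertiaField A) (M' * q)) :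
    tauMid hq A hζ M' hqM (heckeBetaBar (inertiaField A) (M' * q) q y)
      = rot (zetaUnit hq hζ) (coeffMap (algebraMap (inertiaField A) Qb)
          ((W y : FK (inertiaField A) (M' * q)) : LaurentSeries (inertiaField A))) := by
  set φ₁ : ↥(FK (inertiaField A) (M' * q)) →+* LaurentSeries Qb :=
    (tauMid hq A hζ M' hqM).comp (betaStar (inertiaField A) M' q) with hφ₁
  set φ₂ : ↥(FK (inertiaField A) (M' * q)) →+* LaurentSeries Qb :=
    (rot (zetaUnit hq hζ)).comp ((coeffMap (algebraMap (inertiaField A) Qb)).comp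
      (coeAL (inertiaField A) M' q W)) with hφ₂
  have hle : Subfield.closure (Set.range (heckeAlphaBar (inertiaField A) M' q) ∪
      {heckeBetaBar (inertiaField A) M' q (jLevel (inertiaField A) M')}) ≤
      φ₁.eqLocusField φ₂ := by
    rw [Subfield.closure_le]
    rintro z (⟨x, rfl⟩ | hz)
    · show tauMid hq A hζ M' hqM (heckeBetaBar (inertiaField A) (M' * q) q
          (heckeAlphaBar (inertiaField A) M' q x))
        = rot (zetaUnit hq hζ) (coeffMap (algebraMap (inertiaField A) Qb)
          ((W (heckeAlphaBar (inertiaField A) M' q x) : FK (inertiaField A) (M' * q)) :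
            LaurentSeries (inertiaField A)))
      rw [hW.alpha, beta_alpha_eq, tauMid_alpha, coe_heckeBetaBar, coeffMap_qExpand,
        rot_qExpand_of_pow_eq_one (zetaUnit_pow hq hζ)]
    · rw [Set.mem_singleton_iff] at hz
      rw [hz]
      show tauMid hq A hζ M' hqM (heckeBetaBar (inertiaField A) (M' * q) q
          (heckeBetaBar (inertiaField A) M' q (jLevel (inertiaField A) M')))
        = rot (zetaUnit hq hζ) (coeffMap (algebraMap (inertiaField A) Qb)
          ((W (heckeBetaBar (inertiaField A) M' q (jLevel (inertiaField A) M')) :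
            FK (inertiaField A) (M' * q)) : LaurentSeries (inertiaField A)))
      rw [hW.beta, tauMid_beta_beta, coe_heckeAlphaBar]
  rw [closure_range_heckeAlphaBar_union (inertiaField A) M' q hq hqM] at hle
  exact hle (Subfield.mem_top y)

/-- The `K0`-series of an element of `F_N` or of its inverse lies in the Gauss ring of `W0`. -/
theorem mem_or_inv_mem_gaussRing (h : BadSetup (W0 A) (resW0 A) M' q)
    (y : FK (inertiaField A) (M' * q)) :
    (y : LaurentSeries (inertiaField A)) ∈ gaussRing (W0 A) (resW0 A) ∨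
      (y : LaurentSeries (inertiaField A))⁻¹ ∈ gaussRing (W0 A) (resW0 A) :=
  (OInf h).mem_or_inv_mem y

variable (h : BadSetup (W0 A) (resW0 A) M' q)

/-- **`α^*⁻¹(O_mid) = O_∞`** (level `M' q`). -/
theorem alpha_mem_OMid_iff (y : FK (inertiaField A) (M' * q)) :
    heckeAlphaBar (inertiaField A) (M' * q) q y ∈ OMid hq A hA hζ M' hqM (IsLocalRing.residue A)
      ↔ y ∈ OInf h := by
  rw [mem_OMid_iff, tauMid_alpha, mem_OInf_iff]
  exact ⟨mem_gaussRing_of_bc_mem A (mem_or_inv_mem_gaussRing A M' h y), bc_mem_gaussRing A⟩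

theorem OMid_comap_alpha :
    (OMid hq A hA hζ M' hqM (IsLocalRing.residue A)).comap
      (alphaStar (inertiaField A) M' q) = OInf h :=
  comap_eq_of_forall _ _ _ (fun y => alpha_mem_OMid_iff hq A hA hζ M' hqM h y)

/-- **`ρ_mid ∘ α^* = r_∞`**. -/
theorem redMid_alpha (y : FK (inertiaField A) (M' * q)) (hy : y ∈ OInf h)
    (hy' : heckeAlphaBar (inertiaField A) (M' * q) q y
      ∈ OMid hq A hA hζ M' hqM (IsLocalRing.residue A)) :
    redMid hq A hA hζ M' hqM (IsLocalRing.residue A) ⟨_, hy'⟩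
      = ((redInf h ⟨y, hy⟩ : modularFunctionFieldFullC (IsLocalRing.ResidueField A) M') :
          LaurentSeries (IsLocalRing.ResidueField A)) := by
  rw [redMid_apply, coe_redInf]
  have hc : coeffMap (algebraMap (inertiaField A) Qb) (y : LaurentSeries (inertiaField A))
      ∈ gaussRing A (IsLocalRing.residue A) := bc_mem_gaussRing A hy
  have e : (⟨tauMid hq A hζ M' hqM (heckeAlphaBar (inertiaField A) (M' * q) q y), hy'⟩ :
      gaussRing A (IsLocalRing.residue A)) = ⟨_, hc⟩ :=
    Subtype.ext (tauMid_alpha hq A hζ M' hqM y)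
  rw [e]
  exact red_bc A hy hc

/-- **`β^*⁻¹(O_mid) = O_0`** (level `M' q`). -/
theorem beta_mem_OMid_iff (hW : IsAL M' q W) (y : FK (inertiaField A) (M' * q)) :
    heckeBetaBar (inertiaField A) (M' * q) q y ∈ OMid hq A hA hζ M' hqM (IsLocalRing.residue A)
      ↔ y ∈ OZero h W := by
  haveI : Fact q.Prime := ⟨hq⟩
  haveI : CharP (IsLocalRing.ResidueField A) q := h.charP
  rw [mem_OMid_iff, tauMid_beta hq A hζ M' hqM hW,
    rot_mem_gaussRing_iff A (IsLocalRing.residue A) q (zetaUnit hq hζ) (zetaUnit_pow hq hζ),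
    mem_OZero_iff, mem_OInf_iff]
  exact ⟨mem_gaussRing_of_bc_mem A (mem_or_inv_mem_gaussRing A M' h (W y)), bc_mem_gaussRing A⟩

theorem OMid_comap_beta (hW : IsAL M' q W) :
    (OMid hq A hA hζ M' hqM (IsLocalRing.residue A)).comap
      (betaStar (inertiaField A) M' q) = OZero h W :=
  comap_eq_of_forall _ _ _ (fun y => beta_mem_OMid_iff hq A hA hζ M' hqM h hW y)

/-- **`ρ_mid ∘ β^* = r_0`**. -/
theorem redMid_beta (hW : IsAL M' q W) (y : FK (inertiaField A) (M' * q)) (hy : y ∈ OZero h W)
    (hy' : heckeBetaBar (inertiaField A) (M' * q) q y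
      ∈ OMid hq A hA hζ M' hqM (IsLocalRing.residue A)) :
    redMid hq A hA hζ M' hqM (IsLocalRing.residue A) ⟨_, hy'⟩
      = ((redZero h W ⟨y, hy⟩ : modularFunctionFieldFullC (IsLocalRing.ResidueField A) M') :
          LaurentSeries (IsLocalRing.ResidueField A)) := by
  haveI : Fact q.Prime := ⟨hq⟩
  haveI : CharP (IsLocalRing.ResidueField A) q := h.charP
  have hWy : ((W y : FK (inertiaField A) (M' * q)) : LaurentSeries (inertiaField A))
      ∈ gaussRing (W0 A) (resW0 A) := hy
  have e0 : ((redZero h W ⟨y, hy⟩ : modularFunctionFieldFullC (IsLocalRing.ResidueField A) M') :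
      LaurentSeries (IsLocalRing.ResidueField A)) = red (W0 A) (resW0 A) ⟨_, hWy⟩ := rfl
  rw [e0, redMid_apply]
  have hc : coeffMap (algebraMap (inertiaField A) Qb)
      ((W y : FK (inertiaField A) (M' * q)) : LaurentSeries (inertiaField A))
      ∈ gaussRing A (IsLocalRing.residue A) := bc_mem_gaussRing A hWy
  have hr : rot (zetaUnit hq hζ) (coeffMap (algebraMap (inertiaField A) Qb)
      ((W y : FK (inertiaField A) (M' * q)) : LaurentSeries (inertiaField A)))
      ∈ gaussRing A (IsLocalRing.residue A) :=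
    (rot_mem_gaussRing_iff A (IsLocalRing.residue A) q (zetaUnit hq hζ) (zetaUnit_pow hq hζ) _).mpr
      hc
  have e : (⟨tauMid hq A hζ M' hqM (heckeBetaBar (inertiaField A) (M' * q) q y), hy'⟩ :
      gaussRing A (IsLocalRing.residue A)) = ⟨_, hr⟩ :=
    Subtype.ext (tauMid_beta hq A hζ M' hqM hW y)
  rw [e, red_rot_eq A (IsLocalRing.residue A) q (zetaUnit hq hζ) (zetaUnit_pow hq hζ) hc hr]
  exact red_bc A hWy hc

/-! ### Residue extensions and the record `NF.Data` -/

/-- An element of `O_mid` with zero residue is a non-unit. -/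
theorem mem_nonunits_of_redMid_eq_zero (f : FK (inertiaField A) (M' * q * q))
    (hf : f ∈ OMid hq A hA hζ M' hqM (IsLocalRing.residue A))
    (h0 : redMid hq A hA hζ M' hqM (IsLocalRing.residue A) ⟨f, hf⟩ = 0) :
    f ∈ (OMid hq A hA hζ M' hqM (IsLocalRing.residue A)).nonunits := by
  rw [ValuationSubring.mem_nonunits_iff_exists_mem_maximalIdeal]
  refine ⟨hf, ?_⟩
  rw [IsLocalRing.mem_maximalIdeal, mem_nonunits_iff]
  exact (redMid_eq_zero_iff hq A hA hζ M' hqM (IsLocalRing.residue A) _).mp h0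

variable (hκ : ∀ f : OMid hq A hA hζ M' hqM (IsLocalRing.residue A),
  redMid hq A hA hζ M' hqM (IsLocalRing.residue A) f
    ∈ modularFunctionFieldFullC (IsLocalRing.ResidueField A) M')

include hκ

/-- **`resαb`**: the residue extension of `O_mid` over `O_∞` along `α^*` is trivial (given that
`red_mid` takes its values in `κ`). -/
theorem resαb : ∀ g ∈ OMid hq A hA hζ M' hqM (IsLocalRing.residue A), ∃ c ∈ OInf h,
    g - alphaStar (inertiaField A) M' q c
      ∈ (OMid hq A hA hζ M' hqM (IsLocalRing.residue A)).nonunits := by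
  intro g hg
  obtain ⟨c, hc, hr⟩ := redInf_surjective h (resW0_surjective hq hA)
    ⟨redMid hq A hA hζ M' hqM (IsLocalRing.residue A) ⟨g, hg⟩, hκ _⟩
  have hαc : heckeAlphaBar (inertiaField A) (M' * q) q c
      ∈ OMid hq A hA hζ M' hqM (IsLocalRing.residue A) :=
    (alpha_mem_OMid_iff hq A hA hζ M' hqM h c).mpr hc
  refine ⟨c, hc, ?_⟩
  have hmem : g - heckeAlphaBar (inertiaField A) (M' * q) q c
      ∈ OMid hq A hA hζ M' hqM (IsLocalRing.residue A) := sub_mem hg hαc
  refine mem_nonunits_of_redMid_eq_zero hq A hA hζ M' hqM _ hmem ?_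
  show redMid hq A hA hζ M' hqM (IsLocalRing.residue A) (⟨g, hg⟩ - ⟨_, hαc⟩) = 0
  rw [RingHom.map_sub, redMid_alpha hq A hA hζ M' hqM h c hc hαc, hr]
  exact sub_self _

/-- **`resβb`**: the residue extension of `O_mid` over `O_0` along `β^*` is trivial (given that
`red_mid` takes its values in `κ`). -/
theorem resβb (hW : IsAL M' q W) :
    ∀ g ∈ OMid hq A hA hζ M' hqM (IsLocalRing.residue A), ∃ c ∈ OZero h W,
      g - betaStar (inertiaField A) M' q c
        ∈ (OMid hq A hA hζ M' hqM (IsLocalRing.residue A)).nonunits := by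
  intro g hg
  obtain ⟨c, hc, hr⟩ := redZero_surjective h (resW0_surjective hq hA) W
    ⟨redMid hq A hA hζ M' hqM (IsLocalRing.residue A) ⟨g, hg⟩, hκ _⟩
  have hβc : heckeBetaBar (inertiaField A) (M' * q) q c
      ∈ OMid hq A hA hζ M' hqM (IsLocalRing.residue A) :=
    (beta_mem_OMid_iff hq A hA hζ M' hqM h hW c).mpr hc
  refine ⟨c, hc, ?_⟩
  have hmem : g - heckeBetaBar (inertiaField A) (M' * q) q c
      ∈ OMid hq A hA hζ M' hqM (IsLocalRing.residue A) := sub_mem hg hβc
  refine mem_nonunits_of_redMid_eq_zero hq A hA hζ M' hqM _ hmem ?_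
  show redMid hq A hA hζ M' hqM (IsLocalRing.residue A) (⟨g, hg⟩ - ⟨_, hβc⟩) = 0
  rw [RingHom.map_sub, redMid_beta hq A hA hζ M' hqM h hW c hc hβc, hr]
  exact sub_self _

omit h in
/-- **`NF.Data` over the inertia field from the count fields only**: `RestrictNF.dataK0_of_mid`
with `Ob := O_mid` and its four middle fields `αb`, `βb`, `resαb`, `resβb` filled in.  Remaining
inputs: `hκ` (values of `red_mid` in `κ`), the uniformiser `d` of `O_mid` with `ord_mid q = q - 1`,
and the four "exactly these valuations above" clauses. -/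
theorem dataK0_of_count
    {w : ALAut (inertiaField A) (M' * q) q} (hW : IsAL M' q W)
    (h0 : ∀ y, w (piStar0 (inertiaField A) M' q y) = piStar2 (inertiaField A) M' q y)
    (h1 : ∀ y, w (piStar1 (inertiaField A) M' q y) = piStar1 (inertiaField A) M' q y)
    (h2 : ∀ y, w (piStar2 (inertiaField A) M' q y) = piStar0 (inertiaField A) M' q y)
    (d : FK (inertiaField A) (M' * q * q))
    (hb : IsUnif (OMid hq A hA hζ M' hqM (IsLocalRing.residue A)) d)
    (ordb : hb.ord ((q : ℕ) : FK (inertiaField A) (M' * q * q)) = (q : ℤ) - 1)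
    (allαA : ∀ v : ValuationSubring ↥(FK (inertiaField A) (M' * q * q)),
      v.comap (alphaStar (inertiaField A) M' q) = OInf (badSetup_W0 hq hA M' hqM) →
        v = OInf3 (badSetup_W0 hq hA M' hqM)
          ∨ v = OMid hq A hA hζ M' hqM (IsLocalRing.residue A))
    (allαC : ∀ v : ValuationSubring ↥(FK (inertiaField A) (M' * q * q)),
      v.comap (alphaStar (inertiaField A) M' q) = OZero (badSetup_W0 hq hA M' hqM) W →
        v = OZ3 (badSetup_W0 hq hA M' hqM) w)
    (allβA : ∀ v : ValuationSubring ↥(FK (inertiaField A) (M' * q * q)),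
      v.comap (betaStar (inertiaField A) M' q) = OInf (badSetup_W0 hq hA M' hqM) →
        v = OInf3 (badSetup_W0 hq hA M' hqM))
    (allβC : ∀ v : ValuationSubring ↥(FK (inertiaField A) (M' * q * q)),
      v.comap (betaStar (inertiaField A) M' q) = OZero (badSetup_W0 hq hA M' hqM) W →
        v = OMid hq A hA hζ M' hqM (IsLocalRing.residue A)
          ∨ v = OZ3 (badSetup_W0 hq hA M' hqM) w) :
    NF.Data (alphaStar (inertiaField A) M' q) (betaStar (inertiaField A) M' q) q
      (OInf (badSetup_W0 hq hA M' hqM)) (OZero (badSetup_W0 hq hA M' hqM) W)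
      (OInf3 (badSetup_W0 hq hA M' hqM)) (OMid hq A hA hζ M' hqM (IsLocalRing.residue A))
      (OZ3 (badSetup_W0 hq hA M' hqM) w)
      ((q : ℕ) : FK (inertiaField A) (M' * q))
      ((q : ℕ) : FK (inertiaField A) (M' * q * q)) d :=
  dataK0_of_mid hq hA M' hqM hW h0 h1 h2 (OMid hq A hA hζ M' hqM (IsLocalRing.residue A)) d hb ordb
    (OMid_comap_alpha hq A hA hζ M' hqM (badSetup_W0 hq hA M' hqM))
    (OMid_comap_beta hq A hA hζ M' hqM (badSetup_W0 hq hA M' hqM) hW)
    allαA allαC allβA allβC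
    (resαb hq A hA hζ M' hqM (badSetup_W0 hq hA M' hqM) hκ)
    (resβb hq A hA hζ M' hqM (badSetup_W0 hq hA M' hqM) hκ hW)

end Inst

end Fermat.Agent.CAR.V3.MidRestrict

end
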