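import Mathlib
import Fermat.Agent.CAR.V3.MidRestrict

/-!
# CAR (V3-Mid): `ord_mid (q) = q - 1` and `NF.Data` over `K0` with `d := dMid`

* `ord_natCast` : for any proof `hb` that `dMid = J_2 - J_0` is a uniformiser of `O_mid`,
  `hb.ord (q : F) = q - 1` (the field `ordb` of `Formal.NF.Data`), from
  `MidRing.exists_natCast_eq_dMid_pow_mul`;
* `ord_natCast_isUnif_dMid` : the same for the proof `MidRing.isUnif_dMid`;
* `dataK0_of_all` : `MidRestrict.dataK0_of_count` with `d := dMid`, `hb := isUnif_dMid` and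
  `ordb` filled in: the remaining inputs are `hκ` and the four "exactly these valuations above"
  clauses.
-/

set_option autoImplicit false
set_option linter.unusedSectionVars false
set_option linter.style.haveILetI false

noncomputable section

namespace Fermat.Agent.CAR.V3.MidOrd

open ModularCurve HahnSeries Fermat.Agent.S24 Fermat.Agent.S28 Fermat.Agent.S28.Chain
  Fermat.Agent.Lib.Red Fermat.Agent.CAR.K0 Fermat.Agent.CAR.V3.GaussDVR
  Fermat.Agent.CAR.V3.MidRing Fermat.Agent.BAD.TwoVal Fermat.Agent.ESJ.Cong.LevelGen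
  Fermat.Agent.CAR.V3.RestrictNF Fermat.Agent.CAR.Formal Fermat.Agent.CAR.V3.MidRestrict

local notation "Qb" => AlgebraicClosure ℚ

section Gen

variable {q : ℕ} (hq : q.Prime) (A : ValuationSubring Qb) (hA : A.LiesOverPrime q)
  {ζ : Qb} (hζ : IsPrimitiveRoot ζ q) (M' : ℕ) [NeZero M'] [NeZero q] (hqM : ¬ q ∣ M')
  {k : Type*} [Field k] (π : A →+* k) (hπ : ∀ a : A, ¬ IsUnit a → π a = 0)

include hπ in
/-- **`ordb`**: `ord_mid (q) = q - 1`, for any proof that `dMid` is a uniformiser of `O_mid`. -/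
theorem ord_natCast (hb : IsUnif (OMid hq A hA hζ M' hqM π) (dMid A M' q)) :
    hb.ord ((q : ℕ) : FK (inertiaField A) (M' * q * q)) = (q : ℤ) - 1 := by
  obtain ⟨c, hc, hc', he⟩ := exists_natCast_eq_dMid_pow_mul hq A hA hζ M' hqM π hπ
  have hq0 : ((q : ℕ) : FK (inertiaField A) (M' * q * q)) ≠ 0 := by
    intro h0
    have := inv_natCast_notMem_OMid hq A hA hζ M' hqM π hπ
    rw [h0, inv_zero] at this
    exact this (OMid hq A hA hζ M' hqM π).zero_mem
  have hc0 : c ≠ 0 := by
    rintro rfl
    rw [mul_zero] at he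
    exact hq0 he
  refine hb.ord_eq hc hc' hc0 ?_
  rw [he]
  have e : ((q : ℤ) - 1) = ((q - 1 : ℕ) : ℤ) := by
    rw [Nat.cast_sub hq.one_le, Nat.cast_one]
  rw [e, zpow_natCast]

end Gen

section Inst

variable {q : ℕ} (hq : q.Prime) (A : ValuationSubring Qb) (hA : A.LiesOverPrime q)
  {ζ : Qb} (hζ : IsPrimitiveRoot ζ q) (M' : ℕ) [NeZero M'] [NeZero q] (hqM : ¬ q ∣ M')

/-- `dMid` is a uniformiser of `O_mid` (residue map `IsLocalRing.residue A`). -/
theorem isUnif_dMid_residue :
    IsUnif (OMid hq A hA hζ M' hqM (IsLocalRing.residue A)) (dMid A M' q) :=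
  isUnif_dMid hq A hA hζ M' hqM (IsLocalRing.residue A) (residue_eq_zero_of_not_isUnit A)

/-- **`ordb`** for `isUnif_dMid_residue`. -/
theorem ord_natCast_isUnif_dMid :
    (isUnif_dMid_residue hq A hA hζ M' hqM).ord ((q : ℕ) : FK (inertiaField A) (M' * q * q))
      = (q : ℤ) - 1 :=
  ord_natCast hq A hA hζ M' hqM (IsLocalRing.residue A) (residue_eq_zero_of_not_isUnit A) _

variable {W : ALAut (inertiaField A) M' q}

/-- **`NF.Data` over the inertia field with `d := dMid`**: `MidRestrict.dataK0_of_count` with the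
uniformiser `dMid` of `O_mid` and `ord_mid q = q - 1` filled in.  Remaining inputs: `hκ` (values
of `red_mid` in `κ`) and the four "exactly these valuations above" clauses. -/
theorem dataK0_of_all
    (hκ : ∀ f : OMid hq A hA hζ M' hqM (IsLocalRing.residue A),
      redMid hq A hA hζ M' hqM (IsLocalRing.residue A) f
        ∈ modularFunctionFieldFullC (IsLocalRing.ResidueField A) M')
    {w : ALAut (inertiaField A) (M' * q) q} (hW : IsAL M' q W)
    (h0 : ∀ y, w (piStar0 (inertiaField A) M' q y) = piStar2 (inertiaField A) M' q y)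
    (h1 : ∀ y, w (piStar1 (inertiaField A) M' q y) = piStar1 (inertiaField A) M' q y)
    (h2 : ∀ y, w (piStar2 (inertiaField A) M' q y) = piStar0 (inertiaField A) M' q y)
    (allαA : ∀ v : ValuationSubring ↥(FK (inertiaField A) (M' * q * q)),
      v.comap (alphaStar (inertiaField A) M' q) = OInf (badSetup_W0 hq hA M' hqM) →
        v = OInf3 (badSetup_W0 hq hA M' hqM)
          ∨ v = OMid hq A hA hζ M' hqM (IsLocalRing.residue A))
    (allαC : ∀ v : ValuationSubring ↥(FK (inertiaField A) (M' * q * q)),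
      v.comap (alphaStar (inertiaField A) M' q) = OZero (badSetup_W0 hq hA M' hqM) W →
        v = OZ3 (badSetup_W0 hq hA M' hqM) w)
    (allβA : ∀ v : ValuationSubring ↥(FK (inertiaField A) (M' * q * q)),
      v.comap (betaStar (inertiaField A) M' q) = OInf (badSetup_W0 hq hA M' hqM) →
        v = OInf3 (badSetup_W0 hq hA M' hqM))
    (allβC : ∀ v : ValuationSubring ↥(FK (inertiaField A) (M' * q * q)),
      v.comap (betaStar (inertiaField A) M' q) = OZero (badSetup_W0 hq hA M' hqM) W →
        v = OMid hq A hA hζ M' hqM (IsLocalRing.residue A)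
          ∨ v = OZ3 (badSetup_W0 hq hA M' hqM) w) :
    NF.Data (alphaStar (inertiaField A) M' q) (betaStar (inertiaField A) M' q) q
      (OInf (badSetup_W0 hq hA M' hqM)) (OZero (badSetup_W0 hq hA M' hqM) W)
      (OInf3 (badSetup_W0 hq hA M' hqM)) (OMid hq A hA hζ M' hqM (IsLocalRing.residue A))
      (OZ3 (badSetup_W0 hq hA M' hqM) w)
      ((q : ℕ) : FK (inertiaField A) (M' * q))
      ((q : ℕ) : FK (inertiaField A) (M' * q * q)) (dMid A M' q) :=
  dataK0_of_count hq A hA hζ M' hqM hκ hW h0 h1 h2 (dMid A M' q)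
    (isUnif_dMid_residue hq A hA hζ M' hqM) (ord_natCast_isUnif_dMid hq A hA hζ M' hqM)
    allαA allαC allβA allβC

end Inst

end Fermat.Agent.CAR.V3.MidOrd

end
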