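import Mathlib
import Fermat.Agent.CAR.V3.MidRestrict
import Fermat.Agent.CAR.V3.MidOrd
import Fermat.Agent.CAR.V3.Count
import Fermat.Agent.CAR.V3.Zero
import Fermat.Agent.CAR.V3.AL3

/-!
# CAR (V3): the four "exactly these valuations above" clauses of `NF.Data` from "exactly three"

`F_N = L · F_{M' q}`, `F = L · F_{M' q²}`, `α^*`, `β^* : F_N → F`, `O_∞`, `O_0` the two Gauss
valuation rings of `F_N`, `O_∞³`, `O_mid`, `O_0³ = w⁻¹(O_∞³)` the three valuation rings of `F`,
`W`, `w` Atkin–Lehner involutions of `F_N`, `F`.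

Input (`MidHyp`): the middle ring `OM` with an element `d` (`= J_2 - J_0`) which is a non-unit of
`OM`, a unit of `O_∞³` and satisfies `w d = -d`; the comaps of `OM` along `α^*`, `β^*`, `π_2^*`;
and **"exactly three"** (`ex`): every valuation subring of `F` above the Gauss valuation ring of
level `M'` along `π_0^*` is `O_∞³`, `OM` or `O_0³` (the literal conclusion of
`Count.eq_of_isAbove3`).

Output: `w⁻¹(OM) = OM` (`MidHyp.comap_w`) and the four clauses `allαA`, `allαC`, `allβA`, `allβC`
of `Formal.NF.Data` in the literal shapes of `NormInst.nfData_of` / `RestrictNF.dataK0_of_mid` —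
without any degree-`q` count.

Instance over the inertia field `K0` (with "exactly three" := `Count.eq_of_isAbove3_K0` and
`hκ := Count.redMid_mem_fullC`): `midHyp_K0`, `OMid_comap_w`, `allαA_K0`, `allαC_K0`, `allβA_K0`,
`allβC_K0`, and the unconditional record **`nfDataK0`** / **`exists_nfDataK0`**
(`Formal.NF.Data` over `K0` with `d := dMid`, no hypothesis left besides `IsAL`, `IsAL3`).
-/

set_option autoImplicit false
set_option linter.unusedSectionVars false
set_option linter.style.haveILetI false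

noncomputable section

namespace Fermat.Agent.CAR.V3.MidAll

open ModularCurve HahnSeries Fermat.Agent.S24 Fermat.Agent.S28 Fermat.Agent.Lib.Red
  Fermat.Agent.BAD.TwoVal Fermat.Agent.ESJ.Cong.LevelGen Fermat.Agent.CAR.V3
  Fermat.Agent.CAR.V3.RestrictNF Fermat.Agent.CAR.Formal

/-! ### Generic part -/

section Generic

variable {L : Type} [Field L] [Algebra ℚ L] {A : ValuationSubring L} {k : Type} [Field k]
  {π : A →+* k} {M' q : ℕ} [NeZero M'] [NeZero q]
  {W : laurentBaseChange L (modularFunctionFieldFull (M' * q)) ≃ₐ[L]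
    laurentBaseChange L (modularFunctionFieldFull (M' * q))}
  {w : laurentBaseChange L (modularFunctionFieldFull (M' * q * q)) ≃ₐ[L]
    laurentBaseChange L (modularFunctionFieldFull (M' * q * q))}

/-- `w` as a ring homomorphism (elaborated once for a generic constant field `L`, so that it can
be written over the inertia field without resynthesising the `L`-algebra structure). -/
abbrev wHom (L : Type) [Field L] [Algebra ℚ L] (M' q : ℕ) [NeZero M'] [NeZero q]
    (w : laurentBaseChange L (modularFunctionFieldFull (M' * q * q)) ≃ₐ[L]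
      laurentBaseChange L (modularFunctionFieldFull (M' * q * q))) :
    ↥(laurentBaseChange L (modularFunctionFieldFull (M' * q * q))) →+*
      ↥(laurentBaseChange L (modularFunctionFieldFull (M' * q * q))) :=
  w.toRingEquiv.toRingHom

/-- A nonzero element whose inverse lies in a valuation subring is not a non-unit. -/
theorem notMem_nonunits_of_inv_mem {K : Type*} [Field K] (V : ValuationSubring K) {x : K}
    (hx0 : x ≠ 0) (hinv : x⁻¹ ∈ V) : x ∉ V.nonunits := by
  intro hx
  have h1 : x⁻¹ * x ∈ V.nonunits := mul_mem_nonunits V hinv hx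
  rw [inv_mul_cancel₀ hx0, ValuationSubring.mem_nonunits_iff, map_one] at h1
  exact lt_irrefl _ h1

theorem neg_mem_nonunits_iff {K : Type*} [Field K] (V : ValuationSubring K) {x : K} :
    -x ∈ V.nonunits ↔ x ∈ V.nonunits := by
  rw [ValuationSubring.mem_nonunits_iff, ValuationSubring.mem_nonunits_iff, Valuation.map_neg]

theorem algEquiv_toRingHom_apply {R B C : Type*} [CommSemiring R] [Semiring B] [Semiring C]
    [Algebra R B] [Algebra R C] (e : B ≃ₐ[R] C) (z : B) : e.toRingEquiv.toRingHom z = e z := rfl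

theorem algHom_toRingHom_apply {R B C : Type*} [CommSemiring R] [Semiring B] [Semiring C]
    [Algebra R B] [Algebra R C] (e : B →ₐ[R] C) (z : B) : e.toRingHom z = e z := rfl

/-- Membership in `w⁻¹(V)`. -/
theorem mem_comap_w_iff
    (V : ValuationSubring ↥(laurentBaseChange L (modularFunctionFieldFull (M' * q * q))))
    (z : ↥(laurentBaseChange L (modularFunctionFieldFull (M' * q * q)))) :
    z ∈ V.comap w.toRingEquiv.toRingHom ↔ w z ∈ V := by
  rw [ValuationSubring.mem_comap, algEquiv_toRingHom_apply]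

/-- Non-units of `w⁻¹(V)`. -/
theorem mem_nonunits_comap_w_iff
    (V : ValuationSubring ↥(laurentBaseChange L (modularFunctionFieldFull (M' * q * q))))
    (z : ↥(laurentBaseChange L (modularFunctionFieldFull (M' * q * q)))) :
    z ∈ (V.comap w.toRingEquiv.toRingHom).nonunits ↔ w z ∈ V.nonunits := by
  rw [mem_nonunits_comap_iff, algEquiv_toRingHom_apply]

/-- Membership of `π_0^* x` in `α^*⁻¹`. -/
theorem alpha_mem_comap_alpha_iff
    (V : ValuationSubring ↥(laurentBaseChange L (modularFunctionFieldFull (M' * q * q))))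
    (x : ↥(laurentBaseChange L (modularFunctionFieldFull M'))) :
    heckeAlphaBar L M' q x ∈ V.comap (alphaStar L M' q) ↔ piStar0 L M' q x ∈ V := by
  rw [ValuationSubring.mem_comap, algHom_toRingHom_apply, piStar0_apply]

/-- Membership of `π_2^* x` in `β^*⁻¹`. -/
theorem beta_mem_comap_beta_iff
    (V : ValuationSubring ↥(laurentBaseChange L (modularFunctionFieldFull (M' * q * q))))
    (x : ↥(laurentBaseChange L (modularFunctionFieldFull M'))) :
    heckeBetaBar L M' q x ∈ V.comap (betaStar L M' q) ↔ piStar2 L M' q x ∈ V := by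
  rw [ValuationSubring.mem_comap, algHom_toRingHom_apply, piStar2_apply]

/-- `w⁻¹(w⁻¹(V)) = V` for an Atkin–Lehner involution `w` of `F_{M'q²}`. -/
theorem comap_comap_w (hw : IsAL3 M' q w) (hq : q.Prime) (hqM : ¬ q ∣ M')
    (V : ValuationSubring ↥(laurentBaseChange L (modularFunctionFieldFull (M' * q * q)))) :
    (V.comap w.toRingEquiv.toRingHom).comap w.toRingEquiv.toRingHom = V := by
  apply MidRestrict.comap_eq_of_forall
  intro z
  rw [mem_comap_w_iff, algEquiv_toRingHom_apply, hw.invol hq hqM]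

/-- `w (π_2^* x - π_0^* x) = -(π_2^* x - π_0^* x)`. -/
theorem w_piStar2_sub_piStar0 (hw : IsAL3 M' q w)
    (x : ↥(laurentBaseChange L (modularFunctionFieldFull M'))) :
    w (piStar2 L M' q x - piStar0 L M' q x) = -(piStar2 L M' q x - piStar0 L M' q x) := by
  rw [map_sub, hw.pi2, hw.pi0, neg_sub]

/-- `O_0³` in the two spellings. -/
theorem OZero3_eq_OZ3 (h : BadSetup A π M' q) : OZero3 h w = OZ3 h w := rfl

/-- The hypotheses on the middle valuation ring. -/
structure MidHyp (h : BadSetup A π M' q)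
    (W : laurentBaseChange L (modularFunctionFieldFull (M' * q)) ≃ₐ[L]
      laurentBaseChange L (modularFunctionFieldFull (M' * q)))
    (w : laurentBaseChange L (modularFunctionFieldFull (M' * q * q)) ≃ₐ[L]
      laurentBaseChange L (modularFunctionFieldFull (M' * q * q)))
    (OM : ValuationSubring ↥(laurentBaseChange L (modularFunctionFieldFull (M' * q * q))))
    (d : ↥(laurentBaseChange L (modularFunctionFieldFull (M' * q * q)))) : Prop where
  /-- `d ≠ 0`. -/
  d_ne : d ≠ 0
  /-- `d` is a non-unit of the middle ring. -/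
  d_mem : d ∈ OM.nonunits
  /-- `d⁻¹ ∈ O_∞³` (`d` is a unit of `O_∞³`). -/
  d_inf : d⁻¹ ∈ OInf3 h
  /-- `w d = -d` (`d = J_2 - J_0`). -/
  w_d : w d = -d
  /-- `α^*⁻¹(OM) = O_∞`. -/
  αM : OM.comap (alphaStar L M' q) = OInf h
  /-- `β^*⁻¹(OM) = O_0`. -/
  βM : OM.comap (betaStar L M' q) = OZero h W
  /-- `π_2^*⁻¹(OM)` is the Gauss valuation ring of level `M'`. -/
  p2M : ∀ x, piStar2 L M' q x ∈ OM ↔ x ∈ Ow A π M' h.hMk
  /-- "exactly three" above the Gauss valuation ring of level `M'` along `π_0^*`. -/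
  ex : ∀ V' : ValuationSubring ↥(laurentBaseChange L (modularFunctionFieldFull (M' * q * q))),
    (∀ x, piStar0 L M' q x ∈ V' ↔ x ∈ Ow A π M' h.hMk) →
      V' = OInf3 h ∨ V' = OM ∨ V' = OZero3 h w

namespace MidHyp

variable {h : BadSetup A π M' q}
  {OM : ValuationSubring ↥(laurentBaseChange L (modularFunctionFieldFull (M' * q * q)))}
  {d : ↥(laurentBaseChange L (modularFunctionFieldFull (M' * q * q)))}

/-- `d` is not a non-unit of `O_∞³`. -/
theorem d_notMem_inf (H : MidHyp h W w OM d) : d ∉ (OInf3 h).nonunits :=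
  notMem_nonunits_of_inv_mem _ H.d_ne H.d_inf

/-- `d` is not a non-unit of `O_0³`. -/
theorem d_notMem_zero (H : MidHyp h W w OM d) : d ∉ (OZ3 h w).nonunits := by
  intro hd
  rw [mem_nonunits_comap_w_iff, H.w_d, neg_mem_nonunits_iff] at hd
  exact H.d_notMem_inf hd

/-- `d` is a non-unit of `w⁻¹(O_mid)`. -/
theorem d_mem_comap_w (H : MidHyp h W w OM d) :
    d ∈ (OM.comap w.toRingEquiv.toRingHom).nonunits := by
  rw [mem_nonunits_comap_w_iff, H.w_d, neg_mem_nonunits_iff]
  exact H.d_mem

/-- `w⁻¹(O_mid)` lies above the Gauss valuation ring of level `M'` along `π_0^*`. -/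
theorem above_comap_w (H : MidHyp h W w OM d) (hw : IsAL3 M' q w) :
    ∀ x, piStar0 L M' q x ∈ OM.comap w.toRingEquiv.toRingHom ↔ x ∈ Ow A π M' h.hMk := by
  intro x
  rw [mem_comap_w_iff, hw.pi0]
  exact H.p2M x

/-- **`w⁻¹(O_mid) = O_mid`.** -/
theorem comap_w (H : MidHyp h W w OM d) (hw : IsAL3 M' q w) :
    OM.comap w.toRingEquiv.toRingHom = OM := by
  have hd := H.d_mem_comap_w
  rcases H.ex _ (H.above_comap_w hw) with h1 | h1 | h1
  · exfalso
    rw [h1] at hd
    exact H.d_notMem_inf hd
  · exact h1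
  · exfalso
    rw [h1, OZero3_eq_OZ3] at hd
    exact H.d_notMem_zero hd

/-- A valuation subring above `O_∞` or `O_0` along `α^*` is above the Gauss ring along
`π_0^*`. -/
theorem above_of_alpha_inf
    (v : ValuationSubring ↥(laurentBaseChange L (modularFunctionFieldFull (M' * q * q))))
    (hv : v.comap (alphaStar L M' q) = OInf h) :
    ∀ x, piStar0 L M' q x ∈ v ↔ x ∈ Ow A π M' h.hMk := by
  intro x
  rw [← alpha_mem_comap_alpha_iff, hv]
  exact heckeAlphaBar_mem_OInf_iff h x

theorem above_of_alpha_zero (hW : IsAL M' q W)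
    (v : ValuationSubring ↥(laurentBaseChange L (modularFunctionFieldFull (M' * q * q))))
    (hv : v.comap (alphaStar L M' q) = OZero h W) :
    ∀ x, piStar0 L M' q x ∈ v ↔ x ∈ Ow A π M' h.hMk := by
  intro x
  rw [← alpha_mem_comap_alpha_iff, hv]
  exact heckeAlphaBar_mem_OZero_iff h hW x

theorem above_of_beta_inf (hw : IsAL3 M' q w)
    (v : ValuationSubring ↥(laurentBaseChange L (modularFunctionFieldFull (M' * q * q))))
    (hv : v.comap (betaStar L M' q) = OInf h) :
    ∀ x, piStar0 L M' q x ∈ v.comap w.toRingEquiv.toRingHom ↔ x ∈ Ow A π M' h.hMk := by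
  intro x
  rw [mem_comap_w_iff, hw.pi0, ← beta_mem_comap_beta_iff, hv]
  exact heckeBetaBar_mem_OInf_iff h x

theorem above_of_beta_zero (hW : IsAL M' q W) (hw : IsAL3 M' q w)
    (v : ValuationSubring ↥(laurentBaseChange L (modularFunctionFieldFull (M' * q * q))))
    (hv : v.comap (betaStar L M' q) = OZero h W) :
    ∀ x, piStar0 L M' q x ∈ v.comap w.toRingEquiv.toRingHom ↔ x ∈ Ow A π M' h.hMk := by
  intro x
  rw [mem_comap_w_iff, hw.pi0, ← beta_mem_comap_beta_iff, hv]
  exact heckeBetaBar_mem_OZero_iff h hW x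

/-- **`allαA`**: a valuation subring of `F` above `O_∞` along `α^*` is `O_∞³` or `O_mid`. -/
theorem allαA (H : MidHyp h W w OM d) (hW : IsAL M' q W) (hw : IsAL3 M' q w) :
    ∀ v : ValuationSubring ↥(laurentBaseChange L (modularFunctionFieldFull (M' * q * q))),
      v.comap (alphaStar L M' q) = OInf h → v = OInf3 h ∨ v = OM := by
  intro v hv
  rcases H.ex v (above_of_alpha_inf v hv) with h1 | h1 | h1
  · exact Or.inl h1
  · exact Or.inr h1
  · exfalso
    rw [h1, OZero3_eq_OZ3, αc h hW hw.pi0 hw.pi1] at hv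
    exact hAC h hW hv.symm

/-- **`allαC`**: a valuation subring of `F` above `O_0` along `α^*` is `O_0³`. -/
theorem allαC (H : MidHyp h W w OM d) (hW : IsAL M' q W) :
    ∀ v : ValuationSubring ↥(laurentBaseChange L (modularFunctionFieldFull (M' * q * q))),
      v.comap (alphaStar L M' q) = OZero h W → v = OZ3 h w := by
  intro v hv
  rcases H.ex v (above_of_alpha_zero hW v hv) with h1 | h1 | h1
  · exfalso
    rw [h1, αa h] at hv
    exact hAC h hW hv
  · exfalso
    rw [h1, H.αM] at hv
    exact hAC h hW hv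
  · rw [h1, OZero3_eq_OZ3]

/-- **`allβA`**: a valuation subring of `F` above `O_∞` along `β^*` is `O_∞³`. -/
theorem allβA (H : MidHyp h W w OM d) (hW : IsAL M' q W) (hw : IsAL3 M' q w) :
    ∀ v : ValuationSubring ↥(laurentBaseChange L (modularFunctionFieldFull (M' * q * q))),
      v.comap (betaStar L M' q) = OInf h → v = OInf3 h := by
  intro v hv
  have hq : q.Prime := h.hℓ
  have hqM : ¬ q ∣ M' := h.not_dvd
  have hv' : (v.comap w.toRingEquiv.toRingHom).comap w.toRingEquiv.toRingHom = v :=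
    comap_comap_w hw hq hqM v
  rcases H.ex _ (above_of_beta_inf hw v hv) with h1 | h1 | h1
  · exfalso
    rw [h1] at hv'
    rw [← hv', βc h hW hw.pi1 hw.pi2] at hv
    exact hAC h hW hv.symm
  · exfalso
    rw [h1, H.comap_w hw] at hv'
    rw [← hv', H.βM] at hv
    exact hAC h hW hv.symm
  · rw [h1, OZero3_eq_OZ3, comap_comap_w hw hq hqM (OInf3 h)] at hv'
    exact hv'.symm

/-- **`allβC`**: a valuation subring of `F` above `O_0` along `β^*` is `O_mid` or `O_0³`. -/
theorem allβC (H : MidHyp h W w OM d) (hW : IsAL M' q W) (hw : IsAL3 M' q w) :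
    ∀ v : ValuationSubring ↥(laurentBaseChange L (modularFunctionFieldFull (M' * q * q))),
      v.comap (betaStar L M' q) = OZero h W → v = OM ∨ v = OZ3 h w := by
  intro v hv
  have hq : q.Prime := h.hℓ
  have hqM : ¬ q ∣ M' := h.not_dvd
  have hv' : (v.comap w.toRingEquiv.toRingHom).comap w.toRingEquiv.toRingHom = v :=
    comap_comap_w hw hq hqM v
  rcases H.ex _ (above_of_beta_zero hW hw v hv) with h1 | h1 | h1
  · rw [h1] at hv'
    exact Or.inr hv'.symm
  · rw [h1, H.comap_w hw] at hv'
    exact Or.inl hv'.symm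
  · exfalso
    rw [h1, OZero3_eq_OZ3, comap_comap_w hw hq hqM (OInf3 h)] at hv'
    rw [← hv', βa h] at hv
    exact hAC h hW hv

end MidHyp

end Generic

/-! ### The instance over the inertia field -/

section K0Inst

open Fermat.Agent.CAR.K0 Fermat.Agent.CAR.V3.MidRing Fermat.Agent.CAR.V3.MidRestrict

local notation "Qb" => AlgebraicClosure ℚ

variable {q : ℕ} (hq : q.Prime) (A : ValuationSubring Qb) (hA : A.LiesOverPrime q)
  {ζ : Qb} (hζ : IsPrimitiveRoot ζ q) (M' : ℕ) [NeZero M'] [NeZero q] (hqM : ¬ q ∣ M')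
  {W : ALAut (inertiaField A) M' q} {w : ALAut (inertiaField A) (M' * q) q}

/-- `w d = -d` for `d = π_2^* J - π_0^* J`. -/
theorem w_dMid (hw : IsAL3 M' q w) : w (dMid A M' q) = -dMid A M' q := by
  rw [Count.dMid_eq]
  exact w_piStar2_sub_piStar0 hw _

/-- **The hypotheses `MidHyp` hold over the inertia field** (`O_mid = MidRing.OMid`,
`d = dMid`), "exactly three" being `Count.eq_of_isAbove3_K0`. -/
theorem midHyp_K0 (hW : IsAL M' q W) (hw : IsAL3 M' q w) :
    MidHyp (badSetup_W0 hq hA M' hqM) W w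
      (OMid hq A hA hζ M' hqM (IsLocalRing.residue A)) (dMid A M' q) where
  d_ne := dMid_ne_zero hq A hA hζ M' hqM (IsLocalRing.residue A)
    (residue_eq_zero_of_not_isUnit A)
  d_mem := dMid_mem_nonunits_OMid hq A hA hζ M' hqM (IsLocalRing.residue A)
    (residue_eq_zero_of_not_isUnit A)
  d_inf := inv_dMid_mem_OInf3 A M' _
  w_d := w_dMid A M' hw
  αM := OMid_comap_alpha hq A hA hζ M' hqM _
  βM := OMid_comap_beta hq A hA hζ M' hqM _ hW
  p2M := fun x => piStar2_mem_OMid_iff hq A hA hζ M' hqM _ x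
  ex := fun V' hV' => Count.eq_of_isAbove3_K0 hq A hA hζ M' hqM hw V' hV'

/-- **`w⁻¹(O_mid) = O_mid`** over the inertia field. -/
theorem OMid_comap_w (hW : IsAL M' q W) (hw : IsAL3 M' q w) :
    (OMid hq A hA hζ M' hqM (IsLocalRing.residue A)).comap
        (wHom (inertiaField A) M' q w)
      = OMid hq A hA hζ M' hqM (IsLocalRing.residue A) :=
  (midHyp_K0 hq A hA hζ M' hqM hW hw).comap_w hw

/-- **`allαA`** over the inertia field. -/
theorem allαA_K0 (hW : IsAL M' q W) (hw : IsAL3 M' q w) :
    ∀ v : ValuationSubring ↥(FK (inertiaField A) (M' * q * q)),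
      v.comap (alphaStar (inertiaField A) M' q) = OInf (badSetup_W0 hq hA M' hqM) →
        v = OInf3 (badSetup_W0 hq hA M' hqM)
          ∨ v = OMid hq A hA hζ M' hqM (IsLocalRing.residue A) :=
  (midHyp_K0 hq A hA hζ M' hqM hW hw).allαA hW hw

include hζ in
/-- **`allαC`** over the inertia field. -/
theorem allαC_K0 (hW : IsAL M' q W) (hw : IsAL3 M' q w) :
    ∀ v : ValuationSubring ↥(FK (inertiaField A) (M' * q * q)),
      v.comap (alphaStar (inertiaField A) M' q) = OZero (badSetup_W0 hq hA M' hqM) W →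
        v = OZ3 (badSetup_W0 hq hA M' hqM) w :=
  (midHyp_K0 hq A hA hζ M' hqM hW hw).allαC hW

include hζ in
/-- **`allβA`** over the inertia field. -/
theorem allβA_K0 (hW : IsAL M' q W) (hw : IsAL3 M' q w) :
    ∀ v : ValuationSubring ↥(FK (inertiaField A) (M' * q * q)),
      v.comap (betaStar (inertiaField A) M' q) = OInf (badSetup_W0 hq hA M' hqM) →
        v = OInf3 (badSetup_W0 hq hA M' hqM) :=
  (midHyp_K0 hq A hA hζ M' hqM hW hw).allβA hW hw

/-- **`allβC`** over the inertia field. -/
theorem allβC_K0 (hW : IsAL M' q W) (hw : IsAL3 M' q w) :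
    ∀ v : ValuationSubring ↥(FK (inertiaField A) (M' * q * q)),
      v.comap (betaStar (inertiaField A) M' q) = OZero (badSetup_W0 hq hA M' hqM) W →
        v = OMid hq A hA hζ M' hqM (IsLocalRing.residue A)
          ∨ v = OZ3 (badSetup_W0 hq hA M' hqM) w :=
  (midHyp_K0 hq A hA hζ M' hqM hW hw).allβC hW hw

/-- **`NF.Data` over the inertia field, unconditionally** (for Atkin–Lehner involutions `W`, `w`
of levels `M' q`, `M' q²`): `MidOrd.dataK0_of_all` with `hκ := Count.redMid_mem_fullC` and the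
four clauses above. -/
theorem nfDataK0 (hW : IsAL M' q W) (hw : IsAL3 M' q w) :
    NF.Data (alphaStar (inertiaField A) M' q) (betaStar (inertiaField A) M' q) q
      (OInf (badSetup_W0 hq hA M' hqM)) (OZero (badSetup_W0 hq hA M' hqM) W)
      (OInf3 (badSetup_W0 hq hA M' hqM)) (OMid hq A hA hζ M' hqM (IsLocalRing.residue A))
      (OZ3 (badSetup_W0 hq hA M' hqM) w)
      ((q : ℕ) : FK (inertiaField A) (M' * q))
      ((q : ℕ) : FK (inertiaField A) (M' * q * q)) (dMid A M' q) :=
  MidOrd.dataK0_of_all hq A hA hζ M' hqM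
    (fun f => Count.redMid_mem_fullC hq A hA hζ M' hqM f) hW hw.pi0 hw.pi1 hw.pi2
    (allαA_K0 hq A hA hζ M' hqM hW hw) (allαC_K0 hq A hA hζ M' hqM hW hw)
    (allβA_K0 hq A hA hζ M' hqM hW hw) (allβC_K0 hq A hA hζ M' hqM hW hw)

/-- **`NF.Data` over the inertia field exists** (with the Atkin–Lehner involutions chosen). -/
theorem exists_nfDataK0 :
    ∃ (W : ALAut (inertiaField A) M' q) (w : ALAut (inertiaField A) (M' * q) q),
      IsAL M' q W ∧ IsAL3 M' q w ∧
      NF.Data (alphaStar (inertiaField A) M' q) (betaStar (inertiaField A) M' q) q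
        (OInf (badSetup_W0 hq hA M' hqM)) (OZero (badSetup_W0 hq hA M' hqM) W)
        (OInf3 (badSetup_W0 hq hA M' hqM)) (OMid hq A hA hζ M' hqM (IsLocalRing.residue A))
        (OZ3 (badSetup_W0 hq hA M' hqM) w)
        ((q : ℕ) : FK (inertiaField A) (M' * q))
        ((q : ℕ) : FK (inertiaField A) (M' * q * q)) (dMid A M' q) := by
  obtain ⟨W, hW⟩ := AL3.exists_isAL_of_charZero (L := ↥(inertiaField A)) M' q hq hqM
  obtain ⟨w, hw⟩ := exists_isAL3 (L := ↥(inertiaField A)) M' q hq hqM
  exact ⟨W, w, hW, hw, nfDataK0 hq A hA hζ M' hqM hW hw⟩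

end K0Inst

end Fermat.Agent.CAR.V3.MidAll

end
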