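/-
CAR / V3 (RestrictZero): the `0`-side statements of `Restrict.lean` / `RestrictNF.lean` in the
literal vocabulary of `Zero.lean` (`IsAL3`, `OZero3`, `redZero3`).

For `h : BadSetup A π M' q`, `hW : IsAL M' q W` (level `M' q`), `hw : IsAL3 M' q w` (level
`M' q²`), `α^* = heckeAlphaBar L (M' * q) q`, `β^* = heckeBetaBar L (M' * q) q`:

* `IsAL3.alpha`, `IsAL3.beta` : `w ∘ α^* = β^* ∘ W`, `w ∘ β^* = α^* ∘ W`;
* `isUnif_OZero3` : `O_0³` is discrete with the uniformiser of `A`;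
* `(α^*)⁻¹(O_0³) = O_0 = (β^*)⁻¹(O_0³)`, `ρ_0 ∘ α^* = ψ ∘ r_0`, `ρ_0 ∘ β^* = r_0`;
* `data_of_mid`, `dataK0_of_mid` : `NF.Data` with `Oc = OZero3 h w`.
-/
import Mathlib
import Fermat.Agent.CAR.V3.Zero
import Fermat.Agent.CAR.V3.RestrictNF

set_option autoImplicit false
set_option linter.style.haveILetI false

namespace Fermat.Agent.CAR.V3.RestrictZero

open HahnSeries ModularCurve Polynomial AlgebraicCurve Fermat.Agent.Lib.Red Fermat.Agent.S28
open Fermat.Agent.ESJ.Cong.LevelGen Fermat.Agent.BAD.TwoVal Fermat.Agent.CAR.Formal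
open Fermat.Agent.CAR.V3 Fermat.Agent.CAR.V3.Restrict Fermat.Agent.CAR.V3.RestrictNF

noncomputable section

section

variable {L : Type*} [Field L] [Algebra ℚ L] {A : ValuationSubring L} {k : Type} [Field k]
  {π : A →+* k} {M' q : ℕ} [NeZero M'] [NeZero q]
  {W : laurentBaseChange L (modularFunctionFieldFull (M' * q)) ≃ₐ[L]
    laurentBaseChange L (modularFunctionFieldFull (M' * q))}
  {w : laurentBaseChange L (modularFunctionFieldFull (M' * q * q)) ≃ₐ[L]
    laurentBaseChange L (modularFunctionFieldFull (M' * q * q))}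

/-- `w ∘ α^* = β^* ∘ W`. -/
theorem IsAL3.alpha (hw : IsAL3 M' q w) (hW : IsAL M' q W) (hq : q.Prime) (hqM : ¬ q ∣ M')
    (x : laurentBaseChange L (modularFunctionFieldFull (M' * q))) :
    w (heckeAlphaBar L (M' * q) q x) = heckeBetaBar L (M' * q) q (W x) :=
  w_alpha hW hw.pi0 hw.pi1 hq hqM x

/-- `w ∘ β^* = α^* ∘ W`. -/
theorem IsAL3.beta (hw : IsAL3 M' q w) (hW : IsAL M' q W) (hq : q.Prime) (hqM : ¬ q ∣ M')
    (x : laurentBaseChange L (modularFunctionFieldFull (M' * q))) :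
    w (heckeBetaBar L (M' * q) q x) = heckeAlphaBar L (M' * q) q (W x) :=
  w_beta hW hw.pi1 hw.pi2 hq hqM x

/-- `O_0³` is discrete, with the uniformiser of `A`. -/
theorem isUnif_OZero3 (h : BadSetup A π M' q)
    (w : laurentBaseChange L (modularFunctionFieldFull (M' * q * q)) ≃ₐ[L]
      laurentBaseChange L (modularFunctionFieldFull (M' * q * q))) {ϖ : L} (hA : IsUnif A ϖ) :
    IsUnif (OZero3 h w)
      (algebraMap L ↥(laurentBaseChange L (modularFunctionFieldFull (M' * q * q))) ϖ) :=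
  isUnif_comap_OInf3 h w hA

theorem isUnif_OZero3_natCast (h : BadSetup A π M' q)
    (w : laurentBaseChange L (modularFunctionFieldFull (M' * q * q)) ≃ₐ[L]
      laurentBaseChange L (modularFunctionFieldFull (M' * q * q))) (n : ℕ)
    (hA : IsUnif A (n : L)) :
    IsUnif (OZero3 h w)
      ((n : ℕ) : ↥(laurentBaseChange L (modularFunctionFieldFull (M' * q * q)))) :=
  isUnif_comap_OInf3_natCast h w n hA

/-- `(α^*)⁻¹(O_0³) = O_0`. -/
theorem heckeAlphaBar_mem_OZero3_iff (h : BadSetup A π M' q) (hW : IsAL M' q W)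
    (hw : IsAL3 M' q w) (x : laurentBaseChange L (modularFunctionFieldFull (M' * q))) :
    heckeAlphaBar L (M' * q) q x ∈ OZero3 h w ↔ x ∈ OZero h W :=
  w_alpha_mem_OInf3_iff h hW hw.pi0 hw.pi1 x

/-- `(β^*)⁻¹(O_0³) = O_0`. -/
theorem heckeBetaBar_mem_OZero3_iff (h : BadSetup A π M' q) (hW : IsAL M' q W)
    (hw : IsAL3 M' q w) (x : laurentBaseChange L (modularFunctionFieldFull (M' * q))) :
    heckeBetaBar L (M' * q) q x ∈ OZero3 h w ↔ x ∈ OZero h W :=
  w_beta_mem_OInf3_iff h hW hw.pi1 hw.pi2 x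

theorem comap_alpha_OZero3 (h : BadSetup A π M' q) (hW : IsAL M' q W) (hw : IsAL3 M' q w) :
    (OZero3 h w).comap (heckeAlphaBar L (M' * q) q).toRingHom = OZero h W :=
  comap_alpha_comap_OInf3 h hW hw.pi0 hw.pi1

theorem comap_beta_OZero3 (h : BadSetup A π M' q) (hW : IsAL M' q W) (hw : IsAL3 M' q w) :
    (OZero3 h w).comap (heckeBetaBar L (M' * q) q).toRingHom = OZero h W :=
  comap_beta_comap_OInf3 h hW hw.pi1 hw.pi2

/-- `ρ_0 ∘ α^* = (q ↦ q^q) ∘ r_0`. -/
theorem coe_redZero3_heckeAlphaBar (h : BadSetup A π M' q) (hW : IsAL M' q W)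
    (hw : IsAL3 M' q w) (x : laurentBaseChange L (modularFunctionFieldFull (M' * q)))
    (hx : x ∈ OZero h W) (hx' : heckeAlphaBar L (M' * q) q x ∈ OZero3 h w) :
    ((redZero3 h w ⟨heckeAlphaBar L (M' * q) q x, hx'⟩ : modularFunctionFieldFullC k M') :
      LaurentSeries k) =
      qExpand k q ((redZero h W ⟨x, hx⟩ : modularFunctionFieldFullC k M') : LaurentSeries k) :=
  coe_redInf3_w_alpha h hW hw.pi0 hw.pi1 x hx hx'

/-- `ρ_0 ∘ β^* = r_0`. -/
theorem redZero3_heckeBetaBar (h : BadSetup A π M' q) (hW : IsAL M' q W)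
    (hw : IsAL3 M' q w) (x : laurentBaseChange L (modularFunctionFieldFull (M' * q)))
    (hx : x ∈ OZero h W) (hx' : heckeBetaBar L (M' * q) q x ∈ OZero3 h w) :
    redZero3 h w ⟨heckeBetaBar L (M' * q) q x, hx'⟩ = redZero h W ⟨x, hx⟩ :=
  redInf3_w_beta h hW hw.pi1 hw.pi2 x hx hx'

/-- `ρ_0 ∘ α^* = ψ ∘ r_0` with `ψ = FrobAut.vHom k q M'` (perfect `k`). -/
theorem redZero3_heckeAlphaBar_vHom [Fact q.Prime] [CharP k q] [PerfectRing k q]
    (h : BadSetup A π M' q) (hW : IsAL M' q W)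
    (hw : IsAL3 M' q w) (x : laurentBaseChange L (modularFunctionFieldFull (M' * q)))
    (hx : x ∈ OZero h W) (hx' : heckeAlphaBar L (M' * q) q x ∈ OZero3 h w) :
    redZero3 h w ⟨heckeAlphaBar L (M' * q) q x, hx'⟩ =
      Fermat.Agent.ESJ.Cong.FrobAut.vHom k q M' (redZero h W ⟨x, hx⟩) :=
  redInf3_w_alpha_vHom h hW hw.pi0 hw.pi1 x hx hx'

end

section NF

variable {L : Type} [Field L] [Algebra ℚ L] {A : ValuationSubring L} {k : Type} [Field k]
  {π : A →+* k} {M' q : ℕ} [NeZero M'] [NeZero q]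
  {W : laurentBaseChange L (modularFunctionFieldFull (M' * q)) ≃ₐ[L]
    laurentBaseChange L (modularFunctionFieldFull (M' * q))}
  {w : laurentBaseChange L (modularFunctionFieldFull (M' * q * q)) ≃ₐ[L]
    laurentBaseChange L (modularFunctionFieldFull (M' * q * q))}

/-- **`NF.Data` from the middle valuation ring and the counts**, with `Oc = OZero3 h w`. -/
theorem data_of_mid (h : BadSetup A π M' q) (hsurj : Function.Surjective π)
    (hperf : ∀ x : k, ∃ y : k, y ^ q = x) (hAq : IsUnif A (q : L)) (hW : IsAL M' q W)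
    (hw : IsAL3 M' q w)
    (Ob : ValuationSubring ↥(laurentBaseChange L (modularFunctionFieldFull (M' * q * q))))
    (d : ↥(laurentBaseChange L (modularFunctionFieldFull (M' * q * q))))
    (hb : IsUnif Ob d)
    (ordb : hb.ord ((q : ℕ) : ↥(laurentBaseChange L (modularFunctionFieldFull (M' * q * q))))
      = (q : ℤ) - 1)
    (αb : Ob.comap (alphaStar L M' q) = OInf h)
    (βb : Ob.comap (betaStar L M' q) = OZero h W)
    (allαA : ∀ v : ValuationSubring ↥(laurentBaseChange L (modularFunctionFieldFull (M' * q * q))),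
      v.comap (alphaStar L M' q) = OInf h → v = OInf3 h ∨ v = Ob)
    (allαC : ∀ v : ValuationSubring ↥(laurentBaseChange L (modularFunctionFieldFull (M' * q * q))),
      v.comap (alphaStar L M' q) = OZero h W → v = OZero3 h w)
    (allβA : ∀ v : ValuationSubring ↥(laurentBaseChange L (modularFunctionFieldFull (M' * q * q))),
      v.comap (betaStar L M' q) = OInf h → v = OInf3 h)
    (allβC : ∀ v : ValuationSubring ↥(laurentBaseChange L (modularFunctionFieldFull (M' * q * q))),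
      v.comap (betaStar L M' q) = OZero h W → v = Ob ∨ v = OZero3 h w)
    (resαb : ∀ g ∈ Ob, ∃ c ∈ OInf h, g - alphaStar L M' q c ∈ Ob.nonunits)
    (resβb : ∀ g ∈ Ob, ∃ c ∈ OZero h W, g - betaStar L M' q c ∈ Ob.nonunits) :
    NF.Data (alphaStar L M' q) (betaStar L M' q) q (OInf h) (OZero h W) (OInf3 h) Ob
      (OZero3 h w)
      ((q : ℕ) : ↥(laurentBaseChange L (modularFunctionFieldFull (M' * q))))
      ((q : ℕ) : ↥(laurentBaseChange L (modularFunctionFieldFull (M' * q * q)))) d :=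
  RestrictNF.data_of_mid h hsurj hperf hAq hW hw.pi0 hw.pi1 hw.pi2 Ob d hb ordb αb βb
    allαA allαC allβA allβC resαb resβb

end NF

section K0Inst

open Fermat.Agent.CAR.K0

local notation "Qb" => AlgebraicClosure ℚ

/-- **`NF.Data` over the inertia field** `(L, A, π) = (K0, W0, resW0)` from the middle valuation
ring and the counts, with `Oc = OZero3 _ w`. -/
theorem dataK0_of_mid {q : ℕ} [NeZero q] (hq : q.Prime) {A : ValuationSubring Qb}
    (hA : A.LiesOverPrime q) (M' : ℕ) [NeZero M'] (hqM : ¬ q ∣ M')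
    {W : laurentBaseChange ↥(K0 A) (modularFunctionFieldFull (M' * q)) ≃ₐ[↥(K0 A)]
      laurentBaseChange ↥(K0 A) (modularFunctionFieldFull (M' * q))}
    {w : laurentBaseChange ↥(K0 A) (modularFunctionFieldFull (M' * q * q)) ≃ₐ[↥(K0 A)]
      laurentBaseChange ↥(K0 A) (modularFunctionFieldFull (M' * q * q))}
    (hW : IsAL M' q W) (hw : IsAL3 M' q w)
    (Ob : ValuationSubring ↥(laurentBaseChange ↥(K0 A) (modularFunctionFieldFull (M' * q * q))))
    (d : ↥(laurentBaseChange ↥(K0 A) (modularFunctionFieldFull (M' * q * q))))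
    (hb : IsUnif Ob d)
    (ordb : hb.ord
      ((q : ℕ) : ↥(laurentBaseChange ↥(K0 A) (modularFunctionFieldFull (M' * q * q))))
      = (q : ℤ) - 1)
    (αb : Ob.comap (alphaStar ↥(K0 A) M' q) = OInf (badSetup_W0 hq hA M' hqM))
    (βb : Ob.comap (betaStar ↥(K0 A) M' q) = OZero (badSetup_W0 hq hA M' hqM) W)
    (allαA : ∀ v : ValuationSubring
        ↥(laurentBaseChange ↥(K0 A) (modularFunctionFieldFull (M' * q * q))),
      v.comap (alphaStar ↥(K0 A) M' q) = OInf (badSetup_W0 hq hA M' hqM) →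
        v = OInf3 (badSetup_W0 hq hA M' hqM) ∨ v = Ob)
    (allαC : ∀ v : ValuationSubring
        ↥(laurentBaseChange ↥(K0 A) (modularFunctionFieldFull (M' * q * q))),
      v.comap (alphaStar ↥(K0 A) M' q) = OZero (badSetup_W0 hq hA M' hqM) W →
        v = OZero3 (badSetup_W0 hq hA M' hqM) w)
    (allβA : ∀ v : ValuationSubring
        ↥(laurentBaseChange ↥(K0 A) (modularFunctionFieldFull (M' * q * q))),
      v.comap (betaStar ↥(K0 A) M' q) = OInf (badSetup_W0 hq hA M' hqM) →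
        v = OInf3 (badSetup_W0 hq hA M' hqM))
    (allβC : ∀ v : ValuationSubring
        ↥(laurentBaseChange ↥(K0 A) (modularFunctionFieldFull (M' * q * q))),
      v.comap (betaStar ↥(K0 A) M' q) = OZero (badSetup_W0 hq hA M' hqM) W →
        v = Ob ∨ v = OZero3 (badSetup_W0 hq hA M' hqM) w)
    (resαb : ∀ g ∈ Ob, ∃ c ∈ OInf (badSetup_W0 hq hA M' hqM),
      g - alphaStar ↥(K0 A) M' q c ∈ Ob.nonunits)
    (resβb : ∀ g ∈ Ob, ∃ c ∈ OZero (badSetup_W0 hq hA M' hqM) W,
      g - betaStar ↥(K0 A) M' q c ∈ Ob.nonunits) :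
    NF.Data (alphaStar ↥(K0 A) M' q) (betaStar ↥(K0 A) M' q) q
      (OInf (badSetup_W0 hq hA M' hqM)) (OZero (badSetup_W0 hq hA M' hqM) W)
      (OInf3 (badSetup_W0 hq hA M' hqM)) Ob (OZero3 (badSetup_W0 hq hA M' hqM) w)
      ((q : ℕ) : ↥(laurentBaseChange ↥(K0 A) (modularFunctionFieldFull (M' * q))))
      ((q : ℕ) : ↥(laurentBaseChange ↥(K0 A) (modularFunctionFieldFull (M' * q * q)))) d :=
  RestrictNF.dataK0_of_mid hq hA M' hqM hW hw.pi0 hw.pi1 hw.pi2 Ob d hb ordb αb βb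
    allαA allαC allβA allβC resαb resβb

end K0Inst

end

end Fermat.Agent.CAR.V3.RestrictZero
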