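import Fermat.Agent.S28.ModEq.Main

/-!
# CAR / V3 : the modular unit `u₁ = Δ(q) / Δ(q^p)` and its modular-equation package

`u1 A p = Δ(q) / Δ(q^p)` as a Laurent series over any commutative ring `A`, its inverse
`u1inv A p = Δ(q^p) / Δ(q)`, and the relation `yInf A p = p ^ 12 * u1inv A p` with the unit of
S28's modular equation.

`UnitData p` extends S28's `ModEqData p` (the integral modular equation of prime level `p`) by the
relations at the *other* conjugate, i.e. with the rôles of `j(q)` and `j(q^p)` exchanged: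

* `E3'` : `Ψ(u₁ ; j(q^p)) = 0`  (so `u₁` is integral over `ℤ[j(q^p)]`, constant term `± p ^ 12`);
* `E5'` : `u₁ * S(j(q) ; j(q^p)) = κ * (∂Φ/∂X)(j(q) ; j(q^p))`;
* `E6'` : `(∂Φ/∂X)(j(q) ; j(q^p)) ≠ 0`.

`exists_unitData : p.Prime → Nonempty (UnitData p)`.
-/

set_option autoImplicit false

noncomputable section

namespace Fermat.Agent.CAR.V3.Units

open ModularCurve Fermat.Agent.S28.ModEq

/-! ### The series `u₁` -/

section Series

variable (A : Type*) [CommRing A] (p : ℕ) [NeZero p]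

/-- `u₁ = Δ(q) / Δ(q ^ p)` over `A`. -/
def u1 : LaurentSeries A := DA A * qExpand A p (DAinv A)

/-- `u₁⁻¹ = Δ(q ^ p) / Δ(q)` over `A`. -/
def u1inv : LaurentSeries A := DAinv A * qExpand A p (DA A)

theorem u1_mul_u1inv : u1 A p * u1inv A p = 1 := by
  unfold u1 u1inv
  calc DA A * qExpand A p (DAinv A) * (DAinv A * qExpand A p (DA A))
      = (DA A * DAinv A) * qExpand A p (DA A * DAinv A) := by rw [map_mul]; ring
    _ = 1 := by rw [DA_mul_DAinv, map_one, mul_one]

theorem u1inv_mul_u1 : u1inv A p * u1 A p = 1 := by rw [mul_comm, u1_mul_u1inv]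

theorem yInf_eq : yInf A p = HahnSeries.C ((p : A) ^ 12) * u1inv A p := by
  unfold yInf u1inv
  ring

theorem u1_mul_yInf : u1 A p * yInf A p = HahnSeries.C ((p : A) ^ 12) := by
  rw [yInf_eq, mul_left_comm, u1_mul_u1inv, mul_one]

theorem isLead_u1 : IsLead (u1 A p) (1 - (p : ℤ)) 1 := by
  have h := (isLead_DA A).mul (isLead_qExpand p (isLead_DAinv A))
  rw [mul_one, mul_neg, mul_one, ← sub_eq_add_neg] at h
  exact h

theorem isLead_u1inv : IsLead (u1inv A p) ((p : ℤ) - 1) 1 := by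
  have h := (isLead_DAinv A).mul (isLead_qExpand p (isLead_DA A))
  rw [mul_one, mul_one, neg_add_eq_sub] at h
  exact h

variable {A} in
theorem coeffMap_u1 {B : Type*} [CommRing B] (φ : A →+* B) : coeffMap φ (u1 A p) = u1 B p := by
  unfold u1
  rw [map_mul, coeffMap_qExpand, coeffMap_DA, coeffMap_DAinv]

variable {A} in
theorem coeffMap_u1inv {B : Type*} [CommRing B] (φ : A →+* B) :
    coeffMap φ (u1inv A p) = u1inv B p := by
  unfold u1inv
  rw [map_mul, coeffMap_qExpand, coeffMap_DA, coeffMap_DAinv]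

/-- `u₂ = Δ(q ^ p) / Δ(q ^ (p * p))` over `A`: the image of `u₁` under `q ↦ q ^ p`. -/
def u2 : LaurentSeries A := qExpand A p (u1 A p)

/-- `u₂⁻¹ = Δ(q ^ (p * p)) / Δ(q ^ p)` over `A`. -/
def u2inv : LaurentSeries A := qExpand A p (u1inv A p)

theorem u2_mul_u2inv : u2 A p * u2inv A p = 1 := by
  unfold u2 u2inv
  rw [← map_mul, u1_mul_u1inv, map_one]

theorem u2inv_mul_u2 : u2inv A p * u2 A p = 1 := by rw [mul_comm, u2_mul_u2inv]

theorem qExpand_yInf_eq :
    qExpand A p (yInf A p) = HahnSeries.C ((p : A) ^ 12) * u2inv A p := by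
  rw [yInf_eq, map_mul, qExpand_C]
  rfl

variable {A} in
theorem coeffMap_u2 {B : Type*} [CommRing B] (φ : A →+* B) : coeffMap φ (u2 A p) = u2 B p := by
  unfold u2
  rw [coeffMap_qExpand, coeffMap_u1]

variable {A} in
theorem coeffMap_u2inv {B : Type*} [CommRing B] (φ : A →+* B) :
    coeffMap φ (u2inv A p) = u2inv B p := by
  unfold u2inv
  rw [coeffMap_qExpand, coeffMap_u1inv]

theorem qExpand_jqNModC : qExpand A p (jqNModC A p) = jqNModC A (p * p) := by
  unfold jqNModC
  rw [qExpand_qExpand]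

end Series

/-! ### The strengthened modular-equation package -/

variable (p : ℕ) [NeZero p]

/-- S28's `ModEqData p` together with the relations at the conjugate `Δ(q) / Δ(q ^ p)`
(the rôles of `j(q)` and `j(q ^ p)` exchanged). -/
structure UnitData (p : ℕ) [NeZero p] extends ModEqData p where
  E3' : Ψ.eval₂ (evalAt (RingHom.id ℤ) (jqNModC ℤ p)) (u1 ℤ p) = 0
  E5' : u1 ℤ p * S.eval₂ (evalAt (RingHom.id ℤ) (jqNModC ℤ p)) (jqModC ℤ) =
    HahnSeries.C κ *
      (Polynomial.derivative Φ).eval₂ (evalAt (RingHom.id ℤ) (jqNModC ℤ p)) (jqModC ℤ)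
  E6' : (Polynomial.derivative Φ).eval₂ (evalAt (RingHom.id ℤ) (jqNModC ℤ p)) (jqModC ℤ) ≠ 0

theorem ιC_u1 (hp : p.Prime) : ιC (u1 ℤ p) = yg p (zetaC p) (some ⟨0, hp.pos⟩) := by
  unfold ιC
  rw [coeffMap_u1]
  unfold u1 yg Dg DbaseInv
  show _ = HahnSeries.C (1 : ℂ) * twist (zetaC p ^ (0 : ℕ)) (DA ℂ) * _
  rw [pow_zero, twist_one, map_one, one_mul]

omit [NeZero p] in
theorem zetaC_pow_ne_one (hp : p.Prime) (b : Fin p) (hb : (b : ℕ) ≠ 0) :
    (zetaC p) ^ (b : ℕ) ≠ 1 := by
  intro h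
  have h1 : ((zetaC p : ℂˣ) : ℂ) ^ (b : ℕ) = 1 := by
    rw [← Units.val_pow_eq_pow_val, h, Units.val_one]
  exact (Complex.isPrimitiveRoot_exp p hp.ne_zero).pow_ne_one_of_pos_of_lt hb b.2 h1

theorem jg_some_zero_sub_ne_zero (hp : p.Prime) (g : Option (Fin p))
    (hg : g ≠ some ⟨0, hp.pos⟩) :
    jg p (zetaC p) (some ⟨0, hp.pos⟩) - jg p (zetaC p) g ≠ 0 := by
  cases g with
  | none =>
    intro h
    have h1 := (isLead_jg_none_sub p hp ⟨0, hp.pos⟩).coeff_eq
    rw [← neg_sub, h, neg_zero, HahnSeries.coeff_zero] at h1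
    exact zero_ne_one h1
  | some b =>
    have hb : (b : ℕ) ≠ 0 := fun h0 => hg (congrArg some (Fin.ext h0))
    intro h
    have h1 := congrArg (fun f => HahnSeries.coeff f (-1)) h
    simp only [HahnSeries.coeff_sub, HahnSeries.coeff_zero] at h1
    have e0 : jg p (zetaC p) (some ⟨0, hp.pos⟩) = jqModC ℂ := by
      show twist (zetaC p ^ (0 : ℕ)) (jqModC ℂ) = _
      rw [pow_zero, twist_one]
    rw [e0, (isLead_jqModC ℂ).coeff_eq] at h1
    have e1 : (jg p (zetaC p) (some b)).coeff (-1) =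
        (((zetaC p ^ (b : ℕ)) ^ (-1 : ℤ) : ℂˣ) : ℂ) * (jqModC ℂ).coeff (-1) := rfl
    rw [e1, (isLead_jqModC ℂ).coeff_eq, mul_one, sub_eq_zero] at h1
    apply zetaC_pow_ne_one p hp b hb
    have h2 : (zetaC p ^ (b : ℕ)) ^ (-1 : ℤ) = 1 := Units.ext h1.symm
    rw [zpow_neg_one, inv_eq_one] at h2
    exact h2

/-- **The modular equation of prime level with both conjugate relations.** -/
theorem exists_unitData (hp : p.Prime) : Nonempty (UnitData p) := by
  classical
  obtain ⟨κ, hκ2, hκ⟩ := exists_kappa p hp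
  obtain ⟨Φ₀, hΦ₀⟩ := exists_Phi0 p hp
  obtain ⟨Ψ₀, hΨ₀⟩ := exists_Psi0 p hp
  obtain ⟨S₀, hS₀⟩ := exists_S0 p hp
  -- integral lifts
  obtain ⟨Φ, hΦ⟩ := exists_int_lift p Φ₀
    (∏ g, (Polynomial.X - Polynomial.C (jg p (zetaZ p hp) g))) (by
      rw [hΦ₀, Polynomial.map_prod]
      refine Finset.prod_congr rfl fun g _ => ?_
      rw [Polynomial.map_sub, Polynomial.map_X, Polynomial.map_C, coeffMap_jg, map_zetaZ])
  obtain ⟨Ψ, hΨ⟩ := exists_int_lift p Ψ₀
    (∏ g, (Polynomial.X - Polynomial.C (yg p (zetaZ p hp) g))) (by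
      rw [hΨ₀, Polynomial.map_prod]
      refine Finset.prod_congr rfl fun g _ => ?_
      rw [Polynomial.map_sub, Polynomial.map_X, Polynomial.map_C, coeffMap_yg, map_zetaZ])
  obtain ⟨S, hS⟩ := exists_int_lift p S₀
    (∑ g, ∏ h ∈ Finset.univ.erase g, (Polynomial.C (yg p (zetaZ p hp) h) *
      (Polynomial.X - Polynomial.C (jg p (zetaZ p hp) h)))) (by
      rw [hS₀, Polynomial.map_sum]
      refine Finset.sum_congr rfl fun g _ => ?_
      rw [Polynomial.map_prod]
      refine Finset.prod_congr rfl fun h _ => ?_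
      rw [Polynomial.map_mul, Polynomial.map_sub, Polynomial.map_X, Polynomial.map_C,
        Polynomial.map_C, coeffMap_yg, coeffMap_jg, map_zetaZ])
  have hΦ' : Φ.map (evZ p) = ∏ g, (Polynomial.X - Polynomial.C (jg p (zetaC p) g)) := by
    rw [← map_map_evQ, hΦ, hΦ₀]
  have hΨ' : Ψ.map (evZ p) = ∏ g, (Polynomial.X - Polynomial.C (yg p (zetaC p) g)) := by
    rw [← map_map_evQ, hΨ, hΨ₀]
  have hS' : S.map (evZ p) = ∑ g, ∏ h ∈ Finset.univ.erase g,
      (Polynomial.C (yg p (zetaC p) h) *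
        (Polynomial.X - Polynomial.C (jg p (zetaC p) h))) := by
    rw [← map_map_evQ, hS, hS₀]
  -- `κ` as an integer
  obtain ⟨κZ, hκZ⟩ : ∃ z : ℤ, (z : ℚ) = κ := by
    rcases eq_or_eq_neg_of_sq_eq_sq κ ((p : ℚ) ^ 12) (by rw [hκ2]; ring) with h | h
    · exact ⟨(p : ℤ) ^ 12, by rw [h]; push_cast; rfl⟩
    · exact ⟨-(p : ℤ) ^ 12, by rw [h]; push_cast; rfl⟩
  have hκC : (HahnSeries.C ((κZ : ℤ) : ℂ) : LaurentSeries ℂ) = HahnSeries.C (κ : ℂ) := by
    rw [← hκZ]; push_cast; rfl
  have hcard : Fintype.card (Option (Fin p)) = p + 1 := by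
    rw [Fintype.card_option, Fintype.card_fin]
  have hD : ∃ D : ModEqData p, D.Φ = Φ ∧ D.Ψ = Ψ ∧ D.S = S ∧ D.κ = κZ := by
    refine ⟨ModEqData.mk Φ Ψ S κZ ?_ ?_ ?_ ?_ ?_ ?_ ?_ ?_ ?_ ?_ ?_, rfl, rfl, rfl, rfl⟩
    · refine Polynomial.monic_of_injective (evZ_injective p) ?_
      rw [hΦ']
      exact Polynomial.monic_prod_of_monic _ _ fun g _ => Polynomial.monic_X_sub_C _
    · rw [← Polynomial.natDegree_map_eq_of_injective (evZ_injective p), hΦ',
        Polynomial.natDegree_prod_of_monic _ _ fun g _ => Polynomial.monic_X_sub_C _]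
      simp [hcard]
    · refine Polynomial.monic_of_injective (evZ_injective p) ?_
      rw [hΨ']
      exact Polynomial.monic_prod_of_monic _ _ fun g _ => Polynomial.monic_X_sub_C _
    · rw [← Polynomial.natDegree_map_eq_of_injective (evZ_injective p), hΨ',
        Polynomial.natDegree_prod_of_monic _ _ fun g _ => Polynomial.monic_X_sub_C _]
      simp [hcard]
    · have h2 : ((κZ : ℚ)) ^ 2 = (p : ℚ) ^ 24 := by rw [hκZ]; exact hκ2
      exact_mod_cast h2
    · apply evZ_injective p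
      have h1 : evZ p (Ψ.coeff 0) = (Ψ.map (evZ p)).coeff 0 := (Polynomial.coeff_map _ _).symm
      rw [h1, hΨ', coeff_zero_prod_X_sub_C]
      have h2 : ∏ g, (-yg p (zetaC p) g) = (-1) ^ (p + 1) * ∏ g, yg p (zetaC p) g := by
        rw [← hcard, ← Finset.card_univ, ← Finset.prod_const, ← Finset.prod_mul_distrib]
        exact Finset.prod_congr rfl fun g _ => (neg_one_mul _).symm
      rw [h2, hκ, evZ, evalAt_C, ← hκC]
      simp only [map_mul, map_pow, map_neg, map_one, eq_intCast]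
    · apply theta_injective p
      show qExpand ℂ p (ιC _) = qExpand ℂ p (ιC 0)
      rw [theta_eval₂, theta_jqNModC, hΦ', Polynomial.eval_prod, map_zero, map_zero]
      exact Finset.prod_eq_zero (Finset.mem_univ none) (by simp)
    · apply ιC_injective
      rw [ιC_eval₂, ιC_jqNModC, map_zero]
      show (Φ.map (evZ p)).eval (ιC (jqModC ℤ)) = 0
      rw [ιC_jqModC p hp, hΦ', Polynomial.eval_prod]
      exact Finset.prod_eq_zero (Finset.mem_univ (some ⟨0, hp.pos⟩)) (by simp)
    · apply theta_injective p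
      show qExpand ℂ p (ιC _) = qExpand ℂ p (ιC 0)
      rw [theta_eval₂, theta_yInf, hΨ', Polynomial.eval_prod, map_zero, map_zero]
      exact Finset.prod_eq_zero (Finset.mem_univ none) (by simp)
    · apply theta_injective p
      show qExpand ℂ p (ιC _) = qExpand ℂ p (ιC _)
      rw [map_mul, map_mul, map_mul, map_mul, theta_eval₂, theta_eval₂, theta_yInf,
        theta_jqNModC, hS', mul_eval_sum_prod_erase (yg p (zetaC p)) (jg p (zetaC p)) none, hκ,
        ← Polynomial.derivative_map, hΦ']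
      congr 1
      unfold ιC
      rw [coeffMap_C, qExpand_C, eq_intCast]
      exact hκC.symm
    · set F := (Polynomial.derivative Φ).eval₂ (evalAt (RingHom.id ℤ) (jqModC ℤ)) (jqNModC ℤ p)
        with hF
      have hΘ : qExpand ℂ p (ιC F) =
          ∏ g ∈ Finset.univ.erase none, (jg p (zetaC p) none - jg p (zetaC p) g) := by
        rw [hF, theta_eval₂, theta_jqNModC, ← Polynomial.derivative_map, hΦ',
          eval_derivative_prod_X_sub_C Finset.univ _ (Finset.mem_univ none)]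
      have hlead : IsLead (qExpand ℂ p (ιC F)) ((p : ℤ) * (-((p : ℤ) * p))) 1 := by
        rw [hΘ]
        have h := IsLead.prod (Finset.univ.erase (none : Option (Fin p)))
          (fun g => jg p (zetaC p) none - jg p (zetaC p) g) (fun _ => -((p : ℤ) * p))
          (fun _ => (1 : ℂ)) (fun g hg => by
            cases g with
            | none => exact absurd rfl (Finset.ne_of_mem_erase hg)
            | some b => exact isLead_jg_none_sub p hp b)
        have hc : (Finset.univ.erase (none : Option (Fin p))).card = p := by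
          rw [Finset.card_erase_of_mem (Finset.mem_univ _), Finset.card_univ, hcard,
            Nat.add_sub_cancel]
        rw [Finset.sum_const, Finset.prod_const_one, hc, nsmul_eq_mul] at h
        exact h
      have h1 := hlead.coeff_eq
      rw [qExpand_coeff_mul] at h1
      have h2 : ((F.coeff (-((p : ℤ) * p)) : ℤ) : ℂ) = 1 := h1
      exact_mod_cast h2
  obtain ⟨D, rfl, rfl, rfl, rfl⟩ := hD
  refine ⟨UnitData.mk D ?_ ?_ ?_⟩
  · apply ιC_injective
    rw [ιC_eval₂, ιC_jqNModC, map_zero]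
    show (D.Ψ.map (evZ p)).eval (ιC (u1 ℤ p)) = 0
    rw [ιC_u1 p hp, hΨ', Polynomial.eval_prod]
    exact Finset.prod_eq_zero (Finset.mem_univ (some ⟨0, hp.pos⟩)) (by simp)
  · apply ιC_injective
    rw [map_mul, map_mul, ιC_eval₂, ιC_eval₂, ιC_jqNModC, ιC_jqModC p hp, ιC_u1 p hp]
    show yg p (zetaC p) (some ⟨0, hp.pos⟩) * (D.S.map (evZ p)).eval _ =
      ιC (HahnSeries.C D.κ) * ((Polynomial.derivative D.Φ).map (evZ p)).eval _
    rw [hS', mul_eval_sum_prod_erase (yg p (zetaC p)) (jg p (zetaC p)) (some ⟨0, hp.pos⟩), hκ,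
      ← Polynomial.derivative_map, hΦ']
    congr 1
    unfold ιC
    rw [coeffMap_C, eq_intCast]
    exact hκC.symm
  · intro h0
    have h1 := congrArg ιC h0
    rw [ιC_eval₂, ιC_jqNModC, map_zero, ιC_jqModC p hp] at h1
    have h2 : ((Polynomial.derivative D.Φ).map (evZ p)).eval
        (jg p (zetaC p) (some ⟨0, hp.pos⟩)) = 0 := h1
    rw [← Polynomial.derivative_map, hΦ',
      eval_derivative_prod_X_sub_C Finset.univ (jg p (zetaC p))
        (Finset.mem_univ (some ⟨0, hp.pos⟩)),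
      Finset.prod_eq_zero_iff] at h2
    obtain ⟨g, hg, hg0⟩ := h2
    exact jg_some_zero_sub_ne_zero p hp g (Finset.ne_of_mem_erase hg) hg0

end Fermat.Agent.CAR.V3.Units
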