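/-
helper83 — CAR-5 shadow (architect's ruling #3): THE SERIES / GAUSS SIDE OF THE MODULAR UNITS
`u₁ = Δ(q)/Δ(q^p)`, `u₂ = Δ(q^p)/Δ(q^{p²})` AND THE CERTIFICATE
`red_mid (d^{12(p-1)} · u₁/u₂) = (J̄^8 (J̄ - 1728)^6)^(p-1)`.

Everything is a statement about Laurent series: `L` a field, `A` a valuation subring,
`π : A →+* k`, `gaussRing A π ⊆ L((q))` with its reduction `red A π` (`Lib/Red/GaussRing`),
`u1`, `u1inv`, `u2`, `u2inv` of helper98's `CAR/V3/UnitData`, `rot ζ` of `S28/Rot`, (C1) of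
helper30's `CAR/V3/MidSeries`, `(θ j)^6 = j^4 (j - 1728)^3 Δ` of helper7's `CAR/Local/ThetaJ`.

* characteristic `p`: `u1 k p = Δ̄^(1-p)`, `u1inv k p = Δ̄^(p-1)`, `u2 k p = (u1 k p)^p`, and the
  certificate algebra `(θ J̄)^(12 (p-1)) · (u1 k p)² = (J̄^8 (J̄ - 1728)^6)^(p-1)`;
* Gauss side: the four units (and `J`, `J(q^N)`, `Δ^{±1}`, their rotations by a `p`-th root of
  unity) lie in the Gauss ring and reduce to the same series over `k`;
* `exists_certificate` : for a primitive `p`-th root of unity `ζ`,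
  `(J(ζq) - J(q))^(12 (p-1)) · u₁ = (p^12 · rot ζ u₁⁻¹) · h` with `h` in the Gauss ring and
  `red h = (J̄^8 (J̄ - 1728)^6)^(p-1)`;
* `certificate_mid_of_map`, `certificate_inf_of_map`, `certificate_zero_of_map` : the same for
  an element `x` of any ring `R` with an embedding-like ring hom `τ : R →+* L((q))`, given the
  `τ`-images of `d = J₂ - J₀`, `u₁`, `u₂` at the middle cusp / at `∞` / at `0`.
-/
import Mathlib
import Fermat.Agent.CAR.V3.UnitData
import Fermat.Agent.CAR.V3.MidSeries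
import Fermat.Agent.S28.Kummer.Kronecker

set_option autoImplicit false

noncomputable section

namespace Fermat.Agent.CAR.V3.UnitCert

open ModularCurve Fermat.Agent.Lib.Red Fermat.Agent.S28.Chain Fermat.Agent.S28.ModEq
  Fermat.Agent.CAR.Local.ThetaJ Fermat.Agent.CAR.V3.Units

/-! ### Characteristic `p` -/

section CharP

variable (k : Type*) [CommRing k] (p : ℕ) [Fact p.Prime] [NeZero p] [CharP k p]

/-- Frobenius on series with coefficients in the prime field: `f(q^p) = f(q)^p`. -/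
theorem qExpand_coeffMap_zmod (f : LaurentSeries (ZMod p)) :
    qExpand k p (coeffMap (ZMod.castHom (dvd_refl p) k) f)
      = coeffMap (ZMod.castHom (dvd_refl p) k) f ^ p := by
  rw [← coeffMap_qExpand, ← Fermat.Agent.S28.Kummer.laurent_pow_char, map_pow]

theorem qExpand_DA_charP : qExpand k p (DA k) = DA k ^ p := by
  rw [← coeffMap_DA (ZMod.castHom (dvd_refl p) k)]
  exact qExpand_coeffMap_zmod k p _

theorem qExpand_DAinv_charP : qExpand k p (DAinv k) = DAinv k ^ p := by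
  rw [← coeffMap_DAinv (ZMod.castHom (dvd_refl p) k)]
  exact qExpand_coeffMap_zmod k p _

theorem qExpand_jqModC_charP : jqNModC k p = jqModC k ^ p := by
  unfold jqNModC
  rw [← coeffMap_jqModC (ZMod.castHom (dvd_refl p) k)]
  exact qExpand_coeffMap_zmod k p _

theorem jqNModC_sq_charP : jqNModC k (p * p) = jqModC k ^ (p * p) := by
  rw [← qExpand_jqNModC, qExpand_jqModC_charP, map_pow]
  have h := qExpand_jqModC_charP k p
  unfold jqNModC at h
  rw [h, ← pow_mul]

/-- `u₁ = Δ(q)/Δ(q^p) ≡ Δ^(1-p)` in characteristic `p`. -/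
theorem u1_charP : u1 k p = DAinv k ^ (p - 1) := by
  have hp : DAinv k ^ p = DAinv k ^ (p - 1) * DAinv k := by
    rw [← pow_succ, Nat.sub_add_cancel (Fact.out : p.Prime).pos]
  unfold u1
  rw [qExpand_DAinv_charP, hp]
  calc DA k * (DAinv k ^ (p - 1) * DAinv k) = (DA k * DAinv k) * DAinv k ^ (p - 1) := by ring
    _ = DAinv k ^ (p - 1) := by rw [DA_mul_DAinv, one_mul]

/-- `u₁⁻¹ = Δ(q^p)/Δ(q) ≡ Δ^(p-1)` in characteristic `p`. -/
theorem u1inv_charP : u1inv k p = DA k ^ (p - 1) := by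
  have hp : DA k ^ p = DA k ^ (p - 1) * DA k := by
    rw [← pow_succ, Nat.sub_add_cancel (Fact.out : p.Prime).pos]
  unfold u1inv
  rw [qExpand_DA_charP, hp]
  calc DAinv k * (DA k ^ (p - 1) * DA k) = (DA k * DAinv k) * DA k ^ (p - 1) := by ring
    _ = DA k ^ (p - 1) := by rw [DA_mul_DAinv, one_mul]

/-- `u₂ ≡ u₁^p` in characteristic `p`. -/
theorem u2_charP : u2 k p = u1 k p ^ p := by
  unfold u2
  rw [← coeffMap_u1 p (ZMod.castHom (dvd_refl p) k)]
  exact qExpand_coeffMap_zmod k p _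

/-- `u₂⁻¹ ≡ u₁^(-p)` in characteristic `p`. -/
theorem u2inv_charP : u2inv k p = u1inv k p ^ p := by
  unfold u2inv
  rw [← coeffMap_u1inv p (ZMod.castHom (dvd_refl p) k)]
  exact qExpand_coeffMap_zmod k p _

/-- **The certificate algebra**: `(θ J)^(12 (p-1)) · Δ^(-2 (p-1)) = (J^8 (J - 1728)^6)^(p-1)`. -/
theorem theta_pow_mul_u1_sq :
    thetaL k (jqModC k) ^ (12 * (p - 1)) * u1 k p ^ 2
      = (jqModC k ^ 8 * (jqModC k - 1728) ^ 6) ^ (p - 1) := by
  have h6 : thetaL k (jqModC k) ^ 6 = jqModC k ^ 4 * (jqModC k - 1728) ^ 3 * DA k :=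
    theta_jq_pow_six k
  rw [u1_charP]
  calc thetaL k (jqModC k) ^ (12 * (p - 1)) * (DAinv k ^ (p - 1)) ^ 2
      = ((thetaL k (jqModC k) ^ 6) ^ 2 * DAinv k ^ 2) ^ (p - 1) := by ring
    _ = ((jqModC k ^ 4 * (jqModC k - 1728) ^ 3) ^ 2 * (DA k * DAinv k) ^ 2) ^ (p - 1) := by
        rw [h6]; ring
    _ = (jqModC k ^ 8 * (jqModC k - 1728) ^ 6) ^ (p - 1) := by
        rw [DA_mul_DAinv]; ring

end CharP

/-! ### The Gauss side -/

section Gauss

variable {L : Type*} [Field L] (A : ValuationSubring L) {k : Type*} [Field k] (π : A →+* k)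

/-- A series which comes from an `A`-integral one lies in the Gauss ring. -/
theorem mem_gaussRing_of_incl (g : LaurentSeries A) {y : LaurentSeries L} (hy : incl A g = y) :
    y ∈ gaussRing A π := hy ▸ incl_mem_gaussRing A π g

/-- … and its reduction is the coefficientwise one. -/
theorem red_of_incl (g : LaurentSeries A) {y : LaurentSeries L} (hy : incl A g = y)
    (h : y ∈ gaussRing A π) : red A π ⟨y, h⟩ = rbar A π g := by
  subst hy
  exact red_incl A π g

theorem jq_mem : jqModC L ∈ gaussRing A π :=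
  mem_gaussRing_of_incl A π (jqModC A) (coeffMap_jqModC A.subtype)

theorem red_jq (h : jqModC L ∈ gaussRing A π) : red A π ⟨jqModC L, h⟩ = jqModC k := by
  rw [red_of_incl A π (jqModC A) (coeffMap_jqModC A.subtype) h]
  exact coeffMap_jqModC π

theorem jqN_mem (N : ℕ) [NeZero N] : jqNModC L N ∈ gaussRing A π :=
  mem_gaussRing_of_incl A π (jqNModC A N) (coeffMap_jqNModC A.subtype N)

theorem red_jqN (N : ℕ) [NeZero N] (h : jqNModC L N ∈ gaussRing A π) :
    red A π ⟨jqNModC L N, h⟩ = jqNModC k N := by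
  rw [red_of_incl A π (jqNModC A N) (coeffMap_jqNModC A.subtype N) h]
  exact coeffMap_jqNModC π N

theorem DA_mem : DA L ∈ gaussRing A π :=
  mem_gaussRing_of_incl A π (DA A) (coeffMap_DA A.subtype)

theorem red_DA (h : DA L ∈ gaussRing A π) : red A π ⟨DA L, h⟩ = DA k := by
  rw [red_of_incl A π (DA A) (coeffMap_DA A.subtype) h]
  exact coeffMap_DA π

theorem DAinv_mem : DAinv L ∈ gaussRing A π :=
  mem_gaussRing_of_incl A π (DAinv A) (coeffMap_DAinv A.subtype)

theorem red_DAinv (h : DAinv L ∈ gaussRing A π) : red A π ⟨DAinv L, h⟩ = DAinv k := by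
  rw [red_of_incl A π (DAinv A) (coeffMap_DAinv A.subtype) h]
  exact coeffMap_DAinv π

variable (p : ℕ) [NeZero p]

theorem u1_mem : u1 L p ∈ gaussRing A π :=
  mem_gaussRing_of_incl A π (u1 A p) (coeffMap_u1 p A.subtype)

theorem red_u1 (h : u1 L p ∈ gaussRing A π) : red A π ⟨u1 L p, h⟩ = u1 k p := by
  rw [red_of_incl A π (u1 A p) (coeffMap_u1 p A.subtype) h]
  exact coeffMap_u1 p π

theorem u1inv_mem : u1inv L p ∈ gaussRing A π :=
  mem_gaussRing_of_incl A π (u1inv A p) (coeffMap_u1inv p A.subtype)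

theorem red_u1inv (h : u1inv L p ∈ gaussRing A π) : red A π ⟨u1inv L p, h⟩ = u1inv k p := by
  rw [red_of_incl A π (u1inv A p) (coeffMap_u1inv p A.subtype) h]
  exact coeffMap_u1inv p π

theorem u2_mem : u2 L p ∈ gaussRing A π :=
  mem_gaussRing_of_incl A π (u2 A p) (coeffMap_u2 p A.subtype)

theorem red_u2 (h : u2 L p ∈ gaussRing A π) : red A π ⟨u2 L p, h⟩ = u2 k p := by
  rw [red_of_incl A π (u2 A p) (coeffMap_u2 p A.subtype) h]
  exact coeffMap_u2 p π

theorem u2inv_mem : u2inv L p ∈ gaussRing A π :=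
  mem_gaussRing_of_incl A π (u2inv A p) (coeffMap_u2inv p A.subtype)

theorem red_u2inv (h : u2inv L p ∈ gaussRing A π) : red A π ⟨u2inv L p, h⟩ = u2inv k p := by
  rw [red_of_incl A π (u2inv A p) (coeffMap_u2inv p A.subtype) h]
  exact coeffMap_u2inv p π

/-- The units as elements of the Gauss ring. -/
def u1G : gaussRing A π := ⟨u1 L p, u1_mem A π p⟩

/-- `u₁⁻¹` as an element of the Gauss ring. -/
def u1invG : gaussRing A π := ⟨u1inv L p, u1inv_mem A π p⟩

/-- `u₂` as an element of the Gauss ring. -/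
def u2G : gaussRing A π := ⟨u2 L p, u2_mem A π p⟩

/-- `u₂⁻¹` as an element of the Gauss ring. -/
def u2invG : gaussRing A π := ⟨u2inv L p, u2inv_mem A π p⟩

theorem u1G_mul_u1invG : u1G A π p * u1invG A π p = 1 := Subtype.ext (u1_mul_u1inv L p)

theorem u2G_mul_u2invG : u2G A π p * u2invG A π p = 1 := Subtype.ext (u2_mul_u2inv L p)

theorem red_u1G : red A π (u1G A π p) = u1 k p := red_u1 A π p _

theorem red_u1invG : red A π (u1invG A π p) = u1inv k p := red_u1inv A π p _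

theorem red_u2G : red A π (u2G A π p) = u2 k p := red_u2 A π p _

theorem red_u2invG : red A π (u2invG A π p) = u2inv k p := red_u2inv A π p _

theorem u1_ne_zero (R : Type*) [CommRing R] [Nontrivial R] : u1 R p ≠ 0 := by
  intro h
  have h1 := u1_mul_u1inv R p
  rw [h, zero_mul] at h1
  exact zero_ne_one h1

theorem u1inv_ne_zero (R : Type*) [CommRing R] [Nontrivial R] : u1inv R p ≠ 0 := by
  intro h
  have h1 := u1_mul_u1inv R p
  rw [h, mul_zero] at h1
  exact zero_ne_one h1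

theorem u2_ne_zero (R : Type*) [CommRing R] [Nontrivial R] : u2 R p ≠ 0 := by
  intro h
  have h1 := u2_mul_u2inv R p
  rw [h, zero_mul] at h1
  exact zero_ne_one h1

theorem u2inv_ne_zero (R : Type*) [CommRing R] [Nontrivial R] : u2inv R p ≠ 0 := by
  intro h
  have h1 := u2_mul_u2inv R p
  rw [h, mul_zero] at h1
  exact zero_ne_one h1

theorem u1inv_eq_inv (F : Type*) [Field F] : u1inv F p = (u1 F p)⁻¹ :=
  eq_inv_of_mul_eq_one_right (u1_mul_u1inv F p)

theorem u2inv_eq_inv (F : Type*) [Field F] : u2inv F p = (u2 F p)⁻¹ :=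
  eq_inv_of_mul_eq_one_right (u2_mul_u2inv F p)

end Gauss

/-! ### Rotations by a `p`-th root of unity -/

section Rot

variable {L : Type*} [Field L] (A : ValuationSubring L) {k : Type*} [Field k] (π : A →+* k)
  (p : ℕ) [Fact p.Prime] [NeZero p] [CharP k p] (ζ : Lˣ) (hζ : (ζ : L) ^ p = 1)

include hζ

theorem rot_u1_mem : rot ζ (u1 L p) ∈ gaussRing A π :=
  MidSeries.rot_mem_gaussRing' A π p ζ hζ (u1_mem A π p)

theorem red_rot_u1 (h : rot ζ (u1 L p) ∈ gaussRing A π) :
    red A π ⟨rot ζ (u1 L p), h⟩ = u1 k p := by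
  rw [MidSeries.red_rot' A π p ζ hζ (u1_mem A π p) h, red_u1]

theorem rot_u1inv_mem : rot ζ (u1inv L p) ∈ gaussRing A π :=
  MidSeries.rot_mem_gaussRing' A π p ζ hζ (u1inv_mem A π p)

theorem red_rot_u1inv (h : rot ζ (u1inv L p) ∈ gaussRing A π) :
    red A π ⟨rot ζ (u1inv L p), h⟩ = u1inv k p := by
  rw [MidSeries.red_rot' A π p ζ hζ (u1inv_mem A π p) h, red_u1inv]

end Rot

theorem rot_u1_mul_rot_u1inv {L : Type*} [Field L] (p : ℕ) [NeZero p] (ζ : Lˣ) :
    rot ζ (u1 L p) * rot ζ (u1inv L p) = 1 := by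
  rw [← map_mul, u1_mul_u1inv, map_one]

/-! ### The certificate -/

section Certificate

variable {L : Type*} [Field L] (A : ValuationSubring L) {k : Type*} [Field k] (π : A →+* k)
  (hπ0 : ∀ a : A, ¬ IsUnit a → π a = 0)
  (p : ℕ) [Fact p.Prime] [NeZero p] [CharP k p] (ζ : Lˣ) (hζ : IsPrimitiveRoot (ζ : L) p)

include hπ0 hζ

/-- **The middle certificate, series form.** For a primitive `p`-th root of unity `ζ`:
`(J(ζq) - J(q))^(12 (p-1)) · u₁(q) · u₁(ζq) = p^12 · h` with `h` in the Gauss ring and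
`red h = (J̄^8 (J̄ - 1728)^6)^(p-1)`. -/
theorem exists_certificate :
    ∃ h : gaussRing A π,
      (rot ζ (jqModC L) - jqModC L) ^ (12 * (p - 1)) * (u1 L p * rot ζ (u1 L p))
        = HahnSeries.C ((p : L) ^ 12) * (h : LaurentSeries L) ∧
      red A π h = (jqModC k ^ 8 * (jqModC k - 1728) ^ 6) ^ (p - 1) := by
  obtain ⟨t, ht, htr⟩ := MidSeries.exists_pow_div' A π p ζ hπ0 hζ ⟨jqModC L, jq_mem A π⟩
  have hru := rot_u1_mem A π p ζ hζ.pow_eq_one
  refine ⟨t ^ 12 * (u1G A π p * ⟨rot ζ (u1 L p), hru⟩), ?_, ?_⟩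
  · have e : (rot ζ (jqModC L) - jqModC L) ^ (12 * (p - 1))
        = HahnSeries.C ((p : L) ^ 12) * (t : LaurentSeries L) ^ 12 := by
      rw [mul_comm 12 (p - 1), pow_mul]
      have ht' : (rot ζ (jqModC L) - jqModC L) ^ (p - 1)
          = HahnSeries.C (p : L) * (t : LaurentSeries L) := ht
      rw [ht', mul_pow, ← map_pow]
    rw [e]
    show _ = HahnSeries.C ((p : L) ^ 12) * ((t : LaurentSeries L) ^ 12 * (u1 L p * rot ζ (u1 L p)))
    ring
  · rw [map_mul, map_pow, htr, map_mul, red_u1G, red_rot_u1 A π p ζ hζ.pow_eq_one hru, red_jq,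
      ← theta_pow_mul_u1_sq k p]
    have h12 : (-(thetaL k (jqModC k)) ^ (p - 1)) ^ 12 = thetaL k (jqModC k) ^ (12 * (p - 1)) := by
      rw [mul_comm 12 (p - 1), pow_mul]
      ring
    rw [h12]
    ring

omit hπ0 [NeZero p] in
theorem natCast_ne_zero_of_primitiveRoot : (p : L) ≠ 0 := by
  intro h0
  have : CharP L p := (CharP.charP_iff_prime_eq_zero (Fact.out : p.Prime)).mpr h0
  have h1 : ((ζ : L) - 1) ^ p = 0 := by
    rw [sub_pow_char, hζ.pow_eq_one, one_pow, sub_self]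
  have h2 : (ζ : L) = 1 := sub_eq_zero.mp (pow_eq_zero_iff (Fact.out : p.Prime).ne_zero |>.mp h1)
  exact hζ.ne_one (Fact.out : p.Prime).one_lt h2

omit hπ0 [NeZero p] in
theorem C_natCast_pow_ne_zero : (HahnSeries.C ((p : L) ^ 12) : LaurentSeries L) ≠ 0 := by
  intro h
  have h3 : (HahnSeries.C ((p : L) ^ 12) : LaurentSeries L) = HahnSeries.C 0 := by
    rw [h, map_zero]
  exact pow_ne_zero 12 (natCast_ne_zero_of_primitiveRoot p ζ hζ) (HahnSeries.C_injective h3)

/-- **The middle certificate for an abstract element.** `τ : R →+* L((q))` any ring hom (the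
middle-cusp expansion), `d, a₁, a₂ : R` with `τ d = J(ζq) - J(q)`, `τ a₁ = u₁`,
`τ a₂ = p^12 · u₁⁻¹(ζq)` (the middle expansions of `J₂ - J₀`, `u₁`, `u₂`); then every `x` with
`x · a₂ = d^(12 (p-1)) · a₁` has `τ x` in the Gauss ring with reduction
`(J̄^8 (J̄ - 1728)^6)^(p-1)`. -/
theorem certificate_mid_of_map {R : Type*} [CommRing R] (τ : R →+* LaurentSeries L)
    (d a₁ a₂ x : R) (hd : τ d = rot ζ (jqModC L) - jqModC L) (h₁ : τ a₁ = u1 L p)
    (h₂ : τ a₂ = HahnSeries.C ((p : L) ^ 12) * rot ζ (u1inv L p))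
    (hx : x * a₂ = d ^ (12 * (p - 1)) * a₁) :
    ∃ hm : τ x ∈ gaussRing A π,
      red A π ⟨τ x, hm⟩ = (jqModC k ^ 8 * (jqModC k - 1728) ^ 6) ^ (p - 1) := by
  obtain ⟨h, hh, hhr⟩ := exists_certificate A π hπ0 p ζ hζ
  have hC := C_natCast_pow_ne_zero p ζ hζ
  have hr0 : rot ζ (u1inv L p) ≠ 0 := by
    intro h0
    have h1 := rot_u1_mul_rot_u1inv (L := L) p ζ
    rw [h0, mul_zero] at h1
    exact zero_ne_one h1
  have e : τ x = (h : LaurentSeries L) := by
    have h3 := congrArg τ hx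
    rw [map_mul, map_mul, map_pow, hd, h₁, h₂] at h3
    have h4 : τ x * (HahnSeries.C ((p : L) ^ 12) * rot ζ (u1inv L p))
        = (h : LaurentSeries L) * (HahnSeries.C ((p : L) ^ 12) * rot ζ (u1inv L p)) := by
      rw [h3]
      have h5 := rot_u1_mul_rot_u1inv (L := L) p ζ
      calc (rot ζ (jqModC L) - jqModC L) ^ (12 * (p - 1)) * u1 L p
          = (rot ζ (jqModC L) - jqModC L) ^ (12 * (p - 1)) * u1 L p
              * (rot ζ (u1 L p) * rot ζ (u1inv L p)) := by rw [h5, mul_one]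
        _ = (rot ζ (jqModC L) - jqModC L) ^ (12 * (p - 1)) * (u1 L p * rot ζ (u1 L p))
              * rot ζ (u1inv L p) := by ring
        _ = (h : LaurentSeries L) * (HahnSeries.C ((p : L) ^ 12) * rot ζ (u1inv L p)) := by
            rw [hh]; ring
    exact mul_right_cancel₀ (mul_ne_zero hC hr0) h4
  refine ⟨e ▸ h.2, ?_⟩
  rw [← hhr]
  congr 1
  exact Subtype.ext e

end Certificate

/-! ### The certificate at `∞` and at `0` -/

section InfZero

variable {L : Type*} [Field L] (A : ValuationSubring L) {k : Type*} [Field k] (π : A →+* k)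
  (p : ℕ) [NeZero p]

/-- The value of `h = d^(12 (p-1)) · u₁/u₂` at `∞`, as an element of the Gauss ring. -/
def hInf : gaussRing A π :=
  (⟨jqNModC L (p * p), jqN_mem A π (p * p)⟩ - ⟨jqModC L, jq_mem A π⟩) ^ (12 * (p - 1))
    * (u1G A π p * u2invG A π p)

theorem red_hInf :
    red A π (hInf A π p)
      = (jqNModC k (p * p) - jqModC k) ^ (12 * (p - 1)) * (u1 k p * u2inv k p) := by
  unfold hInf
  rw [map_mul, map_pow, map_sub, map_mul, red_jqN, red_jq, red_u1G, red_u2invG]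

/-- **The certificate at `∞` for an abstract element**: `τ d = J(q^{p²}) - J(q)`, `τ a₁ = u₁`,
`τ a₂ = u₂`. -/
theorem certificate_inf_of_map {R : Type*} [CommRing R] (τ : R →+* LaurentSeries L)
    (d a₁ a₂ x : R) (hd : τ d = jqNModC L (p * p) - jqModC L) (h₁ : τ a₁ = u1 L p)
    (h₂ : τ a₂ = u2 L p) (hx : x * a₂ = d ^ (12 * (p - 1)) * a₁) :
    ∃ hm : τ x ∈ gaussRing A π,
      red A π ⟨τ x, hm⟩
        = (jqNModC k (p * p) - jqModC k) ^ (12 * (p - 1)) * (u1 k p * u2inv k p) := by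
  have e : τ x = (hInf A π p : LaurentSeries L) := by
    have h3 := congrArg τ hx
    rw [map_mul, map_mul, map_pow, hd, h₁, h₂] at h3
    have h4 : τ x * u2 L p = (hInf A π p : LaurentSeries L) * u2 L p := by
      rw [h3]
      show _ = (jqNModC L (p * p) - jqModC L) ^ (12 * (p - 1)) * (u1 L p * u2inv L p) * u2 L p
      have h5 := u2inv_mul_u2 L p
      calc (jqNModC L (p * p) - jqModC L) ^ (12 * (p - 1)) * u1 L p
          = (jqNModC L (p * p) - jqModC L) ^ (12 * (p - 1)) * u1 L p * (u2inv L p * u2 L p) := by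
            rw [h5, mul_one]
        _ = _ := by ring
    exact mul_right_cancel₀ (u2_ne_zero p L) h4
  refine ⟨e ▸ (hInf A π p).2, ?_⟩
  rw [← red_hInf A π p]
  congr 1
  exact Subtype.ext e

/-- **The certificate at `0` for an abstract element**: `τ d = J(q) - J(q^{p²})`,
`τ a₁ = p^12 · u₂⁻¹`, `τ a₂ = p^12 · u₁⁻¹` (the Atkin–Lehner images). -/
theorem certificate_zero_of_map (hp0 : (p : L) ≠ 0) {R : Type*} [CommRing R]
    (τ : R →+* LaurentSeries L)
    (d a₁ a₂ x : R) (hd : τ d = jqModC L - jqNModC L (p * p))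
    (h₁ : τ a₁ = HahnSeries.C ((p : L) ^ 12) * u2inv L p)
    (h₂ : τ a₂ = HahnSeries.C ((p : L) ^ 12) * u1inv L p)
    (hx : x * a₂ = d ^ (12 * (p - 1)) * a₁) :
    ∃ hm : τ x ∈ gaussRing A π,
      red A π ⟨τ x, hm⟩
        = (jqNModC k (p * p) - jqModC k) ^ (12 * (p - 1)) * (u1 k p * u2inv k p) := by
  have hC : (HahnSeries.C ((p : L) ^ 12) : LaurentSeries L) ≠ 0 := by
    intro h
    have h3 : (HahnSeries.C ((p : L) ^ 12) : LaurentSeries L) = HahnSeries.C 0 := by
      rw [h, map_zero]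
    exact pow_ne_zero 12 hp0 (HahnSeries.C_injective h3)
  have e : τ x = (hInf A π p : LaurentSeries L) := by
    have h3 := congrArg τ hx
    rw [map_mul, map_mul, map_pow, hd, h₁, h₂] at h3
    have h4 : τ x * (HahnSeries.C ((p : L) ^ 12) * u1inv L p)
        = (hInf A π p : LaurentSeries L) * (HahnSeries.C ((p : L) ^ 12) * u1inv L p) := by
      rw [h3]
      show _ = (jqNModC L (p * p) - jqModC L) ^ (12 * (p - 1)) * (u1 L p * u2inv L p)
        * (HahnSeries.C ((p : L) ^ 12) * u1inv L p)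
      have h5 := u1_mul_u1inv L p
      have h6 : (jqModC L - jqNModC L (p * p)) ^ (12 * (p - 1))
          = (jqNModC L (p * p) - jqModC L) ^ (12 * (p - 1)) := by
        rw [← neg_sub, neg_pow, Even.neg_one_pow ⟨6 * (p - 1), by ring⟩, one_mul]
      rw [h6]
      calc (jqNModC L (p * p) - jqModC L) ^ (12 * (p - 1))
            * (HahnSeries.C ((p : L) ^ 12) * u2inv L p)
          = (jqNModC L (p * p) - jqModC L) ^ (12 * (p - 1))
            * (HahnSeries.C ((p : L) ^ 12) * u2inv L p) * (u1 L p * u1inv L p) := by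
            rw [h5, mul_one]
        _ = _ := by ring
    exact mul_right_cancel₀ (mul_ne_zero hC (u1inv_ne_zero p L)) h4
  refine ⟨e ▸ (hInf A π p).2, ?_⟩
  rw [← red_hInf A π p]
  congr 1
  exact Subtype.ext e

end InfZero

/-! ### The reduction at `∞` in characteristic `p` -/

section InfCharP

variable (k : Type*) [Field k] (p : ℕ) [Fact p.Prime] [NeZero p] [CharP k p]

/-- In characteristic `p`: `u₁/u₂ = Δ^((p-1)²)`. -/
theorem u1_mul_u2inv_charP : u1 k p * u2inv k p = DA k ^ ((p - 1) * (p - 1)) := by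
  have hp : p = (p - 1) + 1 := (Nat.sub_add_cancel (Fact.out : p.Prime).pos).symm
  rw [u2inv_charP, u1inv_charP, u1_charP]
  have hm : (p - 1) * p = (p - 1) * (p - 1) + (p - 1) := by
    have h0 : ∀ m : ℕ, m * (m + 1) = m * m + m := fun m => by ring
    have h1 := h0 (p - 1)
    rwa [← hp] at h1
  have h1 : (DA k ^ (p - 1)) ^ p = DA k ^ ((p - 1) * (p - 1)) * DA k ^ (p - 1) := by
    rw [← pow_mul, ← pow_add, hm]
  rw [h1]
  calc DAinv k ^ (p - 1) * (DA k ^ ((p - 1) * (p - 1)) * DA k ^ (p - 1))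
      = (DA k * DAinv k) ^ (p - 1) * DA k ^ ((p - 1) * (p - 1)) := by ring
    _ = _ := by rw [DA_mul_DAinv, one_pow, one_mul]

/-- The reduction of `h` at `∞` (and at `0`) in characteristic `p`:
`((J^(p²) - J)^12 · Δ^(p-1))^(p-1)`. -/
theorem red_hInf_charP :
    (jqNModC k (p * p) - jqModC k) ^ (12 * (p - 1)) * (u1 k p * u2inv k p)
      = ((jqModC k ^ (p * p) - jqModC k) ^ 12 * DA k ^ (p - 1)) ^ (p - 1) := by
  rw [u1_mul_u2inv_charP, jqNModC_sq_charP, mul_pow, ← pow_mul, ← pow_mul]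

end InfCharP

end Fermat.Agent.CAR.V3.UnitCert

end
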