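/-
helper83 — CAR (cusp recipe (Cu-4)/(Cu-5) of the architect, series and valuation halves):
`θ J̄ / J̄` IS A UNIT AT EVERY CUSP PLACE, for every prime `p` (2 and 3 included).

* `exists_kronecker_data` : for every prime `p` a modular-equation datum `Dm` and `Q` with
  `Φ_p = (X - Y^p) (X^p - Y) + p Q` (unconditional).
* `exists_rational_delta_pow` : in characteristic `p`, `Δ^(p-1) · B(J) = A(J)` with explicit
  polynomials `A, B ≠ 0` over `k` — so `Δ^(p-1) ∈ k(J)`.
* `isLead_jDelta_pow` : `(J Δ)^n = 1 + O(q)`.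
* `val_aeval_of_pole` : at a pole of `j`, `v (P(j)) = v(j)^deg P`.
* `val_sub_one_lt_one_of_pole` : an element `f ∈ k(j)` whose `q`-expansion is `1 + O(q)` has
  `v (f - 1) < 1` at every pole of `j`.
* `val_jDelta_sub_one_lt_one` : `f` with `q`-expansion `(J Δ)^(p-1) = J^(p-1) · u₁⁻¹` has
  `v (f - 1) < 1` at every pole of `j`.
* `val_theta_div_eq_one` (+ `_neg`, `_pos`, ValuationSubring forms) : `c` with
  `q`-expansion `∓ (θ J / J)^(p-1)` has `v c = 1` at every pole of `j`.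
* `exists_cusp_pow_div`, `cusp_pow_div_of_map` : `(1 - J(q)/J(ζ q))^(p-1) = p · t` with `t` in the
  Gauss ring and `red t · J̄^(p-1) = -(θ J̄)^(p-1)` (the series half of (Cu-4), `e = 1 - J₀/J₂`).
-/
import Mathlib
import Fermat.Agent.CAR.Local.SSMain
import Fermat.Agent.CAR.V3.UnitCert
import Fermat.Agent.S28.Char0Bridge
import Fermat.Agent.S28.Kummer.Adapter

set_option autoImplicit false

noncomputable section

namespace Fermat.Agent.CAR.V3.CuspUnit

open Polynomial ModularCurve Fermat.Agent.Lib.Red Fermat.Agent.S28.Chain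
  Fermat.Agent.CAR.Local.ThetaJ Fermat.Agent.CAR.V3.Units

/-! ### Kronecker data -/

/-- For every prime `p`: a modular-equation datum and the Kronecker remainder `Q`,
`Φ_p = (X - Y^p) (X^p - Y) + p Q`. -/
theorem exists_kronecker_data (p : ℕ) [NeZero p] (hp : p.Prime) :
    ∃ (Dm : Fermat.Agent.S28.Kummer.ModEqData p) (Q : Polynomial (Polynomial ℤ)),
      Dm.Φ = (X - C (X ^ p)) * (X ^ p - C X) + C (C (p : ℤ)) * Q := by
  obtain ⟨D⟩ := Fermat.Agent.S28.ModEq.exists_modEqData p hp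
  obtain ⟨Q, hQ⟩ := Fermat.Agent.S28.Kummer.kronecker_int hp
    (Fermat.Agent.S28.Kummer.ModEqData.ofTD (Fermat.Agent.S28.Char0Bridge.modEqDataToTD D))
  exact ⟨_, Q, hQ⟩

/-! ### `Δ^(p-1)` is a rational function of `J` in characteristic `p` -/

section Rational

variable (k : Type*) [Field k] (p : ℕ) [Fact p.Prime] [NeZero p] [CharP k p]

/-- The denominator of `Δ^(p-1)`. -/
def denomPoly : k[X] := (X ^ 4 * (X - C 1728) ^ 3) ^ (p - 1) * (X - X ^ (p ^ 2)) ^ 12

omit [Fact p.Prime] [NeZero p] [CharP k p] in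
theorem denomPoly_ne_zero (hp : 1 < p) : denomPoly k p ≠ 0 := by
  unfold denomPoly
  have h1 : (X : k[X]) - X ^ (p ^ 2) ≠ 0 := by
    intro h
    have h2 := congrArg (fun P : k[X] => P.coeff 1) h
    have hp2 : p ^ 2 ≠ 1 := by
      intro h3
      have : p = 1 := by
        rcases Nat.pow_eq_one.mp h3 with h4 | h4
        · exact h4
        · exact absurd h4 (by norm_num)
      omega
    simp only [coeff_sub, coeff_X_one, coeff_X_pow, coeff_zero] at h2
    rw [if_neg (fun h3 => hp2 h3.symm), sub_zero] at h2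
    exact one_ne_zero h2
  exact mul_ne_zero (pow_ne_zero _ (mul_ne_zero (pow_ne_zero _ X_ne_zero)
    (pow_ne_zero _ (X_sub_C_ne_zero _)))) (pow_ne_zero _ h1)

omit [Fact p.Prime] [NeZero p] [CharP k p] in
theorem aeval_denomPoly (J : LaurentSeries k) :
    aeval J (denomPoly k p)
      = (J ^ 4 * (J - 1728) ^ 3) ^ (p - 1) * (J - J ^ (p ^ 2)) ^ 12 := by
  unfold denomPoly
  simp only [map_mul, map_pow, map_sub, aeval_X, map_ofNat]

/-- **`Δ^(p-1) ∈ k(J)`**: `Δ^(p-1) · B(J) = A(J)` with `B = denomPoly ≠ 0`. -/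
theorem exists_rational_delta_pow :
    ∃ A : k[X], Fermat.Agent.S28.ModEq.DA k ^ (p - 1) * aeval (jqModC k) (denomPoly k p)
      = aeval (jqModC k) A := by
  obtain ⟨Dm, Q, hQ⟩ := exists_kronecker_data p (Fact.out : p.Prime)
  have h := Fermat.Agent.CAR.Local.ss_identity_field p k Dm Q hQ
  refine ⟨(Fermat.Agent.CAR.Local.ssPoly p (Fermat.Agent.CAR.Local.thickPoly k p Q)) ^ 6, ?_⟩
  rw [aeval_denomPoly, map_pow, ← h]
  show Fermat.Agent.S28.ModEq.DA k ^ (p - 1) * _ = _ * deltaL k ^ (p - 1) * _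
  have hD : deltaL k = Fermat.Agent.S28.ModEq.DA k := rfl
  rw [hD]
  ring

end Rational

/-- `(J Δ)^n = 1 + O(q)`. -/
theorem isLead_jDelta_pow (R : Type*) [CommRing R] (n : ℕ) :
    Fermat.Agent.S28.ModEq.IsLead ((jqModC R * Fermat.Agent.S28.ModEq.DA R) ^ n) 0 1 := by
  have h := ((Fermat.Agent.S28.ModEq.isLead_jqModC R).mul
    (Fermat.Agent.S28.ModEq.isLead_DA R)).pow n
  simpa using h

/-! ### Valuations at a pole of `j` -/

section Pole

variable {k κ : Type*} [Field k] [Field κ] [Algebra k κ]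
variable {Γ₀ : Type*} [LinearOrderedCommGroupWithZero Γ₀] (v : Valuation κ Γ₀)

/-- At a pole of `j`, a nonzero polynomial in `j` has valuation `v(j)^deg`. -/
theorem val_aeval_of_pole (hv : ∀ c : k, c ≠ 0 → v (algebraMap k κ c) = 1) {j : κ}
    (hj : 1 < v j) {P : k[X]} (hP : P ≠ 0) : v (aeval j P) = v j ^ P.natDegree := by
  have hj0 : j ≠ 0 := by
    rintro rfl
    rw [map_zero] at hj
    exact not_lt_of_ge zero_le_one hj
  let _ : Invertible j := invertibleOfNonzero hj0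
  have h1 : aeval j P = aeval j⁻¹ P.reverse * j ^ P.natDegree := by
    have h := eval₂_reverse_mul_pow (algebraMap k κ) j P
    rw [invOf_eq_inv] at h
    rw [aeval_def, aeval_def, h]
  have h2 : v (aeval j⁻¹ P.reverse) = 1 := by
    refine Fermat.Agent.CAR.Local.val_aeval_eq_one (ρ := 0) hv ?_ ?_
    · rw [map_zero, sub_zero, map_inv₀]
      exact inv_lt_one_of_one_lt₀ hj
    · rw [← coeff_zero_eq_eval_zero, coeff_zero_reverse]
      exact leadingCoeff_ne_zero.mpr hP
  rw [h1, map_mul, h2, one_mul, map_pow]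

omit [Algebra k κ] in
theorem evalAt_id_eq_aeval (J : LaurentSeries k) (P : k[X]) :
    Fermat.Agent.S28.ModEq.evalAt (RingHom.id k) J P = aeval J P := by
  rw [Fermat.Agent.S28.ModEq.evalAt, coe_eval₂RingHom, aeval_def, RingHom.comp_id]
  congr 1
  refine RingHom.ext fun c => ?_
  rw [HahnSeries.C_apply, algebraMap_eq_single]

/-- **An element of `k(j)` with `q`-expansion `1 + O(q)` is `≡ 1` at every pole of `j`.** -/
theorem val_sub_one_lt_one_of_pole (ι : κ →ₐ[k] LaurentSeries k)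
    (hv : ∀ c : k, c ≠ 0 → v (algebraMap k κ c) = 1) {j f : κ}
    (hjL : Fermat.Agent.S28.ModEq.IsLead (ι j) (-1) 1)
    (hfL : Fermat.Agent.S28.ModEq.IsLead (ι f) 0 1)
    {A B : k[X]} (hB : B ≠ 0) (hrel : f * aeval j B = aeval j A) (hj : 1 < v j) :
    v (f - 1) < 1 := by
  have hjL' : Fermat.Agent.S28.ModEq.IsLead (ι j) (-((1 : ℕ) : ℤ)) 1 := by
    simpa using hjL
  -- `(f - 1) B(j) = (A - B)(j)`
  have hrel' : (f - 1) * aeval j B = aeval j (A - B) := by
    rw [map_sub, ← hrel]; ring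
  have hBv := val_aeval_of_pole v hv hj hB
  have hvj0 : v j ≠ 0 := fun h => by
    rw [h] at hj
    exact not_lt_of_ge zero_le_one hj
  by_cases hC : A - B = 0
  · -- then `f = 1`
    rw [hC, map_zero] at hrel'
    have hB0 : aeval j B ≠ 0 := by
      intro h0
      rw [h0, map_zero] at hBv
      exact pow_ne_zero _ hvj0 hBv.symm
    rcases mul_eq_zero.mp hrel' with h | h
    · rw [h, map_zero]
      exact zero_lt_one
    · exact absurd h hB0
  · have hCv := val_aeval_of_pole v hv hj hC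
    -- orders of the `q`-expansions
    have hι : (ι f - 1) * aeval (ι j) B = aeval (ι j) (A - B) := by
      have h := congrArg ι hrel'
      rw [map_mul, map_sub, map_one, ← aeval_algHom_apply, ← aeval_algHom_apply] at h
      exact h
    have hz : (aeval (ι j) (A - B)).coeff (-((A - B).natDegree : ℤ)) ≠ 0 := by
      have h := Fermat.Agent.S28.ModEq.evalAt_coeff_natDegree one_pos hjL' (RingHom.id k) (A - B)
      rw [evalAt_id_eq_aeval, Nat.cast_one, one_mul] at h
      rw [h]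
      exact leadingCoeff_ne_zero.mpr hC
    have hz0 : aeval (ι j) (A - B) ≠ 0 := by
      intro h0
      rw [h0] at hz
      exact hz rfl
    have hx0 : ι f - 1 ≠ 0 := by
      intro h0
      rw [h0, zero_mul] at hι
      exact hz0 hι.symm
    have hy0 : aeval (ι j) B ≠ 0 := by
      intro h0
      rw [h0, mul_zero] at hι
      exact hz0 hι.symm
    have hord : (aeval (ι j) (A - B)).order = (ι f - 1).order + (aeval (ι j) B).order := by
      rw [← hι]
      exact HahnSeries.order_mul hx0 hy0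
    have h1 : (aeval (ι j) (A - B)).order ≤ -((A - B).natDegree : ℤ) :=
      HahnSeries.order_le_of_coeff_ne_zero hz
    have h2 : (1 : ℤ) ≤ (ι f - 1).order := by
      rw [HahnSeries.le_order_iff_forall hx0]
      intro i hi
      rw [HahnSeries.coeff_sub, HahnSeries.coeff_one]
      rcases lt_or_eq_of_le (show i ≤ 0 by omega) with h | h
      · rw [hfL.coeff_lt h, if_neg (ne_of_lt h), sub_zero]
      · rw [h, hfL.coeff_eq, if_pos rfl, sub_self]
    have h3 : -((B.natDegree : ℤ)) ≤ (aeval (ι j) B).order := by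
      rw [HahnSeries.le_order_iff_forall hy0]
      intro i hi
      have h := Fermat.Agent.S28.ModEq.evalAt_coeff_of_lt hjL' (RingHom.id k) B (k := i)
        (by rw [Nat.cast_one, one_mul]; exact hi)
      rwa [evalAt_id_eq_aeval] at h
    have hlt : (A - B).natDegree < B.natDegree := by
      have : ((A - B).natDegree : ℤ) < B.natDegree := by linarith
      exact_mod_cast this
    -- valuations
    obtain ⟨d, hd⟩ := Nat.exists_eq_add_of_lt hlt
    have hval : v (f - 1) * v j ^ B.natDegree = v j ^ (A - B).natDegree := by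
      rw [← hBv, ← hCv, ← map_mul, hrel']
    have hpos : v j ^ (A - B).natDegree ≠ 0 := pow_ne_zero _ hvj0
    have hval' : v (f - 1) * v j ^ (d + 1) = 1 := by
      have h4 : (v (f - 1) * v j ^ (d + 1)) * v j ^ (A - B).natDegree
          = 1 * v j ^ (A - B).natDegree := by
        rw [one_mul, mul_assoc, mul_comm (v j ^ (d + 1)), ← pow_add, ← add_assoc, ← hd]
        exact hval
      exact mul_right_cancel₀ hpos h4
    have hgt : 1 < v j ^ (d + 1) := one_lt_pow₀ hj (Nat.succ_ne_zero d)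
    have heq : v (f - 1) = (v j ^ (d + 1))⁻¹ := eq_inv_of_mul_eq_one_left hval'
    rw [heq]
    exact inv_lt_one_of_one_lt₀ hgt

variable (p : ℕ) [Fact p.Prime] [NeZero p] [CharP k p]

/-- **(Cu-5a)** An element with `q`-expansion `(J Δ)^(p-1) = J^(p-1) · u₁⁻¹` is `≡ 1` at every
pole of `j`. -/
theorem val_jDelta_sub_one_lt_one (ι : κ →ₐ[k] LaurentSeries k)
    (hv : ∀ c : k, c ≠ 0 → v (algebraMap k κ c) = 1) {j f : κ} (hj : ι j = jqModC k)
    (hf : ι f = (jqModC k * Fermat.Agent.S28.ModEq.DA k) ^ (p - 1)) (hpole : 1 < v j) :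
    v (f - 1) < 1 := by
  obtain ⟨A, hA⟩ := exists_rational_delta_pow k p
  refine val_sub_one_lt_one_of_pole v ι hv (j := j) (f := f) (A := X ^ (p - 1) * A)
    (B := denomPoly k p) ?_ ?_ (denomPoly_ne_zero k p (Fact.out : p.Prime).one_lt) ?_ hpole
  · rw [hj]
    exact Fermat.Agent.S28.ModEq.isLead_jqModC k
  · rw [hf]
    exact isLead_jDelta_pow k (p - 1)
  · apply ι.toRingHom.injective
    show ι (f * aeval j (denomPoly k p)) = ι (aeval j (X ^ (p - 1) * A))
    rw [map_mul, ← aeval_algHom_apply, ← aeval_algHom_apply, hj, hf, map_mul, map_pow, aeval_X,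
      ← hA]
    ring

/-- The same with `J^(p-1) · u₁⁻¹` (`u₁⁻¹ = u1inv k p` the reduction of `Δ(q^p)/Δ(q)`). -/
theorem val_jPow_mul_u1inv_sub_one_lt_one (ι : κ →ₐ[k] LaurentSeries k)
    (hv : ∀ c : k, c ≠ 0 → v (algebraMap k κ c) = 1) {j f : κ} (hj : ι j = jqModC k)
    (hf : ι f = jqModC k ^ (p - 1) * u1inv k p) (hpole : 1 < v j) :
    v (f - 1) < 1 := by
  refine val_jDelta_sub_one_lt_one v p ι hv hj ?_ hpole
  rw [hf, UnitCert.u1inv_charP, mul_pow]

/-- **(Cu-5)** `θ J̄ / J̄` is a unit at every pole of `j`: sixth-power form. -/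
theorem val_theta_div_eq_one (ι : κ →ₐ[k] LaurentSeries k)
    (hv : ∀ c : k, c ≠ 0 → v (algebraMap k κ c) = 1) {j c : κ} (hj : ι j = jqModC k)
    (hc : (ι c * jqModC k ^ (p - 1)) ^ 6 = thetaL k (jqModC k) ^ (6 * (p - 1)))
    (hpole : 1 < v j) : v c = 1 := by
  have hv' : ∀ a : k, v (algebraMap k κ a) ≤ 1 := by
    intro a
    by_cases ha : a = 0
    · rw [ha, map_zero, map_zero]; exact zero_le_one
    · exact (hv a ha).le
  have hvj0 : v j ≠ 0 := fun h => by
    rw [h] at hpole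
    exact not_lt_of_ge zero_le_one hpole
  have hj0 : j ≠ 0 := fun h => hvj0 (by rw [h, map_zero])
  -- `v (j - 1728) = v j`
  have h1728 : v (j - algebraMap k κ 1728) = v j :=
    v.map_sub_eq_of_lt_left (lt_of_le_of_lt (hv' 1728) hpole)
  have hj1 : j - algebraMap k κ 1728 ≠ 0 := fun h => hvj0 (by rw [← h1728, h, map_zero])
  -- the auxiliary element `f` with `q`-expansion `(J Δ)^(p-1)`
  set f : κ := c ^ 6 * j ^ (3 * (p - 1)) / (j - algebraMap k κ 1728) ^ (3 * (p - 1)) with hfdef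
  have hJ0 : jqModC k ≠ 0 := by
    intro h
    have h1 := (Fermat.Agent.S28.ModEq.isLead_jqModC k).coeff_eq
    rw [h, HahnSeries.coeff_zero] at h1
    exact zero_ne_one h1
  have hJ1 : jqModC k - 1728 ≠ 0 := by
    intro h0
    apply hj1
    apply ι.toRingHom.injective
    show ι (j - algebraMap k κ 1728) = ι 0
    rw [map_sub, hj, AlgHom.commutes, map_zero, map_ofNat]
    exact h0
  have hf : ι f = (jqModC k * Fermat.Agent.S28.ModEq.DA k) ^ (p - 1) := by
    have h6 : thetaL k (jqModC k) ^ 6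
        = jqModC k ^ 4 * (jqModC k - 1728) ^ 3 * Fermat.Agent.S28.ModEq.DA k :=
      theta_jq_pow_six k
    have e1 : (ι c) ^ 6 * jqModC k ^ (6 * (p - 1))
        = (jqModC k ^ 4 * (jqModC k - 1728) ^ 3 * Fermat.Agent.S28.ModEq.DA k) ^ (p - 1) := by
      rw [← h6, ← pow_mul, ← hc, mul_pow, ← pow_mul, mul_comm (p - 1) 6]
    rw [hfdef, map_div₀, map_mul, map_pow, map_pow, map_pow, map_sub, hj, AlgHom.commutes,
      map_ofNat, div_eq_iff (pow_ne_zero _ hJ1)]
    have hJp : jqModC k ^ (3 * (p - 1)) ≠ 0 := pow_ne_zero _ hJ0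
    apply mul_right_cancel₀ hJp
    calc ι c ^ 6 * jqModC k ^ (3 * (p - 1)) * jqModC k ^ (3 * (p - 1))
        = ι c ^ 6 * jqModC k ^ (6 * (p - 1)) := by ring
      _ = (jqModC k ^ 4 * (jqModC k - 1728) ^ 3 * Fermat.Agent.S28.ModEq.DA k) ^ (p - 1) := e1
      _ = (jqModC k * Fermat.Agent.S28.ModEq.DA k) ^ (p - 1) * (jqModC k - 1728) ^ (3 * (p - 1))
            * jqModC k ^ (3 * (p - 1)) := by
          generalize jqModC k - 1728 = W
          ring
  have hf1 := val_jDelta_sub_one_lt_one v p ι hv hj hf hpole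
  have hvf : v f = 1 := by
    have h := v.map_one_add_of_lt hf1
    rwa [add_sub_cancel] at h
  have h6 : v c ^ 6 = 1 := by
    rw [hfdef, map_div₀, map_mul, map_pow, map_pow, map_pow, h1728,
      mul_div_assoc, div_self (pow_ne_zero _ hvj0), mul_one] at hvf
    exact hvf
  exact (pow_eq_one_iff_of_nonneg zero_le (by norm_num)).mp h6

/-- **(Cu-5)** for `c` with `q`-expansion `-(θ J̄ / J̄)^(p-1)` (the reduction of `e^(p-1)/p`,
`e = 1 - J₀/J₂`). -/
theorem val_theta_div_eq_one_neg (ι : κ →ₐ[k] LaurentSeries k)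
    (hv : ∀ c : k, c ≠ 0 → v (algebraMap k κ c) = 1) {j c : κ} (hj : ι j = jqModC k)
    (hc : ι c * jqModC k ^ (p - 1) = -(thetaL k (jqModC k)) ^ (p - 1))
    (hpole : 1 < v j) : v c = 1 := by
  refine val_theta_div_eq_one v p ι hv hj ?_ hpole
  rw [hc, mul_comm 6 (p - 1), pow_mul]
  ring

/-- **(Cu-5)** for `c` with `q`-expansion `(θ J̄ / J̄)^(p-1)`. -/
theorem val_theta_div_eq_one_pos (ι : κ →ₐ[k] LaurentSeries k)
    (hv : ∀ c : k, c ≠ 0 → v (algebraMap k κ c) = 1) {j c : κ} (hj : ι j = jqModC k)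
    (hc : ι c * jqModC k ^ (p - 1) = (thetaL k (jqModC k)) ^ (p - 1))
    (hpole : 1 < v j) : v c = 1 := by
  refine val_theta_div_eq_one v p ι hv hj ?_ hpole
  rw [hc, mul_comm 6 (p - 1), pow_mul]

end Pole

/-! ### Valuation-subring forms -/

section Subring

variable {k κ : Type*} [Field k] [Field κ] [Algebra k κ] (Vs : ValuationSubring κ)
  (p : ℕ) [Fact p.Prime] [NeZero p] [CharP k p]

omit [Fact p.Prime] [NeZero p] [CharP k p] in
theorem valuation_algebraMap_eq_one (hk : ∀ a : k, algebraMap k κ a ∈ Vs) (a : k) (ha : a ≠ 0) :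
    Vs.valuation (algebraMap k κ a) = 1 := by
  refine le_antisymm ((Vs.valuation_le_one_iff _).mpr (hk a)) ?_
  have h1 : Vs.valuation (algebraMap k κ a⁻¹) ≤ 1 := (Vs.valuation_le_one_iff _).mpr (hk a⁻¹)
  rw [map_inv₀, map_inv₀] at h1
  have h0 : Vs.valuation (algebraMap k κ a) ≠ 0 := by
    rw [Ne, Valuation.zero_iff]
    exact fun h => ha ((algebraMap k κ).injective (by rw [h, map_zero]))
  exact (inv_le_one₀ (zero_lt_iff.mpr h0)).mp h1

/-- **(Cu-5), point form.** `Vs` a valuation subring of `κ` containing the constants at which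
`j` has a pole (`j ∉ Vs`); `c ∈ κ` with `q`-expansion `-(θ J̄ / J̄)^(p-1)`.  Then `c` is a unit
of `Vs`. -/
theorem theta_div_unit_at_cusp (ι : κ →ₐ[k] LaurentSeries k)
    (hk : ∀ a : k, algebraMap k κ a ∈ Vs) {j c : κ} (hj : ι j = jqModC k)
    (hc : ι c * jqModC k ^ (p - 1) = -(thetaL k (jqModC k)) ^ (p - 1))
    (hpole : j ∉ Vs) : c ∈ Vs ∧ c ∉ Vs.nonunits := by
  have h := val_theta_div_eq_one_neg Vs.valuation p ι (valuation_algebraMap_eq_one Vs hk) hj hc
    (by
      rw [← not_le, Vs.valuation_le_one_iff]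
      exact hpole)
  refine ⟨(Vs.valuation_le_one_iff _).mp h.le, fun hn => ?_⟩
  exact absurd h (ne_of_lt (Vs.mem_nonunits_iff.mp hn))

/-- **(Cu-5a), point form.** `f ∈ κ` with `q`-expansion `J̄^(p-1) · u₁⁻¹ = (J̄ Δ̄)^(p-1)` is
`≡ 1` at every pole of `j`. -/
theorem jPow_mul_u1inv_sub_one_mem_nonunits (ι : κ →ₐ[k] LaurentSeries k)
    (hk : ∀ a : k, algebraMap k κ a ∈ Vs) {j f : κ} (hj : ι j = jqModC k)
    (hf : ι f = jqModC k ^ (p - 1) * u1inv k p) (hpole : j ∉ Vs) : f - 1 ∈ Vs.nonunits := by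
  have h := val_jPow_mul_u1inv_sub_one_lt_one Vs.valuation p ι
    (valuation_algebraMap_eq_one Vs hk) hj hf
    (by
      rw [← not_le, Vs.valuation_le_one_iff]
      exact hpole)
  exact Vs.mem_nonunits_iff.mpr h

end Subring

/-! ### The series half of (Cu-4): `e = 1 - J(q)/J(ζ q)` -/

section CuspSeries

variable {L : Type*} [Field L] (A : ValuationSubring L) {k : Type*} [Field k] (π : A →+* k)
  (hπ0 : ∀ a : A, ¬ IsUnit a → π a = 0)
  (p : ℕ) [Fact p.Prime] [NeZero p] [CharP k p] (ζ : Lˣ) (hζ : IsPrimitiveRoot (ζ : L) p)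

omit [Fact p.Prime] [NeZero p] [CharP k p] in
theorem jq_ne_zero (R : Type*) [CommRing R] [Nontrivial R] : jqModC R ≠ 0 := by
  intro h
  have h1 := (Fermat.Agent.S28.ModEq.isLead_jqModC R).coeff_eq
  rw [h, HahnSeries.coeff_zero] at h1
  exact zero_ne_one h1

include hπ0 hζ

omit [NeZero p] in
/-- `(1 - J(q)/J(ζ q))^(p-1) = p · t` with `t` in the Gauss ring and
`red t · J̄^(p-1) = -(θ J̄)^(p-1)`. -/
theorem exists_cusp_pow_div :
    ∃ t : gaussRing A π,
      (1 - jqModC L / rot ζ (jqModC L)) ^ (p - 1)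
        = HahnSeries.C (p : L) * (t : LaurentSeries L) ∧
      red A π t * jqModC k ^ (p - 1) = -(thetaL k (jqModC k)) ^ (p - 1) := by
  obtain ⟨t₀, ht₀, ht₀r⟩ := MidSeries.exists_pow_div' A π p ζ hπ0 hζ
    ⟨jqModC L, UnitCert.jq_mem A π⟩
  have hrj := MidSeries.rot_mem_gaussRing' A π p ζ hζ.pow_eq_one (UnitCert.jq_mem A π)
  have hrjr : red A π ⟨rot ζ (jqModC L), hrj⟩ = jqModC k := by
    rw [MidSeries.red_rot' A π p ζ hζ.pow_eq_one (UnitCert.jq_mem A π) hrj, UnitCert.red_jq]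
  have hrj0 : rot ζ (jqModC L) ≠ 0 := by
    intro h0
    exact jq_ne_zero L (rot_injective ζ (by rw [h0, map_zero]))
  have hinv : (rot ζ (jqModC L))⁻¹ ∈ gaussRing A π :=
    inv_mem_gaussRing A π hrj (by rw [hrjr]; exact jq_ne_zero k)
  have hinvr : red A π ⟨(rot ζ (jqModC L))⁻¹, hinv⟩ = (jqModC k)⁻¹ := by
    rw [red_inv A π hrj (by rw [hrjr]; exact jq_ne_zero k) hinv, hrjr]
  refine ⟨t₀ * ⟨(rot ζ (jqModC L))⁻¹, hinv⟩ ^ (p - 1), ?_, ?_⟩
  · have e : 1 - jqModC L / rot ζ (jqModC L)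
        = (rot ζ (jqModC L) - jqModC L) * (rot ζ (jqModC L))⁻¹ := by
      field_simp
    have ht₀' : (rot ζ (jqModC L) - jqModC L) ^ (p - 1)
        = HahnSeries.C (p : L) * (t₀ : LaurentSeries L) := ht₀
    rw [e, mul_pow, ht₀']
    show _ = HahnSeries.C (p : L) * ((t₀ : LaurentSeries L) * (rot ζ (jqModC L))⁻¹ ^ (p - 1))
    ring
  · rw [map_mul, map_pow, ht₀r, hinvr, UnitCert.red_jq, inv_pow, mul_assoc,
      inv_mul_cancel₀ (pow_ne_zero _ (jq_ne_zero k)), mul_one]

omit [NeZero p] in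
/-- **(Cu-4), abstract element.** `τ : R →+* L((q))` (the middle-cusp expansion), `e : R` with
`τ e · J(ζ q) = J(ζ q) - J(q)` (`e = 1 - J₀/J₂`), and `x` with `x · p = e^(p-1)`.  Then `τ x`
lies in the Gauss ring and `red (τ x) · J̄^(p-1) = -(θ J̄)^(p-1)`. -/
theorem cusp_pow_div_of_map {R : Type*} [CommRing R] (τ : R →+* LaurentSeries L) (e x : R)
    (he : τ e * rot ζ (jqModC L) = rot ζ (jqModC L) - jqModC L)
    (hx : x * (p : R) = e ^ (p - 1)) :
    ∃ hm : τ x ∈ gaussRing A π,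
      red A π ⟨τ x, hm⟩ * jqModC k ^ (p - 1) = -(thetaL k (jqModC k)) ^ (p - 1) := by
  obtain ⟨t, ht, htr⟩ := exists_cusp_pow_div A π hπ0 p ζ hζ
  have hrj0 : rot ζ (jqModC L) ≠ 0 := by
    intro h0
    exact jq_ne_zero L (rot_injective ζ (by rw [h0, map_zero]))
  have hp0 : (HahnSeries.C (p : L) : LaurentSeries L) ≠ 0 := by
    intro h
    have h3 : (HahnSeries.C (p : L) : LaurentSeries L) = HahnSeries.C 0 := by rw [h, map_zero]
    exact UnitCert.natCast_ne_zero_of_primitiveRoot p ζ hζ (HahnSeries.C_injective h3)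
  have he' : τ e = 1 - jqModC L / rot ζ (jqModC L) := by
    have h1 : τ e = (rot ζ (jqModC L) - jqModC L) / rot ζ (jqModC L) := by
      rw [eq_div_iff hrj0, he]
    rw [h1, sub_div, div_self hrj0]
  have e1 : τ x = (t : LaurentSeries L) := by
    have h3 := congrArg τ hx
    rw [map_mul, map_natCast, map_pow, he', ht] at h3
    have h4 : (p : LaurentSeries L) = HahnSeries.C (p : L) := by
      rw [map_natCast]
    rw [h4, mul_comm] at h3
    exact mul_left_cancel₀ hp0 h3
  refine ⟨e1 ▸ t.2, ?_⟩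
  rw [← htr]
  congr 2
  exact Subtype.ext e1

end CuspSeries

end Fermat.Agent.CAR.V3.CuspUnit

end
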