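/-
helper83 — CAR, cusp chart in convention (B) (architect's ruling #6, R5):
`(Cu-5)` FOR THE BASE FUNCTION `x̄ = J̄(q^m)`, any `m` with `(m : k) ≠ 0`.

`jqNModC k m = qExpand k m (jqModC k) = TD.Jd k m` is the `q`-expansion of `J(mτ)` (`Lib.Red.xk k m`).

* `natDegree_sub_lt_of_isLead` : `F = 1 + O(q)` and `F · B(J) = A(J)` (`J` with a simple pole)
  force `A = B` or `deg (A - B) < deg B`;
* `val_sub_one_lt_one_of_natDegree_lt` : pure valuation lemma — `f · B(j) = A(j)` in a field `κ`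
  over `k`, `deg (A - B) < deg B`, `v` trivial on `k^×`, `1 < v j` ⟹ `v (f - 1) < 1`;
* `exists_jDelta_rational` : `(J Δ)^(p-1) · B(J) = A(J)` with such `A, B` (characteristic `p`);
* `qExpand_aeval` : `qExpand` commutes with polynomial evaluation;
* `val_jDelta_m_sub_one_lt_one` : an element with `q`-expansion `((J Δ)^(p-1))(q^m)` is `≡ 1` at
  every pole of `j`, `ι j = J(q^m)`;
* `val_theta_div_eq_one_m` (+ `_neg`, `_pos`), `theta_div_unit_at_cusp_m` : `c` with
  `ι c · x̄^(p-1) = ∓ (θ x̄)^(p-1)`, `x̄ = J(q^m)`, `(m : k) ≠ 0`, is a unit at every pole of `x̄`;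
* `exists_ratio_pow_div`, `ratio_pow_div_of_map` : for ANY `y` in the Gauss ring with `red y ≠ 0`:
  `(1 - y(q)/y(ζ q))^(p-1) = p · t`, `red t · ȳ^(p-1) = -(θ ȳ)^(p-1)`.
-/
import Mathlib
import Fermat.Agent.CAR.V3.CuspUnit

set_option autoImplicit false

noncomputable section

namespace Fermat.Agent.CAR.V3.CuspUnitM

open Polynomial ModularCurve Fermat.Agent.Lib.Red Fermat.Agent.S28.Chain
  Fermat.Agent.CAR.Local.ThetaJ Fermat.Agent.CAR.V3.Units Fermat.Agent.S28.ModEq

/-! ### The degree bound from the `q`-expansion -/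

/-- If `F = 1 + O(q)` and `F · B(J) = A(J)` for a series `J` with a simple pole, then `A = B` or
`deg (A - B) < deg B`. -/
theorem natDegree_sub_lt_of_isLead {k : Type*} [Field k] {J F : LaurentSeries k}
    (hJ : IsLead J (-1) 1) (hF : IsLead F 0 1) {A B : k[X]}
    (hrel : F * aeval J B = aeval J A) : A - B = 0 ∨ (A - B).natDegree < B.natDegree := by
  have hJ' : IsLead J (-((1 : ℕ) : ℤ)) 1 := by simpa using hJ
  by_cases hC : A - B = 0
  · exact Or.inl hC
  right
  have hι : (F - 1) * aeval J B = aeval J (A - B) := by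
    rw [map_sub, ← hrel]; ring
  have hz : (aeval J (A - B)).coeff (-((A - B).natDegree : ℤ)) ≠ 0 := by
    have h := evalAt_coeff_natDegree one_pos hJ' (RingHom.id k) (A - B)
    rw [CuspUnit.evalAt_id_eq_aeval, Nat.cast_one, one_mul] at h
    rw [h]
    exact leadingCoeff_ne_zero.mpr hC
  have hz0 : aeval J (A - B) ≠ 0 := by
    intro h0
    rw [h0] at hz
    exact hz rfl
  have hx0 : F - 1 ≠ 0 := by
    intro h0
    rw [h0, zero_mul] at hι
    exact hz0 hι.symm
  have hy0 : aeval J B ≠ 0 := by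
    intro h0
    rw [h0, mul_zero] at hι
    exact hz0 hι.symm
  have hord : (aeval J (A - B)).order = (F - 1).order + (aeval J B).order := by
    rw [← hι]
    exact HahnSeries.order_mul hx0 hy0
  have h1 : (aeval J (A - B)).order ≤ -((A - B).natDegree : ℤ) :=
    HahnSeries.order_le_of_coeff_ne_zero hz
  have h2 : (1 : ℤ) ≤ (F - 1).order := by
    rw [HahnSeries.le_order_iff_forall hx0]
    intro i hi
    rw [HahnSeries.coeff_sub, HahnSeries.coeff_one]
    rcases lt_or_eq_of_le (show i ≤ 0 by omega) with h | h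
    · rw [hF.coeff_lt h, if_neg (ne_of_lt h), sub_zero]
    · rw [h, hF.coeff_eq, if_pos rfl, sub_self]
  have h3 : -((B.natDegree : ℤ)) ≤ (aeval J B).order := by
    rw [HahnSeries.le_order_iff_forall hy0]
    intro i hi
    have h := evalAt_coeff_of_lt hJ' (RingHom.id k) B (k := i)
      (by rw [Nat.cast_one, one_mul]; exact hi)
    rwa [CuspUnit.evalAt_id_eq_aeval] at h
  have : ((A - B).natDegree : ℤ) < B.natDegree := by linarith
  exact_mod_cast this

/-! ### The pure valuation lemma -/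

section Val

variable {k κ : Type*} [Field k] [Field κ] [Algebra k κ]
variable {Γ₀ : Type*} [LinearOrderedCommGroupWithZero Γ₀] (v : Valuation κ Γ₀)

/-- `f · B(j) = A(j)` with `deg (A - B) < deg B` (or `A = B`): `f ≡ 1` at every pole of `j`. -/
theorem val_sub_one_lt_one_of_natDegree_lt
    (hv : ∀ c : k, c ≠ 0 → v (algebraMap k κ c) = 1) {j f : κ} {A B : k[X]} (hB : B ≠ 0)
    (hdeg : A - B = 0 ∨ (A - B).natDegree < B.natDegree)
    (hrel : f * aeval j B = aeval j A) (hj : 1 < v j) : v (f - 1) < 1 := by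
  have hrel' : (f - 1) * aeval j B = aeval j (A - B) := by
    rw [map_sub, ← hrel]; ring
  have hBv := CuspUnit.val_aeval_of_pole v hv hj hB
  have hvj0 : v j ≠ 0 := fun h => by
    rw [h] at hj
    exact not_lt_of_ge zero_le_one hj
  by_cases hC : A - B = 0
  · rw [hC, map_zero] at hrel'
    have hB0 : aeval j B ≠ 0 := by
      intro h0
      rw [h0, map_zero] at hBv
      exact pow_ne_zero _ hvj0 hBv.symm
    rcases mul_eq_zero.mp hrel' with h | h
    · rw [h, map_zero]
      exact zero_lt_one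
    · exact absurd h hB0
  · have hlt := hdeg.resolve_left hC
    have hCv := CuspUnit.val_aeval_of_pole v hv hj hC
    obtain ⟨d, hd⟩ := Nat.exists_eq_add_of_lt hlt
    have hval : v (f - 1) * v j ^ B.natDegree = v j ^ (A - B).natDegree := by
      rw [← hBv, ← hCv, ← map_mul, hrel']
    have hpos : v j ^ (A - B).natDegree ≠ 0 := pow_ne_zero _ hvj0
    have hval' : v (f - 1) * v j ^ (d + 1) = 1 := by
      have h4 : (v (f - 1) * v j ^ (d + 1)) * v j ^ (A - B).natDegree
          = 1 * v j ^ (A - B).natDegree := by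
        rw [one_mul, mul_assoc, mul_comm (v j ^ (d + 1)), ← pow_add, ← add_assoc, ← hd]
        exact hval
      exact mul_right_cancel₀ hpos h4
    have hgt : 1 < v j ^ (d + 1) := one_lt_pow₀ hj (Nat.succ_ne_zero d)
    have heq : v (f - 1) = (v j ^ (d + 1))⁻¹ := eq_inv_of_mul_eq_one_left hval'
    rw [heq]
    exact inv_lt_one_of_one_lt₀ hgt

end Val

/-! ### `(J Δ)^(p-1)` as a rational function of `J`, with the degree bound -/

theorem exists_jDelta_rational (k : Type*) [Field k] (p : ℕ) [Fact p.Prime] [NeZero p]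
    [CharP k p] :
    ∃ A B : k[X], B ≠ 0 ∧ (A - B = 0 ∨ (A - B).natDegree < B.natDegree) ∧
      (jqModC k * DA k) ^ (p - 1) * aeval (jqModC k) B = aeval (jqModC k) A := by
  obtain ⟨A₀, hA₀⟩ := CuspUnit.exists_rational_delta_pow k p
  have hB := CuspUnit.denomPoly_ne_zero k p (Fact.out : p.Prime).one_lt
  have hrel : (jqModC k * DA k) ^ (p - 1) * aeval (jqModC k) (CuspUnit.denomPoly k p)
      = aeval (jqModC k) (X ^ (p - 1) * A₀) := by
    rw [map_mul, map_pow, aeval_X, ← hA₀]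
    ring
  exact ⟨X ^ (p - 1) * A₀, CuspUnit.denomPoly k p, hB,
    natDegree_sub_lt_of_isLead (isLead_jqModC k) (CuspUnit.isLead_jDelta_pow k (p - 1)) hrel,
    hrel⟩

/-! ### `qExpand` and polynomial evaluation -/

theorem qExpand_aeval {k : Type*} [Field k] (m : ℕ) [NeZero m] (J : LaurentSeries k)
    (P : k[X]) : qExpand k m (aeval J P) = aeval (qExpand k m J) P := by
  rw [aeval_def, aeval_def, hom_eval₂]
  congr 1
  refine RingHom.ext fun c => ?_
  rw [RingHom.comp_apply, algebraMap_eq_single, qExpand_single, mul_zero]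

/-! ### (Cu-5) for `x̄ = J(q^m)` -/

section PoleM

variable {k κ : Type*} [Field k] [Field κ] [Algebra k κ]
variable {Γ₀ : Type*} [LinearOrderedCommGroupWithZero Γ₀] (v : Valuation κ Γ₀)
variable (p : ℕ) [Fact p.Prime] [NeZero p] [CharP k p] (m : ℕ) [NeZero m]

/-- **(Cu-5a), level `m`.** An element with `q`-expansion `((J Δ)^(p-1))(q^m)` is `≡ 1` at every
pole of `j`, where `ι j = J(q^m)`. -/
theorem val_jDelta_m_sub_one_lt_one (ι : κ →ₐ[k] LaurentSeries k)
    (hv : ∀ c : k, c ≠ 0 → v (algebraMap k κ c) = 1) {j f : κ}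
    (hj : ι j = qExpand k m (jqModC k))
    (hf : ι f = qExpand k m ((jqModC k * DA k) ^ (p - 1))) (hpole : 1 < v j) :
    v (f - 1) < 1 := by
  obtain ⟨A, B, hB, hdeg, hrel⟩ := exists_jDelta_rational k p
  refine val_sub_one_lt_one_of_natDegree_lt v hv hB hdeg ?_ hpole
  apply ι.toRingHom.injective
  show ι (f * aeval j B) = ι (aeval j A)
  rw [map_mul, ← aeval_algHom_apply, ← aeval_algHom_apply, hj, hf, ← qExpand_aeval,
    ← qExpand_aeval, ← map_mul, hrel]

/-- **(Cu-5), level `m`**: sixth-power form.  `x̄ = J(q^m)`, `(m : k) ≠ 0`; `c` with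
`(ι c · x̄^(p-1))^6 = (θ x̄)^(6 (p-1))` has `v c = 1` at every pole of `x̄`. -/
theorem val_theta_div_eq_one_m (ι : κ →ₐ[k] LaurentSeries k)
    (hv : ∀ c : k, c ≠ 0 → v (algebraMap k κ c) = 1) (hm : (m : k) ≠ 0) {j c : κ}
    (hj : ι j = qExpand k m (jqModC k))
    (hc : (ι c * qExpand k m (jqModC k) ^ (p - 1)) ^ 6
      = thetaL k (qExpand k m (jqModC k)) ^ (6 * (p - 1)))
    (hpole : 1 < v j) : v c = 1 := by
  set jm : LaurentSeries k := qExpand k m (jqModC k) with hjm
  set Dm : LaurentSeries k := qExpand k m (DA k) with hDm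
  have hv' : ∀ a : k, v (algebraMap k κ a) ≤ 1 := by
    intro a
    by_cases ha : a = 0
    · rw [ha, map_zero, map_zero]; exact zero_le_one
    · exact (hv a ha).le
  have hvj0 : v j ≠ 0 := fun h => by
    rw [h] at hpole
    exact not_lt_of_ge zero_le_one hpole
  have h1728 : v (j - algebraMap k κ 1728) = v j :=
    v.map_sub_eq_of_lt_left (lt_of_le_of_lt (hv' 1728) hpole)
  have hj1 : j - algebraMap k κ 1728 ≠ 0 := fun h => hvj0 (by rw [← h1728, h, map_zero])
  have hvm : v (algebraMap k κ (m : k)) = 1 := hv _ hm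
  have hm0 : algebraMap k κ (m : k) ≠ 0 := fun h => by
    rw [h, map_zero] at hvm
    exact zero_ne_one hvm
  have hJ0 : jm ≠ 0 := by
    intro h
    exact CuspUnit.jq_ne_zero k ((qExpand_injective (R := k) m) (by rw [← hjm, h, map_zero]))
  have hJ1 : jm - 1728 ≠ 0 := by
    intro h0
    apply hj1
    apply ι.toRingHom.injective
    show ι (j - algebraMap k κ 1728) = ι 0
    rw [map_sub, hj, AlgHom.commutes, map_zero, map_ofNat]
    exact h0
  have hCm : (HahnSeries.C (m : k) : LaurentSeries k) ≠ 0 := by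
    intro h
    have h3 : (HahnSeries.C (m : k) : LaurentSeries k) = HahnSeries.C 0 := by rw [h, map_zero]
    exact hm (HahnSeries.C_injective h3)
  -- `(θ x̄)^6 = m^6 · x̄^4 (x̄ - 1728)^3 Δ(q^m)`
  have h6 : thetaL k jm ^ 6
      = HahnSeries.C (m : k) ^ 6 * (jm ^ 4 * (jm - 1728) ^ 3 * Dm) := by
    have h := congrArg (qExpand k m) (theta_jq_pow_six k)
    rw [map_pow, map_mul, map_mul, map_pow, map_pow, map_sub, map_ofNat] at h
    rw [hjm, thetaL_qExpand, mul_pow, h]
    rfl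
  -- the auxiliary element `f` with `q`-expansion `((J Δ)^(p-1))(q^m)`
  set f : κ := c ^ 6 * j ^ (3 * (p - 1))
    / ((j - algebraMap k κ 1728) ^ (3 * (p - 1)) * algebraMap k κ (m : k) ^ (6 * (p - 1)))
    with hfdef
  have hf : ι f = qExpand k m ((jqModC k * DA k) ^ (p - 1)) := by
    have e1 : (ι c) ^ 6 * jm ^ (6 * (p - 1))
        = (HahnSeries.C (m : k) ^ 6 * (jm ^ 4 * (jm - 1728) ^ 3 * Dm)) ^ (p - 1) := by
      rw [← h6, ← pow_mul, ← hc, mul_pow, ← pow_mul, mul_comm (p - 1) 6]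
    have hιm : ι (algebraMap k κ (m : k)) = HahnSeries.C (m : k) := by
      rw [AlgHom.commutes, algebraMap_eq_single]
      rfl
    rw [hfdef, map_div₀, map_mul, map_mul, map_pow, map_pow, map_pow, map_pow, map_sub, hj,
      AlgHom.commutes, map_ofNat, hιm, map_pow, map_mul, ← hjm, ← hDm,
      div_eq_iff (mul_ne_zero (pow_ne_zero _ hJ1) (pow_ne_zero _ hCm))]
    have hJp : jm ^ (3 * (p - 1)) ≠ 0 := pow_ne_zero _ hJ0
    apply mul_right_cancel₀ hJp
    calc ι c ^ 6 * jm ^ (3 * (p - 1)) * jm ^ (3 * (p - 1))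
        = ι c ^ 6 * jm ^ (6 * (p - 1)) := by ring
      _ = (HahnSeries.C (m : k) ^ 6 * (jm ^ 4 * (jm - 1728) ^ 3 * Dm)) ^ (p - 1) := e1
      _ = (jm * Dm) ^ (p - 1)
            * ((jm - 1728) ^ (3 * (p - 1)) * HahnSeries.C (m : k) ^ (6 * (p - 1)))
            * jm ^ (3 * (p - 1)) := by
          generalize jm - 1728 = W
          ring
  have hf1 := val_jDelta_m_sub_one_lt_one v p m ι hv hj hf hpole
  have hvf : v f = 1 := by
    have h := v.map_one_add_of_lt hf1
    rwa [add_sub_cancel] at h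
  have h6' : v c ^ 6 = 1 := by
    rw [hfdef, map_div₀, map_mul, map_mul, map_pow, map_pow, map_pow, map_pow, h1728, hvm,
      one_pow, mul_one, mul_div_assoc, div_self (pow_ne_zero _ hvj0), mul_one] at hvf
    exact hvf
  exact (pow_eq_one_iff_of_nonneg zero_le (by norm_num)).mp h6'

/-- **(Cu-5), level `m`** for `c` with `ι c · x̄^(p-1) = -(θ x̄)^(p-1)`. -/
theorem val_theta_div_eq_one_m_neg (ι : κ →ₐ[k] LaurentSeries k)
    (hv : ∀ c : k, c ≠ 0 → v (algebraMap k κ c) = 1) (hm : (m : k) ≠ 0) {j c : κ}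
    (hj : ι j = qExpand k m (jqModC k))
    (hc : ι c * qExpand k m (jqModC k) ^ (p - 1)
      = -(thetaL k (qExpand k m (jqModC k))) ^ (p - 1))
    (hpole : 1 < v j) : v c = 1 := by
  refine val_theta_div_eq_one_m v p m ι hv hm hj ?_ hpole
  rw [hc, mul_comm 6 (p - 1), pow_mul]
  ring

/-- **(Cu-5), level `m`** for `c` with `ι c · x̄^(p-1) = (θ x̄)^(p-1)`. -/
theorem val_theta_div_eq_one_m_pos (ι : κ →ₐ[k] LaurentSeries k)
    (hv : ∀ c : k, c ≠ 0 → v (algebraMap k κ c) = 1) (hm : (m : k) ≠ 0) {j c : κ}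
    (hj : ι j = qExpand k m (jqModC k))
    (hc : ι c * qExpand k m (jqModC k) ^ (p - 1)
      = (thetaL k (qExpand k m (jqModC k))) ^ (p - 1))
    (hpole : 1 < v j) : v c = 1 := by
  refine val_theta_div_eq_one_m v p m ι hv hm hj ?_ hpole
  rw [hc, mul_comm 6 (p - 1), pow_mul]

end PoleM

/-! ### Point forms -/

section Subring

variable {k κ : Type*} [Field k] [Field κ] [Algebra k κ] (Vs : ValuationSubring κ)
  (p : ℕ) [Fact p.Prime] [NeZero p] [CharP k p] (m : ℕ) [NeZero m]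

/-- **(Cu-5), point form, level `m`.** `Vs` a valuation subring of `κ` containing the constants
with `x̄ ∉ Vs` (`x̄ = J(q^m)`, `(m : k) ≠ 0`); `c ∈ κ` with `ι c · x̄^(p-1) = -(θ x̄)^(p-1)`.
Then `c` is a unit of `Vs`. -/
theorem theta_div_unit_at_cusp_m (ι : κ →ₐ[k] LaurentSeries k)
    (hk : ∀ a : k, algebraMap k κ a ∈ Vs) (hm : (m : k) ≠ 0) {j c : κ}
    (hj : ι j = qExpand k m (jqModC k))
    (hc : ι c * qExpand k m (jqModC k) ^ (p - 1)
      = -(thetaL k (qExpand k m (jqModC k))) ^ (p - 1))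
    (hpole : j ∉ Vs) : c ∈ Vs ∧ c ∉ Vs.nonunits := by
  have h := val_theta_div_eq_one_m_neg Vs.valuation p m ι
    (CuspUnit.valuation_algebraMap_eq_one Vs hk) hm hj hc
    (by
      rw [← not_le, Vs.valuation_le_one_iff]
      exact hpole)
  refine ⟨(Vs.valuation_le_one_iff _).mp h.le, fun hn => ?_⟩
  exact absurd h (ne_of_lt (Vs.mem_nonunits_iff.mp hn))

/-- The same in the `g`-form consumed by `V3CuspMid.of_J`: `g · x̄^(p-1) = c₀` with
`ι c₀ = -(θ x̄)^(p-1)`; then `g ∉ Vs.nonunits` (and `g ∈ Vs`). -/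
theorem g_unit_at_cusp_m (ι : κ →ₐ[k] LaurentSeries k)
    (hk : ∀ a : k, algebraMap k κ a ∈ Vs) (hm : (m : k) ≠ 0) {j g c₀ : κ}
    (hj : ι j = qExpand k m (jqModC k))
    (hc₀ : ι c₀ = -(thetaL k (qExpand k m (jqModC k))) ^ (p - 1))
    (hg : g * j ^ (p - 1) = c₀) (hpole : j ∉ Vs) : g ∈ Vs ∧ g ∉ Vs.nonunits := by
  refine theta_div_unit_at_cusp_m Vs p m ι hk hm hj ?_ hpole
  rw [← hc₀, ← hg, map_mul, map_pow, hj]

/-- The consumer form (helper12's `hgu` of `V3CuspMid.of_J`, convention (B)): `x̄ = TD.Jd k m`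
(the coercion of `Lib.Red.xk k m`), pole given as `x̄⁻¹ ∈ Vs.nonunits`. -/
theorem g_unit_at_cusp_Jd (ι : κ →ₐ[k] LaurentSeries k)
    (hk : ∀ a : k, algebraMap k κ a ∈ Vs) (hm : (m : k) ≠ 0) {j g c₀ : κ}
    (hj : ι j = Fermat.Agent.S28.TD.Jd k m)
    (hc₀ : ι c₀ = -(thetaL k (Fermat.Agent.S28.TD.Jd k m)) ^ (p - 1))
    (hg : g * j ^ (p - 1) = c₀) (hpole : j⁻¹ ∈ Vs.nonunits) : g ∈ Vs ∧ g ∉ Vs.nonunits := by
  have hJd : Fermat.Agent.S28.TD.Jd k m = qExpand k m (jqModC k) :=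
    Fermat.Agent.S28.TD.Jd_eq k m
  rw [hJd] at hj hc₀
  have hj0 : j ≠ 0 := by
    intro h
    rw [h, map_zero] at hj
    exact CuspUnit.jq_ne_zero k ((qExpand_injective (R := k) m) (by rw [← hj, map_zero]))
  refine g_unit_at_cusp_m Vs p m ι hk hm hj hc₀ hg (fun hmem => ?_)
  rw [ValuationSubring.mem_nonunits_iff_or] at hpole
  rcases hpole with h0 | h0
  · exact hj0 (inv_eq_zero.mp h0)
  · rw [inv_inv] at h0
    exact h0 hmem

end Subring

/-! ### The ratio form of (C1) for an arbitrary Gauss-integral `y` -/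

section Ratio

variable {L : Type*} [Field L] (A : ValuationSubring L) {k : Type*} [Field k] (π : A →+* k)
  (hπ0 : ∀ a : A, ¬ IsUnit a → π a = 0)
  (p : ℕ) [Fact p.Prime] [CharP k p] (ζ : Lˣ) (hζ : IsPrimitiveRoot (ζ : L) p)

include hπ0 hζ

/-- For `y` in the Gauss ring with `red y ≠ 0`: `(1 - y(q)/y(ζ q))^(p-1) = p · t` with `t` in
the Gauss ring and `red t · ȳ^(p-1) = -(θ ȳ)^(p-1)`. -/
theorem exists_ratio_pow_div (y : gaussRing A π) (hy : red A π y ≠ 0) :
    ∃ t : gaussRing A π,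
      (1 - (y : LaurentSeries L) / rot ζ (y : LaurentSeries L)) ^ (p - 1)
        = HahnSeries.C (p : L) * (t : LaurentSeries L) ∧
      red A π t * red A π y ^ (p - 1) = -(thetaL k (red A π y)) ^ (p - 1) := by
  obtain ⟨t₀, ht₀, ht₀r⟩ := MidSeries.exists_pow_div' A π p ζ hπ0 hζ y
  have hrj := MidSeries.rot_mem_gaussRing' A π p ζ hζ.pow_eq_one y.2
  have hrjr : red A π ⟨rot ζ (y : LaurentSeries L), hrj⟩ = red A π y :=
    MidSeries.red_rot' A π p ζ hζ.pow_eq_one y.2 hrj
  have hy0 : (y : LaurentSeries L) ≠ 0 := by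
    intro h0
    apply hy
    have : y = 0 := Subtype.ext h0
    rw [this, map_zero]
  have hrj0 : rot ζ (y : LaurentSeries L) ≠ 0 := by
    intro h0
    exact hy0 (rot_injective ζ (by rw [h0, map_zero]))
  have hinv : (rot ζ (y : LaurentSeries L))⁻¹ ∈ gaussRing A π :=
    inv_mem_gaussRing A π hrj (by rw [hrjr]; exact hy)
  have hinvr : red A π ⟨(rot ζ (y : LaurentSeries L))⁻¹, hinv⟩ = (red A π y)⁻¹ := by
    rw [red_inv A π hrj (by rw [hrjr]; exact hy) hinv, hrjr]
  refine ⟨t₀ * ⟨(rot ζ (y : LaurentSeries L))⁻¹, hinv⟩ ^ (p - 1), ?_, ?_⟩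
  · have e : 1 - (y : LaurentSeries L) / rot ζ (y : LaurentSeries L)
        = (rot ζ (y : LaurentSeries L) - (y : LaurentSeries L))
          * (rot ζ (y : LaurentSeries L))⁻¹ := by
      field_simp
    rw [e, mul_pow, ht₀]
    show _ = HahnSeries.C (p : L)
      * ((t₀ : LaurentSeries L) * (rot ζ (y : LaurentSeries L))⁻¹ ^ (p - 1))
    ring
  · rw [map_mul, map_pow, ht₀r, hinvr, inv_pow, mul_assoc,
      inv_mul_cancel₀ (pow_ne_zero _ hy), mul_one]

/-- **Abstract element.** `τ : R →+* L((q))`, `e : R` with `τ e · y(ζ q) = y(ζ q) - y(q)` for a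
`y` in the Gauss ring with `red y ≠ 0`, and `x` with `x · p = e^(p-1)`.  Then `τ x` lies in the
Gauss ring and `red (τ x) · ȳ^(p-1) = -(θ ȳ)^(p-1)`. -/
theorem ratio_pow_div_of_map (y : gaussRing A π) (hy : red A π y ≠ 0)
    {R : Type*} [CommRing R] (τ : R →+* LaurentSeries L) (e x : R)
    (he : τ e * rot ζ (y : LaurentSeries L)
      = rot ζ (y : LaurentSeries L) - (y : LaurentSeries L))
    (hx : x * (p : R) = e ^ (p - 1)) :
    ∃ hm : τ x ∈ gaussRing A π,
      red A π ⟨τ x, hm⟩ * red A π y ^ (p - 1) = -(thetaL k (red A π y)) ^ (p - 1) := by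
  obtain ⟨t, ht, htr⟩ := exists_ratio_pow_div A π hπ0 p ζ hζ y hy
  have hy0 : (y : LaurentSeries L) ≠ 0 := by
    intro h0
    apply hy
    have : y = 0 := Subtype.ext h0
    rw [this, map_zero]
  have hrj0 : rot ζ (y : LaurentSeries L) ≠ 0 := by
    intro h0
    exact hy0 (rot_injective ζ (by rw [h0, map_zero]))
  have hp0 : (HahnSeries.C (p : L) : LaurentSeries L) ≠ 0 := by
    intro h
    have h3 : (HahnSeries.C (p : L) : LaurentSeries L) = HahnSeries.C 0 := by rw [h, map_zero]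
    exact UnitCert.natCast_ne_zero_of_primitiveRoot p ζ hζ (HahnSeries.C_injective h3)
  have he' : τ e = 1 - (y : LaurentSeries L) / rot ζ (y : LaurentSeries L) := by
    have h1 : τ e = (rot ζ (y : LaurentSeries L) - (y : LaurentSeries L))
        / rot ζ (y : LaurentSeries L) := by
      rw [eq_div_iff hrj0, he]
    rw [h1, sub_div, div_self hrj0]
  have e1 : τ x = (t : LaurentSeries L) := by
    have h3 := congrArg τ hx
    rw [map_mul, map_natCast, map_pow, he', ht] at h3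
    have h4 : (p : LaurentSeries L) = HahnSeries.C (p : L) := by
      rw [map_natCast]
    rw [h4, mul_comm] at h3
    exact mul_left_cancel₀ hp0 h3
  refine ⟨e1 ▸ t.2, ?_⟩
  rw [← htr]
  congr 2
  exact Subtype.ext e1

end Ratio

end Fermat.Agent.CAR.V3.CuspUnitM

end
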