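import Mathlib
import Fermat.Agent.CAR.V3.MidPull

/-!
# CAR (V3-Mid, Mid-4): the differences `d_y = π_2^* y - π_0^* y` at `w_mid`

For `y` in the Gauss valuation ring `Ow` of level `M'` (over `W0`):

* `exists_tauMid_dPull` : `ι_mid d_y = (ζ - 1) · z`, `z` in the Gauss ring, `red z = θ ȳ`;
* `dPull_mem_OMid`, `redMid_dPull` : `d_y` is a non-unit of `O_mid`;
* `exists_dPull_pow` : `d_y^(q-1) = q · t`, `red_mid t = -(θ ȳ)^(q-1)`;
* `exists_dPull_eq_dMid_mul` : `d_y = d · c`, `red_mid c = θ ȳ / θ J̄` (`= dȳ/dJ̄`);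
* `isUnif_dPull` : if `θ ȳ ≠ 0` then `d_y` is a uniformiser of `O_mid`.
-/

set_option autoImplicit false
set_option linter.unusedSectionVars false
set_option linter.style.haveILetI false

noncomputable section

namespace Fermat.Agent.CAR.V3.MidRing

open ModularCurve HahnSeries Fermat.Agent.S24 Fermat.Agent.S28 Fermat.Agent.S28.Chain
  Fermat.Agent.Lib.Red Fermat.Agent.CAR.K0 Fermat.Agent.CAR.V3.GaussDVR
  Fermat.Agent.CAR.Local.ThetaJ Fermat.Agent.ESJ.Cong.ConjAnalytic
  Fermat.Agent.ESJ.Cong.LevelGen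

local notation "Qb" => AlgebraicClosure ℚ

/-! ### Uniformisers up to units -/

section UnifUnit

variable {F : Type*} [Field F] {V : ValuationSubring F}

theorem zpow_mem_of_unit {u : F} (hu : u ∈ V) (hu' : u⁻¹ ∈ V) (n : ℤ) : u ^ n ∈ V := by
  rcases le_or_gt 0 n with hn | hn
  · obtain ⟨m, rfl⟩ := Int.eq_ofNat_of_zero_le hn
    rw [zpow_natCast]
    exact pow_mem hu m
  · obtain ⟨m, rfl⟩ : ∃ m : ℕ, n = -(m : ℤ) := ⟨(-n).toNat, by omega⟩
    rw [zpow_neg, zpow_natCast, ← inv_pow]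
    exact pow_mem hu' m

/-- A uniformiser times a unit is a uniformiser. -/
theorem isUnif_mul_unit {ϖ u : F} (h : Fermat.Agent.CAR.Formal.IsUnif V ϖ) (hu : u ∈ V)
    (hu' : u⁻¹ ∈ V) (hu0 : u ≠ 0) : Fermat.Agent.CAR.Formal.IsUnif V (ϖ * u) where
  mem := mul_mem h.mem hu
  inv_notMem := by
    intro h1
    apply h.inv_notMem
    have h2 : ϖ⁻¹ = (ϖ * u)⁻¹ * u := by
      rw [mul_inv, mul_assoc, inv_mul_cancel₀ hu0, mul_one]
    rw [h2]
    exact mul_mem h1 hu
  exists_zpow := by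
    intro x hx
    obtain ⟨n, v, hv, hv', rfl⟩ := h.exists_zpow x hx
    refine ⟨n, (u ^ n)⁻¹ * v, ?_, ?_, ?_⟩
    · rw [← zpow_neg]
      exact mul_mem (zpow_mem_of_unit hu hu' _) hv
    · rw [mul_inv, inv_inv]
      exact mul_mem (zpow_mem_of_unit hu hu' _) hv'
    · have h3 : u ^ n ≠ 0 := zpow_ne_zero n hu0
      rw [mul_zpow]
      field_simp

end UnifUnit

/-! ### The differences `d_y` -/

section Diff

/-- `d_y = π_2^* y - π_0^* y`. -/
def dPull (A : ValuationSubring Qb) (M' q : ℕ) [NeZero M'] [NeZero q]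
    (x : FK (inertiaField A) M') : ↥(FK (inertiaField A) (M' * q * q)) :=
  piStar2 (inertiaField A) M' q x - piStar0 (inertiaField A) M' q x

variable {q : ℕ} (hq : q.Prime) (A : ValuationSubring Qb) (hA : A.LiesOverPrime q)
  {ζ : Qb} (hζ : IsPrimitiveRoot ζ q) (M' : ℕ) [NeZero M'] [NeZero q] (hqM : ¬ q ∣ M')
  (hMk : (M' : IsLocalRing.ResidueField A) ≠ 0)

/-- `d_J = d`. -/
theorem dPull_jLevel : dPull A M' q (jLevel (inertiaField A) M') = dMid A M' q := by
  apply Subtype.ext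
  show ((piStar2 (inertiaField A) M' q (jLevel (inertiaField A) M') :
      FK (inertiaField A) (M' * q * q)) : LaurentSeries (inertiaField A))
    - ((piStar0 (inertiaField A) M' q (jLevel (inertiaField A) M') :
      FK (inertiaField A) (M' * q * q)) : LaurentSeries (inertiaField A))
    = TD.Jd (inertiaField A) (q * q) - TD.Jd (inertiaField A) 1
  rw [coe_piStar2_jLevel, coe_piStar0_jLevel]

theorem tauMid_dPull (x : FK (inertiaField A) M') :
    tauMid hq A hζ M' hqM (dPull A M' q x)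
      = rot (zetaUnit hq hζ)
          (coeffMap (algebraMap (inertiaField A) Qb) (x : LaurentSeries (inertiaField A)))
        - coeffMap (algebraMap (inertiaField A) Qb) (x : LaurentSeries (inertiaField A)) := by
  unfold dPull
  rw [map_sub, tauMid_piStar2, tauMid_piStar0]

include hA in
/-- **(C1) for `d_y`**: `ι_mid d_y = (ζ - 1) · z` with `z` in the Gauss ring and `red z = θ ȳ`. -/
theorem exists_tauMid_dPull (x : FK (inertiaField A) M')
    (hx : x ∈ Ow (W0 A) (resW0 A) M' hMk) :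
    ∃ z : gaussRing A (IsLocalRing.residue A),
      tauMid hq A hζ M' hqM (dPull A M' q x) = HahnSeries.C (ζ - 1) * (z : LaurentSeries Qb) ∧
      red A (IsLocalRing.residue A) z = thetaL (IsLocalRing.ResidueField A)
        ((redF (W0 A) (resW0 A) M' (resW0_eq_zero_of_not_isUnit A) hMk ⟨x, hx⟩ :
          modularFunctionFieldFullC (IsLocalRing.ResidueField A) M') :
          LaurentSeries (IsLocalRing.ResidueField A)) := by
  haveI : Fact q.Prime := ⟨hq⟩
  haveI : CharP (IsLocalRing.ResidueField A) q :=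
    (CharP.charP_iff_prime_eq_zero hq).mpr
      (natCast_eq_zero_of_liesOver A _ (residue_eq_zero_of_not_isUnit A) hA)
  have hpow : ((zetaUnit hq hζ : Qbˣ) : Qb) ^ q = 1 := hζ.pow_eq_one
  obtain ⟨z, hz, hzr⟩ := MidSeries.exists_rot_sub_eq' A (IsLocalRing.residue A) q
    (zetaUnit hq hζ) hpow ⟨_, bc_mem_gaussRing A hx⟩
  refine ⟨z, ?_, ?_⟩
  · rw [tauMid_dPull]
    exact hz
  · rw [hzr, red_bc A hx]
    rfl

include hA in
/-- `d_y ∈ O_mid`. -/
theorem dPull_mem_OMid (x : FK (inertiaField A) M') (hx : x ∈ Ow (W0 A) (resW0 A) M' hMk) :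
    dPull A M' q x ∈ OMid hq A hA hζ M' hqM (IsLocalRing.residue A) := by
  obtain ⟨z, hz, -⟩ := exists_tauMid_dPull hq A hA hζ M' hqM hMk x hx
  rw [mem_OMid_iff, hz]
  exact mul_mem (C_mem_gaussRing A _ (sub_mem (zeta_mem_A hq A hζ) (one_mem _))) z.2

include hA in
/-- `d_y` is a non-unit of `O_mid`. -/
theorem redMid_dPull (x : FK (inertiaField A) M') (hx : x ∈ Ow (W0 A) (resW0 A) M' hMk)
    (h : dPull A M' q x ∈ OMid hq A hA hζ M' hqM (IsLocalRing.residue A)) :
    redMid hq A hA hζ M' hqM (IsLocalRing.residue A) ⟨dPull A M' q x, h⟩ = 0 := by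
  obtain ⟨z, hz, -⟩ := exists_tauMid_dPull hq A hA hζ M' hqM hMk x hx
  have hmem : ζ - 1 ∈ A := sub_mem (zeta_mem_A hq A hζ) (one_mem _)
  have hC : (HahnSeries.C (ζ - 1) : LaurentSeries Qb) ∈ gaussRing A (IsLocalRing.residue A) :=
    C_mem_gaussRing A _ hmem
  have h1 : (⟨tauMid hq A hζ M' hqM (dPull A M' q x), h⟩ : gaussRing A (IsLocalRing.residue A))
      = ⟨HahnSeries.C (ζ - 1), hC⟩ * z := Subtype.ext hz
  rw [redMid_apply]
  show red A (IsLocalRing.residue A) ⟨tauMid hq A hζ M' hqM (dPull A M' q x), h⟩ = 0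
  rw [h1, map_mul, red_C A _ hmem hC,
    pi_zeta_sub_one hq A hA hζ _ (residue_eq_zero_of_not_isUnit A) hmem, map_zero, zero_mul]

include hA in
/-- **`d_y = d · c`** with `c ∈ O_mid` reducing to `θ ȳ / θ J̄` (the derivative `dȳ/dJ̄`). -/
theorem exists_dPull_eq_dMid_mul (x : FK (inertiaField A) M')
    (hx : x ∈ Ow (W0 A) (resW0 A) M' hMk) :
    ∃ c : OMid hq A hA hζ M' hqM (IsLocalRing.residue A),
      dPull A M' q x = dMid A M' q * (c : FK (inertiaField A) (M' * q * q)) ∧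
      redMid hq A hA hζ M' hqM (IsLocalRing.residue A) c
        = thetaL (IsLocalRing.ResidueField A)
            ((redF (W0 A) (resW0 A) M' (resW0_eq_zero_of_not_isUnit A) hMk ⟨x, hx⟩ :
              modularFunctionFieldFullC (IsLocalRing.ResidueField A) M') :
              LaurentSeries (IsLocalRing.ResidueField A))
          / thetaL (IsLocalRing.ResidueField A) (jqModC (IsLocalRing.ResidueField A)) := by
  obtain ⟨z, hz, hzr⟩ := exists_tauMid_dPull hq A hA hζ M' hqM hMk x hx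
  obtain ⟨z₀, hz₀, hzr₀, hzi₀⟩ := exists_tauMid_dMid hq A hA hζ M' hqM (IsLocalRing.residue A)
    (residue_eq_zero_of_not_isUnit A)
  have hd0 : dMid A M' q ≠ 0 :=
    dMid_ne_zero hq A hA hζ M' hqM (IsLocalRing.residue A) (residue_eq_zero_of_not_isUnit A)
  have hC0 : (HahnSeries.C (ζ - 1) : LaurentSeries Qb) ≠ 0 := by
    intro h
    have h3 : (HahnSeries.C (ζ - 1) : LaurentSeries Qb) = HahnSeries.C 0 := by rw [h, map_zero]
    exact hζ.ne_one hq.one_lt (sub_eq_zero.mp (HahnSeries.C_injective h3))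
  have hz₀0 : (z₀ : LaurentSeries Qb) ≠ 0 := by
    intro h
    have h1 : z₀ = 0 := Subtype.ext h
    rw [h1, map_zero] at hzr₀
    exact thetaL_jq_ne_zero _ hzr₀.symm
  have hred₀ : red A (IsLocalRing.residue A) ⟨(z₀ : LaurentSeries Qb), z₀.2⟩ ≠ 0 := by
    have e : (⟨(z₀ : LaurentSeries Qb), z₀.2⟩ : gaussRing A (IsLocalRing.residue A)) = z₀ := rfl
    rw [e, hzr₀]
    exact thetaL_jq_ne_zero _
  have hτ : tauMid hq A hζ M' hqM (dPull A M' q x / dMid A M' q)
      = (z : LaurentSeries Qb) / (z₀ : LaurentSeries Qb) := by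
    rw [map_div₀, hz, hz₀]
    field_simp
  have hdiv : (z : LaurentSeries Qb) / (z₀ : LaurentSeries Qb)
      ∈ gaussRing A (IsLocalRing.residue A) :=
    div_mem_gaussRing A _ z.2 z₀.2 hred₀
  have hmem : dPull A M' q x / dMid A M' q ∈ OMid hq A hA hζ M' hqM (IsLocalRing.residue A) := by
    rw [mem_OMid_iff, hτ]
    exact hdiv
  refine ⟨⟨_, hmem⟩, ?_, ?_⟩
  · show dPull A M' q x = dMid A M' q * (dPull A M' q x / dMid A M' q)
    rw [mul_div_cancel₀ _ hd0]
  · rw [redMid_apply]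
    have h1 : (⟨tauMid hq A hζ M' hqM (dPull A M' q x / dMid A M' q), hmem⟩ :
        gaussRing A (IsLocalRing.residue A))
        = ⟨(z : LaurentSeries Qb) / (z₀ : LaurentSeries Qb), hdiv⟩ := Subtype.ext hτ
    show red A (IsLocalRing.residue A)
      ⟨tauMid hq A hζ M' hqM (dPull A M' q x / dMid A M' q), hmem⟩ = _
    rw [h1, red_div A _ z.2 z₀.2 hred₀ hdiv]
    have e : (⟨(z₀ : LaurentSeries Qb), z₀.2⟩ : gaussRing A (IsLocalRing.residue A)) = z₀ := rfl
    have e' : (⟨(z : LaurentSeries Qb), z.2⟩ : gaussRing A (IsLocalRing.residue A)) = z := rfl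
    rw [e, e', hzr, hzr₀]

include hA in
/-- **(C1), second half, for `d_y`**: `d_y^(q-1) = q · t` with `red_mid t = -(θ ȳ)^(q-1)`. -/
theorem exists_dPull_pow (x : FK (inertiaField A) M') (hx : x ∈ Ow (W0 A) (resW0 A) M' hMk) :
    ∃ t : OMid hq A hA hζ M' hqM (IsLocalRing.residue A),
      dPull A M' q x ^ (q - 1)
        = (q : FK (inertiaField A) (M' * q * q)) * (t : FK (inertiaField A) (M' * q * q)) ∧
      redMid hq A hA hζ M' hqM (IsLocalRing.residue A) t
        = -(thetaL (IsLocalRing.ResidueField A)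
            ((redF (W0 A) (resW0 A) M' (resW0_eq_zero_of_not_isUnit A) hMk ⟨x, hx⟩ :
              modularFunctionFieldFullC (IsLocalRing.ResidueField A) M') :
              LaurentSeries (IsLocalRing.ResidueField A))) ^ (q - 1) := by
  haveI : Fact q.Prime := ⟨hq⟩
  haveI : CharP (IsLocalRing.ResidueField A) q :=
    (CharP.charP_iff_prime_eq_zero hq).mpr
      (natCast_eq_zero_of_liesOver A _ (residue_eq_zero_of_not_isUnit A) hA)
  obtain ⟨t, ht, htr⟩ := MidSeries.exists_pow_div' A (IsLocalRing.residue A) q (zetaUnit hq hζ)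
    (residue_eq_zero_of_not_isUnit A) hζ ⟨_, bc_mem_gaussRing A hx⟩
  have hτq : tauMid hq A hζ M' hqM (q : FK (inertiaField A) (M' * q * q))
      = HahnSeries.C (q : Qb) := tauMid_natCast hq A hζ M' hqM q
  have hC0 : (HahnSeries.C (q : Qb) : LaurentSeries Qb) ≠ 0 := by
    intro h
    have h3 : (HahnSeries.C (q : Qb) : LaurentSeries Qb) = HahnSeries.C 0 := by rw [h, map_zero]
    exact Nat.cast_ne_zero.mpr hq.ne_zero (HahnSeries.C_injective h3)
  have hq0 : (q : FK (inertiaField A) (M' * q * q)) ≠ 0 := by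
    intro h
    rw [h, map_zero] at hτq
    exact hC0 hτq.symm
  have hτt : tauMid hq A hζ M' hqM
      (dPull A M' q x ^ (q - 1) / (q : FK (inertiaField A) (M' * q * q)))
      = (t : LaurentSeries Qb) := by
    rw [map_div₀, map_pow, tauMid_dPull, hτq]
    rw [ht, mul_div_cancel_left₀ _ hC0]
  have hmem : dPull A M' q x ^ (q - 1) / (q : FK (inertiaField A) (M' * q * q))
      ∈ OMid hq A hA hζ M' hqM (IsLocalRing.residue A) := by
    rw [mem_OMid_iff, hτt]
    exact t.2
  refine ⟨⟨_, hmem⟩, ?_, ?_⟩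
  · show dPull A M' q x ^ (q - 1) = (q : FK (inertiaField A) (M' * q * q))
      * (dPull A M' q x ^ (q - 1) / (q : FK (inertiaField A) (M' * q * q)))
    rw [mul_div_cancel₀ _ hq0]
  · rw [redMid_apply]
    have h1 : (⟨tauMid hq A hζ M' hqM
        (dPull A M' q x ^ (q - 1) / (q : FK (inertiaField A) (M' * q * q))), hmem⟩ :
        gaussRing A (IsLocalRing.residue A)) = t := Subtype.ext hτt
    show red A (IsLocalRing.residue A) ⟨tauMid hq A hζ M' hqM
        (dPull A M' q x ^ (q - 1) / (q : FK (inertiaField A) (M' * q * q))), hmem⟩ = _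
    rw [h1, htr, red_bc A hx]
    rfl

include hA in
/-- **If `θ ȳ ≠ 0` then `d_y` is a uniformiser of `O_mid`.** -/
theorem isUnif_dPull (x : FK (inertiaField A) M') (hx : x ∈ Ow (W0 A) (resW0 A) M' hMk)
    (hθ : thetaL (IsLocalRing.ResidueField A)
      ((redF (W0 A) (resW0 A) M' (resW0_eq_zero_of_not_isUnit A) hMk ⟨x, hx⟩ :
        modularFunctionFieldFullC (IsLocalRing.ResidueField A) M') :
        LaurentSeries (IsLocalRing.ResidueField A)) ≠ 0) :
    Fermat.Agent.CAR.Formal.IsUnif (OMid hq A hA hζ M' hqM (IsLocalRing.residue A))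
      (dPull A M' q x) := by
  obtain ⟨c, hc, hcr⟩ := exists_dPull_eq_dMid_mul hq A hA hζ M' hqM hMk x hx
  have hne : redMid hq A hA hζ M' hqM (IsLocalRing.residue A) c ≠ 0 := by
    rw [hcr]
    exact div_ne_zero hθ (thetaL_jq_ne_zero _)
  have hu : IsUnit c := by
    by_contra hnu
    exact hne ((redMid_eq_zero_iff hq A hA hζ M' hqM _ c).mpr hnu)
  obtain ⟨b, hb⟩ := hu.exists_right_inv
  have hb' : (c : FK (inertiaField A) (M' * q * q)) * (b : FK (inertiaField A) (M' * q * q)) = 1 :=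
    congrArg Subtype.val hb
  have hc0 : (c : FK (inertiaField A) (M' * q * q)) ≠ 0 := left_ne_zero_of_mul_eq_one hb'
  have hbc : (b : FK (inertiaField A) (M' * q * q)) = (c : FK (inertiaField A) (M' * q * q))⁻¹ :=
    eq_inv_of_mul_eq_one_right hb'
  rw [hc]
  exact isUnif_mul_unit
    (isUnif_dMid hq A hA hζ M' hqM (IsLocalRing.residue A) (residue_eq_zero_of_not_isUnit A))
    c.2 (by rw [← hbc]; exact b.2) hc0

end Diff

end Fermat.Agent.CAR.V3.MidRing

end
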