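import Mathlib
import Fermat.Agent.CAR.V3.MidDiff
import Fermat.Agent.CAR.Glob.CuspQuotInst
import Fermat.Agent.Lib.Red.Integral
import Fermat.Agent.CAR.V3.UnitCert

/-!
# CAR (V3-Mid, cusp row, convention (B)): the middle certificate for `J_i = π_i^* x`, `x = J(q^M')`

Setting of `MidDiff.lean`.  With `J₀ := CuspQuot.J0 K0 M' = π_0^* x`, `J₁ := CuspQuot.J1 K0 M'`,
`J₂ := CuspQuot.J2 K0 M' = π_2^* x` (`x = xL K0 M' = J(q^M')`), `O_mid := OMid …` and the
`LaurentSeries`-valued `redMid` (the literal hypothesis shapes of `InstCusp.V3CuspMid.of_J`):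

* `mid₀`, `mid₁`, `mid₂` : `J₀, J₁, J₂ ∈ O_mid` reduce to `x̄, x̄^q, x̄` (`x̄ = TD.Jd k M'`);
* `isUnif_d` : `d := J₂ - J₀` is a uniformiser of `O_mid`;
* `hd` : `J₂ - J₀ ∈ O_mid.nonunits`;  `hunif` : `z / (J₂ - J₀) ∈ O_mid` for every non-unit `z`;
* `hc` : `(J₂ - J₀)^(q-1) / q ∈ O_mid` reduces to `-(θ x̄)^(q-1)`;
* `thetaL_Jd_ne_zero` : `θ x̄ ≠ 0` (`q ∤ M'`).
-/

set_option autoImplicit false
set_option linter.unusedSectionVars false
set_option linter.style.haveILetI false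

noncomputable section

namespace Fermat.Agent.CAR.V3.MidCuspB

open ModularCurve HahnSeries Fermat.Agent.S24 Fermat.Agent.S28 Fermat.Agent.S28.Chain
  Fermat.Agent.Lib.Red Fermat.Agent.CAR.K0 Fermat.Agent.CAR.V3.GaussDVR
  Fermat.Agent.CAR.Local.ThetaJ Fermat.Agent.CAR.V3.MidRing Fermat.Agent.CAR.Glob

local notation "Qb" => AlgebraicClosure ℚ

/-! ### Generalities -/

/-- Every non-unit is divisible by a uniformiser. -/
theorem div_mem_of_isUnif {F : Type*} [Field F] {V : ValuationSubring F} {ϖ : F}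
    (h : Fermat.Agent.CAR.Formal.IsUnif V ϖ) {z : F} (hz : z ∈ V.nonunits) : z / ϖ ∈ V := by
  by_cases hz0 : z = 0
  · rw [hz0, zero_div]
    exact V.zero_mem
  · have h1 : 0 < h.ord z := (h.ord_pos_iff hz0).mpr hz
    have h2 : z / ϖ ≠ 0 := div_ne_zero hz0 h.ne_zero
    rw [← h.ord_nonneg_iff h2, h.ord_div hz0 h.ne_zero, h.ord_self]
    omega

/-- `θ (J(q^m)) ≠ 0` if `m ≠ 0` in `k`. -/
theorem thetaL_Jd_ne_zero (k : Type*) [Field k] (m : ℕ) [NeZero m] (hm : (m : k) ≠ 0) :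
    thetaL k (TD.Jd k m) ≠ 0 := by
  rw [TD.Jd_eq k m, thetaL_qExpand]
  refine mul_ne_zero ?_ ?_
  · intro h
    have h3 : (HahnSeries.C (m : k) : LaurentSeries k) = HahnSeries.C 0 := by rw [h, map_zero]
    exact hm (HahnSeries.C_injective h3)
  · intro h
    exact thetaL_jq_ne_zero k ((qExpand_injective (R := k) m) (by rw [h, map_zero]))

/-- In characteristic `p`: `J(q^(m p)) = J(q^m)^p`. -/
theorem qExpand_Jd_charP (k : Type*) [Field k] (p : ℕ) [Fact p.Prime] [CharP k p] (m : ℕ)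
    [NeZero m] : qExpand k p (TD.Jd k m) = TD.Jd k m ^ p := by
  haveI : NeZero p := ⟨(Fact.out : p.Prime).ne_zero⟩
  have h := UnitCert.qExpand_jqModC_charP k p
  rw [TD.qExpand_Jd k p m (NeZero.ne m), Nat.mul_comm p m,
    ← TD.qExpand_Jd k m p (NeZero.ne p), TD.Jd_eq_jqNModC k p, h, map_pow, ← TD.Jd_eq k m]

/-! ### The certificate -/

section Cert

variable {q : ℕ} (hq : q.Prime) (A : ValuationSubring Qb) (hA : A.LiesOverPrime q)
  {ζ : Qb} (hζ : IsPrimitiveRoot ζ q) (M' : ℕ) [NeZero M'] [NeZero q] (hqM : ¬ q ∣ M')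
  (hMk : (M' : IsLocalRing.ResidueField A) ≠ 0)

/-- `J₂ - J₀ = d_x`. -/
theorem J2_sub_J0 :
    CuspQuot.J2 (q := q) (inertiaField A) M' - CuspQuot.J0 (q := q) (inertiaField A) M'
      = dPull A M' q (xL (inertiaField A) M') := rfl

include hMk in
theorem xL_mem : xL (inertiaField A) M' ∈ Ow (W0 A) (resW0 A) M' hMk := xL_mem_Ow hMk

/-- The reduction of `x = J(q^M')` is `x̄ = J̄(q^M')`. -/
theorem coe_redF_xL :
    ((redF (W0 A) (resW0 A) M' (resW0_eq_zero_of_not_isUnit A) hMk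
        ⟨xL (inertiaField A) M', xL_mem A M' hMk⟩ :
        modularFunctionFieldFullC (IsLocalRing.ResidueField A) M') :
        LaurentSeries (IsLocalRing.ResidueField A))
      = TD.Jd (IsLocalRing.ResidueField A) M' := by
  have h := redF_xL (A := W0 A) (π := resW0 A) (N := M') (resW0_eq_zero_of_not_isUnit A) hMk
  have e : (⟨xL (inertiaField A) M', xL_mem A M' hMk⟩ : Ow (W0 A) (resW0 A) M' hMk)
      = ⟨xL (inertiaField A) M', xL_mem_Ow hMk⟩ := rfl
  rw [e, h]
  rfl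

include hA hMk in
/-- **(mid₀)**: `J₀ ∈ O_mid` reduces to `x̄`. -/
theorem mid₀ :
    ∃ h : CuspQuot.J0 (q := q) (inertiaField A) M'
        ∈ OMid hq A hA hζ M' hqM (IsLocalRing.residue A),
      redMid hq A hA hζ M' hqM (IsLocalRing.residue A) ⟨_, h⟩
        = TD.Jd (IsLocalRing.ResidueField A) M' := by
  have hx := xL_mem A M' hMk
  have hm := piStar0_mem_OMid hq A hA hζ M' hqM hMk (xL (inertiaField A) M') hx
  refine ⟨hm, ?_⟩
  have h := redMid_piStar0 hq A hA hζ M' hqM hMk (xL (inertiaField A) M') hx hm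
  rw [coe_redF_xL] at h
  exact h

include hA hMk in
/-- **(mid₂)**: `J₂ ∈ O_mid` reduces to `x̄`. -/
theorem mid₂ :
    ∃ h : CuspQuot.J2 (q := q) (inertiaField A) M'
        ∈ OMid hq A hA hζ M' hqM (IsLocalRing.residue A),
      redMid hq A hA hζ M' hqM (IsLocalRing.residue A) ⟨_, h⟩
        = TD.Jd (IsLocalRing.ResidueField A) M' := by
  have hx := xL_mem A M' hMk
  have hm := piStar2_mem_OMid hq A hA hζ M' hqM hMk (xL (inertiaField A) M') hx
  refine ⟨hm, ?_⟩
  have h := redMid_piStar2 hq A hA hζ M' hqM hMk (xL (inertiaField A) M') hx hm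
  rw [coe_redF_xL] at h
  exact h

include hA hMk in
/-- **(mid₁)**: `J₁ ∈ O_mid` reduces to `x̄^q`. -/
theorem mid₁ :
    ∃ h : CuspQuot.J1 (q := q) (inertiaField A) M'
        ∈ OMid hq A hA hζ M' hqM (IsLocalRing.residue A),
      redMid hq A hA hζ M' hqM (IsLocalRing.residue A) ⟨_, h⟩
        = TD.Jd (IsLocalRing.ResidueField A) M' ^ q := by
  haveI : Fact q.Prime := ⟨hq⟩
  haveI : CharP (IsLocalRing.ResidueField A) q :=
    (CharP.charP_iff_prime_eq_zero hq).mpr
      (natCast_eq_zero_of_liesOver A _ (residue_eq_zero_of_not_isUnit A) hA)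
  have hx := xL_mem A M' hMk
  have hm := piStar1_mem_OMid hq A hA hζ M' hqM hMk (xL (inertiaField A) M') hx
  refine ⟨hm, ?_⟩
  have h := redMid_piStar1 hq A hA hζ M' hqM hMk (xL (inertiaField A) M') hx hm
  rw [coe_redF_xL, qExpand_Jd_charP] at h
  exact h

include hA hMk in
/-- **`d = J₂ - J₀` is a uniformiser of `O_mid`** (`θ x̄ ≠ 0` since `q ∤ M'`). -/
theorem isUnif_d :
    Fermat.Agent.CAR.Formal.IsUnif (OMid hq A hA hζ M' hqM (IsLocalRing.residue A))
      (CuspQuot.J2 (q := q) (inertiaField A) M' - CuspQuot.J0 (q := q) (inertiaField A) M') := by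
  rw [J2_sub_J0]
  refine isUnif_dPull hq A hA hζ M' hqM hMk (xL (inertiaField A) M') (xL_mem A M' hMk) ?_
  rw [coe_redF_xL]
  exact thetaL_Jd_ne_zero _ M' hMk

include hA hMk in
/-- **(hd)**: `J₂ - J₀` is a non-unit of `O_mid`. -/
theorem hd :
    CuspQuot.J2 (q := q) (inertiaField A) M' - CuspQuot.J0 (q := q) (inertiaField A) M'
      ∈ (OMid hq A hA hζ M' hqM (IsLocalRing.residue A)).nonunits :=
  (isUnif_d hq A hA hζ M' hqM hMk).mem_nonunits

include hA hMk in
/-- **(hunif)**: every non-unit of `O_mid` is divisible by `J₂ - J₀`. -/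
theorem hunif :
    ∀ z ∈ (OMid hq A hA hζ M' hqM (IsLocalRing.residue A)).nonunits,
      z / (CuspQuot.J2 (q := q) (inertiaField A) M' - CuspQuot.J0 (q := q) (inertiaField A) M')
        ∈ OMid hq A hA hζ M' hqM (IsLocalRing.residue A) :=
  fun _ hz => div_mem_of_isUnif (isUnif_d hq A hA hζ M' hqM hMk) hz

include hA hMk in
/-- **(hc)**: `(J₂ - J₀)^(q-1) / q ∈ O_mid` reduces to `-(θ x̄)^(q-1)`. -/
theorem hc :
    ∃ hz : (CuspQuot.J2 (q := q) (inertiaField A) M'
          - CuspQuot.J0 (q := q) (inertiaField A) M') ^ (q - 1)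
          / ((q : ℕ) : FK (inertiaField A) (M' * q * q))
        ∈ OMid hq A hA hζ M' hqM (IsLocalRing.residue A),
      redMid hq A hA hζ M' hqM (IsLocalRing.residue A) ⟨_, hz⟩
        = -(thetaL (IsLocalRing.ResidueField A) (TD.Jd (IsLocalRing.ResidueField A) M'))
            ^ (q - 1) := by
  obtain ⟨t, ht, htr⟩ := exists_dPull_pow hq A hA hζ M' hqM hMk (xL (inertiaField A) M')
    (xL_mem A M' hMk)
  rw [coe_redF_xL] at htr
  have hq0 : ((q : ℕ) : FK (inertiaField A) (M' * q * q)) ≠ 0 := by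
    intro h
    have h1 := tauMid_natCast hq A hζ M' hqM q
    rw [h, map_zero] at h1
    have h3 : (HahnSeries.C (q : Qb) : LaurentSeries Qb) = HahnSeries.C 0 := by
      rw [← h1, map_zero]
    exact Nat.cast_ne_zero.mpr hq.ne_zero (HahnSeries.C_injective h3)
  have e : (CuspQuot.J2 (q := q) (inertiaField A) M'
        - CuspQuot.J0 (q := q) (inertiaField A) M') ^ (q - 1)
        / ((q : ℕ) : FK (inertiaField A) (M' * q * q))
      = (t : FK (inertiaField A) (M' * q * q)) := by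
    rw [J2_sub_J0, ht, mul_div_cancel_left₀ _ hq0]
  have hz : (CuspQuot.J2 (q := q) (inertiaField A) M'
        - CuspQuot.J0 (q := q) (inertiaField A) M') ^ (q - 1)
        / ((q : ℕ) : FK (inertiaField A) (M' * q * q))
      ∈ OMid hq A hA hζ M' hqM (IsLocalRing.residue A) := by
    rw [e]
    exact t.2
  refine ⟨hz, ?_⟩
  have e' : (⟨_, hz⟩ : OMid hq A hA hζ M' hqM (IsLocalRing.residue A)) = t := Subtype.ext e
  rw [e', htr]

end Cert

end Fermat.Agent.CAR.V3.MidCuspB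

end
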