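import Mathlib
import Fermat.Agent.CAR.V3.MidDiff
import Fermat.Agent.CAR.Local.Inst.Deriv
import Fermat.Agent.CAR.Ell.Deriv
import Fermat.Agent.ESJ.Cong.FrobAut

/-!
# CAR (V3-Mid, brick B1): the `κ`-valued reduction of `O_mid`

`κ = modularFunctionFieldFullC k M'`, `k` the residue field of `A`.  Given
`hκ : ∀ f, redMid f ∈ κ` (the residue degree one statement of the count), `redMidK hκ` is
`redMid` co-restricted to `κ`.  Everything below is helper7's `MidRing`/`MidPull`/`MidDiff` layer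
restated for `redMidK`, in the shapes of the `Contract` record:

* `coe_redMidK`, `redMidK_eq_zero_iff`, `redMidK_eq_zero_iff_mem_maximalIdeal` (`hred`),
  `redMidK_eq_zero_iff_mem_nonunits`;
* `redMidK_piStar0`, `redMidK_piStar2` (`= redF y`), `redMidK_piStar1` (`= vHom (redF y)`),
  `coe_redMidK_piStar1`;
* `dMid_div_mem` (`unif_mid`), `redMidK_dMid`;
* `exists_redMidK_dPull_div` / `cd_dJ` / `cd_dJ'` (`cd`): `d_y / d ∈ O_mid` reduces to `dȳ/dJ̄`;
* `exists_redMidK_dPull_pow` : `d_y^(q-1) = q · t`, `redMidK t = -(θ ȳ)^(q-1)`.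
-/

set_option autoImplicit false
set_option linter.unusedSectionVars false
set_option linter.style.haveILetI false

noncomputable section

namespace Fermat.Agent.CAR.V3.MidKappa

open ModularCurve HahnSeries Fermat.Agent.S24 Fermat.Agent.S28 Fermat.Agent.S28.Chain
  Fermat.Agent.Lib.Red Fermat.Agent.CAR.K0 Fermat.Agent.CAR.V3.GaussDVR
  Fermat.Agent.CAR.Local.ThetaJ Fermat.Agent.ESJ.Cong.ConjAnalytic
  Fermat.Agent.CAR.V3.MidRing Fermat.Agent.BAD.TwoVal

local notation "Qb" => AlgebraicClosure ℚ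

variable {q : ℕ} (hq : q.Prime) (A : ValuationSubring Qb) (hA : A.LiesOverPrime q)
  {ζ : Qb} (hζ : IsPrimitiveRoot ζ q) (M' : ℕ) [NeZero M'] [NeZero q] (hqM : ¬ q ∣ M')

/-- The hypothesis "`red_mid` takes its values in `κ`" (residue degree one of `w_mid`). -/
def HKappa : Prop :=
  ∀ f : OMid hq A hA hζ M' hqM (IsLocalRing.residue A),
    redMid hq A hA hζ M' hqM (IsLocalRing.residue A) f
      ∈ modularFunctionFieldFullC (IsLocalRing.ResidueField A) M'

variable (hκ : ∀ f : OMid hq A hA hζ M' hqM (IsLocalRing.residue A),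
    redMid hq A hA hζ M' hqM (IsLocalRing.residue A) f
      ∈ modularFunctionFieldFullC (IsLocalRing.ResidueField A) M')

/-- **The `κ`-valued residue map of `O_mid`.** -/
def redMidK : OMid hq A hA hζ M' hqM (IsLocalRing.residue A) →+*
    modularFunctionFieldFullC (IsLocalRing.ResidueField A) M' :=
  (redMid hq A hA hζ M' hqM (IsLocalRing.residue A)).codRestrict
    (modularFunctionFieldFullC (IsLocalRing.ResidueField A) M') hκ

theorem coe_redMidK (f : OMid hq A hA hζ M' hqM (IsLocalRing.residue A)) :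
    ((redMidK hq A hA hζ M' hqM hκ f : modularFunctionFieldFullC (IsLocalRing.ResidueField A) M')
      : LaurentSeries (IsLocalRing.ResidueField A))
      = redMid hq A hA hζ M' hqM (IsLocalRing.residue A) f := rfl

/-- kernel of `redMidK` = non-units. -/
theorem redMidK_eq_zero_iff (f : OMid hq A hA hζ M' hqM (IsLocalRing.residue A)) :
    redMidK hq A hA hζ M' hqM hκ f = 0 ↔ ¬ IsUnit f := by
  rw [← redMid_eq_zero_iff hq A hA hζ M' hqM (IsLocalRing.residue A) f, ← coe_redMidK (hκ := hκ)]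
  constructor
  · intro h
    rw [h]
    rfl
  · intro h
    exact Subtype.ext h

/-- kernel of `redMidK` = the maximal ideal (the `hred` shape of the `Contract`). -/
theorem redMidK_eq_zero_iff_mem_maximalIdeal
    (f : OMid hq A hA hζ M' hqM (IsLocalRing.residue A)) :
    redMidK hq A hA hζ M' hqM hκ f = 0
      ↔ f ∈ IsLocalRing.maximalIdeal (OMid hq A hA hζ M' hqM (IsLocalRing.residue A)) := by
  rw [redMidK_eq_zero_iff, IsLocalRing.mem_maximalIdeal, mem_nonunits_iff]

/-- kernel of `redMidK` = `nonunits` of the valuation subring. -/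
theorem redMidK_eq_zero_iff_mem_nonunits
    (f : OMid hq A hA hζ M' hqM (IsLocalRing.residue A)) :
    redMidK hq A hA hζ M' hqM hκ f = 0
      ↔ (f : FK (inertiaField A) (M' * q * q))
          ∈ (OMid hq A hA hζ M' hqM (IsLocalRing.residue A)).nonunits := by
  rw [redMidK_eq_zero_iff, ValuationSubring.mem_nonunits_iff_exists_mem_maximalIdeal]
  constructor
  · intro h
    exact ⟨f.2, by rw [IsLocalRing.mem_maximalIdeal, mem_nonunits_iff]; exact h⟩
  · rintro ⟨h1, h2⟩
    rw [IsLocalRing.mem_maximalIdeal, mem_nonunits_iff] at h2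
    exact h2

theorem redMidK_congr {f g : FK (inertiaField A) (M' * q * q)} (e : f = g)
    (hf : f ∈ OMid hq A hA hζ M' hqM (IsLocalRing.residue A))
    (hg : g ∈ OMid hq A hA hζ M' hqM (IsLocalRing.residue A)) :
    redMidK hq A hA hζ M' hqM hκ ⟨f, hf⟩ = redMidK hq A hA hζ M' hqM hκ ⟨g, hg⟩ := by
  subst e
  rfl

section Pull

variable (hMk : (M' : IsLocalRing.ResidueField A) ≠ 0)

/-- **`red_mid ∘ π_0^* = red'`** (`Contract.mid_π₀`). -/
theorem redMidK_piStar0 (x : FK (inertiaField A) M') (hx : x ∈ Ow (W0 A) (resW0 A) M' hMk)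
    (hx' : piStar0 (inertiaField A) M' q x ∈ OMid hq A hA hζ M' hqM (IsLocalRing.residue A)) :
    redMidK hq A hA hζ M' hqM hκ ⟨piStar0 (inertiaField A) M' q x, hx'⟩
      = redF (W0 A) (resW0 A) M' (resW0_eq_zero_of_not_isUnit A) hMk ⟨x, hx⟩ :=
  Subtype.ext (redMid_piStar0 hq A hA hζ M' hqM hMk x hx hx')

/-- **`red_mid ∘ π_2^* = red'`** (`Contract.mid_π₂`). -/
theorem redMidK_piStar2 (x : FK (inertiaField A) M') (hx : x ∈ Ow (W0 A) (resW0 A) M' hMk)
    (hx' : piStar2 (inertiaField A) M' q x ∈ OMid hq A hA hζ M' hqM (IsLocalRing.residue A)) :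
    redMidK hq A hA hζ M' hqM hκ ⟨piStar2 (inertiaField A) M' q x, hx'⟩
      = redF (W0 A) (resW0 A) M' (resW0_eq_zero_of_not_isUnit A) hMk ⟨x, hx⟩ :=
  Subtype.ext (redMid_piStar2 hq A hA hζ M' hqM hMk x hx hx')

/-- `red_mid ∘ π_1^* = (q ↦ q^q) ∘ red'`, as series. -/
theorem coe_redMidK_piStar1 (x : FK (inertiaField A) M') (hx : x ∈ Ow (W0 A) (resW0 A) M' hMk)
    (hx' : piStar1 (inertiaField A) M' q x ∈ OMid hq A hA hζ M' hqM (IsLocalRing.residue A)) :
    ((redMidK hq A hA hζ M' hqM hκ ⟨piStar1 (inertiaField A) M' q x, hx'⟩ :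
        modularFunctionFieldFullC (IsLocalRing.ResidueField A) M') :
        LaurentSeries (IsLocalRing.ResidueField A))
      = qExpand (IsLocalRing.ResidueField A) q
        ((redF (W0 A) (resW0 A) M' (resW0_eq_zero_of_not_isUnit A) hMk ⟨x, hx⟩ :
          modularFunctionFieldFullC (IsLocalRing.ResidueField A) M') :
          LaurentSeries (IsLocalRing.ResidueField A)) :=
  redMid_piStar1 hq A hA hζ M' hqM hMk x hx hx'

/-- **`red_mid ∘ π_1^* = ψ ∘ red'`** with `ψ = FrobAut.vHom k q M'`. -/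
theorem redMidK_piStar1 [Fact q.Prime] [CharP (IsLocalRing.ResidueField A) q]
    [PerfectRing (IsLocalRing.ResidueField A) q]
    (x : FK (inertiaField A) M') (hx : x ∈ Ow (W0 A) (resW0 A) M' hMk)
    (hx' : piStar1 (inertiaField A) M' q x ∈ OMid hq A hA hζ M' hqM (IsLocalRing.residue A)) :
    redMidK hq A hA hζ M' hqM hκ ⟨piStar1 (inertiaField A) M' q x, hx'⟩
      = Fermat.Agent.ESJ.Cong.FrobAut.vHom (IsLocalRing.ResidueField A) q M'
          (redF (W0 A) (resW0 A) M' (resW0_eq_zero_of_not_isUnit A) hMk ⟨x, hx⟩) :=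
  Subtype.ext (coe_redMidK_piStar1 hq A hA hζ M' hqM hκ hMk x hx hx')

end Pull

/-! ### The uniformiser `d = J_2 - J_0` -/

section Unif

/-- `red_mid d = 0`. -/
theorem redMidK_dMid (h : dMid A M' q ∈ OMid hq A hA hζ M' hqM (IsLocalRing.residue A)) :
    redMidK hq A hA hζ M' hqM hκ ⟨dMid A M' q, h⟩ = 0 :=
  Subtype.ext (redMid_dMid hq A hA hζ M' hqM (IsLocalRing.residue A)
    (residue_eq_zero_of_not_isUnit A) h)

include hA in
/-- **`d` is a uniformiser of `O_mid`** in the `Contract.unif_mid` shape. -/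
theorem div_dMid_mem (z : FK (inertiaField A) (M' * q * q))
    (hz : z ∈ (OMid hq A hA hζ M' hqM (IsLocalRing.residue A)).nonunits) :
    z / dMid A M' q ∈ OMid hq A hA hζ M' hqM (IsLocalRing.residue A) := by
  have hU := isUnif_dMid hq A hA hζ M' hqM (IsLocalRing.residue A)
    (residue_eq_zero_of_not_isUnit A)
  by_cases hz0 : z = 0
  · rw [hz0, zero_div]
    exact zero_mem _
  have h1 : 0 < hU.ord z := (hU.ord_pos_iff hz0).mpr hz
  have hd0 : dMid A M' q ≠ 0 := hU.ne_zero
  have h2 : z / dMid A M' q ≠ 0 := div_ne_zero hz0 hd0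
  rw [← hU.ord_nonneg_iff h2, hU.ord_div hz0 hd0, hU.ord_self]
  omega

end Unif

/-! ### The differences `d_y = π_2^* y - π_0^* y` (`Contract.cd`) -/

section Diff

variable (hMk : (M' : IsLocalRing.ResidueField A) ≠ 0)

include hA in
/-- **`cd`, series form**: `d_y / d ∈ O_mid`, and its reduction `c` satisfies `θ ȳ = c · θ J̄`. -/
theorem exists_redMidK_dPull_div (x : FK (inertiaField A) M')
    (hx : x ∈ Ow (W0 A) (resW0 A) M' hMk) :
    ∃ hz : (piStar2 (inertiaField A) M' q x - piStar0 (inertiaField A) M' q x) / dMid A M' q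
        ∈ OMid hq A hA hζ M' hqM (IsLocalRing.residue A),
      thetaL (IsLocalRing.ResidueField A)
          ((redF (W0 A) (resW0 A) M' (resW0_eq_zero_of_not_isUnit A) hMk ⟨x, hx⟩ :
            modularFunctionFieldFullC (IsLocalRing.ResidueField A) M') :
            LaurentSeries (IsLocalRing.ResidueField A))
        = ((redMidK hq A hA hζ M' hqM hκ ⟨_, hz⟩ :
            modularFunctionFieldFullC (IsLocalRing.ResidueField A) M') :
            LaurentSeries (IsLocalRing.ResidueField A))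
          * thetaL (IsLocalRing.ResidueField A) (jqModC (IsLocalRing.ResidueField A)) := by
  obtain ⟨c, hc, hcr⟩ := exists_dPull_eq_dMid_mul hq A hA hζ M' hqM hMk x hx
  have hd0 : dMid A M' q ≠ 0 :=
    dMid_ne_zero hq A hA hζ M' hqM (IsLocalRing.residue A) (residue_eq_zero_of_not_isUnit A)
  have e : (piStar2 (inertiaField A) M' q x - piStar0 (inertiaField A) M' q x) / dMid A M' q
      = (c : FK (inertiaField A) (M' * q * q)) := by
    have h1 : piStar2 (inertiaField A) M' q x - piStar0 (inertiaField A) M' q x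
        = dMid A M' q * (c : FK (inertiaField A) (M' * q * q)) := hc
    rw [h1, mul_div_cancel_left₀ _ hd0]
  have hz : (piStar2 (inertiaField A) M' q x - piStar0 (inertiaField A) M' q x) / dMid A M' q
      ∈ OMid hq A hA hζ M' hqM (IsLocalRing.residue A) := by
    rw [e]
    exact c.2
  refine ⟨hz, ?_⟩
  have h2 : redMidK hq A hA hζ M' hqM hκ ⟨_, hz⟩ = redMidK hq A hA hζ M' hqM hκ c :=
    redMidK_congr hq A hA hζ M' hqM hκ e hz c.2
  rw [h2, coe_redMidK, hcr, div_mul_cancel₀ _ (thetaL_jq_ne_zero _)]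

include hA in
/-- **`cd`** (`Contract.cd` for `D = Local.Inst.Deriv.dJ`): `d_y / d ∈ O_mid` reduces to
`dȳ/dJ̄`. -/
theorem cd_dJ [IsAlgClosed (IsLocalRing.ResidueField A)] (x : FK (inertiaField A) M')
    (hx : x ∈ Ow (W0 A) (resW0 A) M' hMk) :
    ∃ hz : (piStar2 (inertiaField A) M' q x - piStar0 (inertiaField A) M' q x) / dMid A M' q
        ∈ OMid hq A hA hζ M' hqM (IsLocalRing.residue A),
      redMidK hq A hA hζ M' hqM hκ ⟨_, hz⟩
        = Fermat.Agent.CAR.Local.Inst.Deriv.dJ (IsLocalRing.ResidueField A) M'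
            (redF (W0 A) (resW0 A) M' (resW0_eq_zero_of_not_isUnit A) hMk ⟨x, hx⟩) := by
  obtain ⟨hz, h⟩ := exists_redMidK_dPull_div hq A hA hζ M' hqM hκ hMk x hx
  refine ⟨hz, ?_⟩
  have h1 := Fermat.Agent.CAR.Local.Inst.Deriv.thetaL_eq_dJ_mul (IsLocalRing.ResidueField A) M'
    (redF (W0 A) (resW0 A) M' (resW0_eq_zero_of_not_isUnit A) hMk ⟨x, hx⟩)
  rw [h] at h1
  exact Subtype.ext (mul_right_cancel₀ (thetaL_jq_ne_zero _) h1)

include hA in
/-- **`cd`** for `D = Ell.Deriv.dJ` (the same derivation, the other name on main). -/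
theorem cd_dJ' [IsAlgClosed (IsLocalRing.ResidueField A)] (x : FK (inertiaField A) M')
    (hx : x ∈ Ow (W0 A) (resW0 A) M' hMk) :
    ∃ hz : (piStar2 (inertiaField A) M' q x - piStar0 (inertiaField A) M' q x) / dMid A M' q
        ∈ OMid hq A hA hζ M' hqM (IsLocalRing.residue A),
      redMidK hq A hA hζ M' hqM hκ ⟨_, hz⟩
        = Fermat.Agent.CAR.Ell.Deriv.dJ (IsLocalRing.ResidueField A) M'
            (redF (W0 A) (resW0 A) M' (resW0_eq_zero_of_not_isUnit A) hMk ⟨x, hx⟩) := by
  obtain ⟨hz, h⟩ := exists_redMidK_dPull_div hq A hA hζ M' hqM hκ hMk x hx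
  refine ⟨hz, ?_⟩
  exact (Fermat.Agent.CAR.Ell.Deriv.dJ_eq_of_thetaL_eq (IsLocalRing.ResidueField A) M' h).symm

/-- The two `dJ` on main are the same function. -/
theorem dJ_eq_dJ [IsAlgClosed (IsLocalRing.ResidueField A)]
    (y : modularFunctionFieldFullC (IsLocalRing.ResidueField A) M') :
    Fermat.Agent.CAR.Local.Inst.Deriv.dJ (IsLocalRing.ResidueField A) M' y
      = Fermat.Agent.CAR.Ell.Deriv.dJ (IsLocalRing.ResidueField A) M' y :=
  (Fermat.Agent.CAR.Ell.Deriv.dJ_eq_of_thetaL_eq (IsLocalRing.ResidueField A) M'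
    (Fermat.Agent.CAR.Local.Inst.Deriv.thetaL_eq_dJ_mul (IsLocalRing.ResidueField A) M' y)).symm

include hA in
/-- **R6 (i)**: `d_y^(q-1) = q · t` with `t ∈ O_mid` and `redMidK t = -(θ ȳ)^(q-1)` (as series). -/
theorem exists_redMidK_dPull_pow (x : FK (inertiaField A) M')
    (hx : x ∈ Ow (W0 A) (resW0 A) M' hMk) :
    ∃ t : OMid hq A hA hζ M' hqM (IsLocalRing.residue A),
      (piStar2 (inertiaField A) M' q x - piStar0 (inertiaField A) M' q x) ^ (q - 1)
        = (q : FK (inertiaField A) (M' * q * q)) * (t : FK (inertiaField A) (M' * q * q)) ∧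
      ((redMidK hq A hA hζ M' hqM hκ t : modularFunctionFieldFullC (IsLocalRing.ResidueField A) M')
          : LaurentSeries (IsLocalRing.ResidueField A))
        = -(thetaL (IsLocalRing.ResidueField A)
            ((redF (W0 A) (resW0 A) M' (resW0_eq_zero_of_not_isUnit A) hMk ⟨x, hx⟩ :
              modularFunctionFieldFullC (IsLocalRing.ResidueField A) M') :
              LaurentSeries (IsLocalRing.ResidueField A))) ^ (q - 1) := by
  obtain ⟨t, ht, htr⟩ := exists_dPull_pow hq A hA hζ M' hqM hMk x hx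
  exact ⟨t, ht, htr⟩

include hA in
/-- `d_y` is a uniformiser of `O_mid` as soon as `θ ȳ ≠ 0`, in the `unif_mid` shape. -/
theorem div_dPull_mem (x : FK (inertiaField A) M') (hx : x ∈ Ow (W0 A) (resW0 A) M' hMk)
    (hθ : thetaL (IsLocalRing.ResidueField A)
      ((redF (W0 A) (resW0 A) M' (resW0_eq_zero_of_not_isUnit A) hMk ⟨x, hx⟩ :
        modularFunctionFieldFullC (IsLocalRing.ResidueField A) M') :
        LaurentSeries (IsLocalRing.ResidueField A)) ≠ 0)
    (z : FK (inertiaField A) (M' * q * q))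
    (hz : z ∈ (OMid hq A hA hζ M' hqM (IsLocalRing.residue A)).nonunits) :
    z / (piStar2 (inertiaField A) M' q x - piStar0 (inertiaField A) M' q x)
      ∈ OMid hq A hA hζ M' hqM (IsLocalRing.residue A) := by
  have hU := isUnif_dPull hq A hA hζ M' hqM hMk x hx hθ
  have hd0 : dPull A M' q x ≠ 0 := hU.ne_zero
  show z / dPull A M' q x ∈ _
  by_cases hz0 : z = 0
  · rw [hz0, zero_div]
    exact zero_mem _
  have h1 : 0 < hU.ord z := (hU.ord_pos_iff hz0).mpr hz
  have h2 : z / dPull A M' q x ≠ 0 := div_ne_zero hz0 hd0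
  rw [← hU.ord_nonneg_iff h2, hU.ord_div hz0 hd0, hU.ord_self]
  omega

end Diff

end Fermat.Agent.CAR.V3.MidKappa

end
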