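import Fermat.Agent.CAR.V3.UnitData
import Fermat.Agent.S28.Rot

/-!
# CAR / V3 : the unit relation, transport along ring homomorphisms, integrality

* `biEval F X Y` : the value `F(X; Y)` of `F ∈ ℤ[Y][X]` in any commutative ring.
* `UnitRel D X Y y` : `y * S(X; Y) = κ * (∂Φ/∂X)(X; Y)`; stable under ring homomorphisms
  (`UnitRel.map`), reflected by injective ones (`UnitRel.of_map`), and it determines `y`
  in a domain as soon as `κ * (∂Φ/∂X)(X; Y) ≠ 0` (`UnitRel.unique`).
* instances: `(j(q^p), j(q), yInf)`, `(j(q), j(q^p), u₁)` and their images under `q ↦ q^p`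
  and `q ↦ ζ q`.
* consequences over a field `K` of characteristic `0`: the images of `u₁`, `u₂` under any ring
  homomorphism with prescribed values on `j(q)`, `j(q^p)`, `j(q^{p²})` (`map_u1_eq`, …:
  the identity, the Atkin–Lehner involution, the middle-cusp embedding); membership in any
  subfield containing the two relevant `j`'s.
* integrality: `u₁`, `u₂`, `p^12 u₁⁻¹`, `p^12 u₂⁻¹`, `j(q^p)`, `j(q^{p²})` are integral over any
  ring over which one of `j(q)`, `j(q^p)`, `j(q^{p²})` is integral.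
-/

set_option autoImplicit false

noncomputable section

namespace Fermat.Agent.CAR.V3.Units

open ModularCurve Fermat.Agent.S28.ModEq

/-! ### Bivariate evaluation -/

section BiEval

variable {R : Type*} [CommRing R]

/-- The value `F(X; Y)` of `F ∈ ℤ[Y][X]` (outer variable `X`, inner variable `Y`). -/
def biEval (F : Polynomial (Polynomial ℤ)) (X Y : R) : R :=
  F.eval₂ (Polynomial.eval₂RingHom (Int.castRingHom R) Y) X

theorem map_biEval {R' : Type*} [CommRing R'] (σ : R →+* R') (F : Polynomial (Polynomial ℤ))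
    (X Y : R) : σ (biEval F X Y) = biEval F (σ X) (σ Y) := by
  unfold biEval
  rw [Polynomial.hom_eval₂]
  congr 1
  refine Polynomial.ringHom_ext (fun a => ?_) ?_
  · simp
  · simp

theorem evalAt_eq_eval₂RingHom {A : Type*} [CommRing A] (J : LaurentSeries A) :
    evalAt (Int.castRingHom A) J =
      Polynomial.eval₂RingHom (Int.castRingHom (LaurentSeries A)) J := by
  refine Polynomial.ringHom_ext (fun a => ?_) ?_
  · simp
  · simp

theorem eval₂_evalAt_eq_biEval (F : Polynomial (Polynomial ℤ)) (X Y : LaurentSeries ℤ) :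
    F.eval₂ (evalAt (RingHom.id ℤ) Y) X = biEval F X Y := by
  unfold biEval
  congr 1

theorem biEval_mem {K : Type*} [CommRing K] (E : Subring K) (F : Polynomial (Polynomial ℤ))
    {X Y : K} (hX : X ∈ E) (hY : Y ∈ E) : biEval F X Y ∈ E := by
  have h := map_biEval E.subtype F ⟨X, hX⟩ ⟨Y, hY⟩
  rw [← show E.subtype (biEval F (⟨X, hX⟩ : E) ⟨Y, hY⟩) = biEval F X Y from h]
  exact Subtype.prop _

/-- A root of a monic `P(· ; j)` with `j` integral is integral. -/
theorem isIntegral_of_biEval {R₀ B : Type*} [CommRing R₀] [CommRing B] [Algebra R₀ B]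
    (P : Polynomial (Polynomial ℤ)) (hP : P.Monic) {j x : B} (hj : IsIntegral R₀ j)
    (h : biEval P x j = 0) : IsIntegral R₀ x := by
  let C := integralClosure R₀ B
  have hx : IsIntegral C x := by
    refine ⟨P.map (Polynomial.eval₂RingHom (Int.castRingHom C) ⟨j, hj⟩), hP.map _, ?_⟩
    rw [Polynomial.eval₂_map]
    have : (algebraMap C B).comp (Polynomial.eval₂RingHom (Int.castRingHom C) ⟨j, hj⟩) =
        Polynomial.eval₂RingHom (Int.castRingHom B) j := by
      refine Polynomial.ringHom_ext (fun a => ?_) ?_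
      · simp
      · simp
    rw [this]
    exact h
  exact isIntegral_trans x hx

end BiEval

/-! ### The unit relation -/

section Rel

variable {p : ℕ} [NeZero p]

/-- `y * S(X; Y) = κ * (∂Φ/∂X)(X; Y)` in a commutative ring. -/
def UnitRel (D : ModEqData p) {R : Type*} [CommRing R] (X Y y : R) : Prop :=
  y * biEval D.S X Y = (D.κ : R) * biEval (Polynomial.derivative D.Φ) X Y

theorem UnitRel.map {D : ModEqData p} {R R' : Type*} [CommRing R] [CommRing R'] (σ : R →+* R')
    {X Y y : R} (h : UnitRel D X Y y) : UnitRel D (σ X) (σ Y) (σ y) := by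
  unfold UnitRel at h ⊢
  rw [← map_biEval, ← map_biEval, ← map_intCast σ, ← map_mul, ← map_mul, h]

theorem UnitRel.of_map {D : ModEqData p} {R R' : Type*} [CommRing R] [CommRing R']
    (σ : R →+* R') (hσ : Function.Injective σ) {X Y y : R}
    (h : UnitRel D (σ X) (σ Y) (σ y)) : UnitRel D X Y y := by
  unfold UnitRel at h ⊢
  apply hσ
  rw [map_mul, map_mul, map_biEval, map_biEval, map_intCast]
  exact h

theorem UnitRel.biEval_S_ne_zero {D : ModEqData p} {R : Type*} [CommRing R] [IsDomain R]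
    {X Y y : R} (hκ : (D.κ : R) ≠ 0) (h0 : biEval (Polynomial.derivative D.Φ) X Y ≠ 0)
    (h : UnitRel D X Y y) : biEval D.S X Y ≠ 0 := by
  intro hS
  unfold UnitRel at h
  rw [hS, mul_zero] at h
  exact mul_ne_zero hκ h0 h.symm

/-- In a domain the unit relation determines `y` as soon as `κ * (∂Φ/∂X)(X; Y) ≠ 0`. -/
theorem UnitRel.unique {D : ModEqData p} {R : Type*} [CommRing R] [IsDomain R] {X Y y y' : R}
    (hκ : (D.κ : R) ≠ 0) (h0 : biEval (Polynomial.derivative D.Φ) X Y ≠ 0)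
    (h : UnitRel D X Y y) (h' : UnitRel D X Y y') : y = y' :=
  mul_right_cancel₀ (h.biEval_S_ne_zero hκ h0) (h.trans h'.symm)

/-- `y = κ (∂Φ/∂X)(X; Y) / S(X; Y)` lies in every subfield containing `X` and `Y`. -/
theorem UnitRel.mem_subfield {D : ModEqData p} {K : Type*} [Field K] (E : Subfield K)
    {X Y y : K} (hX : X ∈ E) (hY : Y ∈ E) (hκ : (D.κ : K) ≠ 0)
    (h0 : biEval (Polynomial.derivative D.Φ) X Y ≠ 0) (h : UnitRel D X Y y) : y ∈ E := by
  have hS := h.biEval_S_ne_zero hκ h0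
  have hy : y = (D.κ : K) * biEval (Polynomial.derivative D.Φ) X Y / biEval D.S X Y := by
    rw [eq_div_iff hS]
    exact h
  rw [hy]
  exact E.div_mem (E.mul_mem (intCast_mem E D.κ) (biEval_mem E.toSubring _ hX hY))
    (biEval_mem E.toSubring _ hX hY)

theorem kappa_ne_zero (hp : p.Prime) (D : ModEqData p) : D.κ ≠ 0 := by
  intro h
  have h2 := D.κ_sq
  rw [h] at h2
  have hp0 : (p : ℤ) ≠ 0 := Int.natCast_ne_zero.mpr hp.ne_zero
  exact pow_ne_zero 24 hp0 (by rw [← h2]; ring)

/-! ### The relations over `ℤ` and over any commutative ring -/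

theorem intCast_eq_C {A : Type*} [CommRing A] (n : ℤ) :
    ((n : ℤ) : LaurentSeries A) = HahnSeries.C (n : A) :=
  (map_intCast (HahnSeries.C : A →+* LaurentSeries A) n).symm

variable (A : Type*) [CommRing A]

/-- `(j(q^p), j(q), yInf)` satisfies the unit relation. -/
theorem unitRel_yInf (D : ModEqData p) : UnitRel D (jqNModC A p) (jqModC A) (yInf A p) := by
  have h : UnitRel D (jqNModC ℤ p) (jqModC ℤ) (yInf ℤ p) := by
    unfold UnitRel
    rw [← eval₂_evalAt_eq_biEval, ← eval₂_evalAt_eq_biEval, intCast_eq_C]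
    exact D.E5
  have h2 := h.map (coeffMap (Int.castRingHom A))
  rwa [coeffMap_jqNModC, coeffMap_jqModC, coeffMap_yInf] at h2

/-- `(j(q), j(q^p), u₁)` satisfies the unit relation. -/
theorem unitRel_u1 (D : UnitData p) :
    UnitRel D.toModEqData (jqModC A) (jqNModC A p) (u1 A p) := by
  have h : UnitRel D.toModEqData (jqModC ℤ) (jqNModC ℤ p) (u1 ℤ p) := by
    unfold UnitRel
    rw [← eval₂_evalAt_eq_biEval, ← eval₂_evalAt_eq_biEval, intCast_eq_C]
    exact D.E5'
  have h2 := h.map (coeffMap (Int.castRingHom A))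
  rwa [coeffMap_jqNModC, coeffMap_jqModC, coeffMap_u1] at h2

/-- `(j(q^{p²}), j(q^p), p^12 u₂⁻¹)` satisfies the unit relation. -/
theorem unitRel_qExpand_yInf (D : ModEqData p) :
    UnitRel D (jqNModC A (p * p)) (jqNModC A p) (HahnSeries.C ((p : A) ^ 12) * u2inv A p) := by
  have h := (unitRel_yInf A D).map (qExpand A p)
  rwa [qExpand_jqNModC, qExpand_yInf_eq] at h

/-- `(j(q^p), j(q^{p²}), u₂)` satisfies the unit relation. -/
theorem unitRel_u2 (D : UnitData p) :
    UnitRel D.toModEqData (jqNModC A p) (jqNModC A (p * p)) (u2 A p) := by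
  have h := (unitRel_u1 A D).map (qExpand A p)
  rwa [qExpand_jqNModC] at h

open Fermat.Agent.S28.Chain in
/-- `(j(q^p), j(c q), yInf(c q))` satisfies the unit relation for `c ^ p = 1`. -/
theorem unitRel_rot_yInf (D : ModEqData p) (c : Aˣ) (hc : c ^ p = 1) :
    UnitRel D (jqNModC A p) (rot c (jqModC A)) (rot c (yInf A p)) := by
  have h := (unitRel_yInf A D).map (rot c)
  have e : rot c (jqNModC A p) = jqNModC A p := rot_qExpand_of_pow_eq_one hc _
  rwa [e] at h

/-! ### Vanishing of the modular equations -/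

theorem biEval_Phi_J1 (D : ModEqData p) : biEval D.Φ (jqNModC A p) (jqModC A) = 0 := by
  have h : biEval D.Φ (jqNModC ℤ p) (jqModC ℤ) = 0 := by
    rw [← eval₂_evalAt_eq_biEval]
    exact D.E1
  have h2 := congrArg (coeffMap (Int.castRingHom A)) h
  rwa [map_biEval, coeffMap_jqNModC, coeffMap_jqModC, map_zero] at h2

theorem biEval_Phi_J0 (D : ModEqData p) : biEval D.Φ (jqModC A) (jqNModC A p) = 0 := by
  have h : biEval D.Φ (jqModC ℤ) (jqNModC ℤ p) = 0 := by
    rw [← eval₂_evalAt_eq_biEval]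
    exact D.E2
  have h2 := congrArg (coeffMap (Int.castRingHom A)) h
  rwa [map_biEval, coeffMap_jqNModC, coeffMap_jqModC, map_zero] at h2

theorem biEval_Psi_yInf (D : ModEqData p) : biEval D.Ψ (yInf A p) (jqModC A) = 0 := by
  have h : biEval D.Ψ (yInf ℤ p) (jqModC ℤ) = 0 := by
    rw [← eval₂_evalAt_eq_biEval]
    exact D.E3
  have h2 := congrArg (coeffMap (Int.castRingHom A)) h
  rwa [map_biEval, coeffMap_yInf, coeffMap_jqModC, map_zero] at h2

theorem biEval_Psi_u1 (D : UnitData p) : biEval D.Ψ (u1 A p) (jqNModC A p) = 0 := by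
  have h : biEval D.Ψ (u1 ℤ p) (jqNModC ℤ p) = 0 := by
    rw [← eval₂_evalAt_eq_biEval]
    exact D.E3'
  have h2 := congrArg (coeffMap (Int.castRingHom A)) h
  rwa [map_biEval, coeffMap_u1, coeffMap_jqNModC, map_zero] at h2

theorem biEval_Phi_J2 (D : ModEqData p) : biEval D.Φ (jqNModC A (p * p)) (jqNModC A p) = 0 := by
  have h := congrArg (qExpand A p) (biEval_Phi_J1 A D)
  rwa [map_biEval, qExpand_jqNModC, map_zero] at h

theorem biEval_Phi_J1' (D : ModEqData p) : biEval D.Φ (jqNModC A p) (jqNModC A (p * p)) = 0 := by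
  have h := congrArg (qExpand A p) (biEval_Phi_J0 A D)
  rwa [map_biEval, qExpand_jqNModC, map_zero] at h

theorem biEval_Psi_qExpand_yInf (D : ModEqData p) :
    biEval D.Ψ (HahnSeries.C ((p : A) ^ 12) * u2inv A p) (jqNModC A p) = 0 := by
  have h := congrArg (qExpand A p) (biEval_Psi_yInf A D)
  rwa [map_biEval, qExpand_yInf_eq, map_zero] at h

theorem biEval_Psi_u2 (D : UnitData p) : biEval D.Ψ (u2 A p) (jqNModC A (p * p)) = 0 := by
  have h := congrArg (qExpand A p) (biEval_Psi_u1 A D)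
  rwa [map_biEval, qExpand_jqNModC, map_zero] at h

end Rel

/-! ### Characteristic zero: nonvanishing and uniqueness -/

section CharZero

variable {p : ℕ} [NeZero p] (K : Type*) [Field K] [CharZero K]

theorem intCast_laurent_ne_zero (hp : p.Prime) (D : ModEqData p) :
    ((D.κ : ℤ) : LaurentSeries K) ≠ 0 := by
  rw [intCast_eq_C]
  intro h
  have h2 : (HahnSeries.C ((D.κ : ℤ) : K) : LaurentSeries K) = HahnSeries.C 0 := by
    rw [h, map_zero]
  exact Int.cast_ne_zero.mpr (kappa_ne_zero hp D) (HahnSeries.C_injective h2)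

theorem biEval_derivative_J1_ne_zero (D : ModEqData p) :
    biEval (Polynomial.derivative D.Φ) (jqNModC K p) (jqModC K) ≠ 0 := by
  intro h
  have h1 : biEval (Polynomial.derivative D.Φ) (jqNModC ℤ p) (jqModC ℤ) ≠ 0 := by
    rw [← eval₂_evalAt_eq_biEval]
    intro h0
    have h6 := D.E6
    rw [h0, HahnSeries.coeff_zero] at h6
    exact zero_ne_one h6
  apply h1
  apply coeffMap_injective (Int.castRingHom K) Int.cast_injective
  rw [map_biEval, coeffMap_jqNModC, coeffMap_jqModC, map_zero]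
  exact h

theorem biEval_derivative_J0_ne_zero (D : UnitData p) :
    biEval (Polynomial.derivative D.Φ) (jqModC K) (jqNModC K p) ≠ 0 := by
  intro h
  have h1 : biEval (Polynomial.derivative D.Φ) (jqModC ℤ) (jqNModC ℤ p) ≠ 0 := by
    rw [← eval₂_evalAt_eq_biEval]
    exact D.E6'
  apply h1
  apply coeffMap_injective (Int.castRingHom K) Int.cast_injective
  rw [map_biEval, coeffMap_jqNModC, coeffMap_jqModC, map_zero]
  exact h

theorem biEval_derivative_J2_ne_zero (D : ModEqData p) :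
    biEval (Polynomial.derivative D.Φ) (jqNModC K (p * p)) (jqNModC K p) ≠ 0 := by
  intro h
  apply biEval_derivative_J1_ne_zero K D
  apply qExpand_injective (R := K) p
  rw [map_biEval, qExpand_jqNModC, map_zero]
  exact h

theorem biEval_derivative_J1'_ne_zero (D : UnitData p) :
    biEval (Polynomial.derivative D.Φ) (jqNModC K p) (jqNModC K (p * p)) ≠ 0 := by
  intro h
  apply biEval_derivative_J0_ne_zero K D
  apply qExpand_injective (R := K) p
  rw [map_biEval, qExpand_jqNModC, map_zero]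
  exact h

open Fermat.Agent.S28.Chain in
theorem biEval_derivative_rot_ne_zero (D : ModEqData p) (c : Kˣ) (hc : c ^ p = 1) :
    biEval (Polynomial.derivative D.Φ) (jqNModC K p) (rot c (jqModC K)) ≠ 0 := by
  intro h
  apply biEval_derivative_J1_ne_zero K D
  apply rot_injective c
  have e : rot c (jqNModC K p) = jqNModC K p := rot_qExpand_of_pow_eq_one hc _
  rw [map_biEval, e, map_zero]
  exact h

variable {K}

/-- `u₁` is characterised by the unit relation at `(j(q), j(q^p))`. -/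
theorem eq_u1_of_unitRel (hp : p.Prime) (D : UnitData p) {y : LaurentSeries K}
    (h : UnitRel D.toModEqData (jqModC K) (jqNModC K p) y) : y = u1 K p :=
  h.unique (intCast_laurent_ne_zero K hp _) (biEval_derivative_J0_ne_zero K D) (unitRel_u1 K D)

/-- `yInf = p^12 u₁⁻¹` is characterised by the unit relation at `(j(q^p), j(q))`. -/
theorem eq_yInf_of_unitRel (hp : p.Prime) (D : ModEqData p) {y : LaurentSeries K}
    (h : UnitRel D (jqNModC K p) (jqModC K) y) : y = yInf K p :=
  h.unique (intCast_laurent_ne_zero K hp _) (biEval_derivative_J1_ne_zero K D) (unitRel_yInf K D)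

/-- `u₂` is characterised by the unit relation at `(j(q^p), j(q^{p²}))`. -/
theorem eq_u2_of_unitRel (hp : p.Prime) (D : UnitData p) {y : LaurentSeries K}
    (h : UnitRel D.toModEqData (jqNModC K p) (jqNModC K (p * p)) y) : y = u2 K p :=
  h.unique (intCast_laurent_ne_zero K hp _) (biEval_derivative_J1'_ne_zero K D) (unitRel_u2 K D)

/-- `p^12 u₂⁻¹` is characterised by the unit relation at `(j(q^{p²}), j(q^p))`. -/
theorem eq_qExpand_yInf_of_unitRel (hp : p.Prime) (D : ModEqData p) {y : LaurentSeries K}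
    (h : UnitRel D (jqNModC K (p * p)) (jqNModC K p) y) :
    y = HahnSeries.C ((p : K) ^ 12) * u2inv K p :=
  h.unique (intCast_laurent_ne_zero K hp _) (biEval_derivative_J2_ne_zero K D)
    (unitRel_qExpand_yInf K D)

open Fermat.Agent.S28.Chain in
/-- `yInf(c q)` is characterised by the unit relation at `(j(q^p), j(c q))`, `c ^ p = 1`. -/
theorem eq_rot_yInf_of_unitRel (hp : p.Prime) (D : ModEqData p) (c : Kˣ) (hc : c ^ p = 1)
    {y : LaurentSeries K} (h : UnitRel D (jqNModC K p) (rot c (jqModC K)) y) :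
    y = rot c (yInf K p) :=
  h.unique (intCast_laurent_ne_zero K hp _) (biEval_derivative_rot_ne_zero K D c hc)
    (unitRel_rot_yInf K D c hc)

/-! ### Membership in subfields -/

theorem u1_mem (hp : p.Prime) (E : Subfield (LaurentSeries K)) (h0 : jqModC K ∈ E)
    (h1 : jqNModC K p ∈ E) : u1 K p ∈ E := by
  obtain ⟨D⟩ := exists_unitData p hp
  exact (unitRel_u1 K D).mem_subfield E h0 h1 (intCast_laurent_ne_zero K hp _)
    (biEval_derivative_J0_ne_zero K D)

theorem u1inv_mem (hp : p.Prime) (E : Subfield (LaurentSeries K)) (h0 : jqModC K ∈ E)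
    (h1 : jqNModC K p ∈ E) : u1inv K p ∈ E := by
  have h := E.inv_mem (u1_mem hp E h0 h1)
  rwa [← eq_inv_of_mul_eq_one_right (u1_mul_u1inv K p)] at h

theorem u2_mem (hp : p.Prime) (E : Subfield (LaurentSeries K)) (h1 : jqNModC K p ∈ E)
    (h2 : jqNModC K (p * p) ∈ E) : u2 K p ∈ E := by
  obtain ⟨D⟩ := exists_unitData p hp
  exact (unitRel_u2 K D).mem_subfield E h1 h2 (intCast_laurent_ne_zero K hp _)
    (biEval_derivative_J1'_ne_zero K D)

theorem u2inv_mem (hp : p.Prime) (E : Subfield (LaurentSeries K)) (h1 : jqNModC K p ∈ E)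
    (h2 : jqNModC K (p * p) ∈ E) : u2inv K p ∈ E := by
  have h := E.inv_mem (u2_mem hp E h1 h2)
  rwa [← eq_inv_of_mul_eq_one_right (u2_mul_u2inv K p)] at h

end CharZero

/-! ### Transport along ring homomorphisms

`R` is any commutative ring with an injective ring homomorphism `ι` into `A₁((q))` (for instance
a function field, with its inclusion) and `σ : R → K₂((q))` a ring homomorphism; the image of
`u₁`, `u₂` under `σ` is determined by the images of the relevant `j`'s. -/

section Transport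

variable {p : ℕ} [NeZero p] {K : Type*} [CommRing K] {K₂ : Type*} [Field K₂] [CharZero K₂]
  {R : Type*} [CommRing R]
  (ι : R →+* LaurentSeries K) (hι : Function.Injective ι) (σ : R →+* LaurentSeries K₂)

include hι

/-- `σ` fixing `j(q)`, `j(q^p)` fixes `u₁`. -/
theorem map_u1_eq_u1 (hp : p.Prime) {j0 j1 y : R} (h0 : ι j0 = jqModC K)
    (h1 : ι j1 = jqNModC K p) (hy : ι y = u1 K p) (s0 : σ j0 = jqModC K₂)
    (s1 : σ j1 = jqNModC K₂ p) : σ y = u1 K₂ p := by
  obtain ⟨D⟩ := exists_unitData p hp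
  have hR : UnitRel D.toModEqData j0 j1 y :=
    UnitRel.of_map ι hι (by rw [h0, h1, hy]; exact unitRel_u1 K D)
  have h := hR.map σ
  rw [s0, s1] at h
  exact eq_u1_of_unitRel hp D h

/-- `σ` fixing `j(q^p)`, `j(q^{p²})` fixes `u₂`. -/
theorem map_u2_eq_u2 (hp : p.Prime) {j1 j2 y : R} (h1 : ι j1 = jqNModC K p)
    (h2 : ι j2 = jqNModC K (p * p)) (hy : ι y = u2 K p) (s1 : σ j1 = jqNModC K₂ p)
    (s2 : σ j2 = jqNModC K₂ (p * p)) : σ y = u2 K₂ p := by
  obtain ⟨D⟩ := exists_unitData p hp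
  have hR : UnitRel D.toModEqData j1 j2 y :=
    UnitRel.of_map ι hι (by rw [h1, h2, hy]; exact unitRel_u2 K D)
  have h := hR.map σ
  rw [s1, s2] at h
  exact eq_u2_of_unitRel hp D h

/-- **Atkin–Lehner on `u₁`**: if `σ` maps `j(q) ↦ j(q^{p²})` and fixes `j(q^p)`, then
`σ u₁ = p^12 / u₂`. -/
theorem map_u1_eq_AL (hp : p.Prime) {j0 j1 y : R} (h0 : ι j0 = jqModC K)
    (h1 : ι j1 = jqNModC K p) (hy : ι y = u1 K p) (s0 : σ j0 = jqNModC K₂ (p * p))
    (s1 : σ j1 = jqNModC K₂ p) : σ y = HahnSeries.C ((p : K₂) ^ 12) * u2inv K₂ p := by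
  obtain ⟨D⟩ := exists_unitData p hp
  have hR : UnitRel D.toModEqData j0 j1 y :=
    UnitRel.of_map ι hι (by rw [h0, h1, hy]; exact unitRel_u1 K D)
  have h := hR.map σ
  rw [s0, s1] at h
  exact eq_qExpand_yInf_of_unitRel hp D.toModEqData h

/-- **Atkin–Lehner on `u₂`**: if `σ` maps `j(q^{p²}) ↦ j(q)` and fixes `j(q^p)`, then
`σ u₂ = p^12 / u₁`. -/
theorem map_u2_eq_AL (hp : p.Prime) {j1 j2 y : R} (h1 : ι j1 = jqNModC K p)
    (h2 : ι j2 = jqNModC K (p * p)) (hy : ι y = u2 K p) (s1 : σ j1 = jqNModC K₂ p)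
    (s2 : σ j2 = jqModC K₂) : σ y = HahnSeries.C ((p : K₂) ^ 12) * u1inv K₂ p := by
  obtain ⟨D⟩ := exists_unitData p hp
  have hR : UnitRel D.toModEqData j1 j2 y :=
    UnitRel.of_map ι hι (by rw [h1, h2, hy]; exact unitRel_u2 K D)
  have h := hR.map σ
  rw [s1, s2] at h
  rw [eq_yInf_of_unitRel hp D.toModEqData h, yInf_eq]

open Fermat.Agent.S28.Chain in
/-- **The middle cusp on `u₂`**: if `σ` fixes `j(q^p)` and maps `j(q^{p²}) ↦ j(c q)` with
`c ^ p = 1`, then `σ u₂ = p^12 Δ(q^p) / Δ(c q)`. -/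
theorem map_u2_eq_mid (hp : p.Prime) {j1 j2 y : R} (h1 : ι j1 = jqNModC K p)
    (h2 : ι j2 = jqNModC K (p * p)) (hy : ι y = u2 K p) (c : K₂ˣ) (hc : c ^ p = 1)
    (s1 : σ j1 = jqNModC K₂ p) (s2 : σ j2 = rot c (jqModC K₂)) :
    σ y = HahnSeries.C ((p : K₂) ^ 12) * rot c (u1inv K₂ p) := by
  obtain ⟨D⟩ := exists_unitData p hp
  have hR : UnitRel D.toModEqData j1 j2 y :=
    UnitRel.of_map ι hι (by rw [h1, h2, hy]; exact unitRel_u2 K D)
  have h := hR.map σ
  rw [s1, s2] at h
  rw [eq_rot_yInf_of_unitRel hp D.toModEqData c hc h, yInf_eq, map_mul, rot_C]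

end Transport

/-! ### Integrality -/

section Integral

variable {p : ℕ} [NeZero p] (A : Type*) [CommRing A] {R₀ : Type*} [CommRing R₀]
  [Algebra R₀ (LaurentSeries A)]

theorem isIntegral_J1 (hp : p.Prime) (h : IsIntegral R₀ (jqModC A)) :
    IsIntegral R₀ (jqNModC A p) := by
  obtain ⟨D⟩ := exists_modEqData p hp
  exact isIntegral_of_biEval D.Φ D.Φ_monic h (biEval_Phi_J1 A D)

theorem isIntegral_J0_of_J1 (hp : p.Prime) (h : IsIntegral R₀ (jqNModC A p)) :
    IsIntegral R₀ (jqModC A) := by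
  obtain ⟨D⟩ := exists_modEqData p hp
  exact isIntegral_of_biEval D.Φ D.Φ_monic h (biEval_Phi_J0 A D)

theorem isIntegral_J2 (hp : p.Prime) (h : IsIntegral R₀ (jqNModC A p)) :
    IsIntegral R₀ (jqNModC A (p * p)) := by
  obtain ⟨D⟩ := exists_modEqData p hp
  exact isIntegral_of_biEval D.Φ D.Φ_monic h (biEval_Phi_J2 A D)

theorem isIntegral_J1_of_J2 (hp : p.Prime) (h : IsIntegral R₀ (jqNModC A (p * p))) :
    IsIntegral R₀ (jqNModC A p) := by
  obtain ⟨D⟩ := exists_modEqData p hp
  exact isIntegral_of_biEval D.Φ D.Φ_monic h (biEval_Phi_J1' A D)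

/-- `p^12 u₁⁻¹ = p^12 Δ(q^p)/Δ(q)` is integral over any ring over which `j(q)` is. -/
theorem isIntegral_yInf (hp : p.Prime) (h : IsIntegral R₀ (jqModC A)) :
    IsIntegral R₀ (HahnSeries.C ((p : A) ^ 12) * u1inv A p) := by
  obtain ⟨D⟩ := exists_modEqData p hp
  rw [← yInf_eq]
  exact isIntegral_of_biEval D.Ψ D.Ψ_monic h (biEval_Psi_yInf A D)

/-- `u₁ = Δ(q)/Δ(q^p)` is integral over any ring over which `j(q^p)` is. -/
theorem isIntegral_u1_of_J1 (hp : p.Prime) (h : IsIntegral R₀ (jqNModC A p)) :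
    IsIntegral R₀ (u1 A p) := by
  obtain ⟨D⟩ := exists_unitData p hp
  exact isIntegral_of_biEval D.Ψ D.Ψ_monic h (biEval_Psi_u1 A D)

/-- `p^12 u₂⁻¹` is integral over any ring over which `j(q^p)` is. -/
theorem isIntegral_qExpand_yInf (hp : p.Prime) (h : IsIntegral R₀ (jqNModC A p)) :
    IsIntegral R₀ (HahnSeries.C ((p : A) ^ 12) * u2inv A p) := by
  obtain ⟨D⟩ := exists_modEqData p hp
  exact isIntegral_of_biEval D.Ψ D.Ψ_monic h (biEval_Psi_qExpand_yInf A D)

/-- `u₂` is integral over any ring over which `j(q^{p²})` is. -/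
theorem isIntegral_u2_of_J2 (hp : p.Prime) (h : IsIntegral R₀ (jqNModC A (p * p))) :
    IsIntegral R₀ (u2 A p) := by
  obtain ⟨D⟩ := exists_unitData p hp
  exact isIntegral_of_biEval D.Ψ D.Ψ_monic h (biEval_Psi_u2 A D)

/-- **Integrality package**: over any ring `R₀` over which `j(q)` is integral, all of
`j(q^p)`, `j(q^{p²})`, `u₁`, `p^12 u₁⁻¹`, `u₂`, `p^12 u₂⁻¹` are integral. -/
theorem isIntegral_units (hp : p.Prime) (h : IsIntegral R₀ (jqModC A)) :
    IsIntegral R₀ (jqNModC A p) ∧ IsIntegral R₀ (jqNModC A (p * p)) ∧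
      IsIntegral R₀ (u1 A p) ∧ IsIntegral R₀ (HahnSeries.C ((p : A) ^ 12) * u1inv A p) ∧
      IsIntegral R₀ (u2 A p) ∧ IsIntegral R₀ (HahnSeries.C ((p : A) ^ 12) * u2inv A p) := by
  have h1 := isIntegral_J1 A hp h
  have h2 := isIntegral_J2 A hp h1
  exact ⟨h1, h2, isIntegral_u1_of_J1 A hp h1, isIntegral_yInf A hp h,
    isIntegral_u2_of_J2 A hp h2, isIntegral_qExpand_yInf A hp h1⟩

end Integral

end Fermat.Agent.CAR.V3.Units
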