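/-
helper83 — CAR-5, the MIDDLE side at the level of the function field
`F3 = FK (inertiaField A) (M' q²)` (helper7's `MidRing`: `tauMid`, `OMid`, `redMid`, `dMid`).

Stated for ARBITRARY elements `y₁ y₂ : F3` whose `q`-expansions are the modular units
`u₁ = Δ(q)/Δ(q^q)` and `u₂ = Δ(q^q)/Δ(q^{q²})` (helper98's `u1`, `u2`):

* `tauMid_u1`, `tauMid_u2` : their middle-cusp expansions `u₁(q)` and `q^12 · u₁⁻¹(ζ q)`;
* `u1_mem_OMid`, `inv_u1_mem_OMid`, `redMid_u1` : `y₁ ∈ O_mid^×`, `red_mid y₁ = Δ̄^(1-q)`;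
* `v1_mem_OMid`, `inv_v1_mem_OMid`, `redMid_v1` : `v₁ := q^12 / y₂ ∈ O_mid^×`, same reduction;
* `u_mem_OMid`, `redMid_u` : `u := y₂ / y₁ ∈ O_mid`, `red_mid u = 0`;
* `cert_mid` : every `x` with `x · y₂ = d^(12 (q-1)) · y₁` lies in `O_mid` and
  `red_mid x = (J̄^8 (J̄ - 1728)^6)^(q-1)`;  `hMid_mul_u` : `h · u = d^(12 (q-1))`;
* the cusp element `cuspE = 1 - J₀/J₂ = d / J₂` : uniformiser of `O_mid`, and
  `red_mid (e^(q-1)/q) · J̄^(q-1) = -(θ J̄)^(q-1)` (`cusp_cert`).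
-/
import Mathlib
import Fermat.Agent.CAR.V3.MidPull
import Fermat.Agent.CAR.V3.UnitRel
import Fermat.Agent.CAR.V3.CuspUnit

set_option autoImplicit false
set_option linter.unusedSectionVars false
set_option linter.style.haveILetI false

noncomputable section

namespace Fermat.Agent.CAR.V3.MidUnits

open ModularCurve HahnSeries Fermat.Agent.S24 Fermat.Agent.S28 Fermat.Agent.S28.Chain
  Fermat.Agent.Lib.Red Fermat.Agent.CAR.K0 Fermat.Agent.CAR.Local.ThetaJ
  Fermat.Agent.CAR.V3.MidRing Fermat.Agent.CAR.V3.Units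

local notation "Qb" => AlgebraicClosure ℚ

variable {q : ℕ} (hq : q.Prime) (A : ValuationSubring Qb) (hA : A.LiesOverPrime q)
  {ζ : Qb} (hζ : IsPrimitiveRoot ζ q) (M' : ℕ) [NeZero M'] [NeZero q] (hqM : ¬ q ∣ M')
  {k : Type*} [Field k] (π : A →+* k) (hπ : ∀ a : A, ¬ IsUnit a → π a = 0)

/-- The divisor `q` of `M' q²`. -/
def dvQ (M' q : ℕ) : Dv (M' * q * q) := ⟨q, ⟨M' * q, by ring⟩⟩

/-- The `q`-expansion `F3 → K0((q))` as a ring homomorphism. -/
def coeHom : ↥(FK (inertiaField A) (M' * q * q)) →+* LaurentSeries (inertiaField A) where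
  toFun f := (f : LaurentSeries (inertiaField A))
  map_one' := rfl
  map_mul' _ _ := rfl
  map_zero' := rfl
  map_add' _ _ := rfl

theorem coeHom_apply (f : FK (inertiaField A) (M' * q * q)) :
    coeHom A M' f = (f : LaurentSeries (inertiaField A)) := rfl

theorem coeHom_injective : Function.Injective (coeHom (q := q) A M') :=
  fun _ _ h => Subtype.ext h

include hq in
theorem serMid_q (w : Qbˣ) : serMid q w q = jqNModC Qb q := by
  unfold serMid
  have h1 : ¬ q ^ 2 ∣ q := by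
    intro h
    have h2 := Nat.le_of_dvd hq.pos h
    have h3 := hq.one_lt
    nlinarith
  rw [if_neg h1, TD.Jd_eq_jqNModC]

/-! ### Existence of `u₁`, `u₂` in `F3` -/

include hq in
/-- `u₁ = Δ(q)/Δ(q^q)` is (the `q`-expansion of) an element of `F3`. -/
theorem exists_y1 : ∃ y₁ : FK (inertiaField A) (M' * q * q),
    (y₁ : LaurentSeries (inertiaField A)) = u1 (inertiaField A) q := by
  have h0 : jqModC (inertiaField A) ∈ (FK (inertiaField A) (M' * q * q)).toSubfield := by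
    have h := (JK (inertiaField A) (M' * q * q) (dvOne M' q)).2
    have e : ((JK (inertiaField A) (M' * q * q) (dvOne M' q) : FK (inertiaField A) (M' * q * q)) :
        LaurentSeries (inertiaField A)) = jqModC (inertiaField A) := by
      show TD.Jd (inertiaField A) 1 = _
      rw [TD.Jd_one]
    rw [e] at h
    exact h
  have h1 : jqNModC (inertiaField A) q ∈ (FK (inertiaField A) (M' * q * q)).toSubfield := by
    have h := (JK (inertiaField A) (M' * q * q) (dvQ M' q)).2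
    have e : ((JK (inertiaField A) (M' * q * q) (dvQ M' q) : FK (inertiaField A) (M' * q * q)) :
        LaurentSeries (inertiaField A)) = jqNModC (inertiaField A) q := by
      show TD.Jd (inertiaField A) q = _
      rw [TD.Jd_eq_jqNModC]
    rw [e] at h
    exact h
  exact ⟨⟨_, u1_mem hq _ h0 h1⟩, rfl⟩

include hq in
/-- `u₂ = Δ(q^q)/Δ(q^{q²})` is (the `q`-expansion of) an element of `F3`. -/
theorem exists_y2 : ∃ y₂ : FK (inertiaField A) (M' * q * q),
    (y₂ : LaurentSeries (inertiaField A)) = u2 (inertiaField A) q := by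
  have h1 : jqNModC (inertiaField A) q ∈ (FK (inertiaField A) (M' * q * q)).toSubfield := by
    have h := (JK (inertiaField A) (M' * q * q) (dvQ M' q)).2
    have e : ((JK (inertiaField A) (M' * q * q) (dvQ M' q) : FK (inertiaField A) (M' * q * q)) :
        LaurentSeries (inertiaField A)) = jqNModC (inertiaField A) q := by
      show TD.Jd (inertiaField A) q = _
      rw [TD.Jd_eq_jqNModC]
    rw [e] at h
    exact h
  have h2 : jqNModC (inertiaField A) (q * q) ∈ (FK (inertiaField A) (M' * q * q)).toSubfield := by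
    have h := (JK (inertiaField A) (M' * q * q) (dvSq M' q)).2
    have e : ((JK (inertiaField A) (M' * q * q) (dvSq M' q) : FK (inertiaField A) (M' * q * q)) :
        LaurentSeries (inertiaField A)) = jqNModC (inertiaField A) (q * q) := by
      show TD.Jd (inertiaField A) (q * q) = _
      rw [TD.Jd_eq_jqNModC]
    rw [e] at h
    exact h
  exact ⟨⟨_, u2_mem hq _ h1 h2⟩, rfl⟩

/-! ### The middle-cusp expansions of `u₁`, `u₂` -/

theorem tauMid_u1 {y₁ : FK (inertiaField A) (M' * q * q)}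
    (hy₁ : (y₁ : LaurentSeries (inertiaField A)) = u1 (inertiaField A) q) :
    tauMid hq A hζ M' hqM y₁ = u1 Qb q := by
  refine map_u1_eq_u1 (coeHom A M') (coeHom_injective A M') (tauMid hq A hζ M' hqM) hq
    (j0 := JK (inertiaField A) (M' * q * q) (dvOne M' q))
    (j1 := JK (inertiaField A) (M' * q * q) (dvQ M' q)) ?_ ?_ hy₁ ?_ ?_
  · show TD.Jd (inertiaField A) 1 = _
    rw [TD.Jd_one]
  · show TD.Jd (inertiaField A) q = _
    rw [TD.Jd_eq_jqNModC]
  · rw [tauMid_JK]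
    exact serMid_one hq _
  · rw [tauMid_JK]
    exact serMid_q hq _

theorem tauMid_u2 {y₂ : FK (inertiaField A) (M' * q * q)}
    (hy₂ : (y₂ : LaurentSeries (inertiaField A)) = u2 (inertiaField A) q) :
    tauMid hq A hζ M' hqM y₂
      = HahnSeries.C ((q : Qb) ^ 12) * rot (zetaUnit hq hζ) (u1inv Qb q) := by
  refine map_u2_eq_mid (coeHom A M') (coeHom_injective A M') (tauMid hq A hζ M' hqM) hq
    (j1 := JK (inertiaField A) (M' * q * q) (dvQ M' q))
    (j2 := JK (inertiaField A) (M' * q * q) (dvSq M' q)) ?_ ?_ hy₂ (zetaUnit hq hζ)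
    (zetaUnit_pow hq hζ) ?_ ?_
  · show TD.Jd (inertiaField A) q = _
    rw [TD.Jd_eq_jqNModC]
  · show TD.Jd (inertiaField A) (q * q) = _
    rw [TD.Jd_eq_jqNModC]
  · rw [tauMid_JK]
    exact serMid_q hq _
  · rw [tauMid_JK]
    exact serMid_sq hq _

/-! ### Transport of membership and reduction -/

theorem mem_OMid_of_tauMid_eq (f : FK (inertiaField A) (M' * q * q)) {y : LaurentSeries Qb}
    (hy : y ∈ gaussRing A π) (e : tauMid hq A hζ M' hqM f = y) :
    f ∈ OMid hq A hA hζ M' hqM π := by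
  rw [mem_OMid_iff, e]
  exact hy

theorem redMid_of_tauMid_eq (f : FK (inertiaField A) (M' * q * q))
    (hf : f ∈ OMid hq A hA hζ M' hqM π) {y : LaurentSeries Qb}
    (hy : y ∈ gaussRing A π) (e : tauMid hq A hζ M' hqM f = y) :
    redMid hq A hA hζ M' hqM π ⟨f, hf⟩ = red A π ⟨y, hy⟩ := by
  rw [redMid_apply]
  subst e
  rfl

include hq hA hπ in
theorem charP_of_liesOver : CharP k q :=
  (CharP.charP_iff_prime_eq_zero hq).mpr (natCast_eq_zero_of_liesOver A π hπ hA)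

include hq hζ hqM in
theorem natCast_ne_zero_F3 : (q : FK (inertiaField A) (M' * q * q)) ≠ 0 := by
  intro h
  have h1 := congrArg (tauMid hq A hζ M' hqM) h
  rw [tauMid_natCast, map_zero] at h1
  have h3 : (HahnSeries.C (q : Qb) : LaurentSeries Qb) = HahnSeries.C 0 := by rw [h1, map_zero]
  exact Nat.cast_ne_zero.mpr hq.ne_zero (HahnSeries.C_injective h3)

include hq in
theorem C_natCast_pow_ne_zero : (HahnSeries.C ((q : Qb) ^ 12) : LaurentSeries Qb) ≠ 0 := by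
  intro h
  have h3 : (HahnSeries.C ((q : Qb) ^ 12) : LaurentSeries Qb) = HahnSeries.C 0 := by
    rw [h, map_zero]
  exact pow_ne_zero 12 (Nat.cast_ne_zero.mpr hq.ne_zero) (HahnSeries.C_injective h3)

/-! ### `u₁` at the middle place -/

section U1

variable {y₁ : FK (inertiaField A) (M' * q * q)}
  (hy₁ : (y₁ : LaurentSeries (inertiaField A)) = u1 (inertiaField A) q)

include hy₁

theorem u1_mem_OMid : y₁ ∈ OMid hq A hA hζ M' hqM π :=
  mem_OMid_of_tauMid_eq hq A hA hζ M' hqM π y₁ (UnitCert.u1_mem A π q)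
    (tauMid_u1 hq A hζ M' hqM hy₁)

theorem redMid_u1 (h : y₁ ∈ OMid hq A hA hζ M' hqM π) :
    redMid hq A hA hζ M' hqM π ⟨y₁, h⟩ = u1 k q := by
  rw [redMid_of_tauMid_eq hq A hA hζ M' hqM π y₁ h (UnitCert.u1_mem A π q)
    (tauMid_u1 hq A hζ M' hqM hy₁), UnitCert.red_u1]

theorem inv_u1_mem_OMid : y₁⁻¹ ∈ OMid hq A hA hζ M' hqM π := by
  refine mem_OMid_of_tauMid_eq hq A hA hζ M' hqM π y₁⁻¹ (UnitCert.u1inv_mem A π q) ?_
  rw [map_inv₀, tauMid_u1 hq A hζ M' hqM hy₁, UnitCert.u1inv_eq_inv]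

include hq hζ hqM in
theorem u1_ne_zero_F3 : y₁ ≠ 0 := by
  intro h
  have h1 := tauMid_u1 hq A hζ M' hqM hy₁
  rw [h, map_zero] at h1
  exact UnitCert.u1_ne_zero q Qb h1.symm

end U1

/-! ### `u₂`, `v₁ = q^12/u₂`, `u = u₂/u₁` and the certificate at the middle place -/

section U2

variable {y₁ y₂ : FK (inertiaField A) (M' * q * q)}
  (hy₁ : (y₁ : LaurentSeries (inertiaField A)) = u1 (inertiaField A) q)
  (hy₂ : (y₂ : LaurentSeries (inertiaField A)) = u2 (inertiaField A) q)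

include hy₂

include hq hζ hqM in
theorem u2_ne_zero_F3 : y₂ ≠ 0 := by
  intro h
  have h1 := tauMid_u2 hq A hζ M' hqM hy₂
  rw [h, map_zero] at h1
  have h2 : rot (zetaUnit hq hζ) (u1inv Qb q) ≠ 0 := by
    intro h0
    have h3 := UnitCert.rot_u1_mul_rot_u1inv (L := Qb) q (zetaUnit hq hζ)
    rw [h0, mul_zero] at h3
    exact zero_ne_one h3
  exact mul_ne_zero (C_natCast_pow_ne_zero hq) h2 h1.symm

/-- `ι_mid (q^12 / u₂) = u₁(ζ q)`. -/
theorem tauMid_v1 :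
    tauMid hq A hζ M' hqM ((q : FK (inertiaField A) (M' * q * q)) ^ 12 / y₂)
      = rot (zetaUnit hq hζ) (u1 Qb q) := by
  rw [map_div₀, map_pow, tauMid_natCast, tauMid_u2 hq A hζ M' hqM hy₂, ← map_pow,
    div_mul_eq_div_div, div_self (C_natCast_pow_ne_zero hq), one_div]
  exact (eq_inv_of_mul_eq_one_left
    (UnitCert.rot_u1_mul_rot_u1inv (L := Qb) q (zetaUnit hq hζ))).symm

/-- `ι_mid (u₂ / q^12) = u₁⁻¹(ζ q)`. -/
theorem tauMid_inv_v1 :
    tauMid hq A hζ M' hqM (((q : FK (inertiaField A) (M' * q * q)) ^ 12 / y₂)⁻¹)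
      = rot (zetaUnit hq hζ) (u1inv Qb q) := by
  rw [map_inv₀, tauMid_v1 hq A hζ M' hqM hy₂]
  exact (eq_inv_of_mul_eq_one_right
    (UnitCert.rot_u1_mul_rot_u1inv (L := Qb) q (zetaUnit hq hζ))).symm

include hA hπ

theorem v1_mem_OMid :
    (q : FK (inertiaField A) (M' * q * q)) ^ 12 / y₂ ∈ OMid hq A hA hζ M' hqM π := by
  haveI : Fact q.Prime := ⟨hq⟩
  haveI : CharP k q := charP_of_liesOver hq A hA π hπ
  exact mem_OMid_of_tauMid_eq hq A hA hζ M' hqM π _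
    (UnitCert.rot_u1_mem A π q (zetaUnit hq hζ) hζ.pow_eq_one) (tauMid_v1 hq A hζ M' hqM hy₂)

theorem redMid_v1
    (h : (q : FK (inertiaField A) (M' * q * q)) ^ 12 / y₂ ∈ OMid hq A hA hζ M' hqM π) :
    redMid hq A hA hζ M' hqM π ⟨_, h⟩ = u1 k q := by
  haveI : Fact q.Prime := ⟨hq⟩
  haveI : CharP k q := charP_of_liesOver hq A hA π hπ
  rw [redMid_of_tauMid_eq hq A hA hζ M' hqM π _ h
    (UnitCert.rot_u1_mem A π q (zetaUnit hq hζ) hζ.pow_eq_one) (tauMid_v1 hq A hζ M' hqM hy₂),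
    UnitCert.red_rot_u1 A π q (zetaUnit hq hζ) hζ.pow_eq_one]

theorem inv_v1_mem_OMid :
    ((q : FK (inertiaField A) (M' * q * q)) ^ 12 / y₂)⁻¹ ∈ OMid hq A hA hζ M' hqM π := by
  haveI : Fact q.Prime := ⟨hq⟩
  haveI : CharP k q := charP_of_liesOver hq A hA π hπ
  exact mem_OMid_of_tauMid_eq hq A hA hζ M' hqM π _
    (UnitCert.rot_u1inv_mem A π q (zetaUnit hq hζ) hζ.pow_eq_one)
    (tauMid_inv_v1 hq A hζ M' hqM hy₂)

include hy₁

/-- `ι_mid (u₂ / u₁) = q^12 · u₁⁻¹(ζ q) · u₁⁻¹(q)`. -/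
theorem tauMid_u :
    tauMid hq A hζ M' hqM (y₂ / y₁)
      = HahnSeries.C ((q : Qb) ^ 12) * (rot (zetaUnit hq hζ) (u1inv Qb q) * u1inv Qb q) := by
  rw [map_div₀, tauMid_u2 hq A hζ M' hqM hy₂, tauMid_u1 hq A hζ M' hqM hy₁, div_eq_mul_inv,
    ← UnitCert.u1inv_eq_inv, mul_assoc]

theorem u_mem_OMid : y₂ / y₁ ∈ OMid hq A hA hζ M' hqM π := by
  haveI : Fact q.Prime := ⟨hq⟩
  haveI : CharP k q := charP_of_liesOver hq A hA π hπ
  refine mem_OMid_of_tauMid_eq hq A hA hζ M' hqM π _ ?_ (tauMid_u hq A hA hζ M' hqM π hπ hy₁ hy₂)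
  exact (gaussRing A π).mul_mem
    (C_mem_gaussRing A π (pow_mem (natCast_mem A q) 12))
    ((gaussRing A π).mul_mem (UnitCert.rot_u1inv_mem A π q (zetaUnit hq hζ) hζ.pow_eq_one)
      (UnitCert.u1inv_mem A π q))

/-- `red_mid (u₂ / u₁) = 0`. -/
theorem redMid_u (h : y₂ / y₁ ∈ OMid hq A hA hζ M' hqM π) :
    redMid hq A hA hζ M' hqM π ⟨y₂ / y₁, h⟩ = 0 := by
  haveI : Fact q.Prime := ⟨hq⟩
  haveI : CharP k q := charP_of_liesOver hq A hA π hπ
  have hqA : ((q : Qb) ^ 12) ∈ A := pow_mem (natCast_mem A q) 12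
  have hC : HahnSeries.C ((q : Qb) ^ 12) ∈ gaussRing A π := C_mem_gaussRing A π hqA
  have h2 : rot (zetaUnit hq hζ) (u1inv Qb q) * u1inv Qb q ∈ gaussRing A π :=
    (gaussRing A π).mul_mem (UnitCert.rot_u1inv_mem A π q (zetaUnit hq hζ) hζ.pow_eq_one)
      (UnitCert.u1inv_mem A π q)
  have hmem : HahnSeries.C ((q : Qb) ^ 12) * (rot (zetaUnit hq hζ) (u1inv Qb q) * u1inv Qb q)
      ∈ gaussRing A π := (gaussRing A π).mul_mem hC h2
  rw [redMid_of_tauMid_eq hq A hA hζ M' hqM π _ h hmem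
    (tauMid_u hq A hA hζ M' hqM π hπ hy₁ hy₂)]
  have e : (⟨HahnSeries.C ((q : Qb) ^ 12) * (rot (zetaUnit hq hζ) (u1inv Qb q) * u1inv Qb q),
      hmem⟩ : gaussRing A π) = ⟨_, hC⟩ * ⟨_, h2⟩ := rfl
  rw [e, map_mul, red_C A π hqA hC]
  have hπq : π ⟨(q : Qb) ^ 12, hqA⟩ = 0 := by
    have h3 : (⟨(q : Qb) ^ 12, hqA⟩ : A) = ((q : ℕ) : A) ^ 12 := by
      apply Subtype.ext
      push_cast
      rfl
    rw [h3, map_pow, map_natCast, natCast_eq_zero_of_liesOver A π hπ hA, zero_pow (by norm_num)]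
  rw [hπq, map_zero, zero_mul]

/-- **The middle certificate (U-4).** Every `x` with `x · u₂ = d^(12 (q-1)) · u₁` lies in
`O_mid` and `red_mid x = (J̄^8 (J̄ - 1728)^6)^(q-1)`. -/
theorem cert_mid (x : FK (inertiaField A) (M' * q * q))
    (hx : x * y₂ = dMid A M' q ^ (12 * (q - 1)) * y₁) :
    ∃ hm : x ∈ OMid hq A hA hζ M' hqM π,
      redMid hq A hA hζ M' hqM π ⟨x, hm⟩ = (jqModC k ^ 8 * (jqModC k - 1728) ^ 6) ^ (q - 1) := by
  haveI : Fact q.Prime := ⟨hq⟩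
  haveI : CharP k q := charP_of_liesOver hq A hA π hπ
  obtain ⟨hm, hr⟩ := UnitCert.certificate_mid_of_map A π hπ q (zetaUnit hq hζ) hζ
    (tauMid hq A hζ M' hqM) (dMid A M' q) y₁ y₂ x (tauMid_dMid hq A hζ M' hqM)
    (tauMid_u1 hq A hζ M' hqM hy₁) (tauMid_u2 hq A hζ M' hqM hy₂) hx
  exact ⟨hm, hr⟩

/-- The element `h = d^(12 (q-1)) · u₁ / u₂`. -/
theorem cert_mid' :
    ∃ hm : dMid A M' q ^ (12 * (q - 1)) * y₁ / y₂ ∈ OMid hq A hA hζ M' hqM π,
      redMid hq A hA hζ M' hqM π ⟨_, hm⟩ = (jqModC k ^ 8 * (jqModC k - 1728) ^ 6) ^ (q - 1) :=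
  cert_mid hq A hA hζ M' hqM π hπ hy₁ hy₂ _
    (div_mul_cancel₀ _ (u2_ne_zero_F3 hq A hζ M' hqM hy₂))

omit hA hπ in
include hq hζ hqM in
/-- `h · u = d^(12 (q-1))`. -/
theorem hMid_mul_u :
    (dMid A M' q ^ (12 * (q - 1)) * y₁ / y₂) * (y₂ / y₁) = dMid A M' q ^ (12 * (q - 1)) := by
  have h1 := u1_ne_zero_F3 hq A hζ M' hqM hy₁
  have h2 := u2_ne_zero_F3 hq A hζ M' hqM hy₂
  field_simp

omit hA hπ in
include hq hζ hqM in
/-- `u · u₁ · v₁ = q^12`. -/
theorem u_mul_u1_mul_v1 :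
    (y₂ / y₁) * y₁ * ((q : FK (inertiaField A) (M' * q * q)) ^ 12 / y₂)
      = (q : FK (inertiaField A) (M' * q * q)) ^ 12 := by
  have h1 := u1_ne_zero_F3 hq A hζ M' hqM hy₁
  have h2 := u2_ne_zero_F3 hq A hζ M' hqM hy₂
  field_simp

end U2

/-! ### The cusp element `e = 1 - J₀/J₂` -/

section Cusp

/-- `e = 1 - J₀/J₂ = d / J₂`. -/
def cuspE (A : ValuationSubring Qb) (M' q : ℕ) [NeZero M'] [NeZero q] :
    ↥(FK (inertiaField A) (M' * q * q)) :=
  dMid A M' q / JK (inertiaField A) (M' * q * q) (dvSq M' q)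

theorem rot_jq_ne_zero : rot (zetaUnit hq hζ) (jqModC Qb) ≠ 0 := by
  intro h0
  exact CuspUnit.jq_ne_zero Qb (rot_injective (zetaUnit hq hζ) (by rw [h0, map_zero]))

theorem tauMid_JK_sq :
    tauMid hq A hζ M' hqM (JK (inertiaField A) (M' * q * q) (dvSq M' q))
      = rot (zetaUnit hq hζ) (jqModC Qb) := by
  rw [tauMid_JK]
  exact serMid_sq hq _

include hq hζ hqM in
theorem JK_sq_ne_zero : JK (inertiaField A) (M' * q * q) (dvSq M' q) ≠ 0 := by
  intro h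
  have h1 := tauMid_JK_sq hq A hζ M' hqM
  rw [h, map_zero] at h1
  exact rot_jq_ne_zero hq hζ h1.symm

theorem tauMid_cuspE :
    tauMid hq A hζ M' hqM (cuspE A M' q) * rot (zetaUnit hq hζ) (jqModC Qb)
      = rot (zetaUnit hq hζ) (jqModC Qb) - jqModC Qb := by
  unfold cuspE
  rw [map_div₀, tauMid_dMid, tauMid_JK_sq, div_mul_cancel₀ _ (rot_jq_ne_zero hq hζ)]

include hq hζ hqM in
theorem cuspE_eq :
    cuspE A M' q = 1 - JK (inertiaField A) (M' * q * q) (dvOne M' q)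
      / JK (inertiaField A) (M' * q * q) (dvSq M' q) := by
  unfold cuspE dMid
  rw [sub_div, div_self (JK_sq_ne_zero hq A hζ M' hqM)]

include hA hπ

/-- `J₂` is a unit of `O_mid`. -/
theorem inv_JK_sq_mem_OMid :
    (JK (inertiaField A) (M' * q * q) (dvSq M' q))⁻¹ ∈ OMid hq A hA hζ M' hqM π := by
  haveI : Fact q.Prime := ⟨hq⟩
  haveI : CharP k q := charP_of_liesOver hq A hA π hπ
  have hrj := MidSeries.rot_mem_gaussRing' A π q (zetaUnit hq hζ) hζ.pow_eq_one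
    (UnitCert.jq_mem A π)
  have hrjr : red A π ⟨rot (zetaUnit hq hζ) (jqModC Qb), hrj⟩ = jqModC k := by
    rw [MidSeries.red_rot' A π q (zetaUnit hq hζ) hζ.pow_eq_one (UnitCert.jq_mem A π) hrj,
      UnitCert.red_jq]
  refine mem_OMid_of_tauMid_eq hq A hA hζ M' hqM π _
    (inv_mem_gaussRing A π hrj (by rw [hrjr]; exact CuspUnit.jq_ne_zero k)) ?_
  rw [map_inv₀, tauMid_JK_sq]

/-- `e = d / J₂` is a uniformiser of `O_mid`. -/
theorem isUnif_cuspE :
    Fermat.Agent.CAR.Formal.IsUnif (OMid hq A hA hζ M' hqM π) (cuspE A M' q) := by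
  have hd := isUnif_dMid hq A hA hζ M' hqM π hπ
  have hJ := JK_mem_OMid hq A hA hζ M' hqM π hπ (dvSq M' q)
  have hJi := inv_JK_sq_mem_OMid hq A hA hζ M' hqM π hπ
  have hJ0 := JK_sq_ne_zero hq A hζ M' hqM
  refine ⟨?_, ?_, ?_⟩
  · unfold cuspE
    rw [div_eq_mul_inv]
    exact (OMid hq A hA hζ M' hqM π).mul_mem _ _ hd.mem hJi
  · intro h
    apply hd.inv_notMem
    have e : (dMid A M' q)⁻¹
        = (cuspE A M' q)⁻¹ * (JK (inertiaField A) (M' * q * q) (dvSq M' q))⁻¹ := by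
      have hd0 := hd.ne_zero
      unfold cuspE
      field_simp
    rw [e]
    exact (OMid hq A hA hζ M' hqM π).mul_mem _ _ h hJi
  · intro x hx
    obtain ⟨n, u, hu, hu', hxu⟩ := hd.exists_zpow x hx
    refine ⟨n, u * (JK (inertiaField A) (M' * q * q) (dvSq M' q)) ^ n, ?_, ?_, ?_⟩
    · refine (OMid hq A hA hζ M' hqM π).mul_mem _ _ hu ?_
      rcases le_or_gt 0 n with hn | hn
      · obtain ⟨m, rfl⟩ := Int.eq_ofNat_of_zero_le hn
        rw [zpow_natCast]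
        exact pow_mem hJ m
      · obtain ⟨m, rfl⟩ : ∃ m : ℕ, n = -(m : ℤ) := ⟨(-n).toNat, by omega⟩
        rw [zpow_neg, zpow_natCast, ← inv_pow]
        exact pow_mem hJi m
    · rw [mul_inv]
      refine (OMid hq A hA hζ M' hqM π).mul_mem _ _ hu' ?_
      rcases le_or_gt 0 n with hn | hn
      · obtain ⟨m, rfl⟩ := Int.eq_ofNat_of_zero_le hn
        rw [zpow_natCast, ← inv_pow]
        exact pow_mem hJi m
      · obtain ⟨m, rfl⟩ : ∃ m : ℕ, n = -(m : ℤ) := ⟨(-n).toNat, by omega⟩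
        rw [zpow_neg, zpow_natCast, inv_inv]
        exact pow_mem hJ m
    · rw [hxu]
      unfold cuspE
      rw [div_zpow, mul_comm u, ← mul_assoc, div_mul_cancel₀ _ (zpow_ne_zero n hJ0)]

/-- **(Cu-4), instance.** `e^(q-1) / q ∈ O_mid` and
`red_mid (e^(q-1)/q) · J̄^(q-1) = -(θ J̄)^(q-1)`. -/
theorem cusp_cert :
    ∃ hz : cuspE A M' q ^ (q - 1) / (q : FK (inertiaField A) (M' * q * q))
        ∈ OMid hq A hA hζ M' hqM π,
      redMid hq A hA hζ M' hqM π ⟨_, hz⟩ * jqModC k ^ (q - 1)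
        = -(thetaL k (jqModC k)) ^ (q - 1) := by
  haveI : Fact q.Prime := ⟨hq⟩
  haveI : CharP k q := charP_of_liesOver hq A hA π hπ
  obtain ⟨hm, hr⟩ := CuspUnit.cusp_pow_div_of_map A π hπ q (zetaUnit hq hζ) hζ
    (tauMid hq A hζ M' hqM) (cuspE A M' q)
    (cuspE A M' q ^ (q - 1) / (q : FK (inertiaField A) (M' * q * q)))
    (tauMid_cuspE hq A hζ M' hqM) (div_mul_cancel₀ _ (natCast_ne_zero_F3 hq A hζ M' hqM))
  exact ⟨hm, hr⟩

end Cusp

end Fermat.Agent.CAR.V3.MidUnits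

end
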