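/-
CAR / V3 (G7, zero column): the modular units on the component `C_0`.

`F = L·F_{M'q²}`, `w = w_{q²}` (`IsAL3 M' q w`), `O_0 = w⁻¹(O_∞)`, `red_0 = red_∞ ∘ w`.
The three vertical functions of the contract are

* `u₁ = Δ(z)/Δ(qz)`, with `q`-expansion `u1 L q`;
* `v₁ = q¹²Δ(q²z)/Δ(qz)`, with `q`-expansion `q¹² · u2inv L q`;
* `u = Δ(qz)²/(Δ(z)Δ(q²z))`, with `q`-expansion `u2 L q * u1inv L q`.

Everything below is stated for ARBITRARY elements `u u₁ v₁` of `F` with these three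
`q`-expansions (so it does not depend on how they are constructed).

* `w_u1`, `w_v1`, `w_u` : `w u₁ = v₁`, `w v₁ = u₁`, `w u = u`;
* the column at `∞` : `u₁ ∈ O_∞` reduces to `u1 k q = Δ̄^(1-q)`, `v₁` reduces to `0`, `u` reduces
  to `(red_∞ u₁)^(q-1)`;
* the column at `0` : `u₁` reduces to `0`, `v₁` reduces to `red_∞ u₁ ≠ 0` (`= u1 k q`), `u`
  reduces to `(red_0 v₁)^(q-1)`;
* `redOn_zero_column` : the three fields `u_zero`, `u₁_zero`, `v₁_zero` of
  `CAR.Local.Inst.Contract` for `O 2 = OZero3 h w`, `red 2 = redZero3 h w`, `e = q - 1`.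
-/
import Mathlib
import Fermat.Agent.CAR.V3.Zero
import Fermat.Agent.CAR.V3.UnitRel
import Fermat.Agent.CAR.V3.UnitCert
import Fermat.Agent.CAR.Local.InstCuspOf

set_option autoImplicit false

noncomputable section

namespace Fermat.Agent.CAR.V3.UnitsZero

open HahnSeries ModularCurve AlgebraicCurve Fermat.Agent.Lib.Red Fermat.Agent.S28
open Fermat.Agent.ESJ.Cong.LevelGen Fermat.Agent.BAD.TwoVal Fermat.Agent.S28.ModEq
open Fermat.Agent.CAR.Local Fermat.Agent.CAR.Local.InstCusp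

/-! ### Series level: the Gauss ring -/

section Series

variable {L : Type*} [Field L] (A : ValuationSubring L) {k : Type*} [Field k] (π : A →+* k)
  (p : ℕ) [NeZero p]

omit [NeZero p] in
theorem natCast_pow_mem : ((p : L)) ^ 12 ∈ A := A.pow_mem (natCast_mem A p) 12

omit [NeZero p] in
/-- `p¹² · g` lies in the Gauss ring and reduces to `0` (when `p = 0` in `k`). -/
theorem C_mul_mem {g : LaurentSeries L} (hg : g ∈ gaussRing A π) :
    HahnSeries.C ((p : L) ^ 12) * g ∈ gaussRing A π :=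
  (gaussRing A π).mul_mem (C_mem_gaussRing A π (natCast_pow_mem A p)) hg

omit [NeZero p] in
theorem red_C_mul (hpk : (p : k) = 0) {g : LaurentSeries L} (hg : g ∈ gaussRing A π)
    (h : HahnSeries.C ((p : L) ^ 12) * g ∈ gaussRing A π) :
    red A π ⟨HahnSeries.C ((p : L) ^ 12) * g, h⟩ = 0 := by
  have hC : HahnSeries.C ((p : L) ^ 12) ∈ gaussRing A π :=
    C_mem_gaussRing A π (natCast_pow_mem A p)
  have e : (⟨HahnSeries.C ((p : L) ^ 12) * g, h⟩ : gaussRing A π) =
      ⟨HahnSeries.C ((p : L) ^ 12), hC⟩ * ⟨g, hg⟩ := rfl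
  have e2 : (⟨(p : L) ^ 12, natCast_pow_mem A p⟩ : A) = (p : A) ^ 12 := by
    apply Subtype.ext
    simp
  rw [e, map_mul, red_C A π (natCast_pow_mem A p) hC, e2, map_pow, map_natCast, hpk,
    zero_pow (by norm_num), map_zero, zero_mul]

/-- The `q`-expansion of `v₁` lies in the Gauss ring. -/
theorem v1_series_mem :
    HahnSeries.C ((p : L) ^ 12) * Units.u2inv L p ∈ gaussRing A π :=
  C_mul_mem A π p (UnitCert.u2inv_mem A π p)

/-- The `q`-expansion of `u` lies in the Gauss ring. -/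
theorem u_series_mem : Units.u2 L p * Units.u1inv L p ∈ gaussRing A π :=
  (gaussRing A π).mul_mem (UnitCert.u2_mem A π p) (UnitCert.u1inv_mem A π p)

theorem red_u_series (h : Units.u2 L p * Units.u1inv L p ∈ gaussRing A π) :
    red A π ⟨Units.u2 L p * Units.u1inv L p, h⟩ = Units.u2 k p * Units.u1inv k p := by
  have e : (⟨Units.u2 L p * Units.u1inv L p, h⟩ : gaussRing A π) =
      UnitCert.u2G A π p * UnitCert.u1invG A π p := rfl
  rw [e, map_mul, UnitCert.red_u2G, UnitCert.red_u1invG]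

/-- In characteristic `p`: `u₂/u₁ = u₁^(p-1)`. -/
theorem u2_mul_u1inv_charP (k : Type*) [CommRing k] (p : ℕ) [Fact p.Prime] [NeZero p]
    [CharP k p] : Units.u2 k p * Units.u1inv k p = Units.u1 k p ^ (p - 1) := by
  have hp : Units.u1 k p ^ p = Units.u1 k p ^ (p - 1) * Units.u1 k p := by
    rw [← pow_succ, Nat.sub_add_cancel (Fact.out : p.Prime).pos]
  rw [UnitCert.u2_charP, hp, mul_assoc, Units.u1_mul_u1inv, mul_one]

theorem u1_series_ne_zero (k : Type*) [CommRing k] [Nontrivial k] (p : ℕ) [NeZero p] :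
    Units.u1 k p ≠ 0 := UnitCert.u1_ne_zero p k

end Series

/-! ### The Atkin–Lehner involution on the units -/

section AL

variable {L : Type*} [Field L] [Algebra ℚ L] {M' q : ℕ} [NeZero M'] [NeZero q]
  {w : laurentBaseChange L (modularFunctionFieldFull (M' * q * q)) ≃ₐ[L]
    laurentBaseChange L (modularFunctionFieldFull (M' * q * q))}

omit [NeZero M'] [NeZero q] in
theorem C_natCast_pow_ne_zero (hq : q.Prime) :
    (HahnSeries.C ((q : L) ^ 12) : LaurentSeries L) ≠ 0 := by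
  have hchar : CharZero L := algebraRat.charZero L
  intro h
  have h3 : (HahnSeries.C ((q : L) ^ 12) : LaurentSeries L) = HahnSeries.C 0 := by
    rw [h, map_zero]
  exact pow_ne_zero 12 (Nat.cast_ne_zero.mpr hq.ne_zero) (HahnSeries.C_injective h3)

/-- **`w(u₁) = q¹²/u₂`**, as `q`-expansions. -/
theorem coe_w_u1 (hq : q.Prime) (hw : IsAL3 M' q w)
    {u₁ : laurentBaseChange L (modularFunctionFieldFull (M' * q * q))}
    (hu₁ : (u₁ : LaurentSeries L) = Units.u1 L q) :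
    ((w u₁ : laurentBaseChange L (modularFunctionFieldFull (M' * q * q))) : LaurentSeries L) =
      HahnSeries.C ((q : L) ^ 12) * Units.u2inv L q := by
  have hchar : CharZero L := algebraRat.charZero L
  obtain ⟨ι, hι⟩ : ∃ ι : laurentBaseChange L (modularFunctionFieldFull (M' * q * q)) →+*
      LaurentSeries L, ∀ y, ι y = (y : LaurentSeries L) :=
    ⟨((laurentBaseChange L (modularFunctionFieldFull (M' * q * q))).val :
      laurentBaseChange L (modularFunctionFieldFull (M' * q * q)) →+* LaurentSeries L),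
      fun _ => rfl⟩
  have hιinj : Function.Injective ι := by
    intro a b hab
    rw [hι, hι] at hab
    exact Subtype.ext hab
  obtain ⟨σ, hσ⟩ : ∃ σ : laurentBaseChange L (modularFunctionFieldFull (M' * q * q)) →+*
      LaurentSeries L, ∀ y, σ y = ι (w y) :=
    ⟨ι.comp w.toRingEquiv.toRingHom, fun _ => rfl⟩
  have h := Units.map_u1_eq_AL ι hιinj σ hq
    (j0 := piStar0 L M' q (jLevel L M')) (j1 := piStar1 L M' q (jLevel L M')) (y := u₁)
    (by rw [hι, coe_piStar0_jLevel, TD.Jd_one])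
    (by rw [hι, coe_piStar1_jLevel, TD.Jd_eq_jqNModC])
    (by rw [hι, hu₁])
    (by rw [hσ, hι, hw.pi0, coe_piStar2_jLevel, TD.Jd_eq_jqNModC])
    (by rw [hσ, hι, hw.pi1, coe_piStar1_jLevel, TD.Jd_eq_jqNModC])
  rw [hσ, hι] at h
  exact h

/-- **`w(u₂) = q¹²/u₁`**, as `q`-expansions. -/
theorem coe_w_u2 (hq : q.Prime) (hw : IsAL3 M' q w)
    {u₂ : laurentBaseChange L (modularFunctionFieldFull (M' * q * q))}
    (hu₂ : (u₂ : LaurentSeries L) = Units.u2 L q) :
    ((w u₂ : laurentBaseChange L (modularFunctionFieldFull (M' * q * q))) : LaurentSeries L) =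
      HahnSeries.C ((q : L) ^ 12) * Units.u1inv L q := by
  have hchar : CharZero L := algebraRat.charZero L
  obtain ⟨ι, hι⟩ : ∃ ι : laurentBaseChange L (modularFunctionFieldFull (M' * q * q)) →+*
      LaurentSeries L, ∀ y, ι y = (y : LaurentSeries L) :=
    ⟨((laurentBaseChange L (modularFunctionFieldFull (M' * q * q))).val :
      laurentBaseChange L (modularFunctionFieldFull (M' * q * q)) →+* LaurentSeries L),
      fun _ => rfl⟩
  have hιinj : Function.Injective ι := by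
    intro a b hab
    rw [hι, hι] at hab
    exact Subtype.ext hab
  obtain ⟨σ, hσ⟩ : ∃ σ : laurentBaseChange L (modularFunctionFieldFull (M' * q * q)) →+*
      LaurentSeries L, ∀ y, σ y = ι (w y) :=
    ⟨ι.comp w.toRingEquiv.toRingHom, fun _ => rfl⟩
  have h := Units.map_u2_eq_AL ι hιinj σ hq
    (j1 := piStar1 L M' q (jLevel L M')) (j2 := piStar2 L M' q (jLevel L M')) (y := u₂)
    (by rw [hι, coe_piStar1_jLevel, TD.Jd_eq_jqNModC])
    (by rw [hι, coe_piStar2_jLevel, TD.Jd_eq_jqNModC])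
    (by rw [hι, hu₂])
    (by rw [hσ, hι, hw.pi1, coe_piStar1_jLevel, TD.Jd_eq_jqNModC])
    (by rw [hσ, hι, hw.pi2, coe_piStar0_jLevel, TD.Jd_one])
  rw [hσ, hι] at h
  exact h

/-- **`w u₁ = v₁`.** -/
theorem w_u1 (hq : q.Prime) (hw : IsAL3 M' q w)
    {u₁ v₁ : laurentBaseChange L (modularFunctionFieldFull (M' * q * q))}
    (hu₁ : (u₁ : LaurentSeries L) = Units.u1 L q)
    (hv₁ : (v₁ : LaurentSeries L) = HahnSeries.C ((q : L) ^ 12) * Units.u2inv L q) :
    w u₁ = v₁ :=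
  Subtype.ext ((coe_w_u1 hq hw hu₁).trans hv₁.symm)

/-- **`w v₁ = u₁`.** -/
theorem w_v1 (hq : q.Prime) (hqM : ¬ q ∣ M') (hw : IsAL3 M' q w)
    {u₁ v₁ : laurentBaseChange L (modularFunctionFieldFull (M' * q * q))}
    (hu₁ : (u₁ : LaurentSeries L) = Units.u1 L q)
    (hv₁ : (v₁ : LaurentSeries L) = HahnSeries.C ((q : L) ^ 12) * Units.u2inv L q) :
    w v₁ = u₁ := by
  rw [← w_u1 hq hw hu₁ hv₁, hw.invol hq hqM]

omit [Algebra ℚ L] [NeZero M'] [NeZero q] in
theorem algebraMap_eq_C (c : L) :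
    algebraMap L (LaurentSeries L) c = HahnSeries.C c := by
  rw [algebraMap_laurentSeries_eq_single]
  rfl

omit [NeZero M'] [NeZero q] in
theorem C_mem_F3 (c : L) :
    (HahnSeries.C c : LaurentSeries L) ∈
      laurentBaseChange L (modularFunctionFieldFull (M' * q * q)) := by
  have h := (laurentBaseChange L (modularFunctionFieldFull (M' * q * q))).algebraMap_mem c
  rwa [algebraMap_eq_C] at h

theorem jq_mem_F3 :
    jqModC L ∈ laurentBaseChange L (modularFunctionFieldFull (M' * q * q)) := by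
  have h := (jLevel L (M' * q * q)).2
  rw [coe_jLevel, TD.Jd_one] at h
  exact h

theorem jqN_mem_F3 :
    jqNModC L q ∈ laurentBaseChange L (modularFunctionFieldFull (M' * q * q)) := by
  have h := (piStar1 L M' q (jLevel L M')).2
  rw [coe_piStar1_jLevel, TD.Jd_eq_jqNModC] at h
  exact h

theorem jqNN_mem_F3 :
    jqNModC L (q * q) ∈ laurentBaseChange L (modularFunctionFieldFull (M' * q * q)) := by
  have h := (piStar2 L M' q (jLevel L M')).2
  rw [coe_piStar2_jLevel, TD.Jd_eq_jqNModC] at h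
  exact h

/-- `u₁ = Δ(q)/Δ(q^q)` is a function of level `M'q²`. -/
theorem u1_mem_F3 (hq : q.Prime) :
    Units.u1 L q ∈ laurentBaseChange L (modularFunctionFieldFull (M' * q * q)) := by
  have hchar : CharZero L := algebraRat.charZero L
  exact Units.u1_mem hq (laurentBaseChange L (modularFunctionFieldFull (M' * q * q))).toSubfield
    jq_mem_F3 jqN_mem_F3

theorem u1inv_mem_F3 (hq : q.Prime) :
    Units.u1inv L q ∈ laurentBaseChange L (modularFunctionFieldFull (M' * q * q)) := by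
  have hchar : CharZero L := algebraRat.charZero L
  exact Units.u1inv_mem hq
    (laurentBaseChange L (modularFunctionFieldFull (M' * q * q))).toSubfield
    jq_mem_F3 jqN_mem_F3

/-- `u₂ = Δ(q^q)/Δ(q^{q²})` is a function of level `M'q²`. -/
theorem u2_mem_F3 (hq : q.Prime) :
    Units.u2 L q ∈ laurentBaseChange L (modularFunctionFieldFull (M' * q * q)) := by
  have hchar : CharZero L := algebraRat.charZero L
  exact Units.u2_mem hq (laurentBaseChange L (modularFunctionFieldFull (M' * q * q))).toSubfield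
    jqN_mem_F3 jqNN_mem_F3

theorem u2inv_mem_F3 (hq : q.Prime) :
    Units.u2inv L q ∈ laurentBaseChange L (modularFunctionFieldFull (M' * q * q)) := by
  have hchar : CharZero L := algebraRat.charZero L
  exact Units.u2inv_mem hq
    (laurentBaseChange L (modularFunctionFieldFull (M' * q * q))).toSubfield
    jqN_mem_F3 jqNN_mem_F3

/-- **The three vertical functions exist in `F = L·F_{M'q²}`**, with the `q`-expansions
`u₂/u₁`, `u₁`, `q¹²/u₂`; their product is `q¹²`. -/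
theorem exists_units (hq : q.Prime) :
    ∃ u u₁ v₁ : laurentBaseChange L (modularFunctionFieldFull (M' * q * q)),
      (u : LaurentSeries L) = Units.u2 L q * Units.u1inv L q ∧
      (u₁ : LaurentSeries L) = Units.u1 L q ∧
      (v₁ : LaurentSeries L) = HahnSeries.C ((q : L) ^ 12) * Units.u2inv L q ∧
      u * u₁ * v₁ = algebraMap L _ ((q : L) ^ 12) := by
  have hC : (HahnSeries.C ((q : L) ^ 12) : LaurentSeries L) ∈
      laurentBaseChange L (modularFunctionFieldFull (M' * q * q)) :=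
      C_mem_F3 ((q : L) ^ 12)
  refine ⟨⟨_, (laurentBaseChange L (modularFunctionFieldFull (M' * q * q))).mul_mem
      (u2_mem_F3 hq) (u1inv_mem_F3 hq)⟩, ⟨_, u1_mem_F3 hq⟩,
    ⟨_, (laurentBaseChange L (modularFunctionFieldFull (M' * q * q))).mul_mem hC
      (u2inv_mem_F3 hq)⟩, rfl, rfl, rfl, ?_⟩
  apply Subtype.ext
  rw [IntermediateField.coe_algebraMap_apply, algebraMap_eq_C]
  show Units.u2 L q * Units.u1inv L q * Units.u1 L q *
      (HahnSeries.C ((q : L) ^ 12) * Units.u2inv L q) = HahnSeries.C ((q : L) ^ 12)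
  calc Units.u2 L q * Units.u1inv L q * Units.u1 L q *
      (HahnSeries.C ((q : L) ^ 12) * Units.u2inv L q)
      = HahnSeries.C ((q : L) ^ 12) * (Units.u1inv L q * Units.u1 L q) *
          (Units.u2 L q * Units.u2inv L q) := by ring
    _ = HahnSeries.C ((q : L) ^ 12) := by
        rw [Units.u1inv_mul_u1, Units.u2_mul_u2inv, mul_one, mul_one]

/-- **`w u = u`**, as `q`-expansions. -/
theorem coe_w_u (hq : q.Prime) (hw : IsAL3 M' q w)
    {u : laurentBaseChange L (modularFunctionFieldFull (M' * q * q))}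
    (hu : (u : LaurentSeries L) = Units.u2 L q * Units.u1inv L q) :
    ((w u : laurentBaseChange L (modularFunctionFieldFull (M' * q * q))) : LaurentSeries L) =
      Units.u2 L q * Units.u1inv L q := by
  -- `y₁ = u₁`, `y₂ = u · u₁ = u₂`
  have h1 := coe_w_u1 hq hw
    (u₁ := (⟨Units.u1 L q, u1_mem_F3 hq⟩ :
      laurentBaseChange L (modularFunctionFieldFull (M' * q * q)))) rfl
  have e2 : ((u * ⟨Units.u1 L q, u1_mem_F3 hq⟩ :
      laurentBaseChange L (modularFunctionFieldFull (M' * q * q))) : LaurentSeries L) =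
      Units.u2 L q := by
    show (u : LaurentSeries L) * Units.u1 L q = Units.u2 L q
    rw [hu, mul_assoc, Units.u1inv_mul_u1, mul_one]
  have h2 := coe_w_u2 hq hw e2
  rw [map_mul] at h2
  have h3 : ((w u : laurentBaseChange L (modularFunctionFieldFull (M' * q * q))) :
      LaurentSeries L) * (HahnSeries.C ((q : L) ^ 12) * Units.u2inv L q) =
      HahnSeries.C ((q : L) ^ 12) * Units.u1inv L q := by
    rw [← h1, ← h2]
    rfl
  have hC := C_natCast_pow_ne_zero (L := L) hq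
  have h4 : ((w u : laurentBaseChange L (modularFunctionFieldFull (M' * q * q))) :
      LaurentSeries L) * HahnSeries.C ((q : L) ^ 12) =
      Units.u2 L q * Units.u1inv L q * HahnSeries.C ((q : L) ^ 12) := by
    calc ((w u : laurentBaseChange L (modularFunctionFieldFull (M' * q * q))) :
          LaurentSeries L) * HahnSeries.C ((q : L) ^ 12)
        = ((w u : laurentBaseChange L (modularFunctionFieldFull (M' * q * q))) :
          LaurentSeries L) * HahnSeries.C ((q : L) ^ 12) *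
            (Units.u2inv L q * Units.u2 L q) := by rw [Units.u2inv_mul_u2, mul_one]
      _ = ((w u : laurentBaseChange L (modularFunctionFieldFull (M' * q * q))) :
          LaurentSeries L) * (HahnSeries.C ((q : L) ^ 12) * Units.u2inv L q) *
            Units.u2 L q := by ring
      _ = Units.u2 L q * Units.u1inv L q * HahnSeries.C ((q : L) ^ 12) := by
          rw [h3]; ring
  exact mul_right_cancel₀ hC h4

/-- **`w u = u`.** -/
theorem w_u (hq : q.Prime) (hw : IsAL3 M' q w)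
    {u : laurentBaseChange L (modularFunctionFieldFull (M' * q * q))}
    (hu : (u : LaurentSeries L) = Units.u2 L q * Units.u1inv L q) : w u = u :=
  Subtype.ext ((coe_w_u hq hw hu).trans hu.symm)

end AL

/-! ### The columns at `∞` and at `0` -/

section Zero

variable {L : Type*} [Field L] [Algebra ℚ L] {A : ValuationSubring L} {k : Type} [Field k]
  {π : A →+* k} {M' q : ℕ} [NeZero M'] [NeZero q]
  {w : laurentBaseChange L (modularFunctionFieldFull (M' * q * q)) ≃ₐ[L]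
    laurentBaseChange L (modularFunctionFieldFull (M' * q * q))}
  {u u₁ v₁ : laurentBaseChange L (modularFunctionFieldFull (M' * q * q))}

/-! #### At `∞` -/

/-- `u₁ ∈ O_∞`. -/
theorem u1_mem_OInf3 (h : BadSetup A π M' q) (hu₁ : (u₁ : LaurentSeries L) = Units.u1 L q) :
    u₁ ∈ OInf3 h := by
  rw [mem_OInf3_iff, hu₁]
  exact UnitCert.u1_mem A π q

/-- `red_∞ u₁ = u1 k q = Δ̄^(1-q)`. -/
theorem coe_redInf3_u1 (h : BadSetup A π M' q) (hu₁ : (u₁ : LaurentSeries L) = Units.u1 L q)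
    (hm : u₁ ∈ OInf3 h) :
    ((redInf3 h ⟨u₁, hm⟩ : modularFunctionFieldFullC k M') : LaurentSeries k) =
      Units.u1 k q := by
  rw [coe_redInf3, ← UnitCert.red_u1 A π q (UnitCert.u1_mem A π q)]
  congr 1
  exact Subtype.ext hu₁

theorem redInf3_u1_ne_zero (h : BadSetup A π M' q) (hu₁ : (u₁ : LaurentSeries L) = Units.u1 L q)
    (hm : u₁ ∈ OInf3 h) : redInf3 h ⟨u₁, hm⟩ ≠ 0 := by
  intro h0
  have h1 := coe_redInf3_u1 h hu₁ hm
  rw [h0] at h1
  exact u1_series_ne_zero k q h1.symm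

/-- `v₁ ∈ O_∞`. -/
theorem v1_mem_OInf3 (h : BadSetup A π M' q)
    (hv₁ : (v₁ : LaurentSeries L) = HahnSeries.C ((q : L) ^ 12) * Units.u2inv L q) :
    v₁ ∈ OInf3 h := by
  rw [mem_OInf3_iff, hv₁]
  exact v1_series_mem A π q

/-- `red_∞ v₁ = 0`. -/
theorem redInf3_v1 (h : BadSetup A π M' q)
    (hv₁ : (v₁ : LaurentSeries L) = HahnSeries.C ((q : L) ^ 12) * Units.u2inv L q)
    (hm : v₁ ∈ OInf3 h) : redInf3 h ⟨v₁, hm⟩ = 0 := by
  have h1 := red_C_mul A π q h.hℓk (UnitCert.u2inv_mem A π q) (v1_series_mem A π q)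
  apply Subtype.ext
  rw [coe_redInf3, ZeroMemClass.coe_zero, ← h1]
  congr 1
  exact Subtype.ext hv₁

/-- `u ∈ O_∞`. -/
theorem u_mem_OInf3 (h : BadSetup A π M' q)
    (hu : (u : LaurentSeries L) = Units.u2 L q * Units.u1inv L q) : u ∈ OInf3 h := by
  rw [mem_OInf3_iff, hu]
  exact u_series_mem A π q

/-- `red_∞ u = (u1 k q)^(q-1)`. -/
theorem coe_redInf3_u (h : BadSetup A π M' q)
    (hu : (u : LaurentSeries L) = Units.u2 L q * Units.u1inv L q) (hm : u ∈ OInf3 h) :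
    ((redInf3 h ⟨u, hm⟩ : modularFunctionFieldFullC k M') : LaurentSeries k) =
      Units.u1 k q ^ (q - 1) := by
  have : Fact q.Prime := ⟨h.hℓ⟩
  have : CharP k q := h.charP
  rw [coe_redInf3, ← u2_mul_u1inv_charP k q, ← red_u_series A π q (u_series_mem A π q)]
  congr 1
  exact Subtype.ext hu

/-- `red_∞ u = (red_∞ u₁)^(q-1)`. -/
theorem redInf3_u (h : BadSetup A π M' q)
    (hu : (u : LaurentSeries L) = Units.u2 L q * Units.u1inv L q)
    (hu₁ : (u₁ : LaurentSeries L) = Units.u1 L q) (hm : u ∈ OInf3 h) (hm₁ : u₁ ∈ OInf3 h) :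
    redInf3 h ⟨u, hm⟩ = redInf3 h ⟨u₁, hm₁⟩ ^ (q - 1) := by
  apply Subtype.ext
  rw [coe_redInf3_u h hu hm, SubmonoidClass.coe_pow, coe_redInf3_u1 h hu₁ hm₁]

/-! #### At `0` -/

/-- `u₁ ∈ O_0`, with reduction `0`. -/
theorem u1_zero (h : BadSetup A π M' q) (hw : IsAL3 M' q w)
    (hu₁ : (u₁ : LaurentSeries L) = Units.u1 L q) :
    ∃ hm : u₁ ∈ OZero3 h w, redZero3 h w ⟨u₁, hm⟩ = 0 := by
  have e := coe_w_u1 h.hℓ hw hu₁
  have hm' : w u₁ ∈ OInf3 h := v1_mem_OInf3 h e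
  refine ⟨(mem_OZero3_iff h u₁).mpr hm', ?_⟩
  rw [redZero3_apply h u₁ _ hm']
  exact redInf3_v1 h e hm'

/-- `v₁ ∈ O_0`, with reduction `red_∞ u₁`. -/
theorem v1_zero (h : BadSetup A π M' q) (hw : IsAL3 M' q w)
    (hu₁ : (u₁ : LaurentSeries L) = Units.u1 L q)
    (hv₁ : (v₁ : LaurentSeries L) = HahnSeries.C ((q : L) ^ 12) * Units.u2inv L q)
    (hm₁ : u₁ ∈ OInf3 h) :
    ∃ hm : v₁ ∈ OZero3 h w, redZero3 h w ⟨v₁, hm⟩ = redInf3 h ⟨u₁, hm₁⟩ := by
  have e := w_v1 h.hℓ h.not_dvd hw hu₁ hv₁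
  have hm' : w v₁ ∈ OInf3 h := by rw [e]; exact hm₁
  refine ⟨(mem_OZero3_iff h v₁).mpr hm', ?_⟩
  rw [redZero3_apply h v₁ _ hm']
  exact redInf3_congr h e hm' hm₁

/-- `red_0 v₁ = u1 k q = Δ̄^(1-q)`. -/
theorem coe_redZero3_v1 (h : BadSetup A π M' q) (hw : IsAL3 M' q w)
    (hv₁ : (v₁ : LaurentSeries L) = HahnSeries.C ((q : L) ^ 12) * Units.u2inv L q)
    (hm : v₁ ∈ OZero3 h w) :
    ((redZero3 h w ⟨v₁, hm⟩ : modularFunctionFieldFullC k M') : LaurentSeries k) =
      Units.u1 k q := by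
  obtain ⟨hm', e⟩ := v1_zero (u₁ := ⟨Units.u1 L q, u1_mem_F3 h.hℓ⟩) h hw rfl hv₁
    (u1_mem_OInf3 h rfl)
  rw [e]
  exact coe_redInf3_u1 h rfl _

theorem redZero3_v1_ne_zero (h : BadSetup A π M' q) (hw : IsAL3 M' q w)
    (hv₁ : (v₁ : LaurentSeries L) = HahnSeries.C ((q : L) ^ 12) * Units.u2inv L q)
    (hm : v₁ ∈ OZero3 h w) : redZero3 h w ⟨v₁, hm⟩ ≠ 0 := by
  intro h0
  have h1 := coe_redZero3_v1 h hw hv₁ hm
  rw [h0] at h1
  exact u1_series_ne_zero k q h1.symm

/-- `u ∈ O_0`, with reduction `red_∞ u`. -/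
theorem u_zero (h : BadSetup A π M' q) (hw : IsAL3 M' q w)
    (hu : (u : LaurentSeries L) = Units.u2 L q * Units.u1inv L q) (hmi : u ∈ OInf3 h) :
    ∃ hm : u ∈ OZero3 h w, redZero3 h w ⟨u, hm⟩ = redInf3 h ⟨u, hmi⟩ := by
  have e := w_u h.hℓ hw hu
  have hm' : w u ∈ OInf3 h := by rw [e]; exact hmi
  refine ⟨(mem_OZero3_iff h u).mpr hm', ?_⟩
  rw [redZero3_apply h u _ hm']
  exact redInf3_congr h e hm' hmi

/-- `red_0 u = (red_0 v₁)^(q-1)`. -/
theorem redZero3_u (h : BadSetup A π M' q) (hw : IsAL3 M' q w)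
    (hu : (u : LaurentSeries L) = Units.u2 L q * Units.u1inv L q)
    (hv₁ : (v₁ : LaurentSeries L) = HahnSeries.C ((q : L) ^ 12) * Units.u2inv L q)
    (hm : u ∈ OZero3 h w) (hmv : v₁ ∈ OZero3 h w) :
    redZero3 h w ⟨u, hm⟩ = redZero3 h w ⟨v₁, hmv⟩ ^ (q - 1) := by
  obtain ⟨hm', e⟩ := u_zero h hw hu (u_mem_OInf3 h hu)
  rw [e]
  apply Subtype.ext
  rw [coe_redInf3_u h hu, SubmonoidClass.coe_pow, coe_redZero3_v1 h hw hv₁ hmv]

/-! #### `RedTo` form -/

/-- The column at `0` in `RedTo` form: `(u, u₁, v₁) ↦ (c^(q-1), 0, c)` with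
`c = red_0 v₁ ≠ 0` (`c = u1 k q = Δ̄^(1-q)` as a series). -/
theorem redTo_zero_column (h : BadSetup A π M' q) (hw : IsAL3 M' q w)
    (hu : (u : LaurentSeries L) = Units.u2 L q * Units.u1inv L q)
    (hu₁ : (u₁ : LaurentSeries L) = Units.u1 L q)
    (hv₁ : (v₁ : LaurentSeries L) = HahnSeries.C ((q : L) ^ 12) * Units.u2inv L q) :
    ∃ c : modularFunctionFieldFullC k M', c ≠ 0 ∧ (c : LaurentSeries k) = Units.u1 k q ∧
      RedTo (OZero3 h w) (redZero3 h w) u (c ^ (q - 1)) ∧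
      RedTo (OZero3 h w) (redZero3 h w) u₁ 0 ∧
      RedTo (OZero3 h w) (redZero3 h w) v₁ c := by
  obtain ⟨hmv, -⟩ := v1_zero h hw hu₁ hv₁ (u1_mem_OInf3 h hu₁)
  obtain ⟨hmu, -⟩ := u_zero h hw hu (u_mem_OInf3 h hu)
  exact ⟨redZero3 h w ⟨v₁, hmv⟩, redZero3_v1_ne_zero h hw hv₁ hmv,
    coe_redZero3_v1 h hw hv₁ hmv, ⟨hmu, redZero3_u h hw hu hv₁ hmu hmv⟩, u1_zero h hw hu₁,
    ⟨hmv, rfl⟩⟩

/-- The column at `∞` in `RedTo` form: `(u, u₁, v₁) ↦ (c^(q-1), c, 0)` with
`c = red_∞ u₁ ≠ 0` (`c = u1 k q = Δ̄^(1-q)` as a series). -/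
theorem redTo_inf_column (h : BadSetup A π M' q)
    (hu : (u : LaurentSeries L) = Units.u2 L q * Units.u1inv L q)
    (hu₁ : (u₁ : LaurentSeries L) = Units.u1 L q)
    (hv₁ : (v₁ : LaurentSeries L) = HahnSeries.C ((q : L) ^ 12) * Units.u2inv L q) :
    ∃ c : modularFunctionFieldFullC k M', c ≠ 0 ∧ (c : LaurentSeries k) = Units.u1 k q ∧
      RedTo (OInf3 h) (redInf3 h) u (c ^ (q - 1)) ∧
      RedTo (OInf3 h) (redInf3 h) u₁ c ∧
      RedTo (OInf3 h) (redInf3 h) v₁ 0 :=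
  ⟨redInf3 h ⟨u₁, u1_mem_OInf3 h hu₁⟩, redInf3_u1_ne_zero h hu₁ _, coe_redInf3_u1 h hu₁ _,
    ⟨u_mem_OInf3 h hu, redInf3_u h hu hu₁ _ _⟩, ⟨u1_mem_OInf3 h hu₁, rfl⟩,
    ⟨v1_mem_OInf3 h hv₁, redInf3_v1 h hv₁ _⟩⟩

/-! #### `redOn` form: the contract fields -/

section Contract

variable {B : Type*} [CommRing B]
  [Algebra B ↥(laurentBaseChange L (modularFunctionFieldFull (M' * q * q)))]

/-- **The zero column of the contract** (`u_zero`, `u₁_zero`, `v₁_zero` of
`CAR.Local.Inst.Contract` with `O 2 = OZero3 h w`, `red 2 = redZero3 h w`, `e = q - 1`), for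
elements `uB u₁B v₁B` of the chart ring `B` whose images in `F` have the `q`-expansions
`u₂/u₁`, `u₁`, `q¹²/u₂`. -/
theorem redOn_zero_column (h : BadSetup A π M' q) (hw : IsAL3 M' q w)
    (hBO : ∀ b : B, algebraMap B ↥(laurentBaseChange L (modularFunctionFieldFull (M' * q * q))) b
      ∈ OZero3 h w) {uB u₁B v₁B : B}
    (hu : ((algebraMap B ↥(laurentBaseChange L (modularFunctionFieldFull (M' * q * q))) uB :
      laurentBaseChange L (modularFunctionFieldFull (M' * q * q))) : LaurentSeries L) =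
      Units.u2 L q * Units.u1inv L q)
    (hu₁ : ((algebraMap B ↥(laurentBaseChange L (modularFunctionFieldFull (M' * q * q))) u₁B :
      laurentBaseChange L (modularFunctionFieldFull (M' * q * q))) : LaurentSeries L) =
      Units.u1 L q)
    (hv₁ : ((algebraMap B ↥(laurentBaseChange L (modularFunctionFieldFull (M' * q * q))) v₁B :
      laurentBaseChange L (modularFunctionFieldFull (M' * q * q))) : LaurentSeries L) =
      HahnSeries.C ((q : L) ^ 12) * Units.u2inv L q) :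
    redOn (OZero3 h w) (redZero3 h w) hBO uB =
        redOn (OZero3 h w) (redZero3 h w) hBO v₁B ^ (q - 1) ∧
      redOn (OZero3 h w) (redZero3 h w) hBO u₁B = 0 ∧
      redOn (OZero3 h w) (redZero3 h w) hBO v₁B ≠ 0 := by
  refine ⟨?_, ?_, ?_⟩
  · rw [redOn_apply, redOn_apply]
    exact redZero3_u h hw hu hv₁ _ _
  · rw [redOn_apply]
    obtain ⟨hm, e⟩ := u1_zero h hw hu₁
    exact e
  · rw [redOn_apply]
    exact redZero3_v1_ne_zero h hw hv₁ _

/-- The value of `red_0 v₁` in the contract: `u1 k q = Δ̄^(1-q)` as a series, i.e. the same `Db`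
as at `∞` and in the middle. -/
theorem coe_redOn_zero_v1 (h : BadSetup A π M' q) (hw : IsAL3 M' q w)
    (hBO : ∀ b : B, algebraMap B ↥(laurentBaseChange L (modularFunctionFieldFull (M' * q * q))) b
      ∈ OZero3 h w) {v₁B : B}
    (hv₁ : ((algebraMap B ↥(laurentBaseChange L (modularFunctionFieldFull (M' * q * q))) v₁B :
      laurentBaseChange L (modularFunctionFieldFull (M' * q * q))) : LaurentSeries L) =
      HahnSeries.C ((q : L) ^ 12) * Units.u2inv L q) :
    ((redOn (OZero3 h w) (redZero3 h w) hBO v₁B : modularFunctionFieldFullC k M') :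
      LaurentSeries k) = Units.u1 k q := by
  rw [redOn_apply]
  exact coe_redZero3_v1 h hw hv₁ _

/-- **The column at `∞` of the contract** (`u_inf`, `u₁_inf`, `v₁_inf`, `Db_ne` with
`O 0 = OInf3 h`, `red 0 = redInf3 h`, `e = q - 1`, `Db := red_∞ u₁`). -/
theorem redOn_inf_column (h : BadSetup A π M' q)
    (hBO : ∀ b : B, algebraMap B ↥(laurentBaseChange L (modularFunctionFieldFull (M' * q * q))) b
      ∈ OInf3 h) {uB u₁B v₁B : B}
    (hu : ((algebraMap B ↥(laurentBaseChange L (modularFunctionFieldFull (M' * q * q))) uB :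
      laurentBaseChange L (modularFunctionFieldFull (M' * q * q))) : LaurentSeries L) =
      Units.u2 L q * Units.u1inv L q)
    (hu₁ : ((algebraMap B ↥(laurentBaseChange L (modularFunctionFieldFull (M' * q * q))) u₁B :
      laurentBaseChange L (modularFunctionFieldFull (M' * q * q))) : LaurentSeries L) =
      Units.u1 L q)
    (hv₁ : ((algebraMap B ↥(laurentBaseChange L (modularFunctionFieldFull (M' * q * q))) v₁B :
      laurentBaseChange L (modularFunctionFieldFull (M' * q * q))) : LaurentSeries L) =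
      HahnSeries.C ((q : L) ^ 12) * Units.u2inv L q) :
    redOn (OInf3 h) (redInf3 h) hBO uB = redOn (OInf3 h) (redInf3 h) hBO u₁B ^ (q - 1) ∧
      redOn (OInf3 h) (redInf3 h) hBO u₁B ≠ 0 ∧
      ((redOn (OInf3 h) (redInf3 h) hBO u₁B : modularFunctionFieldFullC k M') :
        LaurentSeries k) = Units.u1 k q ∧
      redOn (OInf3 h) (redInf3 h) hBO v₁B = 0 := by
  refine ⟨?_, ?_, ?_, ?_⟩
  · rw [redOn_apply, redOn_apply]
    exact redInf3_u h hu hu₁ _ _
  · rw [redOn_apply]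
    exact redInf3_u1_ne_zero h hu₁ _
  · rw [redOn_apply]
    exact coe_redInf3_u1 h hu₁ _
  · rw [redOn_apply]
    exact redInf3_v1 h hv₁ _

/-- `red_0 v₁ = red_∞ u₁` in the contract (both are `Db`). -/
theorem redOn_zero_v1_eq_inf_u1 (h : BadSetup A π M' q) (hw : IsAL3 M' q w)
    (hBO : ∀ b : B, algebraMap B ↥(laurentBaseChange L (modularFunctionFieldFull (M' * q * q))) b
      ∈ OZero3 h w)
    (hBO' : ∀ b : B, algebraMap B ↥(laurentBaseChange L (modularFunctionFieldFull (M' * q * q))) b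
      ∈ OInf3 h) {u₁B v₁B : B}
    (hu₁ : ((algebraMap B ↥(laurentBaseChange L (modularFunctionFieldFull (M' * q * q))) u₁B :
      laurentBaseChange L (modularFunctionFieldFull (M' * q * q))) : LaurentSeries L) =
      Units.u1 L q)
    (hv₁ : ((algebraMap B ↥(laurentBaseChange L (modularFunctionFieldFull (M' * q * q))) v₁B :
      laurentBaseChange L (modularFunctionFieldFull (M' * q * q))) : LaurentSeries L) =
      HahnSeries.C ((q : L) ^ 12) * Units.u2inv L q) :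
    redOn (OZero3 h w) (redZero3 h w) hBO v₁B = redOn (OInf3 h) (redInf3 h) hBO' u₁B := by
  rw [redOn_apply, redOn_apply]
  obtain ⟨hm, e⟩ := v1_zero h hw hu₁ hv₁ (hBO' u₁B)
  exact e

end Contract

/-! #### The shape of `MidUnits` : `u₁ = y₁`, `v₁ = q¹²/y₂`, `u = y₂/y₁` -/

section Y

variable {y₁ y₂ : laurentBaseChange L (modularFunctionFieldFull (M' * q * q))}

omit [NeZero M'] in
/-- The `q`-expansion of `v₁ = q¹²/y₂`. -/
theorem coe_v1_of_y (hy₂ : (y₂ : LaurentSeries L) = Units.u2 L q) :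
    ((((q : ℕ) : laurentBaseChange L (modularFunctionFieldFull (M' * q * q))) ^ 12 / y₂ :
      laurentBaseChange L (modularFunctionFieldFull (M' * q * q))) : LaurentSeries L) =
      HahnSeries.C ((q : L) ^ 12) * Units.u2inv L q := by
  rw [IntermediateField.coe_div, IntermediateField.coe_pow, SubringClass.coe_natCast, hy₂,
    div_eq_mul_inv, ← UnitCert.u2inv_eq_inv, map_pow, map_natCast]

omit [NeZero M'] in
/-- The `q`-expansion of `u = y₂/y₁`. -/
theorem coe_u_of_y (hy₁ : (y₁ : LaurentSeries L) = Units.u1 L q)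
    (hy₂ : (y₂ : LaurentSeries L) = Units.u2 L q) :
    ((y₂ / y₁ : laurentBaseChange L (modularFunctionFieldFull (M' * q * q))) :
      LaurentSeries L) = Units.u2 L q * Units.u1inv L q := by
  rw [IntermediateField.coe_div, hy₁, hy₂, div_eq_mul_inv, ← UnitCert.u1inv_eq_inv]

/-- `w y₁ = q¹²/y₂`, `w (q¹²/y₂) = y₁`, `w (y₂/y₁) = y₂/y₁`. -/
theorem w_of_y (hq : q.Prime) (hqM : ¬ q ∣ M') (hw : IsAL3 M' q w)
    (hy₁ : (y₁ : LaurentSeries L) = Units.u1 L q)
    (hy₂ : (y₂ : LaurentSeries L) = Units.u2 L q) :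
    w y₁ = ((q : ℕ) : laurentBaseChange L (modularFunctionFieldFull (M' * q * q))) ^ 12 / y₂ ∧
      w (((q : ℕ) : laurentBaseChange L (modularFunctionFieldFull (M' * q * q))) ^ 12 / y₂) = y₁ ∧
      w (y₂ / y₁) = y₂ / y₁ :=
  ⟨w_u1 hq hw hy₁ (coe_v1_of_y hy₂), w_v1 hq hqM hw hy₁ (coe_v1_of_y hy₂),
    w_u hq hw (coe_u_of_y hy₁ hy₂)⟩

/-- **The column at `0`** for `u = y₂/y₁`, `u₁ = y₁`, `v₁ = q¹²/y₂`: reductions
`(c^(q-1), 0, c)` with `c ≠ 0`, `c = u1 k q = Δ̄^(1-q)` as a series. -/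
theorem redTo_zero_column_of_y (h : BadSetup A π M' q) (hw : IsAL3 M' q w)
    (hy₁ : (y₁ : LaurentSeries L) = Units.u1 L q)
    (hy₂ : (y₂ : LaurentSeries L) = Units.u2 L q) :
    ∃ c : modularFunctionFieldFullC k M', c ≠ 0 ∧ (c : LaurentSeries k) = Units.u1 k q ∧
      RedTo (OZero3 h w) (redZero3 h w) (y₂ / y₁) (c ^ (q - 1)) ∧
      RedTo (OZero3 h w) (redZero3 h w) y₁ 0 ∧
      RedTo (OZero3 h w) (redZero3 h w)
        (((q : ℕ) : laurentBaseChange L (modularFunctionFieldFull (M' * q * q))) ^ 12 / y₂) c :=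
  redTo_zero_column h hw (coe_u_of_y hy₁ hy₂) hy₁ (coe_v1_of_y hy₂)

/-- **The column at `∞`** for `u = y₂/y₁`, `u₁ = y₁`, `v₁ = q¹²/y₂`: reductions
`(c^(q-1), c, 0)` with `c ≠ 0`, `c = u1 k q = Δ̄^(1-q)` as a series. -/
theorem redTo_inf_column_of_y (h : BadSetup A π M' q)
    (hy₁ : (y₁ : LaurentSeries L) = Units.u1 L q)
    (hy₂ : (y₂ : LaurentSeries L) = Units.u2 L q) :
    ∃ c : modularFunctionFieldFullC k M', c ≠ 0 ∧ (c : LaurentSeries k) = Units.u1 k q ∧
      RedTo (OInf3 h) (redInf3 h) (y₂ / y₁) (c ^ (q - 1)) ∧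
      RedTo (OInf3 h) (redInf3 h) y₁ c ∧
      RedTo (OInf3 h) (redInf3 h)
        (((q : ℕ) : laurentBaseChange L (modularFunctionFieldFull (M' * q * q))) ^ 12 / y₂) 0 :=
  redTo_inf_column h (coe_u_of_y hy₁ hy₂) hy₁ (coe_v1_of_y hy₂)

/-- `y₁ ∈ O_0`. -/
theorem y1_mem_OZero3 (h : BadSetup A π M' q) (hw : IsAL3 M' q w)
    (hy₁ : (y₁ : LaurentSeries L) = Units.u1 L q) : y₁ ∈ OZero3 h w :=
  (u1_zero h hw hy₁).1

/-- `red_0 y₁ = 0`. -/
theorem redZero3_y1 (h : BadSetup A π M' q) (hw : IsAL3 M' q w)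
    (hy₁ : (y₁ : LaurentSeries L) = Units.u1 L q) (hm : y₁ ∈ OZero3 h w) :
    redZero3 h w ⟨y₁, hm⟩ = 0 :=
  (u1_zero h hw hy₁).2

/-- `q¹²/y₂ ∈ O_0`. -/
theorem v1_mem_OZero3_of_y (h : BadSetup A π M' q) (hw : IsAL3 M' q w)
    (hy₂ : (y₂ : LaurentSeries L) = Units.u2 L q) :
    ((q : ℕ) : laurentBaseChange L (modularFunctionFieldFull (M' * q * q))) ^ 12 / y₂ ∈
      OZero3 h w :=
  (v1_zero (u₁ := ⟨Units.u1 L q, u1_mem_F3 h.hℓ⟩) h hw rfl (coe_v1_of_y hy₂)
    (u1_mem_OInf3 h rfl)).1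

/-- `red_0 (q¹²/y₂) = u1 k q = Δ̄^(1-q)`. -/
theorem coe_redZero3_v1_of_y (h : BadSetup A π M' q) (hw : IsAL3 M' q w)
    (hy₂ : (y₂ : LaurentSeries L) = Units.u2 L q)
    (hm : ((q : ℕ) : laurentBaseChange L (modularFunctionFieldFull (M' * q * q))) ^ 12 / y₂ ∈
      OZero3 h w) :
    ((redZero3 h w ⟨_, hm⟩ : modularFunctionFieldFullC k M') : LaurentSeries k) =
      Units.u1 k q :=
  coe_redZero3_v1 h hw (coe_v1_of_y hy₂) hm

/-- `y₂/y₁ ∈ O_0`. -/
theorem u_mem_OZero3_of_y (h : BadSetup A π M' q) (hw : IsAL3 M' q w)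
    (hy₁ : (y₁ : LaurentSeries L) = Units.u1 L q)
    (hy₂ : (y₂ : LaurentSeries L) = Units.u2 L q) : y₂ / y₁ ∈ OZero3 h w :=
  (u_zero h hw (coe_u_of_y hy₁ hy₂) (u_mem_OInf3 h (coe_u_of_y hy₁ hy₂))).1

/-- `red_0 (y₂/y₁) = (red_0 (q¹²/y₂))^(q-1)`. -/
theorem redZero3_u_of_y (h : BadSetup A π M' q) (hw : IsAL3 M' q w)
    (hy₁ : (y₁ : LaurentSeries L) = Units.u1 L q)
    (hy₂ : (y₂ : LaurentSeries L) = Units.u2 L q) (hm : y₂ / y₁ ∈ OZero3 h w)
    (hmv : ((q : ℕ) : laurentBaseChange L (modularFunctionFieldFull (M' * q * q))) ^ 12 / y₂ ∈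
      OZero3 h w) :
    redZero3 h w ⟨y₂ / y₁, hm⟩ = redZero3 h w ⟨_, hmv⟩ ^ (q - 1) :=
  redZero3_u h hw (coe_u_of_y hy₁ hy₂) (coe_v1_of_y hy₂) hm hmv

end Y

end Zero

end Fermat.Agent.CAR.V3.UnitsZero

end
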