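/-
CAR-4 (V3-Count), abstract part 3: residue exactness.

For a `Family O ϖ V e f` (see `CountAbs.lean`) the bounds `f i` are the exact residue degrees.
Consequently a system of `f i` elements of `V i` which is independent modulo the maximal ideal
*spans* the residue field of `V i` over the residue field of `O`:

* `Family.exists_res_combination` : every `x ∈ V i` is congruent modulo `(V i).nonunits` to an
  `O`-combination of the `b j`;
* `Family.exists_sub_algebraMap_mem_nonunits` : if `f i = 1`, every `x ∈ V i` is congruent to an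
  element of `O` (the residue field extension is trivial);
* `ram_of_isAbove`, `res_of_isAbove` : the trivial witnesses `e = 1`, `f = 1` of a `Family`.
-/
import Mathlib
import Fermat.Agent.CAR.V3.CountAbs

set_option autoImplicit false

namespace Fermat.Agent.CAR.V3.CountAbs

open Module IsLocalRing
open Fermat.Agent.CAR.Formal (IsUnif)

section Trivial

variable {K F : Type*} [Field K] [Field F] [Algebra K F]
variable {O : ValuationSubring K} {V : ValuationSubring F} {ϖ : K}

/-- The trivial ramification witness `e = 1`. -/
theorem ram_of_isAbove (hu : IsUnif O ϖ) (hV : IsAbove O V) :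
    ∃ d c : F, d ∈ V.nonunits ∧ c ∈ V ∧ algebraMap K F ϖ = d ^ 1 * c :=
  ⟨algebraMap K F ϖ, 1, (hV.algebraMap_mem_nonunits_iff ϖ).mpr hu.mem_nonunits, V.one_mem,
    by rw [pow_one, mul_one]⟩

/-- The trivial residue witness `f = 1`. -/
theorem res_of_isAbove (hV : IsAbove O V) :
    ∃ b : Fin 1 → F, (∀ j, b j ∈ V) ∧ ∀ c : Fin 1 → K, (∀ j, c j ∈ O) →
      ∑ j, algebraMap K F (c j) * b j ∈ V.nonunits → ∀ j, c j ∈ O.nonunits := by
  refine ⟨fun _ => 1, fun _ => V.one_mem, fun c _ hsum j => ?_⟩
  rw [Fin.sum_univ_one, mul_one, hV.algebraMap_mem_nonunits_iff] at hsum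
  rwa [Subsingleton.elim j 0]

end Trivial

/-- Over a commutative ring which is a field, `finrank`-many linearly independent vectors span. -/
theorem span_eq_top_of_isField {R M : Type*} [CommRing R] [AddCommGroup M] [Module R M]
    (hR : IsField R) [Module.Finite R M] {n : ℕ} (v : Fin n → M) (hli : LinearIndependent R v)
    (hcard : Fintype.card (Fin n) = Module.finrank R M) :
    Submodule.span R (Set.range v) = ⊤ := by
  let _ := hR.toField
  exact hli.span_eq_top_of_card_eq_finrank' hcard

section Res

variable {K F : Type*} [Field K] [Field F] [Algebra K F] [FiniteDimensional K F]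
  [Algebra.IsSeparable K F] {ι : Type*} [Fintype ι]
variable {O : ValuationSubring K} {ϖ : K} {V : ι → ValuationSubring F} {e f : ι → ℕ}

omit [FiniteDimensional K F] [Algebra.IsSeparable K F] in
/-- A combination in the residue field of the integral closure, lifted. -/
theorem sum_smul_mk_eq {V : ValuationSubring F} (hV : IsAbove O V) {n : ℕ}
    (g : Fin n → O ⧸ maximalIdeal O) (c : Fin n → O)
    (hc : ∀ j, Ideal.Quotient.mk (maximalIdeal O) (c j) = g j)
    (s : Fin n → integralClosure O F) :
    ∑ j, g j • (Ideal.Quotient.mk (centre hV) (s j) : integralClosure O F ⧸ centre hV)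
      = Ideal.Quotient.mk (centre hV) (∑ j, algebraMap O (integralClosure O F) (c j) * s j) := by
  rw [map_sum]
  refine Finset.sum_congr rfl fun j _ => ?_
  rw [← hc j, Algebra.smul_def, Ideal.Quotient.algebraMap_mk_of_liesOver, map_mul]

omit [FiniteDimensional K F] [Algebra.IsSeparable K F] in
theorem coe_sum_algebraMap_mul {n : ℕ} (c : Fin n → O) (s : Fin n → integralClosure O F) :
    ((∑ j, algebraMap O (integralClosure O F) (c j) * s j : integralClosure O F) : F)
      = ∑ j, algebraMap K F (c j : K) * (s j : F) := by
  push_cast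
  rfl

omit [FiniteDimensional K F] [Algebra.IsSeparable K F] in
/-- Lifts of a system independent modulo the maximal ideal are linearly independent in the
residue field of the integral closure. -/
theorem linearIndependent_mk {V : ValuationSubring F} (hV : IsAbove O V) {n : ℕ}
    (b : Fin n → F)
    (hind : ∀ c : Fin n → K, (∀ j, c j ∈ O) →
      ∑ j, algebraMap K F (c j) * b j ∈ V.nonunits → ∀ j, c j ∈ O.nonunits)
    (s : Fin n → integralClosure O F) (hs : ∀ j, (s j : F) - b j ∈ V.nonunits) :
    LinearIndependent (O ⧸ maximalIdeal O)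
      (fun j => (Ideal.Quotient.mk (centre hV) (s j) : integralClosure O F ⧸ centre hV)) := by
  rw [Fintype.linearIndependent_iff]
  intro g hg j
  choose c hc using fun j => Ideal.Quotient.mk_surjective (g j)
  rw [sum_smul_mk_eq hV g c hc s, Ideal.Quotient.eq_zero_iff_mem, mem_centre_iff,
    coe_sum_algebraMap_mul] at hg
  have h3 : ∑ j, algebraMap K F (c j : K) * b j ∈ V.nonunits := by
    have : ∑ j, algebraMap K F (c j : K) * b j = ∑ j, algebraMap K F (c j : K) * (s j : F)
        - ∑ j, algebraMap K F (c j : K) * ((s j : F) - b j) := by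
      rw [← Finset.sum_sub_distrib]
      exact Finset.sum_congr rfl fun j _ => by ring
    rw [this]
    refine V.nonunits.sub_mem hg (V.nonunits.sum_mem fun j _ => ?_)
    exact mul_mem_nonunits ((hV _).mpr (c j).2) (hs j)
  have h4 := hind (fun j => (c j : K)) (fun j => (c j).2) h3 j
  rw [← hc j, Ideal.Quotient.eq_zero_iff_mem]
  exact ValuationSubring.coe_mem_nonunits_iff.mp h4

/-- **Residue exactness.**  A system of `f i` elements of `V i` which is independent modulo the
maximal ideal spans the residue field of `V i` over that of `O`. -/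
theorem Family.exists_res_combination (h : Family O ϖ V e f) (i : ι) {n : ℕ} (hn : f i = n)
    (b : Fin n → F) (hb : ∀ j, b j ∈ V i)
    (hind : ∀ c : Fin n → K, (∀ j, c j ∈ O) →
      ∑ j, algebraMap K F (c j) * b j ∈ (V i).nonunits → ∀ j, c j ∈ O.nonunits)
    {x : F} (hx : x ∈ V i) :
    ∃ c : Fin n → K, (∀ j, c j ∈ O) ∧
      x - ∑ j, algebraMap K F (c j) * b j ∈ (V i).nonunits := by
  have hdvr := unif_isDiscreteValuationRing h.unif
  have hV := h.above i
  have hmax := centre_isMaximal hV
  have hfin := finite_closure (K := K) (F := F) (O := O)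
  have hdeg : Module.finrank (O ⧸ maximalIdeal O) (integralClosure O F ⧸ centre hV) = n := by
    rw [← Ideal.inertiaDeg_eq_of_isMaximal (maximalIdeal O) (centre hV), h.inertiaDeg_eq i, hn]
  choose s hs using fun j => CountAbs.exists_sub_mem_nonunits hV (hb j)
  have hli := linearIndependent_mk hV b hind s hs
  have hcard : Fintype.card (Fin n) =
      Module.finrank (O ⧸ maximalIdeal O) (integralClosure O F ⧸ centre hV) := by
    rw [Fintype.card_fin, hdeg]
  have hspan : Submodule.span (O ⧸ maximalIdeal O)
      (Set.range fun j => (Ideal.Quotient.mk (centre hV) (s j) :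
        integralClosure O F ⧸ centre hV)) = ⊤ :=
    span_eq_top_of_isField
      ((Ideal.Quotient.maximal_ideal_iff_isField_quotient (maximalIdeal O)).mp inferInstance)
      _ hli hcard
  obtain ⟨t, ht⟩ := CountAbs.exists_sub_mem_nonunits hV hx
  have hmem : (Ideal.Quotient.mk (centre hV) t : integralClosure O F ⧸ centre hV) ∈
      Submodule.span (O ⧸ maximalIdeal O)
        (Set.range fun j => (Ideal.Quotient.mk (centre hV) (s j) :
          integralClosure O F ⧸ centre hV)) := by
    rw [hspan]; trivial
  obtain ⟨g, hg⟩ := (Submodule.mem_span_range_iff_exists_fun _).mp hmem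
  choose c hc using fun j => Ideal.Quotient.mk_surjective (g j)
  rw [sum_smul_mk_eq hV g c hc s, eq_comm, ← sub_eq_zero, ← map_sub,
    Ideal.Quotient.eq_zero_iff_mem, mem_centre_iff] at hg
  have h2 : ((t - ∑ j, algebraMap O (integralClosure O F) (c j) * s j : integralClosure O F) : F)
      = (t : F) - ∑ j, algebraMap K F (c j : K) * (s j : F) := by
    rw [← coe_sum_algebraMap_mul]
    rfl
  rw [h2] at hg
  refine ⟨fun j => (c j : K), fun j => (c j).2, ?_⟩
  have e1 : x - ∑ j, algebraMap K F (c j : K) * b j
      = ((t : F) - ∑ j, algebraMap K F (c j : K) * (s j : F)) - ((t : F) - x)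
        + ∑ j, algebraMap K F (c j : K) * ((s j : F) - b j) := by
    have : ∑ j, algebraMap K F (c j : K) * ((s j : F) - b j)
        = ∑ j, algebraMap K F (c j : K) * (s j : F) - ∑ j, algebraMap K F (c j : K) * b j := by
      rw [← Finset.sum_sub_distrib]
      exact Finset.sum_congr rfl fun j _ => by ring
    rw [this]
    ring
  rw [e1]
  refine (V i).nonunits.add_mem ((V i).nonunits.sub_mem hg ht)
    ((V i).nonunits.sum_mem fun j _ => ?_)
  exact mul_mem_nonunits ((hV _).mpr (c j).2) (hs j)

/-- **Trivial residue extension.**  If `f i = 1`, every element of `V i` is congruent modulo the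
maximal ideal to an element of `O`. -/
theorem Family.exists_sub_algebraMap_mem_nonunits (h : Family O ϖ V e f) (i : ι) (hf : f i = 1)
    {x : F} (hx : x ∈ V i) : ∃ c ∈ O, x - algebraMap K F c ∈ (V i).nonunits := by
  obtain ⟨c, hc, hxc⟩ := h.exists_res_combination i hf (fun _ => 1) (fun _ => (V i).one_mem)
    (fun c _ hsum j => by
      rw [Fin.sum_univ_one, mul_one, (h.above i).algebraMap_mem_nonunits_iff] at hsum
      rwa [Subsingleton.elim j 0]) hx
  refine ⟨c 0, hc 0, ?_⟩
  rwa [Fin.sum_univ_one, mul_one] at hxc

end Res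

end Fermat.Agent.CAR.V3.CountAbs
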