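import Mathlib
import Fermat.Agent.CAR.V3.CountGood

/-!
# CAR / V3-Count: exhaustion of the valuation rings above the Gauss ring ("exactly three")

On top of `GaussPkg` (abstract Gauss package) and `CountGood` (`goodFamily`):

* `ox_eq_of_isGauss` (G3) : two valuation rings of `E` with the Gauss hypotheses for `(A, x)` have
  the same restriction to `L(x)`;
* `isGauss_comap` : the Gauss hypotheses pull back along an `L`-algebra map `F' → F3`;
* `isGauss_of_map_ne_zero` : the hypothesis `htr` in the form `P.map π ≠ 0 → P(x) ∉ O.nonunits`;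
* `exists_eq_of_isGauss_abs` : if `O'` is the only valuation ring of `F'` above `Ox L x O'`
  (a `Family` indexed by `Unit`) and `V : ι → ValuationSubring F3` is a `Family` above `O'`, then
  every valuation ring `V'` of `F3` with the Gauss hypotheses for `(A, φ x)` is one of the `V i`;
* `exists_eq_of_isGauss` : the RED instance (`F' = L·F_N`, `O' = Ow`, `x = B.x`), with
  `goodFamily` discharged: the ONLY hypothesis is the family above `Ow`.
-/

set_option autoImplicit false

noncomputable section

namespace Fermat.Agent.CAR.V3.GaussExhaust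

open Polynomial IntermediateField
open Fermat.Agent.CAR.Formal (IsUnif)
open Fermat.Agent.CAR.V3.CountAbs Fermat.Agent.CAR.V3.GaussPkg

section Abstract

variable {L E : Type*} [Field L] [Field E] [Algebra L E] {A : ValuationSubring L} {x : E}

/-- Membership in a Gauss valuation ring, read off from the normal form. -/
theorem mem_iff_of_normal {O : ValuationSubring E} (h : IsGauss A x O) {c : L}
    {R S : Polynomial A} (hR : ∃ n, ((R.coeff n : A) : L) ∉ A.nonunits)
    (hS : ∃ n, ((S.coeff n : A) : L) ∉ A.nonunits) :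
    algebraMap L E c * (aeval x (R.map A.subtype) / aeval x (S.map A.subtype)) ∈ O ↔ c ∈ A := by
  have hRne := h.aeval_map_ne_zero R hR
  have hSne := h.aeval_map_ne_zero S hS
  constructor
  · intro hmem
    rw [← h.hA]
    have h1 : algebraMap L E c =
        algebraMap L E c * (aeval x (R.map A.subtype) / aeval x (S.map A.subtype)) *
          (aeval x (S.map A.subtype) * (aeval x (R.map A.subtype))⁻¹) := by
      field_simp
    rw [h1]
    exact O.mul_mem _ _ hmem
      (O.mul_mem _ _ (h.aeval_map_mem S) (h.inv_aeval_map_mem R hR))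
  · intro hc
    rw [div_eq_mul_inv]
    exact O.mul_mem _ _ ((h.hA c).mpr hc)
      (O.mul_mem _ _ (h.aeval_map_mem R) (h.inv_aeval_map_mem S hS))

/-- **(G3)**: the Gauss valuation ring of `L(x)` is unique. -/
theorem ox_eq_of_isGauss {O O' : ValuationSubring E} (h : IsGauss A x O) (h' : IsGauss A x O') :
    Ox L x O = Ox L x O' := by
  ext y
  rcases eq_or_ne y 0 with rfl | hy
  · exact ⟨fun _ => zero_mem _, fun _ => zero_mem _⟩
  obtain ⟨c, R, S, hc, hRp, hSp, hyE⟩ := h.exists_normal y hy
  rw [mem_Ox_iff, mem_Ox_iff, hyE, mem_iff_of_normal h hRp hSp, mem_iff_of_normal h' hRp hSp]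

/-- The hypothesis `htr` in the form "`P̄ ≠ 0 ⟹ P(x)` is not in the maximal ideal". -/
theorem isGauss_of_map_ne_zero {k : Type*} [Field k] (π : A →+* k) {O : ValuationSubring E}
    (hA : ∀ a : L, algebraMap L E a ∈ O ↔ a ∈ A) (hx : x ∈ O)
    (htr : ∀ P : Polynomial A, P.map π ≠ 0 → aeval x (P.map A.subtype) ∉ O.nonunits) :
    IsGauss A x O where
  hA := hA
  hx := hx
  htr := by
    rintro P ⟨n, hn⟩
    apply htr P
    have hunit : IsUnit (P.coeff n) := by
      by_contra hnu
      exact hn (ValuationSubring.coe_mem_nonunits_iff.mpr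
        ((IsLocalRing.mem_maximalIdeal _).mpr hnu))
    intro h0
    have h1 : π (P.coeff n) = 0 := by
      have := congrArg (fun Q : Polynomial k => Q.coeff n) h0
      simpa [coeff_map] using this
    exact (hunit.map π).ne_zero h1

end Abstract

section Tower

variable {L F' F3 : Type*} [Field L] [Field F'] [Field F3] [Algebra L F'] [Algebra L F3]
  [Algebra F' F3] [IsScalarTower L F' F3] {A : ValuationSubring L} {x : F'}

/-- The Gauss hypotheses pull back along `F' → F3`. -/
theorem isGauss_comap {V' : ValuationSubring F3} (h : IsGauss A (algebraMap F' F3 x) V') :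
    IsGauss A x (V'.comap (algebraMap F' F3)) where
  hA := fun a => by
    rw [ValuationSubring.mem_comap, ← IsScalarTower.algebraMap_apply]
    exact h.hA a
  hx := h.hx
  htr := fun P hP hmem => by
    apply h.htr P hP
    rw [Polynomial.aeval_algebraMap_apply]
    rw [ValuationSubring.mem_nonunits_iff_or] at hmem ⊢
    rcases hmem with h0 | h0
    · left
      rw [h0, map_zero]
    · right
      intro h1
      apply h0
      rw [ValuationSubring.mem_comap, map_inv₀]
      exact h1

/-- **Exhaustion, abstract form.**  `O'` the only valuation ring of `F'` above the Gauss ring of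
`L(x)`, `V` a family of valuation rings of `F3` above `O'`: every valuation ring of `F3` with the
Gauss hypotheses for `(A, φ x)` is one of the `V i`. -/
theorem exists_eq_of_isGauss_abs {O' : ValuationSubring F'} (hO' : IsGauss A x O')
    [FiniteDimensional ↥(L⟮x⟯) F'] [Algebra.IsSeparable ↥(L⟮x⟯) F'] {ϖ₀ : ↥(L⟮x⟯)} {n : ℕ}
    (hgood : Family (Ox L x O') ϖ₀ (fun _ : Unit => O') (fun _ => 1) (fun _ => n))
    [FiniteDimensional F' F3] [Algebra.IsSeparable F' F3] {ι : Type*} [Fintype ι]
    {V : ι → ValuationSubring F3} {e f : ι → ℕ} {ϖ' : F'} (hfam : Family O' ϖ' V e f)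
    (V' : ValuationSubring F3) (hG : IsGauss A (algebraMap F' F3 x) V') : ∃ i, V' = V i := by
  have h1 : IsGauss A x (V'.comap (algebraMap F' F3)) := isGauss_comap hG
  have h2 : Ox L x (V'.comap (algebraMap F' F3)) = Ox L x O' := ox_eq_of_isGauss h1 hO'
  have h3 : IsAbove (Ox L x O') (V'.comap (algebraMap F' F3)) := by
    rw [← h2]
    exact isAbove_Ox _ _
  obtain ⟨_, h4⟩ := hgood.eq_of_isAbove _ h3
  apply hfam.eq_of_isAbove V'
  intro y
  have h5 : y ∈ V'.comap (algebraMap F' F3) ↔ y ∈ O' := by rw [h4]
  exact h5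

end Tower

section Red

open HahnSeries ModularCurve AlgebraicCurve Fermat.Agent.S28
open Fermat.Agent.Lib.Red Fermat.Agent.Lib.Red.BaseFn

variable {L : Type*} [Field L] [Algebra ℚ L] {A : ValuationSubring L} {k : Type} [Field k]
  {π : A →+* k} {N : ℕ} [NeZero N] (B : BaseFn.Data A π N)

/-- **Exhaustion at a good level.**  `V` a family of valuation rings of `F3` above the Gauss
valuation ring `Ow` of `F' = L·F_N` (along any `L`-algebra structure `F' → F3`, e.g. `π_0^*`):
every valuation ring `V'` of `F3` with `V' ∩ L = A`, `φ x ∈ V'` and transcendental residue of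
`φ x` is one of the `V i`. -/
theorem exists_eq_of_isGauss (hπ : ∀ a : A, ¬ IsUnit a → π a = 0)
    (hsurj : Function.Surjective π) (hNk : (N : k) ≠ 0) {ϖ : L} (hϖ : IsUnif A ϖ)
    {F3 : Type*} [Field F3] [Algebra L F3]
    [Algebra ↥(laurentBaseChange L (modularFunctionFieldFull N)) F3]
    [IsScalarTower L ↥(laurentBaseChange L (modularFunctionFieldFull N)) F3]
    [FiniteDimensional ↥(laurentBaseChange L (modularFunctionFieldFull N)) F3]
    [Algebra.IsSeparable ↥(laurentBaseChange L (modularFunctionFieldFull N)) F3]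
    {ι : Type*} [Fintype ι] {V : ι → ValuationSubring F3} {e f : ι → ℕ}
    {ϖ' : ↥(laurentBaseChange L (modularFunctionFieldFull N))}
    (hfam : Family (Ow A π N hNk) ϖ' V e f) (V' : ValuationSubring F3)
    (hG : IsGauss A
      (algebraMap ↥(laurentBaseChange L (modularFunctionFieldFull N)) F3 B.x) V') :
    ∃ i, V' = V i := by
  have := CountGood.finiteDimensional B hπ hsurj hNk
  have := CountGood.isSeparable B hπ hsurj hNk
  let ϖ₀ : ↥(L⟮B.x⟯) := ⟨algebraMap L _ ϖ, IntermediateField.algebraMap_mem _ ϖ⟩
  obtain ⟨n, hgood⟩ := CountGood.goodFamily_of_coe B hπ hsurj hNk hϖ ϖ₀ rfl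
  exact exists_eq_of_isGauss_abs (CountGood.isGauss B hπ hNk) hgood hfam V' hG

end Red

end Fermat.Agent.CAR.V3.GaussExhaust
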