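import Mathlib
import Fermat.Agent.CAR.V3.GaussExhaust
import Fermat.Agent.CAR.Glob.ChartX

/-!
# CAR / V3-Count: `CountGood` / `GaussPkg` in the vocabulary of `Glob/ChartX`

`ChartX.ResTransc O V t` + `CountAbs.IsAbove O V` + `t ∈ V`  ⟺  `GaussPkg.IsGauss O t V`.

* `isGauss_of_resTransc`, `resTransc_of_isGauss`, `isGauss_iff_resTransc` : the bridge;
* `eq_Ow_of_isGauss`, **`eq_Ow_of_resTransc`** (B1') : at a good level the Gauss valuation ring
  `Ow` of `F' = L·F_N` is the ONLY valuation subring of `F'` above `A` containing the base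
  function `B.x` with transcendental residue;
* `chart_of_resTransc` (G2) : `CountAbs.Chart (V.comap (algebraMap K⟮t⟯ F)) (algebraMap K K⟮t⟯ ϖ)
  R0 R1` at a Gauss point `t`, for any rings `R0`, `R1` with images `O[t]`, `K[t]` in `K(t)`.
-/

set_option autoImplicit false

noncomputable section

namespace Fermat.Agent.CAR.V3.CountGood

open Polynomial IntermediateField
open Fermat.Agent.CAR.Formal (IsUnif)
open Fermat.Agent.CAR.V3.CountAbs Fermat.Agent.CAR.V3.GaussPkg Fermat.Agent.CAR.V3.GaussExhaust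
open Fermat.Agent.CAR.Glob

section Bridge

variable {K F : Type*} [Field K] [Field F] [Algebra K F] {O : ValuationSubring K}
  {V : ValuationSubring F} {t : F}

/-- `ChartX` vocabulary ⟹ `GaussPkg.IsGauss`. -/
theorem isGauss_of_resTransc (hV : IsAbove O V) (ht : t ∈ V) (h : ChartX.ResTransc O V t) :
    IsGauss O t V where
  hA := hV
  hx := ht
  htr := by
    rintro P ⟨n, hn⟩ hmem
    have h1 := h (P.map O.subtype) (fun m => by rw [coeff_map]; exact (P.coeff m).2) hmem n
    rw [coeff_map] at h1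
    exact hn h1

/-- `GaussPkg.IsGauss` ⟹ `ChartX.ResTransc`. -/
theorem resTransc_of_isGauss (h : IsGauss O t V) : ChartX.ResTransc O V t := by
  intro p hp hmem n
  by_contra hn
  have hl : p ∈ Polynomial.lifts O.subtype := by
    rw [lifts_iff_coeff_lifts]
    intro i
    exact ⟨⟨_, hp i⟩, rfl⟩
  obtain ⟨P, hP'⟩ := hl
  have hP : P.map O.subtype = p := hP'
  refine h.htr P ⟨n, ?_⟩ ?_
  · have h2 : ((P.coeff n : O) : K) = p.coeff n := by
      rw [← hP, coeff_map]
      rfl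
    rw [h2]
    exact hn
  · rw [hP]
    exact hmem

theorem isGauss_iff_resTransc :
    IsGauss O t V ↔ IsAbove O V ∧ t ∈ V ∧ ChartX.ResTransc O V t :=
  ⟨fun h => ⟨h.hA, h.hx, resTransc_of_isGauss h⟩,
    fun h => isGauss_of_resTransc h.1 h.2.1 h.2.2⟩

/-- **(G2)** in the `ChartX` vocabulary: chart data at a Gauss point `t`, for any rings `R0`,
`R1` whose images in `K(t)` are `O[t]` and `K[t]`. -/
theorem chart_of_resTransc (hV : IsAbove O V) (ht : t ∈ V) (h : ChartX.ResTransc O V t) (ϖ : K)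
    {R0 R1 : Type*} [CommRing R0] [CommRing R1] [Algebra R0 ↥(K⟮t⟯)] [Algebra R1 ↥(K⟮t⟯)]
    (h0 : ∀ y : ↥(K⟮t⟯), y ∈ (algebraMap R0 ↥(K⟮t⟯)).range ↔
      ∃ P : Polynomial O, (y : F) = aeval t (P.map O.subtype))
    (h1 : ∀ y : ↥(K⟮t⟯), y ∈ (algebraMap R1 ↥(K⟮t⟯)).range ↔
      ∃ P : K[X], (y : F) = aeval t P) :
    Chart (V.comap (algebraMap ↥(K⟮t⟯) F)) (algebraMap K ↥(K⟮t⟯) ϖ) R0 R1 :=
  (isGauss_of_resTransc hV ht h).chart ϖ h0 h1

end Bridge

section Red

open HahnSeries ModularCurve AlgebraicCurve Fermat.Agent.S28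
open Fermat.Agent.Lib.Red Fermat.Agent.Lib.Red.BaseFn

variable {L : Type*} [Field L] [Algebra ℚ L] {A : ValuationSubring L} {k : Type} [Field k]
  {π : A →+* k} {N : ℕ} [NeZero N] (B : BaseFn.Data A π N)

/-- At a good level, `Ow` is the only valuation subring of `F'` with the Gauss hypotheses for
`(A, B.x)`. -/
theorem eq_Ow_of_isGauss (hπ : ∀ a : A, ¬ IsUnit a → π a = 0) (hsurj : Function.Surjective π)
    (hNk : (N : k) ≠ 0) {ϖ : L} (hϖ : IsUnif A ϖ)
    (V : ValuationSubring ↥(laurentBaseChange L (modularFunctionFieldFull N)))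
    (hG : IsGauss A B.x V) : V = Ow A π N hNk := by
  have := finiteDimensional B hπ hsurj hNk
  have := isSeparable B hπ hsurj hNk
  let ϖ₀ : ↥(L⟮B.x⟯) := ⟨algebraMap L _ ϖ, IntermediateField.algebraMap_mem _ ϖ⟩
  obtain ⟨n, hgood⟩ := goodFamily_of_coe B hπ hsurj hNk hϖ ϖ₀ rfl
  have h2 : Ox L B.x V = Ox L B.x (Ow A π N hNk) := ox_eq_of_isGauss hG (isGauss B hπ hNk)
  have h3 : IsAbove (B.Ov hNk) V := by
    show IsAbove (Ox L B.x (Ow A π N hNk)) V
    rw [← h2]
    exact isAbove_Ox _ _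
  obtain ⟨_, h4⟩ := hgood.eq_of_isAbove V h3
  exact h4

/-- **(B1')**: at a good level, `Ow` is the only valuation subring of `F'` above `A` containing
the base function with transcendental residue. -/
theorem eq_Ow_of_resTransc (hπ : ∀ a : A, ¬ IsUnit a → π a = 0) (hsurj : Function.Surjective π)
    (hNk : (N : k) ≠ 0) {ϖ : L} (hϖ : IsUnif A ϖ)
    (V : ValuationSubring ↥(laurentBaseChange L (modularFunctionFieldFull N)))
    (hV : IsAbove A V) (hx : B.x ∈ V) (htr : ChartX.ResTransc A V B.x) :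
    V = Ow A π N hNk :=
  eq_Ow_of_isGauss B hπ hsurj hNk hϖ V (isGauss_of_resTransc hV hx htr)

/-- `Ow` itself is a Gauss point for the base function, in the `ChartX` vocabulary. -/
theorem resTransc_Ow (hπ : ∀ a : A, ¬ IsUnit a → π a = 0) (hNk : (N : k) ≠ 0) :
    ChartX.ResTransc A (Ow A π N hNk) B.x :=
  resTransc_of_isGauss (isGauss B hπ hNk)

/-- `Ow` lies above `A`. -/
theorem isAbove_Ow (hπ : ∀ a : A, ¬ IsUnit a → π a = 0) (hNk : (N : k) ≠ 0) :
    IsAbove A (Ow A π N hNk) :=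
  algebraMap_mem_Ow_iff hπ hNk

end Red

end Fermat.Agent.CAR.V3.CountGood
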