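/-
CAR-4 (V3-Count): transfer of the Gauss condition along a monic bi-polynomial relation.

`G ∈ ℤ[X][Y]` monic in `Y`, `G(t, y) = 0`.  For a valuation subring `V`:

* `mem_of_biPoly` : `t ∈ V → y ∈ V`;
* `resTransc_of_biPoly` : if `y` has transcendental residue (`ChartX.ResTransc`), so has `t`
  (otherwise `ȳ` would be algebraic over the residue field of the base);
* `exists_biPoly_of_isIntegral_closure` : integrality over the subring `ℤ[T]` (the form of
  `S28.Integrality.isIntegral_Jd_of_commRing`) gives such a `G`;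
* `biPoly_map` : bi-polynomial relations are transported by ring homomorphisms;
* `mem_nonunits_comap_iff`, `resTransc_comap` : restriction along a field embedding.
-/
import Mathlib
import Fermat.Agent.CAR.Glob.ChartX

set_option autoImplicit false
set_option linter.unusedSectionVars false
set_option linter.style.haveILetI false

namespace Fermat.Agent.CAR.V3.GaussTransfer

open Polynomial IsLocalRing
open Fermat.Agent.CAR.V3.CountAbs Fermat.Agent.CAR.Glob.ChartX

/-- Evaluation of a bi-polynomial `G ∈ ℤ[X][Y]` at `(t, y)`. -/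
noncomputable def biEval {E : Type*} [CommRing E] (G : Polynomial (Polynomial ℤ)) (t y : E) : E :=
  G.eval₂ ((aeval t : ℤ[X] →ₐ[ℤ] E) : ℤ[X] →+* E) y

section Basic

variable {E E' : Type*} [CommRing E] [CommRing E']

theorem comp_aeval_int (ι : E →+* E') (t : E) :
    ι.comp ((aeval t : ℤ[X] →ₐ[ℤ] E) : ℤ[X] →+* E) =
      ((aeval (ι t) : ℤ[X] →ₐ[ℤ] E') : ℤ[X] →+* E') := by
  apply Polynomial.ringHom_ext' (RingHom.ext_int _ _)
  simp

/-- Bi-polynomial evaluation commutes with ring homomorphisms. -/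
theorem biPoly_map (ι : E →+* E') (G : Polynomial (Polynomial ℤ)) (t y : E) :
    ι (biEval G t y) = biEval G (ι t) (ι y) := by
  unfold biEval
  rw [hom_eval₂, comp_aeval_int]

/-- Integrality over the subring `ℤ[T]` gives a monic bi-polynomial relation. -/
theorem exists_biPoly_of_isIntegral_closure {T Y : E}
    (h : IsIntegral (Subring.closure ({T} : Set E)) Y) :
    ∃ G : Polynomial (Polynomial ℤ), G.Monic ∧ biEval G T Y = 0 := by
  obtain ⟨p, hpm, hp⟩ := h
  have hex : ∀ c ∈ Subring.closure ({T} : Set E), ∃ P : ℤ[X], aeval T P = c := by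
    intro c hc
    induction hc using Subring.closure_induction with
    | mem x hx => exact ⟨X, by rw [aeval_X]; exact (Set.mem_singleton_iff.mp hx).symm⟩
    | zero => exact ⟨0, map_zero _⟩
    | one => exact ⟨1, map_one _⟩
    | add x y _ _ hx hy =>
      obtain ⟨P, rfl⟩ := hx
      obtain ⟨Q, rfl⟩ := hy
      exact ⟨P + Q, map_add _ _ _⟩
    | neg x _ hx =>
      obtain ⟨P, rfl⟩ := hx
      exact ⟨-P, map_neg _ _⟩
    | mul x y _ _ hx hy =>
      obtain ⟨P, rfl⟩ := hx
      obtain ⟨Q, rfl⟩ := hy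
      exact ⟨P * Q, map_mul _ _ _⟩
  have hmem : ∀ P : ℤ[X], ((aeval T : ℤ[X] →ₐ[ℤ] E) : ℤ[X] →+* E) P ∈
      Subring.closure ({T} : Set E) := by
    intro P
    show aeval T P ∈ Subring.closure ({T} : Set E)
    rw [aeval_eq_sum_range]
    refine Subring.sum_mem _ fun i _ => ?_
    rw [zsmul_eq_mul]
    exact Subring.mul_mem _ (intCast_mem _ _)
      (Subring.pow_mem _ (Subring.subset_closure (Set.mem_singleton T)) _)
  let ψ : ℤ[X] →+* Subring.closure ({T} : Set E) :=
    ((aeval T : ℤ[X] →ₐ[ℤ] E) : ℤ[X] →+* E).codRestrict _ hmem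
  have hl : p ∈ lifts ψ := by
    rw [lifts_iff_coeff_lifts]
    intro n
    obtain ⟨P, hP⟩ := hex (p.coeff n : E) (p.coeff n).2
    exact ⟨P, Subtype.ext hP⟩
  obtain ⟨G, hG, -, hGm⟩ := lifts_and_natDegree_eq_and_monic hl hpm
  refine ⟨G, hGm, ?_⟩
  have e : ((aeval T : ℤ[X] →ₐ[ℤ] E) : ℤ[X] →+* E) =
      (algebraMap (Subring.closure ({T} : Set E)) E).comp ψ := RingHom.ext fun P => rfl
  unfold biEval
  rw [e, ← eval₂_map, hG]
  exact hp

end Basic

section Val

variable {F : Type*} [Field F]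

/-- A root of a monic bi-polynomial relation over an element of `V` lies in `V`. -/
theorem mem_of_biPoly (V : ValuationSubring F) {t y : F} (ht : t ∈ V)
    (G : Polynomial (Polynomial ℤ)) (hG : G.Monic) (h : biEval G t y = 0) : y ∈ V := by
  have hint : IsIntegral V y := by
    refine ⟨G.map ((aeval (⟨t, ht⟩ : V) : ℤ[X] →ₐ[ℤ] V) : ℤ[X] →+* V), hG.map _, ?_⟩
    rw [eval₂_map]
    have e : (algebraMap V F).comp ((aeval (⟨t, ht⟩ : V) : ℤ[X] →ₐ[ℤ] V) : ℤ[X] →+* V) =
        ((aeval t : ℤ[X] →ₐ[ℤ] F) : ℤ[X] →+* F) := comp_aeval_int (algebraMap V F) ⟨t, ht⟩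
    rw [e]
    exact h
  obtain ⟨v, hv⟩ := IsIntegrallyClosedIn.isIntegral_iff.mp hint
  rw [← hv]
  exact v.2

/-- Non-units of a restricted valuation subring. -/
theorem mem_nonunits_comap_iff {F' : Type*} [Field F'] (φ : F' →+* F) (V : ValuationSubring F)
    (x : F') : x ∈ (V.comap φ).nonunits ↔ φ x ∈ V.nonunits := by
  rw [ValuationSubring.mem_nonunits_iff_or, ValuationSubring.mem_nonunits_iff_or,
    ValuationSubring.mem_comap, map_inv₀, map_eq_zero]

end Val

section Transc

variable {K F : Type*} [Field K] [Field F] [Algebra K F] {O : ValuationSubring K}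
  {V : ValuationSubring F}

/-- **Transfer of the Gauss condition.**  If `G(t, y) = 0` with `G` monic in `y` and `y` has
transcendental residue in `V`, then so has `t`. -/
theorem resTransc_of_biPoly (hV : IsAbove O V) {t y : F} (ht : t ∈ V) (hy : y ∈ V)
    (G : Polynomial (Polynomial ℤ)) (hG : G.Monic) (h : biEval G t y = 0)
    (hytr : ResTransc O V y) : ResTransc O V t := by
  refine resTransc_of_transcendental_residue hV ht ?_
  letI := (resHom hV).toAlgebra
  intro htalg
  apply hytr.transcendental_residue hV hy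
  have h1 : biEval G (⟨t, ht⟩ : V) (⟨y, hy⟩ : V) = 0 := by
    apply Subtype.ext
    have h2 := biPoly_map V.subtype G (⟨t, ht⟩ : V) (⟨y, hy⟩ : V)
    exact h2.trans h
  have hrel : biEval G (residue V ⟨t, ht⟩) (residue V ⟨y, hy⟩) = 0 := by
    rw [← biPoly_map, h1, map_zero]
  set A' : Subalgebra (ResidueField O) (ResidueField V) :=
    Algebra.adjoin (ResidueField O) {residue V ⟨t, ht⟩} with hA'
  haveI : Algebra.IsIntegral (ResidueField O) A' := Algebra.IsIntegral.adjoin (by
    rintro x hx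
    rw [Set.mem_singleton_iff.mp hx]
    exact htalg.isIntegral)
  have hint : IsIntegral A' (residue V ⟨y, hy⟩) := by
    refine ⟨G.map ((aeval (⟨residue V ⟨t, ht⟩, Algebra.subset_adjoin rfl⟩ : A') :
      ℤ[X] →ₐ[ℤ] A') : ℤ[X] →+* A'), hG.map _, ?_⟩
    rw [eval₂_map]
    have e : (algebraMap A' (ResidueField V)).comp
        ((aeval (⟨residue V ⟨t, ht⟩, Algebra.subset_adjoin rfl⟩ : A') : ℤ[X] →ₐ[ℤ] A') :
          ℤ[X] →+* A') =
        ((aeval (residue V ⟨t, ht⟩) : ℤ[X] →ₐ[ℤ] ResidueField V) : ℤ[X] →+* ResidueField V) :=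
      comp_aeval_int (algebraMap A' (ResidueField V)) _
    rw [e]
    exact hrel
  exact (isIntegral_trans _ hint).isAlgebraic

/-- The Gauss condition restricts along an embedding of `K`-algebras. -/
theorem resTransc_comap {F' : Type*} [Field F'] [Algebra K F'] (φ : F' →ₐ[K] F) {t : F'}
    (h : ResTransc O V (φ t)) : ResTransc O (V.comap (φ : F' →+* F)) t := by
  intro p hp hnu
  apply h p hp
  rw [aeval_algHom_apply]
  exact (mem_nonunits_comap_iff (φ : F' →+* F) V _).mp hnu

/-- Restriction of `IsAbove` along an embedding of `K`-algebras. -/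
theorem isAbove_comap {F' : Type*} [Field F'] [Algebra K F'] (φ : F' →ₐ[K] F)
    (hV : IsAbove O V) : IsAbove O (V.comap (φ : F' →+* F)) := by
  intro a
  rw [ValuationSubring.mem_comap]
  show φ (algebraMap K F' a) ∈ V ↔ _
  rw [AlgHom.commutes]
  exact hV a

end Transc

end Fermat.Agent.CAR.V3.GaussTransfer
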