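/-
CAR-4 (V3-Count): "exactly three" in the Gauss form.

A valuation subring `V'` of `F = L·F_{M'q²}` above `A` (constants) which contains `π_0^* x` with
transcendental residue, `x = B.x` any base function of level `M'` (`BaseFn.Data`, e.g.
`xL L M' = J(q^{M'})`), is one of `O_∞`, `O_mid`, `O_0`:

* `eq_of_resTransc_base` : generic `(L, A, π)`, given the `CountAbs.Family` of `Count.family3`;
* `eq_of_resTransc_base_K0`, `exists_eq_of_resTransc_J0_K0` : the instance `(K0, W0, resW0)`,
  for `CuspQuot.J0 = π_0^* (xL)` — the `hex` of `ChartX.exists_eq_of_resTransc_mul`.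
-/
import Mathlib
import Fermat.Agent.CAR.V3.Count
import Fermat.Agent.CAR.V3.GaussTransfer
import Fermat.Agent.CAR.V3.CountGoodX
import Fermat.Agent.CAR.Glob.CuspQuotInst

set_option autoImplicit false
set_option linter.unusedSectionVars false
set_option linter.style.haveILetI false

namespace Fermat.Agent.CAR.V3.CountGauss

open HahnSeries ModularCurve AlgebraicCurve Fermat.Agent.Lib.Red Fermat.Agent.S28
open Fermat.Agent.ESJ.Cong.LevelGen Fermat.Agent.BAD.TwoVal Fermat.Agent.CAR.Formal
open Fermat.Agent.CAR.V3 Fermat.Agent.CAR.V3.CountAbs Fermat.Agent.CAR.Glob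

noncomputable section

section Generic

variable {L : Type} [Field L] [Algebra ℚ L] {A : ValuationSubring L} {k : Type} [Field k]
  {π : A →+* k} {M' q : ℕ} [NeZero M'] [NeZero q]
  {w : laurentBaseChange L (modularFunctionFieldFull (M' * q * q)) ≃ₐ[L]
    laurentBaseChange L (modularFunctionFieldFull (M' * q * q))}

/-- `CountAbs.IsAbove` for the constants `L → L·F_N`, elaborated once for a generic `L` (the
instance search `Algebra ↥(K0 A) ↥(L·F_N)` at the inertia field is slow). -/
abbrev IsAboveC {N : ℕ} (A : ValuationSubring L)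
    (V : ValuationSubring ↥(laurentBaseChange L (modularFunctionFieldFull N))) : Prop :=
  IsAbove A V

/-- `ChartX.ResTransc` for the constants `L → L·F_N`, elaborated once for a generic `L`. -/
abbrev ResTranscC {N : ℕ} (A : ValuationSubring L)
    (V : ValuationSubring ↥(laurentBaseChange L (modularFunctionFieldFull N)))
    (t : ↥(laurentBaseChange L (modularFunctionFieldFull N))) : Prop :=
  ChartX.ResTransc A V t

/-- **Exactly three, Gauss form.**  `V'` above `A`, containing `π_0^* x` with transcendental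
residue (`x` a base function of level `M'`), is one of the three valuation rings. -/
theorem eq_of_resTransc_base (h : BadSetup A π M' q) (hsurj : Function.Surjective π) {ϖ : L}
    (hϖ : IsUnif A ϖ) (B : BaseFn.Data A π M')
    {OM : ValuationSubring ↥(laurentBaseChange L (modularFunctionFieldFull (M' * q * q)))}
    (hF : letI := Count.alg0 L M' q
      Family (Ow A π M' h.hMk) ((q : ℕ) : ↥(laurentBaseChange L (modularFunctionFieldFull M')))
        ![OInf3 h, OM, OZero3 h w] ![1, q - 1, 1] ![1, 1, q ^ 2])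
    (V' : ValuationSubring ↥(laurentBaseChange L (modularFunctionFieldFull (M' * q * q))))
    (hV' : IsAbove A V') (hx : piStar0 L M' q B.x ∈ V')
    (htr : ChartX.ResTransc A V' (piStar0 L M' q B.x)) :
    V' = OInf3 h ∨ V' = OM ∨ V' = OZero3 h w := by
  have h1 : V'.comap ((piStar0 L M' q :
      ↥(laurentBaseChange L (modularFunctionFieldFull M')) →ₐ[L]
        ↥(laurentBaseChange L (modularFunctionFieldFull (M' * q * q)))) :
      ↥(laurentBaseChange L (modularFunctionFieldFull M')) →+*
        ↥(laurentBaseChange L (modularFunctionFieldFull (M' * q * q)))) = Ow A π M' h.hMk :=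
    CountGood.eq_Ow_of_resTransc B h.hπ hsurj h.hMk hϖ _
      (GaussTransfer.isAbove_comap (piStar0 L M' q) hV') (ValuationSubring.mem_comap.mpr hx)
      (GaussTransfer.resTransc_comap (piStar0 L M' q) htr)
  refine Count.eq_of_isAbove3 h hF V' fun x => ?_
  rw [← h1, ValuationSubring.mem_comap]
  exact Iff.rfl

/-- The same for `x = xL L M' = J(q^{M'})`. -/
theorem eq_of_resTransc_xL (h : BadSetup A π M' q) (hsurj : Function.Surjective π) {ϖ : L}
    (hϖ : IsUnif A ϖ)
    {OM : ValuationSubring ↥(laurentBaseChange L (modularFunctionFieldFull (M' * q * q)))}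
    (hF : letI := Count.alg0 L M' q
      Family (Ow A π M' h.hMk) ((q : ℕ) : ↥(laurentBaseChange L (modularFunctionFieldFull M')))
        ![OInf3 h, OM, OZero3 h w] ![1, q - 1, 1] ![1, 1, q ^ 2])
    (V' : ValuationSubring ↥(laurentBaseChange L (modularFunctionFieldFull (M' * q * q))))
    (hV' : IsAbove A V') (hx : piStar0 L M' q (xL L M') ∈ V')
    (htr : ChartX.ResTransc A V' (piStar0 L M' q (xL L M'))) :
    V' = OInf3 h ∨ V' = OM ∨ V' = OZero3 h w := by
  rw [← BaseFn.Data.ofJ_x A π M'] at hx htr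
  exact eq_of_resTransc_base h hsurj hϖ (BaseFn.Data.ofJ A π M') hF V' hV' hx htr

/-- The same for `J_0 = CuspQuot.J0 = π_0^* J(q^{M'})`, in the `∃ i` form: the `hex` of
`ChartX.exists_eq_of_resTransc_mul` at `y = J_0`. -/
theorem exists_eq_of_resTransc_J0 (h : BadSetup A π M' q) (hsurj : Function.Surjective π) {ϖ : L}
    (hϖ : IsUnif A ϖ)
    {OM : ValuationSubring ↥(laurentBaseChange L (modularFunctionFieldFull (M' * q * q)))}
    (hF : letI := Count.alg0 L M' q
      Family (Ow A π M' h.hMk) ((q : ℕ) : ↥(laurentBaseChange L (modularFunctionFieldFull M')))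
        ![OInf3 h, OM, OZero3 h w] ![1, q - 1, 1] ![1, 1, q ^ 2])
    (V' : ValuationSubring ↥(laurentBaseChange L (modularFunctionFieldFull (M' * q * q))))
    (hV' : IsAbove A V') (hx : CuspQuot.J0 (q := q) L M' ∈ V')
    (htr : ChartX.ResTransc A V' (CuspQuot.J0 (q := q) L M')) :
    ∃ i : Fin 3, V' = ![OInf3 h, OM, OZero3 h w] i := by
  rcases eq_of_resTransc_xL h hsurj hϖ hF V' hV' hx htr with h1 | h1 | h1
  · exact ⟨0, h1⟩
  · exact ⟨1, h1⟩
  · exact ⟨2, h1⟩

end Generic

/-! ### The instance `(L, A, π) = (K0, W0, resW0)` -/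

section K0Inst

open Fermat.Agent.CAR.K0 Fermat.Agent.CAR.V3.MidRing

local notation "Qb" => AlgebraicClosure ℚ

variable {q : ℕ} [NeZero q] (hq : q.Prime) (A : ValuationSubring Qb) (hA : A.LiesOverPrime q)
  {ζ : Qb} (hζ : IsPrimitiveRoot ζ q) (M' : ℕ) [NeZero M'] (hqM : ¬ q ∣ M')
  {w : laurentBaseChange ↥(K0 A) (modularFunctionFieldFull (M' * q * q)) ≃ₐ[↥(K0 A)]
    laurentBaseChange ↥(K0 A) (modularFunctionFieldFull (M' * q * q))}

/-- **Exactly three over the inertia field, Gauss form**, for any base function of level `M'`.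
(`IsAboveC`, `ResTranscC` are reducible abbreviations of `CountAbs.IsAbove`, `ChartX.ResTransc`.) -/
theorem eq_of_resTransc_base_K0 (hw : IsAL3 M' q w) (B : BaseFn.Data (W0 A) (resW0 A) M')
    (V' : ValuationSubring ↥(laurentBaseChange ↥(K0 A) (modularFunctionFieldFull (M' * q * q))))
    (hV' : IsAboveC (W0 A) V') (hx : piStar0 ↥(K0 A) M' q B.x ∈ V')
    (htr : ResTranscC (W0 A) V' (piStar0 ↥(K0 A) M' q B.x)) :
    V' = OInf3 (badSetup_W0 hq hA M' hqM) ∨
      V' = OMid hq A hA hζ M' hqM (IsLocalRing.residue A) ∨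
      V' = OZero3 (badSetup_W0 hq hA M' hqM) w :=
  eq_of_resTransc_base (badSetup_W0 hq hA M' hqM) (resW0_surjective hq hA)
    (Restrict.isUnif_W0 hq hA) B (Count.family3_K0 hq A hA hζ M' hqM hw) V' hV' hx htr

/-- **The `hex` of `ChartX.exists_eq_of_resTransc_mul` at `y = J_0 = π_0^* J(q^{M'})`**, over the
inertia field. -/
theorem exists_eq_of_resTransc_J0_K0 (hw : IsAL3 M' q w)
    (V' : ValuationSubring ↥(laurentBaseChange ↥(K0 A) (modularFunctionFieldFull (M' * q * q))))
    (hV' : IsAboveC (W0 A) V') (hx : CuspQuot.J0 (q := q) ↥(K0 A) M' ∈ V')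
    (htr : ResTranscC (W0 A) V' (CuspQuot.J0 (q := q) ↥(K0 A) M')) :
    ∃ i : Fin 3, V' = ![OInf3 (badSetup_W0 hq hA M' hqM),
      OMid hq A hA hζ M' hqM (IsLocalRing.residue A),
      OZero3 (badSetup_W0 hq hA M' hqM) w] i :=
  exists_eq_of_resTransc_J0 (badSetup_W0 hq hA M' hqM) (resW0_surjective hq hA)
    (Restrict.isUnif_W0 hq hA) (Count.family3_K0 hq A hA hζ M' hqM hw) V' hV' hx htr

end K0Inst

end

end Fermat.Agent.CAR.V3.CountGauss
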