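import Mathlib
import Fermat.Agent.CAR.V3.CountGoodX
import Fermat.Agent.CAR.Glob.Charts

/-!
# CAR / V3-Count, (G2) for the adjoin rings of `Glob/Charts`

`W → K0 → F` a tower (`W` a commutative ring whose image in `K0` is the valuation subring `O`),
`t : F` a Gauss point of the valuation subring `V` of `F` (`GaussPkg.IsGauss O t V`, equivalently
`IsAbove O V`, `t ∈ V`, `ChartX.ResTransc O V t`).  Then with the algebra structures
`Charts.adjoinAlgebra` (`W[t] → K0(t)`, `K0[t] → K0(t)`)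

  `CountAbs.Chart (V.comap (algebraMap K0⟮t⟯ F)) (algebraMap K0 K0⟮t⟯ ϖ) W[t] K0[t]`.
-/

set_option autoImplicit false

noncomputable section

namespace Fermat.Agent.CAR.V3.GaussChartAdjoin

open Polynomial IntermediateField
open Fermat.Agent.CAR.Formal (IsUnif)
open Fermat.Agent.CAR.V3.CountAbs Fermat.Agent.CAR.V3.GaussPkg
open Fermat.Agent.CAR.Glob Fermat.Agent.CAR.Glob.Charts

variable {W K0 F : Type*} [CommRing W] [Field K0] [Algebra W K0] [Field F] [Algebra K0 F]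
  [Algebra W F] [IsScalarTower W K0 F]

/-- The image of `W[t]` in `K0(t)`, in polynomial form over the valuation ring `O = im(W → K0)`. -/
theorem mem_range_adjoinAlgebra_iff {O : ValuationSubring K0}
    (hW : ∀ a : K0, a ∈ O ↔ a ∈ (algebraMap W K0).range) (t : F) (y : ↥(K0⟮t⟯)) :
    letI := adjoinAlgebra (W := W) t K0⟮t⟯ (mem_adjoin_simple_self K0 t)
    y ∈ (algebraMap ↥(Algebra.adjoin W {t}) ↥(K0⟮t⟯)).range ↔
      ∃ P : Polynomial O, (y : F) = aeval t (P.map O.subtype) := by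
  let _ := adjoinAlgebra (W := W) t K0⟮t⟯ (mem_adjoin_simple_self K0 t)
  constructor
  · rintro ⟨a, rfl⟩
    have ha : (a : F) ∈ (Polynomial.aeval (R := W) t).range := by
      rw [← Algebra.adjoin_singleton_eq_range_aeval]
      exact a.2
    obtain ⟨Q, hQ⟩ := ha
    have hQ' : aeval t Q = (a : F) := hQ
    have hl : Q.map (algebraMap W K0) ∈ Polynomial.lifts O.subtype := by
      rw [lifts_iff_coeff_lifts]
      intro i
      rw [coeff_map]
      exact ⟨⟨_, (hW _).mpr ⟨Q.coeff i, rfl⟩⟩, rfl⟩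
    obtain ⟨P, hP'⟩ := hl
    have hP : P.map O.subtype = Q.map (algebraMap W K0) := hP'
    refine ⟨P, ?_⟩
    rw [hP, aeval_map_algebraMap, hQ']
    rfl
  · rintro ⟨P, hP⟩
    have hl : P.map O.subtype ∈ Polynomial.lifts (algebraMap W K0) := by
      rw [lifts_iff_coeff_lifts]
      intro i
      rw [coeff_map]
      exact (hW _).mp (P.coeff i).2
    obtain ⟨Q, hQ'⟩ := hl
    have hQ : Q.map (algebraMap W K0) = P.map O.subtype := hQ'
    refine ⟨⟨aeval t Q, aeval_mem_adjoin_singleton W t⟩, Subtype.ext ?_⟩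
    rw [hP, ← hQ, aeval_map_algebraMap]
    rfl

/-- The image of `K0[t]` in `K0(t)`. -/
theorem mem_range_adjoinAlgebra_field_iff (t : F) (y : ↥(K0⟮t⟯)) :
    letI := adjoinAlgebra (W := K0) t K0⟮t⟯ (mem_adjoin_simple_self K0 t)
    y ∈ (algebraMap ↥(Algebra.adjoin K0 {t}) ↥(K0⟮t⟯)).range ↔
      ∃ P : K0[X], (y : F) = aeval t P := by
  let _ := adjoinAlgebra (W := K0) t K0⟮t⟯ (mem_adjoin_simple_self K0 t)
  constructor
  · rintro ⟨a, rfl⟩
    have ha : (a : F) ∈ (Polynomial.aeval (R := K0) t).range := by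
      rw [← Algebra.adjoin_singleton_eq_range_aeval]
      exact a.2
    obtain ⟨Q, hQ⟩ := ha
    have hQ' : aeval t Q = (a : F) := hQ
    exact ⟨Q, by rw [hQ']; rfl⟩
  · rintro ⟨P, hP⟩
    refine ⟨⟨aeval t P, aeval_mem_adjoin_singleton K0 t⟩, Subtype.ext ?_⟩
    rw [hP]
    rfl

/-- **(G2) for the adjoin rings.** -/
theorem chart_adjoin {O : ValuationSubring K0}
    (hW : ∀ a : K0, a ∈ O ↔ a ∈ (algebraMap W K0).range) {V : ValuationSubring F} {t : F}
    (hG : IsGauss O t V) (ϖ : K0) :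
    letI := adjoinAlgebra (W := W) t K0⟮t⟯ (mem_adjoin_simple_self K0 t)
    letI := adjoinAlgebra (W := K0) t K0⟮t⟯ (mem_adjoin_simple_self K0 t)
    Chart (V.comap (algebraMap ↥(K0⟮t⟯) F)) (algebraMap K0 ↥(K0⟮t⟯) ϖ)
      ↥(Algebra.adjoin W {t}) ↥(Algebra.adjoin K0 {t}) := by
  let _ := adjoinAlgebra (W := W) t K0⟮t⟯ (mem_adjoin_simple_self K0 t)
  let _ := adjoinAlgebra (W := K0) t K0⟮t⟯ (mem_adjoin_simple_self K0 t)
  exact hG.chart ϖ (mem_range_adjoinAlgebra_iff hW t) (mem_range_adjoinAlgebra_field_iff t)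

/-- **(G2) for the adjoin rings**, `ChartX` vocabulary. -/
theorem chart_adjoin_of_resTransc {O : ValuationSubring K0}
    (hW : ∀ a : K0, a ∈ O ↔ a ∈ (algebraMap W K0).range) {V : ValuationSubring F} {t : F}
    (hV : IsAbove O V) (ht : t ∈ V) (h : ChartX.ResTransc O V t) (ϖ : K0) :
    letI := adjoinAlgebra (W := W) t K0⟮t⟯ (mem_adjoin_simple_self K0 t)
    letI := adjoinAlgebra (W := K0) t K0⟮t⟯ (mem_adjoin_simple_self K0 t)
    Chart (V.comap (algebraMap ↥(K0⟮t⟯) F)) (algebraMap K0 ↥(K0⟮t⟯) ϖ)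
      ↥(Algebra.adjoin W {t}) ↥(Algebra.adjoin K0 {t}) :=
  chart_adjoin hW (CountGood.isGauss_of_resTransc hV ht h) ϖ

end Fermat.Agent.CAR.V3.GaussChartAdjoin
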