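import Fermat.Agent.CAR.V3.Inf
import Fermat.Agent.CAR.V3.UnitRel

/-!
# CAR / V3 : the modular units as functions of level `M' q²` — integrality, Atkin–Lehner

`F = laurentBaseChange L (modularFunctionFieldFull (M' * q * q))`.

* `u1F L M' q hq`, `u2F L M' q hq : F` — the functions with `q`-expansions
  `u₁ = Δ(q)/Δ(q^q)` and `u₂ = Δ(q^q)/Δ(q^{q²})`; `uF = u₂/u₁`, `uF' = q^12 u₁/u₂`,
  `aF = q^12/u₂`, `q12F = q^12`, `uF * uF' = q^12`;
* **integrality** over any ring `R₁` acting on `F` over which `J_0 = π_0^* j` is integral: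
  `isIntegral_unitsF` (for `u1F`, …), `isIntegral_units_of_coe` (for arbitrary `y₁`, `y₂` with
  these `q`-expansions, constants as `ℕ`-casts), `isIntegral_cert_of_coe`
  (`q^12 · d^n · y₁/y₂`);
* Atkin–Lehner: for any ring hom `σ : F → F` with `σ (π_0^* j) = π_2^* j`,
  `σ (π_1^* j) = π_1^* j`, `σ (π_2^* j) = π_0^* j`:  `σ u₁ = q^12 / u₂`, `σ u₂ = q^12 / u₁`,
  `σ u = u`.
-/

set_option autoImplicit false
set_option linter.style.haveILetI false
set_option linter.unusedSectionVars false

noncomputable section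

namespace Fermat.Agent.CAR.V3.Units

open ModularCurve Fermat.Agent.S28.ModEq Fermat.Agent.Lib.Red Fermat.Agent.S28
open Fermat.Agent.ESJ.Cong.LevelGen Fermat.Agent.BAD.TwoVal Fermat.Agent.CAR.V3

section Elements

variable (L : Type*) [Field L] [Algebra ℚ L] (M' q : ℕ) [NeZero M'] [NeZero q]

theorem jqModC_mem_F3 :
    jqModC L ∈ laurentBaseChange L (modularFunctionFieldFull (M' * q * q)) := by
  rw [laurentBaseChange_eq_FF]
  have := TD.Jd_mem_FF L (N := M' * q * q) (m := 1) (d := 1) (one_dvd _)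
  rwa [mul_one, TD.Jd_one] at this

theorem jqNModC_mem_F3 :
    jqNModC L q ∈ laurentBaseChange L (modularFunctionFieldFull (M' * q * q)) := by
  rw [laurentBaseChange_eq_FF]
  have := TD.Jd_mem_FF L (N := M' * q * q) (m := 1) (d := q) ⟨M' * q, by ring⟩
  rwa [one_mul, TD.Jd_eq_jqNModC] at this

theorem jqNModC_sq_mem_F3 :
    jqNModC L (q * q) ∈ laurentBaseChange L (modularFunctionFieldFull (M' * q * q)) := by
  rw [laurentBaseChange_eq_FF]
  have := TD.Jd_mem_FF L (N := M' * q * q) (m := 1) (d := q * q) ⟨M', by ring⟩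
  rwa [one_mul, TD.Jd_eq_jqNModC] at this

/-- `u₁ = Δ(z)/Δ(qz)` as a function of level `M' q²`. -/
def u1F (hq : q.Prime) : laurentBaseChange L (modularFunctionFieldFull (M' * q * q)) :=
  ⟨u1 L q, by
    haveI : CharZero L := algebraRat.charZero L
    exact u1_mem hq (laurentBaseChange L (modularFunctionFieldFull (M' * q * q))).toSubfield
      (jqModC_mem_F3 L M' q) (jqNModC_mem_F3 L M' q)⟩

/-- `u₂ = Δ(qz)/Δ(q²z)` as a function of level `M' q²`. -/
def u2F (hq : q.Prime) : laurentBaseChange L (modularFunctionFieldFull (M' * q * q)) :=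
  ⟨u2 L q, by
    haveI : CharZero L := algebraRat.charZero L
    exact u2_mem hq (laurentBaseChange L (modularFunctionFieldFull (M' * q * q))).toSubfield
      (jqNModC_mem_F3 L M' q) (jqNModC_sq_mem_F3 L M' q)⟩

variable {L M' q}

theorem coe_u1F (hq : q.Prime) : ((u1F L M' q hq : laurentBaseChange L _) : LaurentSeries L) =
    u1 L q := rfl

theorem coe_u2F (hq : q.Prime) : ((u2F L M' q hq : laurentBaseChange L _) : LaurentSeries L) =
    u2 L q := rfl

theorem coe_inv_u1F (hq : q.Prime) :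
    (((u1F L M' q hq)⁻¹ : laurentBaseChange L _) : LaurentSeries L) = u1inv L q := by
  rw [IntermediateField.coe_inv, coe_u1F]
  exact (eq_inv_of_mul_eq_one_right (u1_mul_u1inv L q)).symm

theorem coe_inv_u2F (hq : q.Prime) :
    (((u2F L M' q hq)⁻¹ : laurentBaseChange L _) : LaurentSeries L) = u2inv L q := by
  rw [IntermediateField.coe_inv, coe_u2F]
  exact (eq_inv_of_mul_eq_one_right (u2_mul_u2inv L q)).symm

theorem u1F_ne_zero (hq : q.Prime) : u1F L M' q hq ≠ 0 := by
  intro h
  have h1 := congrArg (fun f : laurentBaseChange L (modularFunctionFieldFull (M' * q * q)) =>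
    (f : LaurentSeries L)) h
  simp only [coe_u1F, ZeroMemClass.coe_zero] at h1
  have h2 := u1_mul_u1inv L q
  rw [h1, zero_mul] at h2
  exact zero_ne_one h2

theorem u2F_ne_zero (hq : q.Prime) : u2F L M' q hq ≠ 0 := by
  intro h
  have h1 := congrArg (fun f : laurentBaseChange L (modularFunctionFieldFull (M' * q * q)) =>
    (f : LaurentSeries L)) h
  simp only [coe_u2F, ZeroMemClass.coe_zero] at h1
  have h2 := u2_mul_u2inv L q
  rw [h1, zero_mul] at h2
  exact zero_ne_one h2

variable (L M' q)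

/-- `u = u₂ / u₁`: valuation vector `(0, 12, 0)`. -/
def uF (hq : q.Prime) : laurentBaseChange L (modularFunctionFieldFull (M' * q * q)) :=
  u2F L M' q hq * (u1F L M' q hq)⁻¹

/-- `u' = q^12 u₁ / u₂`: valuation vector `(12, 0, 12)`. -/
def uF' (hq : q.Prime) : laurentBaseChange L (modularFunctionFieldFull (M' * q * q)) :=
  algebraMap L _ ((q : L) ^ 12) * u1F L M' q hq * (u2F L M' q hq)⁻¹

/-- The constant `q^12` of `F_{M' q²}`. -/
def q12F : laurentBaseChange L (modularFunctionFieldFull (M' * q * q)) :=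
  algebraMap L _ ((q : L) ^ 12)

/-- `a = q^12 / u₂`: valuation vector `(12, 0, 0)`. -/
def aF (hq : q.Prime) : laurentBaseChange L (modularFunctionFieldFull (M' * q * q)) :=
  q12F L M' q * (u2F L M' q hq)⁻¹

variable {L M' q}

theorem q12F_eq : q12F L M' q = algebraMap L _ ((q : L) ^ 12) := rfl

theorem coe_q12F : ((q12F L M' q : laurentBaseChange L _) : LaurentSeries L) =
    HahnSeries.C ((q : L) ^ 12) :=
  (C_eq_algebraMap ((q : L) ^ 12)).symm

theorem q12F_ne_zero (hq : q.Prime) : q12F L M' q ≠ 0 := by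
  haveI : CharZero L := algebraRat.charZero L
  unfold q12F
  rw [Ne, map_eq_zero]
  exact pow_ne_zero 12 (Nat.cast_ne_zero.mpr hq.ne_zero)

theorem aF_eq (hq : q.Prime) : aF L M' q hq = q12F L M' q * (u2F L M' q hq)⁻¹ := rfl

theorem coe_aF (hq : q.Prime) : ((aF L M' q hq : laurentBaseChange L _) : LaurentSeries L) =
    HahnSeries.C ((q : L) ^ 12) * u2inv L q := by
  rw [aF_eq, MulMemClass.coe_mul, coe_q12F, coe_inv_u2F]

theorem uF'_eq (hq : q.Prime) : uF' L M' q hq = u1F L M' q hq * aF L M' q hq := by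
  unfold uF' aF q12F
  ring

theorem aF_mul_u2F (hq : q.Prime) : aF L M' q hq * u2F L M' q hq = q12F L M' q := by
  rw [aF_eq]
  exact inv_mul_cancel_right₀ (u2F_ne_zero hq) _

theorem uF_mul_uF'_eq_q12F (hq : q.Prime) : uF L M' q hq * uF' L M' q hq = q12F L M' q := by
  unfold uF uF' q12F
  have h1 := u1F_ne_zero (L := L) (M' := M') hq
  have h2 := u2F_ne_zero (L := L) (M' := M') hq
  field_simp

theorem uF_mul_uF' (hq : q.Prime) :
    uF L M' q hq * uF' L M' q hq = algebraMap L _ ((q : L) ^ 12) := by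
  unfold uF uF'
  have h1 := u1F_ne_zero (L := L) (M' := M') hq
  have h2 := u2F_ne_zero (L := L) (M' := M') hq
  field_simp

theorem coe_uF (hq : q.Prime) : ((uF L M' q hq : laurentBaseChange L _) : LaurentSeries L) =
    u2 L q * u1inv L q := by
  unfold uF
  rw [MulMemClass.coe_mul, coe_u2F, coe_inv_u1F]

theorem coe_inv_uF (hq : q.Prime) :
    (((uF L M' q hq)⁻¹ : laurentBaseChange L _) : LaurentSeries L) = u1 L q * u2inv L q := by
  unfold uF
  rw [mul_inv, inv_inv, MulMemClass.coe_mul, coe_u1F, coe_inv_u2F, mul_comm]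

end Elements

/-! ### Integrality -/

section Integral

variable {L : Type*} [Field L] [Algebra ℚ L] {M' q : ℕ} [NeZero M'] [NeZero q]
  {R₁ : Type*} [CommRing R₁]
  [Algebra R₁ ↥(laurentBaseChange L (modularFunctionFieldFull (M' * q * q)))]

omit [NeZero M'] [NeZero q] in
theorem coe_algebraMap_F3 (c : L) :
    ((algebraMap L ↥(laurentBaseChange L (modularFunctionFieldFull (M' * q * q))) c :
      laurentBaseChange L _) : LaurentSeries L) = HahnSeries.C c :=
  (C_eq_algebraMap c).symm

/-- **Integrality package in `F_{M' q²}`**: over any ring `R₁` (acting on `F`) over which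
`J_0 = π_0^* j` is integral, the functions `u₁`, `q^12/u₁`, `u₂`, `q^12/u₂`, `u' = q^12 u₁/u₂`
and `q^12 u = q^12 u₂/u₁` are integral. -/
theorem isIntegral_unitsF (hq : q.Prime)
    (h : IsIntegral R₁ (piStar0 L M' q (jLevel L M'))) :
    IsIntegral R₁ (u1F L M' q hq) ∧
      IsIntegral R₁ (algebraMap L _ ((q : L) ^ 12) * (u1F L M' q hq)⁻¹) ∧
      IsIntegral R₁ (u2F L M' q hq) ∧
      IsIntegral R₁ (algebraMap L _ ((q : L) ^ 12) * (u2F L M' q hq)⁻¹) ∧
      IsIntegral R₁ (uF' L M' q hq) ∧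
      IsIntegral R₁ (algebraMap L _ ((q : L) ^ 12) * uF L M' q hq) := by
  let ι : ↥(laurentBaseChange L (modularFunctionFieldFull (M' * q * q))) →+* LaurentSeries L :=
    ((laurentBaseChange L (modularFunctionFieldFull (M' * q * q))).val :
      ↥(laurentBaseChange L (modularFunctionFieldFull (M' * q * q))) →+* LaurentSeries L)
  let φ : R₁ →+* LaurentSeries L := ι.comp (algebraMap R₁ _)
  letI : Algebra R₁ (LaurentSeries L) := φ.toAlgebra
  have hJ : IsIntegral R₁ (jqModC L) := by
    obtain ⟨P, hP, hP0⟩ := h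
    refine ⟨P, hP, ?_⟩
    have h2 := Polynomial.hom_eval₂ P (algebraMap R₁ _) ι (piStar0 L M' q (jLevel L M'))
    rw [hP0, map_zero] at h2
    have h3 : ι (piStar0 L M' q (jLevel L M')) = jqModC L := by
      show ((piStar0 L M' q (jLevel L M') : laurentBaseChange L _) : LaurentSeries L) = _
      rw [coe_piStar0_jLevel, TD.Jd_one]
    rw [h3] at h2
    exact h2.symm
  have back : ∀ f : ↥(laurentBaseChange L (modularFunctionFieldFull (M' * q * q))),
      IsIntegral R₁ (ι f) → IsIntegral R₁ f := by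
    rintro f ⟨P, hP, hP0⟩
    refine ⟨P, hP, Subtype.ext ?_⟩
    have h2 := Polynomial.hom_eval₂ P (algebraMap R₁ _) ι f
    exact h2.trans hP0
  obtain ⟨-, -, h1, h2, h3, h4⟩ := isIntegral_units L hq hJ
  have e2 : ι (algebraMap L _ ((q : L) ^ 12) * (u1F L M' q hq)⁻¹) =
      HahnSeries.C ((q : L) ^ 12) * u1inv L q := by
    show ((algebraMap L _ ((q : L) ^ 12) * (u1F L M' q hq)⁻¹ : laurentBaseChange L _) :
      LaurentSeries L) = _
    rw [MulMemClass.coe_mul, coe_algebraMap_F3, coe_inv_u1F]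
  have e4 : ι (algebraMap L _ ((q : L) ^ 12) * (u2F L M' q hq)⁻¹) =
      HahnSeries.C ((q : L) ^ 12) * u2inv L q := by
    show ((algebraMap L _ ((q : L) ^ 12) * (u2F L M' q hq)⁻¹ : laurentBaseChange L _) :
      LaurentSeries L) = _
    rw [MulMemClass.coe_mul, coe_algebraMap_F3, coe_inv_u2F]
  have i1 : IsIntegral R₁ (u1F L M' q hq) := back _ h1
  have i2 : IsIntegral R₁ (algebraMap L _ ((q : L) ^ 12) * (u1F L M' q hq)⁻¹) :=
    back _ (by rw [e2]; exact h2)
  have i3 : IsIntegral R₁ (u2F L M' q hq) := back _ h3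
  have i4 : IsIntegral R₁ (algebraMap L _ ((q : L) ^ 12) * (u2F L M' q hq)⁻¹) :=
    back _ (by rw [e4]; exact h4)
  refine ⟨i1, i2, i3, i4, ?_, ?_⟩
  · have e : uF' L M' q hq =
        u1F L M' q hq * (algebraMap L _ ((q : L) ^ 12) * (u2F L M' q hq)⁻¹) := by
      unfold uF'
      ring
    rw [e]
    exact i1.mul i4
  · have e : algebraMap L _ ((q : L) ^ 12) * uF L M' q hq =
        u2F L M' q hq * (algebraMap L _ ((q : L) ^ 12) * (u1F L M' q hq)⁻¹) := by
      unfold uF
      ring
    rw [e]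
    exact i3.mul i2

/-- The same for arbitrary functions `y₁`, `y₂` with `q`-expansions `u₁`, `u₂`, and constants
written as natural-number casts: `y₁`, `q^12/y₁`, `y₂`, `q^12/y₂`, `q^12 y₁/y₂`, `q^12 y₂/y₁`
are integral over any ring over which `J_0` is. -/
theorem isIntegral_units_of_coe (hq : q.Prime)
    (h : IsIntegral R₁ (piStar0 L M' q (jLevel L M')))
    {y₁ y₂ : ↥(laurentBaseChange L (modularFunctionFieldFull (M' * q * q)))}
    (hy₁ : (y₁ : LaurentSeries L) = u1 L q) (hy₂ : (y₂ : LaurentSeries L) = u2 L q) :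
    IsIntegral R₁ y₁ ∧
      IsIntegral R₁ (((q : ℕ) : ↥(laurentBaseChange L (modularFunctionFieldFull (M' * q * q))))
        ^ 12 / y₁) ∧
      IsIntegral R₁ y₂ ∧
      IsIntegral R₁ (((q : ℕ) : ↥(laurentBaseChange L (modularFunctionFieldFull (M' * q * q))))
        ^ 12 / y₂) ∧
      IsIntegral R₁ (((q : ℕ) : ↥(laurentBaseChange L (modularFunctionFieldFull (M' * q * q))))
        ^ 12 * (y₁ / y₂)) ∧
      IsIntegral R₁ (((q : ℕ) : ↥(laurentBaseChange L (modularFunctionFieldFull (M' * q * q))))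
        ^ 12 * (y₂ / y₁)) := by
  have e1 : y₁ = u1F L M' q hq := Subtype.ext hy₁
  have e2 : y₂ = u2F L M' q hq := Subtype.ext hy₂
  have ec : ((q : ℕ) : ↥(laurentBaseChange L (modularFunctionFieldFull (M' * q * q)))) ^ 12 =
      algebraMap L _ ((q : L) ^ 12) := by
    rw [map_pow, map_natCast]
  obtain ⟨i1, i2, i3, i4, i5, i6⟩ := isIntegral_unitsF (R₁ := R₁) (L := L) (M' := M') hq h
  subst e1 e2
  rw [ec]
  refine ⟨i1, ?_, i3, ?_, ?_, ?_⟩
  · rw [div_eq_mul_inv]; exact i2
  · rw [div_eq_mul_inv]; exact i4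
  · have e : algebraMap L ↥(laurentBaseChange L (modularFunctionFieldFull (M' * q * q)))
        ((q : L) ^ 12) * (u1F L M' q hq / u2F L M' q hq) = uF' L M' q hq := by
      unfold uF'
      rw [div_eq_mul_inv]
      ring
    rw [e]; exact i5
  · have e : algebraMap L ↥(laurentBaseChange L (modularFunctionFieldFull (M' * q * q)))
        ((q : L) ^ 12) * (u2F L M' q hq / u1F L M' q hq) =
        algebraMap L _ ((q : L) ^ 12) * uF L M' q hq := by
      unfold uF
      rw [div_eq_mul_inv]
    rw [e]; exact i6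

/-- `q^12 · (d^n · y₁ / y₂)` is integral as soon as `d` and `J_0` are. -/
theorem isIntegral_cert_of_coe (hq : q.Prime)
    (h : IsIntegral R₁ (piStar0 L M' q (jLevel L M')))
    {y₁ y₂ d : ↥(laurentBaseChange L (modularFunctionFieldFull (M' * q * q)))}
    (hy₁ : (y₁ : LaurentSeries L) = u1 L q) (hy₂ : (y₂ : LaurentSeries L) = u2 L q)
    (hd : IsIntegral R₁ d) (n : ℕ) :
    IsIntegral R₁ (((q : ℕ) : ↥(laurentBaseChange L (modularFunctionFieldFull (M' * q * q))))
      ^ 12 * (d ^ n * y₁ / y₂)) := by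
  have h5 := (isIntegral_units_of_coe (R₁ := R₁) hq h hy₁ hy₂).2.2.2.2.1
  have e : ((q : ℕ) : ↥(laurentBaseChange L (modularFunctionFieldFull (M' * q * q)))) ^ 12 *
      (d ^ n * y₁ / y₂) = d ^ n * (((q : ℕ) :
        ↥(laurentBaseChange L (modularFunctionFieldFull (M' * q * q)))) ^ 12 * (y₁ / y₂)) := by
    rw [div_eq_mul_inv, div_eq_mul_inv]
    ring
  rw [e]
  exact (hd.pow n).mul h5

end Integral

/-! ### Atkin–Lehner -/

section AL

variable {L : Type*} [Field L] [Algebra ℚ L] {M' q : ℕ} [NeZero M'] [NeZero q]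

variable (σ : ↥(laurentBaseChange L (modularFunctionFieldFull (M' * q * q))) →+*
  ↥(laurentBaseChange L (modularFunctionFieldFull (M' * q * q))))

/-- **Atkin–Lehner on `u₁`**: `w u₁ = q^12 / u₂`. -/
theorem AL_u1F (hq : q.Prime)
    (h0 : σ (piStar0 L M' q (jLevel L M')) = piStar2 L M' q (jLevel L M'))
    (h1 : σ (piStar1 L M' q (jLevel L M')) = piStar1 L M' q (jLevel L M')) :
    σ (u1F L M' q hq) = algebraMap L _ ((q : L) ^ 12) * (u2F L M' q hq)⁻¹ := by
  haveI : CharZero L := algebraRat.charZero L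
  let ι : ↥(laurentBaseChange L (modularFunctionFieldFull (M' * q * q))) →+* LaurentSeries L :=
    ((laurentBaseChange L (modularFunctionFieldFull (M' * q * q))).val :
      ↥(laurentBaseChange L (modularFunctionFieldFull (M' * q * q))) →+* LaurentSeries L)
  have hι : Function.Injective ι := Subtype.val_injective
  apply Subtype.ext
  rw [MulMemClass.coe_mul, coe_algebraMap_F3, coe_inv_u2F]
  have key := map_u1_eq_AL ι hι (ι.comp σ) hq (j0 := piStar0 L M' q (jLevel L M'))
    (j1 := piStar1 L M' q (jLevel L M')) (y := u1F L M' q hq)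
    (by
      show ((piStar0 L M' q (jLevel L M') : laurentBaseChange L _) : LaurentSeries L) = _
      rw [coe_piStar0_jLevel, TD.Jd_one])
    (by
      show ((piStar1 L M' q (jLevel L M') : laurentBaseChange L _) : LaurentSeries L) = _
      rw [coe_piStar1_jLevel, TD.Jd_eq_jqNModC])
    rfl
    (by
      show ((σ (piStar0 L M' q (jLevel L M')) : laurentBaseChange L _) : LaurentSeries L) = _
      rw [h0, coe_piStar2_jLevel, TD.Jd_eq_jqNModC])
    (by
      show ((σ (piStar1 L M' q (jLevel L M')) : laurentBaseChange L _) : LaurentSeries L) = _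
      rw [h1, coe_piStar1_jLevel, TD.Jd_eq_jqNModC])
  exact key

/-- **Atkin–Lehner on `u₂`**: `w u₂ = q^12 / u₁`. -/
theorem AL_u2F (hq : q.Prime)
    (h1 : σ (piStar1 L M' q (jLevel L M')) = piStar1 L M' q (jLevel L M'))
    (h2 : σ (piStar2 L M' q (jLevel L M')) = piStar0 L M' q (jLevel L M')) :
    σ (u2F L M' q hq) = algebraMap L _ ((q : L) ^ 12) * (u1F L M' q hq)⁻¹ := by
  haveI : CharZero L := algebraRat.charZero L
  let ι : ↥(laurentBaseChange L (modularFunctionFieldFull (M' * q * q))) →+* LaurentSeries L :=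
    ((laurentBaseChange L (modularFunctionFieldFull (M' * q * q))).val :
      ↥(laurentBaseChange L (modularFunctionFieldFull (M' * q * q))) →+* LaurentSeries L)
  have hι : Function.Injective ι := Subtype.val_injective
  apply Subtype.ext
  rw [MulMemClass.coe_mul, coe_algebraMap_F3, coe_inv_u1F]
  have key := map_u2_eq_AL ι hι (ι.comp σ) hq (j1 := piStar1 L M' q (jLevel L M'))
    (j2 := piStar2 L M' q (jLevel L M')) (y := u2F L M' q hq)
    (by
      show ((piStar1 L M' q (jLevel L M') : laurentBaseChange L _) : LaurentSeries L) = _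
      rw [coe_piStar1_jLevel, TD.Jd_eq_jqNModC])
    (by
      show ((piStar2 L M' q (jLevel L M') : laurentBaseChange L _) : LaurentSeries L) = _
      rw [coe_piStar2_jLevel, TD.Jd_eq_jqNModC])
    rfl
    (by
      show ((σ (piStar1 L M' q (jLevel L M')) : laurentBaseChange L _) : LaurentSeries L) = _
      rw [h1, coe_piStar1_jLevel, TD.Jd_eq_jqNModC])
    (by
      show ((σ (piStar2 L M' q (jLevel L M')) : laurentBaseChange L _) : LaurentSeries L) = _
      rw [h2, coe_piStar0_jLevel, TD.Jd_one])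
  exact key

/-- `u = u₂/u₁` is Atkin–Lehner invariant. -/
theorem AL_uF (hq : q.Prime)
    (h0 : σ (piStar0 L M' q (jLevel L M')) = piStar2 L M' q (jLevel L M'))
    (h1 : σ (piStar1 L M' q (jLevel L M')) = piStar1 L M' q (jLevel L M'))
    (h2 : σ (piStar2 L M' q (jLevel L M')) = piStar0 L M' q (jLevel L M')) :
    σ (uF L M' q hq) = uF L M' q hq := by
  have e1 := AL_u1F σ hq h0 h1
  have e2 := AL_u2F σ hq h1 h2
  have hc : algebraMap L ↥(laurentBaseChange L (modularFunctionFieldFull (M' * q * q)))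
      ((q : L) ^ 12) ≠ 0 := by
    haveI : CharZero L := algebraRat.charZero L
    rw [Ne, map_eq_zero]
    exact pow_ne_zero 12 (Nat.cast_ne_zero.mpr hq.ne_zero)
  have hu1 := u1F_ne_zero (L := L) (M' := M') hq
  have hu2 := u2F_ne_zero (L := L) (M' := M') hq
  unfold uF
  rw [map_mul, map_inv₀, e1, e2]
  field_simp

end AL

end Fermat.Agent.CAR.V3.Units
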