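/-
CAR / V3 (G7, saturation inputs): `d = J₂ - J₀`, the unit `u = u₂/u₁` and the certificate
function `h = d^(12(q-1))/u` on the components `C_∞` and `C_0`.

* `dGen L M' q = π_2^* j - π_0^* j` over any base; `w d = -d`; `d` is a unit of `O_∞` and of
  `O_0`;
* `u = y₂/y₁` is a unit of `O_∞` and of `O_0`; `y₁` is a unit of `O_∞`, `q¹²/y₂` a unit of `O_0`;
* every `x` with `x · u = d^n` (resp. `x · y₂ = d^n · y₁`) lies in `O_∞` and in `O_0`;
* at the inertia field: `dMid A M' q = dGen K0 M' q`, whence the literal statements for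
  helper7's `dMid` and helper83's `h = dMid^(12(q-1)) · y₁ / y₂`.
-/
import Mathlib
import Fermat.Agent.CAR.V3.UnitsZero
import Fermat.Agent.CAR.V3.MidPull

set_option autoImplicit false

noncomputable section

namespace Fermat.Agent.CAR.V3.UnitsZeroH

open HahnSeries ModularCurve AlgebraicCurve Fermat.Agent.Lib.Red Fermat.Agent.S28
open Fermat.Agent.ESJ.Cong.LevelGen Fermat.Agent.BAD.TwoVal Fermat.Agent.S28.ModEq
open Fermat.Agent.CAR.V3.UnitsZero

/-! ### Generic base -/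

section Gen

variable {L : Type*} [Field L] [Algebra ℚ L] {A : ValuationSubring L} {k : Type} [Field k]
  {π : A →+* k} {M' q : ℕ} [NeZero M'] [NeZero q]
  {w : laurentBaseChange L (modularFunctionFieldFull (M' * q * q)) ≃ₐ[L]
    laurentBaseChange L (modularFunctionFieldFull (M' * q * q))}

variable (L M' q) in
/-- `d = J₂ - J₀ = π_2^* j - π_0^* j`. -/
def dGen : laurentBaseChange L (modularFunctionFieldFull (M' * q * q)) :=
  piStar2 L M' q (jLevel L M') - piStar0 L M' q (jLevel L M')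

theorem coe_dGen :
    ((dGen L M' q : laurentBaseChange L (modularFunctionFieldFull (M' * q * q))) :
      LaurentSeries L) = TD.Jd L (q * q) - TD.Jd L 1 := by
  unfold dGen
  rw [AddSubgroupClass.coe_sub, coe_piStar2_jLevel, coe_piStar0_jLevel]

/-- **`w d = -d`.** -/
theorem w_dGen (hw : IsAL3 M' q w) : w (dGen L M' q) = -dGen L M' q := by
  unfold dGen
  rw [map_sub, hw.pi2, hw.pi0, neg_sub]

theorem dGen_mem_OInf3 (h : BadSetup A π M' q) : dGen L M' q ∈ OInf3 h := by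
  rw [mem_OInf3_iff, coe_dGen]
  exact sub_mem (MidRing.Jd_mem_gaussRing A π _) (MidRing.Jd_mem_gaussRing A π _)

/-- `red_∞ d = J̄(q^{q²}) - J̄(q)`. -/
theorem coe_redInf3_dGen (h : BadSetup A π M' q) (hm : dGen L M' q ∈ OInf3 h) :
    ((redInf3 h ⟨dGen L M' q, hm⟩ : modularFunctionFieldFullC k M') : LaurentSeries k) =
      TD.Jd k (q * q) - TD.Jd k 1 := by
  have e : (⟨((dGen L M' q : laurentBaseChange L (modularFunctionFieldFull (M' * q * q))) :
      LaurentSeries L), hm⟩ : gaussRing A π) =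
      ⟨TD.Jd L (q * q), MidRing.Jd_mem_gaussRing A π _⟩ -
        ⟨TD.Jd L 1, MidRing.Jd_mem_gaussRing A π _⟩ := Subtype.ext coe_dGen
  rw [coe_redInf3, e, map_sub, MidRing.red_Jd, MidRing.red_Jd]

theorem redInf3_dGen_ne_zero (h : BadSetup A π M' q) (hm : dGen L M' q ∈ OInf3 h) :
    redInf3 h ⟨dGen L M' q, hm⟩ ≠ 0 := by
  intro h0
  have h1 := coe_redInf3_dGen h hm
  rw [h0, ZeroMemClass.coe_zero] at h1
  have hne : q * q ≠ 1 := by
    have := h.hℓ.one_lt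
    nlinarith
  exact Jd_ne_of_ne k (Nat.mul_ne_zero h.hℓ.ne_zero h.hℓ.ne_zero) one_ne_zero hne
    (sub_eq_zero.mp h1.symm)

/-- `d` is a unit of `O_∞`. -/
theorem inv_dGen_mem_OInf3 (h : BadSetup A π M' q) : (dGen L M' q)⁻¹ ∈ OInf3 h :=
  inv_mem_OInf3 h _ (dGen_mem_OInf3 h) (redInf3_dGen_ne_zero h _)

/-- `d ∈ O_0`. -/
theorem dGen_mem_OZero3 (h : BadSetup A π M' q) (hw : IsAL3 M' q w) :
    dGen L M' q ∈ OZero3 h w := by
  rw [mem_OZero3_iff, w_dGen hw]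
  exact neg_mem (dGen_mem_OInf3 h)

/-- `d` is a unit of `O_0`. -/
theorem inv_dGen_mem_OZero3 (h : BadSetup A π M' q) (hw : IsAL3 M' q w) :
    (dGen L M' q)⁻¹ ∈ OZero3 h w := by
  rw [mem_OZero3_iff, map_inv₀, w_dGen hw, inv_neg]
  exact neg_mem (inv_dGen_mem_OInf3 h)

/-- `red_0 d = -red_∞ d`. -/
theorem redZero3_dGen (h : BadSetup A π M' q) (hw : IsAL3 M' q w)
    (hm : dGen L M' q ∈ OZero3 h w) (hm' : dGen L M' q ∈ OInf3 h) :
    redZero3 h w ⟨dGen L M' q, hm⟩ = -redInf3 h ⟨dGen L M' q, hm'⟩ := by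
  have hm'' : w (dGen L M' q) ∈ OInf3 h := (mem_OZero3_iff h _).mp hm
  rw [redZero3_apply h _ hm hm'', redInf3_congr h (w_dGen hw) hm'' (neg_mem hm')]
  have e : (⟨-dGen L M' q, neg_mem hm'⟩ : OInf3 h) = -⟨dGen L M' q, hm'⟩ := rfl
  rw [e, map_neg]

/-! #### The unit `u` -/

section U

variable {u u₁ v₁ : laurentBaseChange L (modularFunctionFieldFull (M' * q * q))}

omit [NeZero M'] in
theorem u_ne_zero (hu : (u : LaurentSeries L) = Units.u2 L q * Units.u1inv L q) : u ≠ 0 := by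
  rintro rfl
  have h1 : Units.u2 L q * Units.u1inv L q * (Units.u1 L q * Units.u2inv L q) = 1 := by
    calc Units.u2 L q * Units.u1inv L q * (Units.u1 L q * Units.u2inv L q)
        = (Units.u2 L q * Units.u2inv L q) * (Units.u1inv L q * Units.u1 L q) := by ring
      _ = 1 := by rw [Units.u2_mul_u2inv, Units.u1inv_mul_u1, mul_one]
  rw [← hu, ZeroMemClass.coe_zero, zero_mul] at h1
  exact zero_ne_one h1

omit [NeZero M'] in
theorem u1_ne_zero (hu₁ : (u₁ : LaurentSeries L) = Units.u1 L q) : u₁ ≠ 0 := by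
  rintro rfl
  exact u1_series_ne_zero L q hu₁.symm

/-- `u` is a unit of `O_∞`. -/
theorem inv_u_mem_OInf3 (h : BadSetup A π M' q)
    (hu : (u : LaurentSeries L) = Units.u2 L q * Units.u1inv L q) : u⁻¹ ∈ OInf3 h := by
  have hm := u_mem_OInf3 h hu
  refine inv_mem_OInf3 h _ hm ?_
  intro h0
  have h1 := coe_redInf3_u h hu hm
  rw [h0, ZeroMemClass.coe_zero] at h1
  exact pow_ne_zero _ (u1_series_ne_zero k q) h1.symm

/-- `u` is a unit of `O_0`. -/
theorem inv_u_mem_OZero3 (h : BadSetup A π M' q) (hw : IsAL3 M' q w)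
    (hu : (u : LaurentSeries L) = Units.u2 L q * Units.u1inv L q) : u⁻¹ ∈ OZero3 h w := by
  rw [mem_OZero3_iff, map_inv₀, w_u h.hℓ hw hu]
  exact inv_u_mem_OInf3 h hu

/-- `u₁` is a unit of `O_∞`. -/
theorem inv_u1_mem_OInf3 (h : BadSetup A π M' q)
    (hu₁ : (u₁ : LaurentSeries L) = Units.u1 L q) : u₁⁻¹ ∈ OInf3 h :=
  inv_mem_OInf3 h _ (u1_mem_OInf3 h hu₁) (redInf3_u1_ne_zero h hu₁ _)

/-- `v₁` is a unit of `O_0`. -/
theorem inv_v1_mem_OZero3 (h : BadSetup A π M' q) (hw : IsAL3 M' q w)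
    (hv₁ : (v₁ : LaurentSeries L) = HahnSeries.C ((q : L) ^ 12) * Units.u2inv L q) :
    v₁⁻¹ ∈ OZero3 h w := by
  obtain ⟨hm, -⟩ := v1_zero (u₁ := ⟨Units.u1 L q, u1_mem_F3 h.hℓ⟩) h hw rfl hv₁
    (u1_mem_OInf3 h rfl)
  exact inv_mem_OZero3 h _ hm (redZero3_v1_ne_zero h hw hv₁ hm)

/-- Every `x` with `x · u = d^n` lies in `O_∞`. -/
theorem mem_OInf3_of_mul_u (h : BadSetup A π M' q)
    (hu : (u : LaurentSeries L) = Units.u2 L q * Units.u1inv L q)
    {x : laurentBaseChange L (modularFunctionFieldFull (M' * q * q))} {n : ℕ}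
    (hx : x * u = dGen L M' q ^ n) : x ∈ OInf3 h := by
  have e : x = dGen L M' q ^ n * u⁻¹ := by
    rw [← hx]
    exact (mul_inv_cancel_right₀ (u_ne_zero hu) x).symm
  rw [e]
  exact (OInf3 h).mul_mem _ _ (pow_mem (dGen_mem_OInf3 h) n) (inv_u_mem_OInf3 h hu)

/-- Every `x` with `x · u = d^n` lies in `O_0`. -/
theorem mem_OZero3_of_mul_u (h : BadSetup A π M' q) (hw : IsAL3 M' q w)
    (hu : (u : LaurentSeries L) = Units.u2 L q * Units.u1inv L q)
    {x : laurentBaseChange L (modularFunctionFieldFull (M' * q * q))} {n : ℕ}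
    (hx : x * u = dGen L M' q ^ n) : x ∈ OZero3 h w := by
  have e : x = dGen L M' q ^ n * u⁻¹ := by
    rw [← hx]
    exact (mul_inv_cancel_right₀ (u_ne_zero hu) x).symm
  rw [e]
  exact (OZero3 h w).mul_mem _ _ (pow_mem (dGen_mem_OZero3 h hw) n) (inv_u_mem_OZero3 h hw hu)

end U

/-! #### The shape of `MidUnits` -/

section Y

variable {y₁ y₂ : laurentBaseChange L (modularFunctionFieldFull (M' * q * q))}

omit [NeZero M'] in
theorem mul_u_of_y (hy₁ : (y₁ : LaurentSeries L) = Units.u1 L q)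
    {x d : laurentBaseChange L (modularFunctionFieldFull (M' * q * q))}
    (hx : x * y₂ = d * y₁) : x * (y₂ / y₁) = d := by
  rw [← mul_div_assoc, hx, mul_div_assoc, div_self (u1_ne_zero hy₁), mul_one]

/-- `(y₂/y₁)⁻¹ ∈ O_∞`. -/
theorem inv_u_mem_OInf3_of_y (h : BadSetup A π M' q)
    (hy₁ : (y₁ : LaurentSeries L) = Units.u1 L q)
    (hy₂ : (y₂ : LaurentSeries L) = Units.u2 L q) : (y₂ / y₁)⁻¹ ∈ OInf3 h :=
  inv_u_mem_OInf3 h (coe_u_of_y hy₁ hy₂)

/-- `(y₂/y₁)⁻¹ ∈ O_0`. -/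
theorem inv_u_mem_OZero3_of_y (h : BadSetup A π M' q) (hw : IsAL3 M' q w)
    (hy₁ : (y₁ : LaurentSeries L) = Units.u1 L q)
    (hy₂ : (y₂ : LaurentSeries L) = Units.u2 L q) : (y₂ / y₁)⁻¹ ∈ OZero3 h w :=
  inv_u_mem_OZero3 h hw (coe_u_of_y hy₁ hy₂)

/-- `(q¹²/y₂)⁻¹ ∈ O_0`. -/
theorem inv_v1_mem_OZero3_of_y (h : BadSetup A π M' q) (hw : IsAL3 M' q w)
    (hy₂ : (y₂ : LaurentSeries L) = Units.u2 L q) :
    (((q : ℕ) : laurentBaseChange L (modularFunctionFieldFull (M' * q * q))) ^ 12 / y₂)⁻¹ ∈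
      OZero3 h w :=
  inv_v1_mem_OZero3 h hw (coe_v1_of_y hy₂)

/-- Every `x` with `x · y₂ = d^n · y₁` lies in `O_∞`. -/
theorem mem_OInf3_of_mul_y (h : BadSetup A π M' q)
    (hy₁ : (y₁ : LaurentSeries L) = Units.u1 L q)
    (hy₂ : (y₂ : LaurentSeries L) = Units.u2 L q)
    {x : laurentBaseChange L (modularFunctionFieldFull (M' * q * q))} {n : ℕ}
    (hx : x * y₂ = dGen L M' q ^ n * y₁) : x ∈ OInf3 h :=
  mem_OInf3_of_mul_u h (coe_u_of_y hy₁ hy₂) (mul_u_of_y hy₁ hx)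

/-- Every `x` with `x · y₂ = d^n · y₁` lies in `O_0`. -/
theorem mem_OZero3_of_mul_y (h : BadSetup A π M' q) (hw : IsAL3 M' q w)
    (hy₁ : (y₁ : LaurentSeries L) = Units.u1 L q)
    (hy₂ : (y₂ : LaurentSeries L) = Units.u2 L q)
    {x : laurentBaseChange L (modularFunctionFieldFull (M' * q * q))} {n : ℕ}
    (hx : x * y₂ = dGen L M' q ^ n * y₁) : x ∈ OZero3 h w :=
  mem_OZero3_of_mul_u h hw (coe_u_of_y hy₁ hy₂) (mul_u_of_y hy₁ hx)

end Y

end Gen

/-! ### At the inertia field: helper7's `dMid` -/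

section K0

open Fermat.Agent.S24 Fermat.Agent.CAR.K0 Fermat.Agent.CAR.V3.MidRing

local notation "Qb" => AlgebraicClosure ℚ

variable {q : ℕ} (A : ValuationSubring Qb) (M' : ℕ) [NeZero M'] [NeZero q]

/-- helper7's `dMid` is `π_2^* j - π_0^* j`. -/
theorem dMid_eq_dGen : dMid A M' q = dGen (inertiaField A) M' q := by
  apply Subtype.ext
  rw [coe_dGen]
  rfl

variable {A M'}
variable {w : laurentBaseChange (inertiaField A) (modularFunctionFieldFull (M' * q * q))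
    ≃ₐ[inertiaField A]
    laurentBaseChange (inertiaField A) (modularFunctionFieldFull (M' * q * q))}
  {y₁ y₂ : laurentBaseChange (inertiaField A) (modularFunctionFieldFull (M' * q * q))}

/-- **`w (dMid) = -dMid`.** -/
theorem w_dMid (hw : IsAL3 M' q w) : w (dMid A M' q) = -dMid A M' q := by
  rw [dMid_eq_dGen]
  exact w_dGen hw

/-- `dMid ∈ O_0`. -/
theorem dMid_mem_OZero3 (h : BadSetup (W0 A) (resW0 A) M' q) (hw : IsAL3 M' q w) :
    dMid A M' q ∈ OZero3 h w := by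
  rw [dMid_eq_dGen]
  exact dGen_mem_OZero3 h hw

/-- `dMid` is a unit of `O_0`. -/
theorem inv_dMid_mem_OZero3 (h : BadSetup (W0 A) (resW0 A) M' q) (hw : IsAL3 M' q w) :
    (dMid A M' q)⁻¹ ∈ OZero3 h w := by
  rw [dMid_eq_dGen]
  exact inv_dGen_mem_OZero3 h hw

/-- Every `x` with `x · y₂ = dMid^n · y₁` (helper83's certificate shape) lies in `O_∞`. -/
theorem cert_mem_OInf3 (h : BadSetup (W0 A) (resW0 A) M' q)
    (hy₁ : (y₁ : LaurentSeries (inertiaField A)) = Units.u1 (inertiaField A) q)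
    (hy₂ : (y₂ : LaurentSeries (inertiaField A)) = Units.u2 (inertiaField A) q)
    {x : laurentBaseChange (inertiaField A) (modularFunctionFieldFull (M' * q * q))} {n : ℕ}
    (hx : x * y₂ = dMid A M' q ^ n * y₁) : x ∈ OInf3 h := by
  rw [dMid_eq_dGen] at hx
  exact mem_OInf3_of_mul_y h hy₁ hy₂ hx

/-- Every `x` with `x · y₂ = dMid^n · y₁` (helper83's certificate shape) lies in `O_0`. -/
theorem cert_mem_OZero3 (h : BadSetup (W0 A) (resW0 A) M' q) (hw : IsAL3 M' q w)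
    (hy₁ : (y₁ : LaurentSeries (inertiaField A)) = Units.u1 (inertiaField A) q)
    (hy₂ : (y₂ : LaurentSeries (inertiaField A)) = Units.u2 (inertiaField A) q)
    {x : laurentBaseChange (inertiaField A) (modularFunctionFieldFull (M' * q * q))} {n : ℕ}
    (hx : x * y₂ = dMid A M' q ^ n * y₁) : x ∈ OZero3 h w := by
  rw [dMid_eq_dGen] at hx
  exact mem_OZero3_of_mul_y h hw hy₁ hy₂ hx

omit [NeZero M'] in
theorem u2_ne_zero_of_coe
    (hy₂ : (y₂ : LaurentSeries (inertiaField A)) = Units.u2 (inertiaField A) q) : y₂ ≠ 0 := by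
  rintro rfl
  exact UnitCert.u2_ne_zero q (inertiaField A) hy₂.symm

/-- **`h = dMid^(12(q-1)) · y₁ / y₂ ∈ O_∞`.** -/
theorem hMid_mem_OInf3 (h : BadSetup (W0 A) (resW0 A) M' q)
    (hy₁ : (y₁ : LaurentSeries (inertiaField A)) = Units.u1 (inertiaField A) q)
    (hy₂ : (y₂ : LaurentSeries (inertiaField A)) = Units.u2 (inertiaField A) q) :
    dMid A M' q ^ (12 * (q - 1)) * y₁ / y₂ ∈ OInf3 h :=
  cert_mem_OInf3 h hy₁ hy₂ (div_mul_cancel₀ _ (u2_ne_zero_of_coe hy₂))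

/-- **`h = dMid^(12(q-1)) · y₁ / y₂ ∈ O_0`.** -/
theorem hMid_mem_OZero3 (h : BadSetup (W0 A) (resW0 A) M' q) (hw : IsAL3 M' q w)
    (hy₁ : (y₁ : LaurentSeries (inertiaField A)) = Units.u1 (inertiaField A) q)
    (hy₂ : (y₂ : LaurentSeries (inertiaField A)) = Units.u2 (inertiaField A) q) :
    dMid A M' q ^ (12 * (q - 1)) * y₁ / y₂ ∈ OZero3 h w :=
  cert_mem_OZero3 h hw hy₁ hy₂ (div_mul_cancel₀ _ (u2_ne_zero_of_coe hy₂))

end K0

end Fermat.Agent.CAR.V3.UnitsZeroH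

end
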