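/-
CAR / V3-Count: transitivity of `Family` in a tower `K ⊆ F₁ ⊆ F`.

If `O₁` is the ONLY valuation subring of `F₁` above `O` (unramified, residue degree `n₁`,
`[F₁ : K] ≤ n₁`) and `V` is a counted family of `F/F₁` above `O₁`, then `V` is a counted family of
`F/K` above `O` with the same ramification indices and residue degrees `n₁ * f i`.
-/
import Mathlib
import Fermat.Agent.CAR.V3.CountAbs

set_option autoImplicit false

namespace Fermat.Agent.CAR.V3.CountAbs

open Fermat.Agent.CAR.Formal (IsUnif)

/-- **Tower.** -/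
theorem Family.tower {K F1 F : Type*} [Field K] [Field F1] [Field F] [Algebra K F1]
    [Algebra F1 F] [Algebra K F] [IsScalarTower K F1 F] [FiniteDimensional K F1]
    [Algebra.IsSeparable K F1] {O : ValuationSubring K} {ϖ : K} {O1 : ValuationSubring F1}
    {n1 : ℕ} (h1 : Family O ϖ (fun _ : Unit => O1) (fun _ => 1) (fun _ => n1))
    {ι : Type*} [Fintype ι] {V : ι → ValuationSubring F} {e f : ι → ℕ}
    (h2 : Family O1 (algebraMap K F1 ϖ) V e f) :
    Family O ϖ V e (fun i => n1 * f i) where
  unif := h1.unif
  above := fun i x => by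
    rw [IsScalarTower.algebraMap_apply K F1 F, h2.above i, h1.above ()]
  inj := h2.inj
  ram := fun i => by
    obtain ⟨d, c, hd, hc, hdc⟩ := h2.ram i
    exact ⟨d, c, hd, hc, by rw [IsScalarTower.algebraMap_apply K F1 F]; exact hdc⟩
  res := fun i => by
    obtain ⟨b1, hb1, hind1⟩ := h1.res ()
    obtain ⟨b2, hb2, hind2⟩ := h2.res i
    refine ⟨fun t => algebraMap F1 F (b1 (finProdFinEquiv.symm t).1) *
      b2 (finProdFinEquiv.symm t).2, ?_, ?_⟩
    · intro t
      exact (V i).mul_mem _ _ ((h2.above i _).mpr (hb1 _)) (hb2 _)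
    · intro c hc hsum t
      have hre : ∑ t, algebraMap K F (c t) * (algebraMap F1 F (b1 (finProdFinEquiv.symm t).1) *
          b2 (finProdFinEquiv.symm t).2) =
          ∑ a, algebraMap F1 F (∑ j, algebraMap K F1 (c (finProdFinEquiv (j, a))) * b1 j) *
            b2 a := by
        rw [← finProdFinEquiv.sum_comp, Fintype.sum_prod_type_right]
        refine Finset.sum_congr rfl fun a _ => ?_
        rw [map_sum, Finset.sum_mul]
        refine Finset.sum_congr rfl fun j _ => ?_
        rw [Equiv.symm_apply_apply, map_mul, ← IsScalarTower.algebraMap_apply K F1 F]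
        ring
      have hC : ∀ a, ∑ j, algebraMap K F1 (c (finProdFinEquiv (j, a))) * b1 j ∈ O1 := fun a =>
        Subring.sum_mem O1.toSubring fun j _ =>
          O1.mul_mem _ _ ((h1.above () _).mpr (hc _)) (hb1 j)
      rw [hre] at hsum
      have h3 := hind2 _ hC hsum (finProdFinEquiv.symm t).2
      have h4 := hind1 (fun j => c (finProdFinEquiv (j, (finProdFinEquiv.symm t).2)))
        (fun j => hc _) h3 (finProdFinEquiv.symm t).1
      have ht : finProdFinEquiv ((finProdFinEquiv.symm t).1, (finProdFinEquiv.symm t).2) = t := by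
        rw [Prod.mk.eta, Equiv.apply_symm_apply]
      have h5 : c (finProdFinEquiv ((finProdFinEquiv.symm t).1, (finProdFinEquiv.symm t).2)) ∈
          O.nonunits := h4
      rwa [ht] at h5
  deg := by
    have e1 := h1.finrank_eq
    have e2 := h2.deg
    rw [Finset.univ_unique, Finset.sum_singleton, one_mul] at e1
    rw [← Module.finrank_mul_finrank K F1 F, e1]
    calc n1 * Module.finrank F1 F ≤ n1 * ∑ i, e i * f i := Nat.mul_le_mul_left _ e2
      _ = ∑ i, e i * (n1 * f i) := by
        rw [Finset.mul_sum]
        exact Finset.sum_congr rfl fun i _ => by ring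

end Fermat.Agent.CAR.V3.CountAbs
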