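import Fermat.Agent.CAR.V3.MidCusp
import Fermat.Agent.CAR.V3.MidSeries
import Fermat.Agent.CAR.V3.GaussDVR
import Fermat.Agent.CAR.Local.ThetaChain
import Fermat.Agent.CAR.K0.Zeta
import Fermat.Agent.PT.G.KumDVR
import Fermat.Agent.BAD.TwoVal.Semilocal
import Fermat.Agent.ESJ.Dict.Bc

/-!
# CAR (V3-Mid): the middle valuation ring of `F_{M' q²}`

`K ⊆ ℚ̄` a field unramified at the valuation ring `A` of `ℚ̄` (over `q`), `π : A →+* k` the
residue map, `w` a primitive `q`-th root of unity, `q ∤ M'`.  On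
`F = F_{M' q²}(K) = laurentBaseChange K (modularFunctionFieldFull (M' * q * q))`:

* `iotaMid h : F →+* ℚ̄((q))`, the expansion at the middle cusp (`MidCusp.exists_midCusp` composed
  with the base change `K ⊆ ℚ̄`): the identity on `α F_{M' q}` and `y(q^{q²}) ↦ y(w q)` on
  `β β F_{M'}`;
* `OMid3 h : ValuationSubring F`, `f ∈ OMid3 h ↔ iotaMid h f ∈ gaussRing A π`;
* `redMid3L h : OMid3 h →+* k((q))` its residue map (`LaurentSeries`-valued; the `κ`-valued
  version `redMid3` is in `MidKappa.lean`), kernel = non-units;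
* the three pull-backs `π_0^* = α α`, `π_1^* = α β`, `π_2^* = β β` of `F_{M'}`: reductions
  `red`, `Frob ∘ red`, `red`;
* (C1): `ι_mid (π_2^* y - π_0^* y) = (w - 1) · z`, `red z = θ (red y)`;
  `(π_2^* y - π_0^* y)^{q-1} = q · t`, `red t = - (θ (red y))^{q-1}`;
* `dMid = J(q^{q²}) - J(q)` is a uniformiser of `OMid3`.
-/

set_option autoImplicit false
set_option linter.unusedSectionVars false

namespace Fermat.Agent.CAR.V3

open ModularCurve HahnSeries Fermat.Agent.Lib.Red Fermat.Agent.S28 Fermat.Agent.S28.Chain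
open Fermat.Agent.BAD.TwoVal Fermat.Agent.CAR.Local.ThetaJ Fermat.Agent.CAR.V3.GaussDVR
open Fermat.Agent.S24 Fermat.Agent.ESJ.Jac

local notation "Qb" => AlgebraicClosure ℚ

noncomputable section

variable (K : IntermediateField ℚ Qb) (A : ValuationSubring Qb) {k : Type} [Field k] (π : A →+* k)
  (M' q : ℕ) [NeZero M'] [NeZero q] (w : Qbˣ)

/-- Standing hypotheses of the middle-cusp layer: `q` a prime with `q ∤ M'`; `π` kills the
non-units of `A`; `q = 0` and `M' ≠ 0` in `k`; `w` a primitive `q`-th root of unity; `K` is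
unramified at `A` (value group `v(q)^ℤ`). -/
structure MidSetup : Prop where
  hq : q.Prime
  hqM : ¬ q ∣ M'
  hπ : ∀ a : A, ¬ IsUnit a → π a = 0
  hqk : (q : k) = 0
  hMk : (M' : k) ≠ 0
  hw : w ^ q = 1
  hw1 : w ≠ 1
  hunr : ∀ x : Qb, x ∈ K → x ≠ 0 → ∃ n : ℤ, A.valuation x = A.valuation (q : Qb) ^ n

/-- The valuation ring `A ∩ K` of `K`. -/
abbrev midAK : ValuationSubring K := A.comap (algebraMap K Qb)

/-- The inclusion `A ∩ K → A`. -/
def midIncl : midAK K A →+* A where
  toFun x := ⟨algebraMap K Qb (x : K), x.2⟩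
  map_one' := Subtype.ext (by simp)
  map_mul' a b := Subtype.ext (by simp)
  map_zero' := Subtype.ext (by simp)
  map_add' a b := Subtype.ext (by simp)

theorem coe_midIncl (x : midAK K A) : ((midIncl K A x : A) : Qb) = ((x : K) : Qb) := rfl

/-- The residue map of `A ∩ K`. -/
def midPi : midAK K A →+* k := π.comp (midIncl K A)

theorem midPi_apply (x : midAK K A) : midPi K A π x = π (midIncl K A x) := rfl

variable {K A π M' q w}

/-! ### Consequences of the standing hypotheses -/

theorem MidSetup.charP (h : MidSetup K A π M' q w) : CharP k q :=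
  (CharP.charP_iff_prime_eq_zero h.hq).mpr h.hqk

theorem MidSetup.isPrimitiveRoot (h : MidSetup K A π M' q w) : IsPrimitiveRoot (w : Qb) q := by
  have : Fact q.Prime := ⟨h.hq⟩
  have h1 : orderOf w = q := orderOf_eq_prime h.hw h.hw1
  have h2 : IsPrimitiveRoot w q := h1 ▸ IsPrimitiveRoot.orderOf w
  exact IsPrimitiveRoot.coe_units_iff.mpr h2

theorem MidSetup.valuation_q_lt_one (h : MidSetup K A π M' q w) : A.valuation (q : Qb) < 1 := by
  have hqA : (q : Qb) ∈ A := natCast_mem A q
  have h1 : π ⟨(q : Qb), hqA⟩ = 0 := by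
    have : (⟨(q : Qb), hqA⟩ : A) = ((q : ℕ) : A) := Subtype.ext (by simp)
    rw [this, map_natCast]
    exact h.hqk
  have h2 : ¬ IsUnit (⟨(q : Qb), hqA⟩ : A) := fun hu => (hu.map π).ne_zero h1
  have h3 := A.valuation_le_one ⟨(q : Qb), hqA⟩
  exact lt_of_le_of_ne h3 (fun h4 => h2 ((A.valuation_eq_one_iff _).mpr h4))

theorem MidSetup.q_ne_zero (h : MidSetup K A π M' q w) : (q : Qb) ≠ 0 :=
  Nat.cast_ne_zero.mpr h.hq.ne_zero

/-- The base `(K, A ∩ K, π)` satisfies the standing hypotheses of BAD's two-valuation layer at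
level `M'`. -/
theorem MidSetup.badSetup (h : MidSetup K A π M' q w) :
    BadSetup (midAK K A) (midPi K A π) M' q where
  hπ := by
    intro a ha
    apply h.hπ
    intro hu
    apply ha
    rw [Fermat.Agent.PT.Kummer.isUnit_comap_iff]
    exact (A.valuation_eq_one_iff _).mp hu
  hrank := by
    intro d e hd he
    by_cases hd0 : d = 0
    · exact ⟨1, by rw [hd0, pow_one]; exact dvd_zero e⟩
    have hd0' : ((d : K) : Qb) ≠ 0 := fun h0 => hd0 (Subtype.ext (Subtype.ext h0))
    have he0' : ((e : K) : Qb) ≠ 0 := fun h0 => he (Subtype.ext (Subtype.ext h0))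
    obtain ⟨i, hi⟩ := h.hunr _ (d : K).2 hd0'
    obtain ⟨j, hj⟩ := h.hunr _ (e : K).2 he0'
    have hvq := h.valuation_q_lt_one
    have hvq0 : 0 < A.valuation (q : Qb) := zero_lt_iff.mpr ((Valuation.ne_zero_iff _).mpr h.q_ne_zero)
    have hdle : A.valuation ((d : K) : Qb) ≤ 1 := (A.valuation_le_one_iff _).mpr d.2
    have hele : A.valuation ((e : K) : Qb) ≤ 1 := (A.valuation_le_one_iff _).mpr e.2
    have hi1 : 1 ≤ i := by
      by_contra hcon
      have hi0 : i ≤ 0 := by omega
      apply hd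
      rw [Fermat.Agent.PT.Kummer.isUnit_comap_iff]
      refine le_antisymm hdle ?_
      show 1 ≤ A.valuation ((d : K) : Qb)
      rw [hi]
      exact one_le_zpow_of_nonpos₀ hvq0 hvq.le hi0
    have hj0 : 0 ≤ j := by
      by_contra hcon
      have hj1 : j < 0 := by omega
      have : 1 < A.valuation ((e : K) : Qb) := by
        rw [hj]
        exact one_lt_zpow_of_neg₀ hvq0 hvq hj1
      exact absurd hele (not_le.mpr this)
    refine ⟨j.toNat, Fermat.Agent.PT.Kummer.dvd_comap_of_valuation_le A e (d ^ j.toNat) he ?_⟩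
    have hpow : algebraMap K Qb (((d ^ j.toNat : midAK K A)) : K)
        = (algebraMap K Qb (d : K)) ^ j.toNat := by
      push_cast
      rfl
    rw [hpow, map_pow]
    show A.valuation ((d : K) : Qb) ^ j.toNat ≤ A.valuation ((e : K) : Qb)
    rw [hi, hj, ← zpow_natCast, ← zpow_mul, Int.toNat_of_nonneg hj0]
    apply zpow_le_zpow_right_of_le_one₀ hvq0 hvq.le
    nlinarith
  hℓ := h.hq
  hℓk := h.hqk
  hMk := h.hMk

/-! ### (Mid-1) the middle-cusp expansion -/

/-- The middle-cusp expansion of `F_{M' q²}(K)`. -/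
def iotaMid (h : MidSetup K A π M' q w) :
    laurentBaseChange K (modularFunctionFieldFull (M' * q * q)) →+* LaurentSeries Qb :=
  (Classical.choose (exists_midCusp M' q h.hq h.hqM w h.hw h.hw1)).comp
    (Fermat.Agent.ESJ.Dict.Bc.bcK (algebraMap K Qb) (modularFunctionFieldFull (M' * q * q)))

theorem iotaMid_apply (h : MidSetup K A π M' q w)
    (f : laurentBaseChange K (modularFunctionFieldFull (M' * q * q))) :
    iotaMid h f = Classical.choose (exists_midCusp M' q h.hq h.hqM w h.hw h.hw1)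
      (Fermat.Agent.ESJ.Dict.Bc.bcK (algebraMap K Qb) (modularFunctionFieldFull (M' * q * q)) f) :=
  rfl

theorem bcK_heckeAlphaBar (N ℓ : ℕ) [NeZero N] [NeZero ℓ]
    (x : laurentBaseChange K (modularFunctionFieldFull N)) :
    Fermat.Agent.ESJ.Dict.Bc.bcK (algebraMap K Qb) (modularFunctionFieldFull (N * ℓ))
        (heckeAlphaBar K N ℓ x)
      = heckeAlphaBar Qb N ℓ
          (Fermat.Agent.ESJ.Dict.Bc.bcK (algebraMap K Qb) (modularFunctionFieldFull N) x) := by
  apply Subtype.ext
  rw [Fermat.Agent.ESJ.Dict.Bc.coe_bcK, coe_heckeAlphaBar, coe_heckeAlphaBar,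
    Fermat.Agent.ESJ.Dict.Bc.coe_bcK]

theorem bcK_heckeBetaBar (N ℓ : ℕ) [NeZero N] [NeZero ℓ]
    (x : laurentBaseChange K (modularFunctionFieldFull N)) :
    Fermat.Agent.ESJ.Dict.Bc.bcK (algebraMap K Qb) (modularFunctionFieldFull (N * ℓ))
        (heckeBetaBar K N ℓ x)
      = heckeBetaBar Qb N ℓ
          (Fermat.Agent.ESJ.Dict.Bc.bcK (algebraMap K Qb) (modularFunctionFieldFull N) x) := by
  apply Subtype.ext
  rw [Fermat.Agent.ESJ.Dict.Bc.coe_bcK, coe_heckeBetaBar, coe_heckeBetaBar,
    Fermat.Agent.ESJ.Dict.Bc.coe_bcK, coeffMap_qExpand]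

/-- `ι_mid ∘ α` is the coefficient embedding. -/
theorem iotaMid_alpha (h : MidSetup K A π M' q w)
    (x : laurentBaseChange K (modularFunctionFieldFull (M' * q))) :
    iotaMid h (heckeAlphaBar K (M' * q) q x)
      = coeffMap (algebraMap K Qb) (x : LaurentSeries K) := by
  rw [iotaMid_apply, bcK_heckeAlphaBar,
    (Classical.choose_spec (exists_midCusp M' q h.hq h.hqM w h.hw h.hw1)).2.1,
    Fermat.Agent.ESJ.Dict.Bc.coe_bcK]

/-- `ι_mid ∘ β ∘ β` is the coefficient embedding followed by the twist `q ↦ w q`. -/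
theorem iotaMid_beta_beta (h : MidSetup K A π M' q w)
    (y : laurentBaseChange K (modularFunctionFieldFull M')) :
    iotaMid h (heckeBetaBar K (M' * q) q (heckeBetaBar K M' q y))
      = rot w (coeffMap (algebraMap K Qb) (y : LaurentSeries K)) := by
  rw [iotaMid_apply, bcK_heckeBetaBar, bcK_heckeBetaBar,
    (Classical.choose_spec (exists_midCusp M' q h.hq h.hqM w h.hw h.hw1)).2.2,
    Fermat.Agent.ESJ.Dict.Bc.coe_bcK]

theorem iotaMid_alpha_alpha (h : MidSetup K A π M' q w)
    (y : laurentBaseChange K (modularFunctionFieldFull M')) :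
    iotaMid h (heckeAlphaBar K (M' * q) q (heckeAlphaBar K M' q y))
      = coeffMap (algebraMap K Qb) (y : LaurentSeries K) := by
  rw [iotaMid_alpha, coe_heckeAlphaBar]

theorem iotaMid_alpha_beta (h : MidSetup K A π M' q w)
    (y : laurentBaseChange K (modularFunctionFieldFull M')) :
    iotaMid h (heckeAlphaBar K (M' * q) q (heckeBetaBar K M' q y))
      = qExpand Qb q (coeffMap (algebraMap K Qb) (y : LaurentSeries K)) := by
  rw [iotaMid_alpha, coe_heckeBetaBar, coeffMap_qExpand]

theorem iotaMid_algebraMap (h : MidSetup K A π M' q w) (c : K) :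
    iotaMid h (algebraMap K _ c) = HahnSeries.C (algebraMap K Qb c) := by
  have h1 : algebraMap K (laurentBaseChange K (modularFunctionFieldFull (M' * q * q))) c
      = heckeAlphaBar K (M' * q) q (algebraMap K _ c) := ((heckeAlphaBar K (M' * q) q).commutes c).symm
  rw [h1, iotaMid_alpha]
  show coeffMap (algebraMap K Qb) (algebraMap K (LaurentSeries K) c) = _
  rw [Fermat.Agent.ESJ.Dict.Bc.coeffMap_algebraMap_of_ringHom,
    Fermat.Agent.Lib.Red.C_eq_algebraMap]

/-! ### The coefficient field `K(w)` and its uniformiser `w - 1` -/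

/-- The field `K(w)` of coefficients of the middle-cusp expansions. -/
def midField (K : IntermediateField ℚ Qb) (w : Qbˣ) : Subfield Qb :=
  (IntermediateField.adjoin K {(w : Qb)}).toSubfield

theorem mem_midField_of_mem {x : Qb} (hx : x ∈ K) : x ∈ midField K w := by
  show x ∈ IntermediateField.adjoin K {(w : Qb)}
  exact IntermediateField.algebraMap_mem _ (⟨x, hx⟩ : K)

theorem unit_mem_midField : (w : Qb) ∈ midField K w :=
  IntermediateField.mem_adjoin_simple_self K (w : Qb)

theorem MidSetup.valuation_sub_one (_h : MidSetup K A π M' q w) :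
    A.valuation ((w : Qb) - 1) = A.valuation (1 - (w : Qb)) := by
  rw [← neg_sub, Valuation.map_neg]

theorem MidSetup.valuation_sub_one_pow (h : MidSetup K A π M' q w) :
    A.valuation ((w : Qb) - 1) ^ (q - 1) = A.valuation (q : Qb) := by
  rw [h.valuation_sub_one]
  exact Fermat.Agent.CAR.K0.valuation_one_sub_zeta_pow A h.hq h.isPrimitiveRoot

theorem MidSetup.valuation_sub_one_lt_one (h : MidSetup K A π M' q w) :
    A.valuation ((w : Qb) - 1) < 1 := by
  by_contra hcon
  rw [not_lt] at hcon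
  have := one_le_pow₀ (n := q - 1) hcon
  rw [h.valuation_sub_one_pow] at this
  exact absurd h.valuation_q_lt_one (not_lt.mpr this)

theorem MidSetup.sub_one_ne_zero (h : MidSetup K A π M' q w) : (w : Qb) - 1 ≠ 0 :=
  sub_ne_zero.mpr (fun h1 => h.hw1 (Units.ext h1))

/-- `w - 1` is a uniformiser of `A` on `K(w)`. -/
theorem MidSetup.isUnifOn (h : MidSetup K A π M' q w) :
    IsUnifOn A (midField K w) ((w : Qb) - 1) where
  mem := sub_mem unit_mem_midField (one_mem _)
  ne_zero := h.sub_one_ne_zero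
  lt_one := h.valuation_sub_one_lt_one
  exists_zpow := by
    intro x hx hx0
    have hx' : x ∈ IntermediateField.adjoin K {(w : Qb)} := hx
    obtain ⟨c, rfl⟩ :=
      Fermat.Agent.CAR.K0.exists_sum_pow_of_mem_adjoin K h.hq h.isPrimitiveRoot hx'
    have h1 : (1 : Qb) - (w : Qb) ≠ 0 := sub_ne_zero.mpr (fun h1 => h.hw1 (Units.ext h1.symm))
    have h2 : A.valuation (1 - (w : Qb)) < 1 := by
      rw [← h.valuation_sub_one]; exact h.valuation_sub_one_lt_one
    rw [h.valuation_sub_one]
    refine Fermat.Agent.CAR.K0.exists_zpow_valuation_sum A h1 h2 (q - 1)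
      (fun j => (c j : Qb)) ?_ ?_
    · intro j hj
      obtain ⟨n, hn⟩ := h.hunr _ (c j).2 hj
      refine ⟨n, ?_⟩
      rw [hn, zpow_mul, zpow_natCast, ← h.valuation_sub_one, h.valuation_sub_one_pow]
    · by_contra hne
      push Not at hne
      apply hx0
      refine Finset.sum_eq_zero fun j hj => ?_
      rw [hne j (Finset.mem_range.mp hj), zero_mul]

/-- `q` is a uniformiser of `A` on `K`. -/
theorem MidSetup.isUnifOn_base (h : MidSetup K A π M' q w) :
    IsUnifOn A K.toSubfield (q : Qb) where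
  mem := natCast_mem K q
  ne_zero := h.q_ne_zero
  lt_one := h.valuation_q_lt_one
  exists_zpow := fun x hx hx0 => h.hunr x hx hx0

theorem MidSetup.unit_mem (h : MidSetup K A π M' q w) (n : ℤ) : ((w ^ n : Qbˣ) : Qb) ∈ A := by
  rw [← A.valuation_le_one_iff, Units.val_zpow_eq_zpow_val, map_zpow₀,
    Fermat.Agent.CAR.K0.valuation_eq_one_of_pow_eq_one A h.hq.pos
      (show (w : Qb) ^ q = 1 by rw [← Units.val_pow_eq_pow_val, h.hw, Units.val_one]), one_zpow]

/-- The series `serMid q w d` has coefficients in `K(w) ∩ A`. -/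
theorem MidSetup.serMid_mem_intRat (h : MidSetup K A π M' q w) (d : ℕ) :
    serMid q w d ∈ intRat A (midField K w) := by
  have hJ : ∀ n : ℕ, ∀ i : ℤ, (TD.Jd Qb n).coeff i ∈ midField K w ∧ (TD.Jd Qb n).coeff i ∈ A := by
    intro n i
    have e : TD.Jd Qb n = coeffMap (Int.castRingHom Qb) (TD.Jd ℤ n) := (TD.coeffMap_Jd _ n).symm
    rw [e]
    show ((Int.castRingHom Qb) ((TD.Jd ℤ n).coeff i)) ∈ midField K w ∧
      ((Int.castRingHom Qb) ((TD.Jd ℤ n).coeff i)) ∈ A
    rw [eq_intCast]
    exact ⟨intCast_mem _ _, intCast_mem A _⟩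
  unfold serMid
  split_ifs with hdvd
  · intro i
    rw [rot_coeff]
    exact ⟨mul_mem (zpow_mem unit_mem_midField i |> fun hh => by
        rwa [← Units.val_zpow_eq_zpow_val] at hh) (hJ _ i).1,
      mul_mem (h.unit_mem i) (hJ _ i).2⟩
  · exact fun i => hJ d i

/-! ### The image of `ι_mid` lies in `fracRat` -/

theorem iotaMid_jFormalK (h : MidSetup K A π M' q w) (d : Dv (M' * q * q)) :
    iotaMid h (jFormalK K (M' * q * q) d) = serMid q w d.1 := by
  have h1 : Fermat.Agent.ESJ.Dict.Bc.bcK (algebraMap K Qb) (modularFunctionFieldFull (M' * q * q))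
      (jFormalK K (M' * q * q) d) = fm (M' * q * q) (MvPolynomial.X d) := by
    have e : fm (M' * q * q) (MvPolynomial.X d) = jFormal (M' * q * q) d := by
      unfold fm
      rw [MvPolynomial.aeval_X]
    rw [e]
    exact Subtype.ext (Fermat.Agent.ESJ.Dict.Bc.coeffMap_coeffEmb_of_ringHom (algebraMap K Qb) _)
  rw [iotaMid_apply, h1, (Classical.choose_spec (exists_midCusp M' q h.hq h.hqM w h.hw h.hw1)).1,
    MvPolynomial.aeval_X]

theorem iotaMid_fmK_mem_fracRat (h : MidSetup K A π M' q w)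
    (P : MvPolynomial (Dv (M' * q * q)) K) :
    iotaMid h (fmK K (M' * q * q) P) ∈ fracRat A (midField K w) := by
  induction P using MvPolynomial.induction_on with
  | C c =>
    have e : fmK K (M' * q * q) (MvPolynomial.C c) = algebraMap K _ c := by
      unfold fmK
      rw [MvPolynomial.aeval_C]
    rw [e, iotaMid_algebraMap]
    exact C_mem_fracRat A (mem_midField_of_mem c.2)
  | add p p' hp hp' =>
    rw [map_add, map_add]
    exact add_mem hp hp'
  | mul_X p i hp =>
    have e : fmK K (M' * q * q) (MvPolynomial.X i) = jFormalK K (M' * q * q) i := by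
      unfold fmK
      rw [MvPolynomial.aeval_X]
    rw [map_mul, map_mul, e, iotaMid_jFormalK]
    exact mul_mem hp (intRat_le_fracRat A (h.serMid_mem_intRat i.1))

/-- The middle-cusp expansions are quotients of `K(w) ∩ A`-integral series. -/
theorem iotaMid_mem_fracRat (h : MidSetup K A π M' q w)
    (f : laurentBaseChange K (modularFunctionFieldFull (M' * q * q))) :
    iotaMid h f ∈ fracRat A (midField K w) := by
  obtain ⟨P, Q, -, rfl⟩ := Fermat.Agent.ESJ.Dict.Bc.exists_isRepK (M' * q * q) f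
  rw [map_div₀]
  exact div_mem (iotaMid_fmK_mem_fracRat h P) (iotaMid_fmK_mem_fracRat h Q)

theorem iotaMid_mem_or_inv_mem (h : MidSetup K A π M' q w)
    (f : laurentBaseChange K (modularFunctionFieldFull (M' * q * q))) :
    iotaMid h f ∈ gaussRing A π ∨ (iotaMid h f)⁻¹ ∈ gaussRing A π :=
  h.isUnifOn.mem_or_inv_mem π (iotaMid_mem_fracRat h f)

/-! ### (Mid-2) the middle valuation ring -/

/-- **The middle valuation ring** `O_mid` of `F_{M' q²}(K)`. -/
def OMid3 (h : MidSetup K A π M' q w) :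
    ValuationSubring (laurentBaseChange K (modularFunctionFieldFull (M' * q * q))) :=
  vsOfEmb (iotaMid h) (iotaMid_mem_or_inv_mem h)

theorem mem_OMid3_iff (h : MidSetup K A π M' q w)
    (f : laurentBaseChange K (modularFunctionFieldFull (M' * q * q))) :
    f ∈ OMid3 h ↔ iotaMid h f ∈ gaussRing A π := Iff.rfl

/-- The residue map of `O_mid`, with values in `k((q))`. -/
def redMid3L (h : MidSetup K A π M' q w) : OMid3 h →+* LaurentSeries k :=
  redOfEmb (iotaMid h) (iotaMid_mem_or_inv_mem h)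

theorem redMid3L_apply (h : MidSetup K A π M' q w)
    (f : laurentBaseChange K (modularFunctionFieldFull (M' * q * q))) (hf : f ∈ OMid3 h) :
    redMid3L h ⟨f, hf⟩ = red A π ⟨iotaMid h f, hf⟩ := rfl

theorem redMid3L_congr (h : MidSetup K A π M' q w)
    {f g : laurentBaseChange K (modularFunctionFieldFull (M' * q * q))} (e : f = g)
    (hf : f ∈ OMid3 h) (hg : g ∈ OMid3 h) : redMid3L h ⟨f, hf⟩ = redMid3L h ⟨g, hg⟩ := by
  subst e
  rfl

/-- The kernel of the residue map is the set of non-units. -/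
theorem redMid3L_eq_zero_iff (h : MidSetup K A π M' q w) (f : OMid3 h) :
    redMid3L h f = 0 ↔ ¬ IsUnit f :=
  redOfEmb_eq_zero_iff (iotaMid h) (iotaMid_mem_or_inv_mem h) f

theorem mem_nonunits_OMid3_iff (h : MidSetup K A π M' q w)
    (f : laurentBaseChange K (modularFunctionFieldFull (M' * q * q))) :
    f ∈ (OMid3 h).nonunits ↔ ∃ hf : f ∈ OMid3 h, redMid3L h ⟨f, hf⟩ = 0 := by
  rw [ValuationSubring.mem_nonunits_iff_exists_mem_maximalIdeal]
  constructor
  · rintro ⟨hf, hm⟩
    exact ⟨hf, (redMid3L_eq_zero_iff h ⟨f, hf⟩).mpr hm⟩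
  · rintro ⟨hf, hm⟩
    exact ⟨hf, (redMid3L_eq_zero_iff h ⟨f, hf⟩).mp hm⟩

end

end Fermat.Agent.CAR.V3
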