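import Mathlib
import Fermat.Agent.CAR.V3.MidOrd
import Fermat.Agent.CAR.V3.RestrictZero

/-!
# CAR (V3): the valuation-layer binders of `NodeTriple.triple_ratio_pow_of_red` at `K0`

Literal shapes of the hypotheses of `Glue.NodeTriple.triple_ratio_pow_of_red` (and of
`triple_ratio_pow`) which belong to the valuation layer, for

  `FN = K0·F_{M'q}`, `F = K0·F_{M'q²}`, `Φα = alphaStar K0 M' q`, `Φβ = betaStar K0 M' q`,
  `vinf = OInf h`, `vzero = OZero h W`, `tinf = tzero = q`,
  `winf = OInf3 h`, `wmid = OMid`, `wzero = OZero3 h w`, `πinf = πzero = q`, `πmid = dMid`,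
  `ρinf = redInf3 h`, `ρzero = redZero3 h w`, `rinf = redInf h`, `rzero = redZero h W`,
  `ρmid` ANY `κ`-valued ring hom on `O_mid` whose coercion to `k((q))` is `redMid`.

* generic base `(L, A, π)`: `ord_alpha_inf` (`hαe₁`), `ord_beta_zero` (`hβe₁`),
  `compat_alpha_inf` (`hcαinf`), `compat_beta_zero` (`hcβzero`), the kernels `ker_redInf3`,
  `ker_redZero3`, `ker_redInf`, `ker_redZero` (`hρinf`, `hρzero`, `hrinf`, `hrzero`), the comap
  lines `comap_alpha_zero`, `comap_beta_zero` for `OZero3`;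
* base `(K0, W0, resW0)`: `ord_alpha_mid`, `ord_beta_mid` (`hαe₂`, `hβe₂`, with `q = n + 1`),
  `OInf3_ne_OMid` (`hne₁`), `OZero3_ne_OMid` (`hne₂`), `compat_alpha_mid` (`hcαmid`),
  `compat_beta_mid` (`hcβmid`), `ker_mid` (`hρmid`).
-/

set_option autoImplicit false
set_option linter.unusedSectionVars false
set_option linter.style.haveILetI false

noncomputable section

namespace Fermat.Agent.CAR.V3.MidCompat

open ModularCurve HahnSeries Fermat.Agent.S24 Fermat.Agent.S28 Fermat.Agent.S28.Chain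
  Fermat.Agent.Lib.Red Fermat.Agent.CAR.K0 Fermat.Agent.CAR.V3.GaussDVR
  Fermat.Agent.CAR.V3.MidRing Fermat.Agent.BAD.TwoVal Fermat.Agent.ESJ.Cong.LevelGen
  Fermat.Agent.CAR.V3.RestrictNF Fermat.Agent.CAR.Formal Fermat.Agent.CAR.V3.MidRestrict
  Fermat.Agent.CAR.V3.Restrict Fermat.Agent.CAR.V3.RestrictZero Fermat.Agent.CAR.V3.MidOrd

local notation "Qb" => AlgebraicClosure ℚ

/-! ### Generic base `(L, A, π)`: the `∞`/`0` lines -/

section Gen

variable {L : Type} [Field L] [Algebra ℚ L] {A : ValuationSubring L} {k : Type} [Field k]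
  {π : A →+* k} {M' q : ℕ} [NeZero M'] [NeZero q]
  {W : laurentBaseChange L (modularFunctionFieldFull (M' * q)) ≃ₐ[L]
    laurentBaseChange L (modularFunctionFieldFull (M' * q))}
  {w : laurentBaseChange L (modularFunctionFieldFull (M' * q * q)) ≃ₐ[L]
    laurentBaseChange L (modularFunctionFieldFull (M' * q * q))}

/-- **`hαe₁`**: `ord_∞³ (α^* q) = 1`, for any proof that `q` is a uniformiser of `O_∞³`. -/
theorem ord_alpha_inf (h : BadSetup A π M' q)
    (hinf : IsUnif (OInf3 h)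
      ((q : ℕ) : ↥(laurentBaseChange L (modularFunctionFieldFull (M' * q * q))))) :
    hinf.ord (alphaStar L M' q
      ((q : ℕ) : ↥(laurentBaseChange L (modularFunctionFieldFull (M' * q))))) = 1 := by
  rw [αϖ]
  exact hinf.ord_self

/-- `ord_∞³ (β^* q) = 1`. -/
theorem ord_beta_inf (h : BadSetup A π M' q)
    (hinf : IsUnif (OInf3 h)
      ((q : ℕ) : ↥(laurentBaseChange L (modularFunctionFieldFull (M' * q * q))))) :
    hinf.ord (betaStar L M' q
      ((q : ℕ) : ↥(laurentBaseChange L (modularFunctionFieldFull (M' * q))))) = 1 := by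
  rw [βϖ]
  exact hinf.ord_self

/-- **`hβe₁`**: `ord_0³ (β^* q) = 1`, for any proof that `q` is a uniformiser of `O_0³`. -/
theorem ord_beta_zero (h : BadSetup A π M' q)
    (hzero : IsUnif (OZero3 h w)
      ((q : ℕ) : ↥(laurentBaseChange L (modularFunctionFieldFull (M' * q * q))))) :
    hzero.ord (betaStar L M' q
      ((q : ℕ) : ↥(laurentBaseChange L (modularFunctionFieldFull (M' * q))))) = 1 := by
  rw [βϖ]
  exact hzero.ord_self

/-- `ord_0³ (α^* q) = 1`. -/
theorem ord_alpha_zero (h : BadSetup A π M' q)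
    (hzero : IsUnif (OZero3 h w)
      ((q : ℕ) : ↥(laurentBaseChange L (modularFunctionFieldFull (M' * q * q))))) :
    hzero.ord (alphaStar L M' q
      ((q : ℕ) : ↥(laurentBaseChange L (modularFunctionFieldFull (M' * q))))) = 1 := by
  rw [αϖ]
  exact hzero.ord_self

/-- **`hcαinf`**: `ρ_∞ ∘ α^* = r_∞` (untwisted), in the binder shape of `NodeTriple`. -/
theorem compat_alpha_inf (h : BadSetup A π M' q) :
    ∀ (y : ↥(laurentBaseChange L (modularFunctionFieldFull (M' * q)))) (hy : y ∈ OInf h)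
      (hy' : alphaStar L M' q y ∈ OInf3 h),
      redInf3 h ⟨alphaStar L M' q y, hy'⟩ = redInf h ⟨y, hy⟩ :=
  fun y hy hy' => redInf3_heckeAlphaBar h y hy hy'

/-- **`hcβzero`**: `ρ_0 ∘ β^* = r_0` (untwisted), in the binder shape of `NodeTriple`. -/
theorem compat_beta_zero (h : BadSetup A π M' q) (hW : IsAL M' q W) (hw : IsAL3 M' q w) :
    ∀ (y : ↥(laurentBaseChange L (modularFunctionFieldFull (M' * q)))) (hy : y ∈ OZero h W)
      (hy' : betaStar L M' q y ∈ OZero3 h w),
      redZero3 h w ⟨betaStar L M' q y, hy'⟩ = redZero h W ⟨y, hy⟩ :=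
  fun y hy hy' => redZero3_heckeBetaBar h hW hw y hy hy'

/-- **`hρinf`**: the kernel of `ρ_∞` is the maximal ideal of `O_∞³`. -/
theorem ker_redInf3 (h : BadSetup A π M' q) :
    ∀ y : OInf3 h, redInf3 h y = 0 ↔ y ∈ IsLocalRing.maximalIdeal (OInf3 h) :=
  fun y => (redInf3_eq_zero_iff h y).trans
    ((IsLocalRing.mem_maximalIdeal y).trans mem_nonunits_iff).symm

/-- **`hρzero`**: the kernel of `ρ_0` is the maximal ideal of `O_0³`. -/
theorem ker_redZero3 (h : BadSetup A π M' q) :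
    ∀ y : OZero3 h w, redZero3 h w y = 0 ↔ y ∈ IsLocalRing.maximalIdeal (OZero3 h w) :=
  fun y => (redZero3_eq_zero_iff h y).trans
    ((IsLocalRing.mem_maximalIdeal y).trans mem_nonunits_iff).symm

/-- **`hrinf`**: the kernel of `r_∞` is the maximal ideal of `O_∞` (level `M' q`). -/
theorem ker_redInf (h : BadSetup A π M' q) :
    ∀ y : OInf h, redInf h y = 0 ↔ y ∈ IsLocalRing.maximalIdeal (OInf h) :=
  fun y => (redInf_eq_zero_iff h y).trans
    ((IsLocalRing.mem_maximalIdeal y).trans mem_nonunits_iff).symm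

/-- **`hrzero`**: the kernel of `r_0` is the maximal ideal of `O_0` (level `M' q`). -/
theorem ker_redZero (h : BadSetup A π M' q) :
    ∀ y : OZero h W, redZero h W y = 0 ↔ y ∈ IsLocalRing.maximalIdeal (OZero h W) :=
  fun y => (redZero_eq_zero_iff h y).trans
    ((IsLocalRing.mem_maximalIdeal y).trans mem_nonunits_iff).symm

/-- **`hαinf`**: `(α^*)⁻¹(O_∞³) = O_∞`. -/
theorem comap_alpha_inf (h : BadSetup A π M' q) :
    (OInf3 h).comap (alphaStar L M' q) = OInf h := αa h

/-- **`hβinf`**: `(β^*)⁻¹(O_∞³) = O_∞`. -/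
theorem comap_beta_inf (h : BadSetup A π M' q) :
    (OInf3 h).comap (betaStar L M' q) = OInf h := βa h

/-- **`hαzero`**: `(α^*)⁻¹(O_0³) = O_0`. -/
theorem comap_alpha_zero (h : BadSetup A π M' q) (hW : IsAL M' q W) (hw : IsAL3 M' q w) :
    (OZero3 h w).comap (alphaStar L M' q) = OZero h W := comap_alpha_OZero3 h hW hw

/-- **`hβzero`**: `(β^*)⁻¹(O_0³) = O_0`. -/
theorem comap_beta_zero (h : BadSetup A π M' q) (hW : IsAL M' q W) (hw : IsAL3 M' q w) :
    (OZero3 h w).comap (betaStar L M' q) = OZero h W := comap_beta_OZero3 h hW hw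

end Gen

/-! ### The base `(K0, W0, resW0)`: the middle lines -/

section Mid

variable {q : ℕ} (hq : q.Prime) (A : ValuationSubring Qb) (hA : A.LiesOverPrime q)
  {ζ : Qb} (hζ : IsPrimitiveRoot ζ q) (M' : ℕ) [NeZero M'] [NeZero q] (hqM : ¬ q ∣ M')

section GenPi

variable {k : Type*} [Field k] (π : A →+* k) (hπ : ∀ a : A, ¬ IsUnit a → π a = 0)

include hπ in
/-- `ord_mid (α^* q) = q - 1`, for any proof that `dMid` is a uniformiser of `O_mid`. -/
theorem ord_alpha_mid_sub (hmid : IsUnif (OMid hq A hA hζ M' hqM π) (dMid A M' q)) :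
    hmid.ord (alphaStar (inertiaField A) M' q ((q : ℕ) : FK (inertiaField A) (M' * q)))
      = (q : ℤ) - 1 := by
  rw [αϖ]
  exact ord_natCast hq A hA hζ M' hqM π hπ hmid

include hπ in
/-- `ord_mid (β^* q) = q - 1`, for any proof that `dMid` is a uniformiser of `O_mid`. -/
theorem ord_beta_mid_sub (hmid : IsUnif (OMid hq A hA hζ M' hqM π) (dMid A M' q)) :
    hmid.ord (betaStar (inertiaField A) M' q ((q : ℕ) : FK (inertiaField A) (M' * q)))
      = (q : ℤ) - 1 := by
  rw [βϖ]
  exact ord_natCast hq A hA hζ M' hqM π hπ hmid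

include hπ in
/-- **`hαe₂`**: `ord_mid (α^* q) = n` when `q = n + 1`. -/
theorem ord_alpha_mid (hmid : IsUnif (OMid hq A hA hζ M' hqM π) (dMid A M' q)) (n : ℕ)
    (hn : q = n + 1) :
    hmid.ord (alphaStar (inertiaField A) M' q ((q : ℕ) : FK (inertiaField A) (M' * q)))
      = (n : ℤ) := by
  rw [ord_alpha_mid_sub hq A hA hζ M' hqM π hπ hmid, hn]
  push_cast
  ring

include hπ in
/-- **`hβe₂`**: `ord_mid (β^* q) = n` when `q = n + 1`. -/
theorem ord_beta_mid (hmid : IsUnif (OMid hq A hA hζ M' hqM π) (dMid A M' q)) (n : ℕ)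
    (hn : q = n + 1) :
    hmid.ord (betaStar (inertiaField A) M' q ((q : ℕ) : FK (inertiaField A) (M' * q)))
      = (n : ℤ) := by
  rw [ord_beta_mid_sub hq A hA hζ M' hqM π hπ hmid, hn]
  push_cast
  ring

include hπ in
/-- **`hne₁`**: `O_∞³ ≠ O_mid` (`dMid` is a unit of `O_∞³` and a non-unit of `O_mid`). -/
theorem OInf3_ne_OMid (h : BadSetup (W0 A) (resW0 A) M' q) :
    OInf3 h ≠ OMid hq A hA hζ M' hqM π := by
  intro e
  have h1 : (dMid A M' q)⁻¹ ∈ OMid hq A hA hζ M' hqM π := by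
    rw [← e]
    exact inv_dMid_mem_OInf3 A M' h
  exact (isUnif_dMid hq A hA hζ M' hqM π hπ).inv_notMem h1

/-- `dMid = π_2^* j - π_0^* j`. -/
theorem dMid_eq_piStar :
    dMid A M' q = piStar2 (inertiaField A) M' q (jLevel (inertiaField A) M')
      - piStar0 (inertiaField A) M' q (jLevel (inertiaField A) M') := by
  apply Subtype.ext
  have e2 := coe_piStar2_jLevel (L := inertiaField A) (M' := M') (q := q)
  have e0 := coe_piStar0_jLevel (L := inertiaField A) (M' := M') (q := q)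
  exact (congrArg₂ (· - ·) e2 e0).symm

/-- The Atkin–Lehner involution `w` of level `M' q²` maps `dMid` to `-dMid`. -/
theorem w_dMid {w : ALAut (inertiaField A) (M' * q) q} (hw : IsAL3 M' q w) :
    w (dMid A M' q) = -dMid A M' q := by
  rw [dMid_eq_piStar, map_sub, hw.pi2, hw.pi0, neg_sub]

include hπ in
/-- **`hne₂`**: `O_0³ ≠ O_mid`. -/
theorem OZero3_ne_OMid (h : BadSetup (W0 A) (resW0 A) M' q)
    {w : ALAut (inertiaField A) (M' * q) q} (hw : IsAL3 M' q w) :
    OZero3 h w ≠ OMid hq A hA hζ M' hqM π := by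
  intro e
  have h0 : (dMid A M' q)⁻¹ ∈ OZero3 h w := by
    rw [mem_OZero3_iff, map_inv₀, w_dMid A M' hw, inv_neg]
    exact neg_mem (inv_dMid_mem_OInf3 A M' h)
  have h1 : (dMid A M' q)⁻¹ ∈ OMid hq A hA hζ M' hqM π := by
    rw [← e]
    exact h0
  exact (isUnif_dMid hq A hA hζ M' hqM π hπ).inv_notMem h1

end GenPi

/-! #### residue compatibilities for a `κ`-valued middle reduction -/

variable {W : ALAut (inertiaField A) M' q} (h : BadSetup (W0 A) (resW0 A) M' q)
  (ρmid : OMid hq A hA hζ M' hqM (IsLocalRing.residue A) →+*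
    ↥(modularFunctionFieldFullC (IsLocalRing.ResidueField A) M'))
  (hρ : ∀ f : OMid hq A hA hζ M' hqM (IsLocalRing.residue A),
    ((ρmid f : modularFunctionFieldFullC (IsLocalRing.ResidueField A) M') :
      LaurentSeries (IsLocalRing.ResidueField A))
      = redMid hq A hA hζ M' hqM (IsLocalRing.residue A) f)

include hρ in
/-- **`hcαmid`**: `ρ_mid ∘ α^* = r_∞` (untwisted), for any `κ`-valued `ρ_mid` with coercion
`redMid`. -/
theorem compat_alpha_mid :
    ∀ (y : FK (inertiaField A) (M' * q)) (hy : y ∈ OInf h)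
      (hy' : alphaStar (inertiaField A) M' q y
        ∈ OMid hq A hA hζ M' hqM (IsLocalRing.residue A)),
      ρmid ⟨alphaStar (inertiaField A) M' q y, hy'⟩ = redInf h ⟨y, hy⟩ := by
  intro y hy hy'
  apply Subtype.ext
  rw [hρ]
  exact redMid_alpha hq A hA hζ M' hqM h y hy hy'

include hρ in
/-- **`hcβmid`**: `ρ_mid ∘ β^* = r_0` (untwisted), for any `κ`-valued `ρ_mid` with coercion
`redMid`. -/
theorem compat_beta_mid (hW : IsAL M' q W) :
    ∀ (y : FK (inertiaField A) (M' * q)) (hy : y ∈ OZero h W)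
      (hy' : betaStar (inertiaField A) M' q y
        ∈ OMid hq A hA hζ M' hqM (IsLocalRing.residue A)),
      ρmid ⟨betaStar (inertiaField A) M' q y, hy'⟩ = redZero h W ⟨y, hy⟩ := by
  intro y hy hy'
  apply Subtype.ext
  rw [hρ]
  exact redMid_beta hq A hA hζ M' hqM h hW y hy hy'

include hρ in
/-- **`hρmid`**: the kernel of `ρ_mid` is the maximal ideal of `O_mid`. -/
theorem ker_mid :
    ∀ y : OMid hq A hA hζ M' hqM (IsLocalRing.residue A),
      ρmid y = 0 ↔ y ∈ IsLocalRing.maximalIdeal (OMid hq A hA hζ M' hqM (IsLocalRing.residue A)) := by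
  intro y
  have h1 : ρmid y = 0 ↔ redMid hq A hA hζ M' hqM (IsLocalRing.residue A) y = 0 := by
    rw [← hρ]
    constructor
    · intro h0
      rw [h0]
      rfl
    · intro h0
      exact Subtype.ext h0
  rw [h1, redMid_eq_zero_iff]
  exact ((IsLocalRing.mem_maximalIdeal y).trans mem_nonunits_iff).symm

end Mid

end Fermat.Agent.CAR.V3.MidCompat

end
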