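import Mathlib
import Fermat.Agent.CAR.V3.MidDiff
import Fermat.Agent.CAR.Local.Inst.Deriv
import Fermat.Agent.ESJ.Cong.FrobAut

/-!
# CAR (V3-Mid, row 384, second seat): the `κ`-valued reduction of `O_mid`

Objects of `CAR/V3/MidRing.lean`, `MidPull.lean`, `MidDiff.lean` (helper7): `A` a valuation ring of
`ℚ̄` over `q`, `k = ResidueField A`, `K0 = inertiaField A`, `F3 = FK K0 (M' q²)`,
`O_mid = OMid hq A hA hζ M' hqM (residue A)`, `redMid : O_mid →+* k((q))`,
`κ = modularFunctionFieldFullC k M'`.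

Given `hκ : ∀ f, redMid f ∈ κ` (the output of the count: `Count.redMid_mem_fullC`):

* `redMidK hκ : O_mid →+* κ`, `coe_redMidK`; kernel = maximal ideal
  (`redMidK_eq_zero_iff`, `redMidK_eq_zero_iff_mem_maximalIdeal`, `redMidK_mk_eq_zero_iff`);
* `redMidK_piStar0`, `redMidK_piStar2` (`= redF' y`), `coe_redMidK_piStar1`, `redMidK_piStar1`
  (`= vHom k q M' (redF' y)`), `redMidK_surjective`;
* `dPull_div_dMid_mem`, `redMidK_dPull_div_dMid` : `(π_2^* y - π_0^* y) / d ∈ O_mid` reduces to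
  `Deriv.dJ k M' (redF' y)`;
* the raw-object forms of the Contract's mid fields with `x' = jLevel`:
  `mid_π₀`, `mid_π₂`, `d_mem`, `unif_mid`, `cd`.
-/

set_option autoImplicit false
set_option linter.unusedSectionVars false
set_option linter.style.haveILetI false

noncomputable section

namespace Fermat.Agent.CAR.V3.MidKappaB

open ModularCurve HahnSeries Fermat.Agent.S24 Fermat.Agent.S28 Fermat.Agent.S28.Chain
  Fermat.Agent.Lib.Red Fermat.Agent.CAR.K0 Fermat.Agent.CAR.V3.GaussDVR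
  Fermat.Agent.CAR.Local.ThetaJ Fermat.Agent.ESJ.Cong.ConjAnalytic
  Fermat.Agent.ESJ.Cong.LevelGen Fermat.Agent.CAR.V3.MidRing Fermat.Agent.CAR.V3

local notation "Qb" => AlgebraicClosure ℚ

variable {q : ℕ} (hq : q.Prime) (A : ValuationSubring Qb) (hA : A.LiesOverPrime q)
  {ζ : Qb} (hζ : IsPrimitiveRoot ζ q) (M' : ℕ) [NeZero M'] [NeZero q] (hqM : ¬ q ∣ M')
  (hMk : (M' : IsLocalRing.ResidueField A) ≠ 0)
  (hκ : ∀ f : OMid hq A hA hζ M' hqM (IsLocalRing.residue A),
    redMid hq A hA hζ M' hqM (IsLocalRing.residue A) f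
      ∈ modularFunctionFieldFullC (IsLocalRing.ResidueField A) M')

/-! ### The `κ`-valued residue map -/

/-- The residue map of `O_mid` with values in the mod-`q` function field `κ` of level `M'`. -/
def redMidK : OMid hq A hA hζ M' hqM (IsLocalRing.residue A) →+*
    ↥(modularFunctionFieldFullC (IsLocalRing.ResidueField A) M') :=
  (redMid hq A hA hζ M' hqM (IsLocalRing.residue A)).codRestrict
    (modularFunctionFieldFullC (IsLocalRing.ResidueField A) M') hκ

theorem coe_redMidK (f : OMid hq A hA hζ M' hqM (IsLocalRing.residue A)) :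
    ((redMidK hq A hA hζ M' hqM hκ f : modularFunctionFieldFullC (IsLocalRing.ResidueField A) M') :
      LaurentSeries (IsLocalRing.ResidueField A))
      = redMid hq A hA hζ M' hqM (IsLocalRing.residue A) f := rfl

/-- The kernel of `redMidK` consists of the non-units. -/
theorem redMidK_eq_zero_iff (f : OMid hq A hA hζ M' hqM (IsLocalRing.residue A)) :
    redMidK hq A hA hζ M' hqM hκ f = 0 ↔ ¬ IsUnit f := by
  rw [← redMid_eq_zero_iff hq A hA hζ M' hqM (IsLocalRing.residue A) f,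
    ← coe_redMidK hq A hA hζ M' hqM hκ f]
  exact ⟨fun h => by rw [h]; rfl, fun h => Subtype.ext h⟩

/-- The kernel of `redMidK` is the maximal ideal (the `hred` shape of the Contract). -/
theorem redMidK_eq_zero_iff_mem_maximalIdeal
    (f : OMid hq A hA hζ M' hqM (IsLocalRing.residue A)) :
    redMidK hq A hA hζ M' hqM hκ f = 0
      ↔ f ∈ IsLocalRing.maximalIdeal (OMid hq A hA hζ M' hqM (IsLocalRing.residue A)) := by
  rw [redMidK_eq_zero_iff, IsLocalRing.mem_maximalIdeal, mem_nonunits_iff]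

/-- The kernel of `redMidK`, for raw elements: the non-units of the valuation ring. -/
theorem redMidK_mk_eq_zero_iff (f : FK (inertiaField A) (M' * q * q))
    (hf : f ∈ OMid hq A hA hζ M' hqM (IsLocalRing.residue A)) :
    redMidK hq A hA hζ M' hqM hκ ⟨f, hf⟩ = 0
      ↔ f ∈ (OMid hq A hA hζ M' hqM (IsLocalRing.residue A)).nonunits := by
  rw [redMidK_eq_zero_iff_mem_maximalIdeal]
  constructor
  · intro h
    exact (ValuationSubring.mem_nonunits_iff_exists_mem_maximalIdeal).mpr ⟨hf, h⟩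
  · intro h
    obtain ⟨hf', h'⟩ := (ValuationSubring.mem_nonunits_iff_exists_mem_maximalIdeal).mp h
    exact h'

/-! ### The pull-backs -/

/-- **`red_mid ∘ π_0^* = red'`**, `κ`-valued. -/
theorem redMidK_piStar0 (x : FK (inertiaField A) M') (hx : x ∈ Ow (W0 A) (resW0 A) M' hMk)
    (hx' : piStar0 (inertiaField A) M' q x ∈ OMid hq A hA hζ M' hqM (IsLocalRing.residue A)) :
    redMidK hq A hA hζ M' hqM hκ ⟨piStar0 (inertiaField A) M' q x, hx'⟩
      = redF (W0 A) (resW0 A) M' (resW0_eq_zero_of_not_isUnit A) hMk ⟨x, hx⟩ :=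
  Subtype.ext (redMid_piStar0 hq A hA hζ M' hqM hMk x hx hx')

/-- **`red_mid ∘ π_2^* = red'`**, `κ`-valued. -/
theorem redMidK_piStar2 (x : FK (inertiaField A) M') (hx : x ∈ Ow (W0 A) (resW0 A) M' hMk)
    (hx' : piStar2 (inertiaField A) M' q x ∈ OMid hq A hA hζ M' hqM (IsLocalRing.residue A)) :
    redMidK hq A hA hζ M' hqM hκ ⟨piStar2 (inertiaField A) M' q x, hx'⟩
      = redF (W0 A) (resW0 A) M' (resW0_eq_zero_of_not_isUnit A) hMk ⟨x, hx⟩ :=
  Subtype.ext (redMid_piStar2 hq A hA hζ M' hqM hMk x hx hx')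

/-- **`red_mid ∘ π_1^* = (q ↦ q^q) ∘ red'`**, as series. -/
theorem coe_redMidK_piStar1 (x : FK (inertiaField A) M') (hx : x ∈ Ow (W0 A) (resW0 A) M' hMk)
    (hx' : piStar1 (inertiaField A) M' q x ∈ OMid hq A hA hζ M' hqM (IsLocalRing.residue A)) :
    ((redMidK hq A hA hζ M' hqM hκ ⟨piStar1 (inertiaField A) M' q x, hx'⟩ :
        modularFunctionFieldFullC (IsLocalRing.ResidueField A) M') :
        LaurentSeries (IsLocalRing.ResidueField A))
      = qExpand (IsLocalRing.ResidueField A) q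
        ((redF (W0 A) (resW0 A) M' (resW0_eq_zero_of_not_isUnit A) hMk ⟨x, hx⟩ :
          modularFunctionFieldFullC (IsLocalRing.ResidueField A) M') :
          LaurentSeries (IsLocalRing.ResidueField A)) :=
  redMid_piStar1 hq A hA hζ M' hqM hMk x hx hx'

/-- **`red_mid ∘ π_1^* = ψ ∘ red'`** with `ψ = vHom k q M'` the Frobenius substitution of `κ`. -/
theorem redMidK_piStar1 [Fact q.Prime] [CharP (IsLocalRing.ResidueField A) q]
    [PerfectRing (IsLocalRing.ResidueField A) q]
    (x : FK (inertiaField A) M') (hx : x ∈ Ow (W0 A) (resW0 A) M' hMk)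
    (hx' : piStar1 (inertiaField A) M' q x ∈ OMid hq A hA hζ M' hqM (IsLocalRing.residue A)) :
    redMidK hq A hA hζ M' hqM hκ ⟨piStar1 (inertiaField A) M' q x, hx'⟩
      = Fermat.Agent.ESJ.Cong.FrobAut.vHom (IsLocalRing.ResidueField A) q M'
        (redF (W0 A) (resW0 A) M' (resW0_eq_zero_of_not_isUnit A) hMk ⟨x, hx⟩) :=
  Subtype.ext (coe_redMidK_piStar1 hq A hA hζ M' hqM hMk hκ x hx hx')

include hMk in
/-- `redMidK` is onto `κ` (through `π_0^*`). -/
theorem redMidK_surjective : Function.Surjective (redMidK hq A hA hζ M' hqM hκ) := by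
  intro c
  obtain ⟨y, rfl⟩ := redF_surjective (A := W0 A) (π := resW0 A) (N := M')
    (resW0_eq_zero_of_not_isUnit A) (resW0_surjective hq hA) hMk c
  exact ⟨⟨piStar0 (inertiaField A) M' q (y : FK (inertiaField A) M'),
      piStar0_mem_OMid hq A hA hζ M' hqM hMk _ y.2⟩,
    redMidK_piStar0 hq A hA hζ M' hqM hMk hκ _ y.2 _⟩

/-! ### The differences `d_y / d` -/

include hA hMk in
/-- `(π_2^* y - π_0^* y) / d ∈ O_mid` for `y ∈ Ow`. -/
theorem dPull_div_dMid_mem (x : FK (inertiaField A) M') (hx : x ∈ Ow (W0 A) (resW0 A) M' hMk) :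
    dPull A M' q x / dMid A M' q ∈ OMid hq A hA hζ M' hqM (IsLocalRing.residue A) := by
  obtain ⟨c, hc, -⟩ := exists_dPull_eq_dMid_mul hq A hA hζ M' hqM hMk x hx
  have hd0 : dMid A M' q ≠ 0 :=
    dMid_ne_zero hq A hA hζ M' hqM (IsLocalRing.residue A) (residue_eq_zero_of_not_isUnit A)
  rw [hc, mul_div_cancel_left₀ _ hd0]
  exact c.2

/-- **(C1) for all `y`**: `red_mid ((π_2^* y - π_0^* y) / d) = dȳ/dJ̄`. -/
theorem redMidK_dPull_div_dMid [IsAlgClosed (IsLocalRing.ResidueField A)]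
    (x : FK (inertiaField A) M') (hx : x ∈ Ow (W0 A) (resW0 A) M' hMk)
    (hz : dPull A M' q x / dMid A M' q ∈ OMid hq A hA hζ M' hqM (IsLocalRing.residue A)) :
    redMidK hq A hA hζ M' hqM hκ ⟨dPull A M' q x / dMid A M' q, hz⟩
      = Fermat.Agent.CAR.Local.Inst.Deriv.dJ (IsLocalRing.ResidueField A) M'
        (redF (W0 A) (resW0 A) M' (resW0_eq_zero_of_not_isUnit A) hMk ⟨x, hx⟩) := by
  obtain ⟨c, hc, hcr⟩ := exists_dPull_eq_dMid_mul hq A hA hζ M' hqM hMk x hx
  have hd0 : dMid A M' q ≠ 0 :=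
    dMid_ne_zero hq A hA hζ M' hqM (IsLocalRing.residue A) (residue_eq_zero_of_not_isUnit A)
  have e : (⟨dPull A M' q x / dMid A M' q, hz⟩ :
      OMid hq A hA hζ M' hqM (IsLocalRing.residue A)) = c := by
    apply Subtype.ext
    show dPull A M' q x / dMid A M' q = (c : FK (inertiaField A) (M' * q * q))
    rw [hc, mul_div_cancel_left₀ _ hd0]
  rw [e]
  apply Subtype.ext
  rw [coe_redMidK, hcr,
    Fermat.Agent.CAR.Local.Inst.Deriv.thetaL_eq_dJ_mul (IsLocalRing.ResidueField A) M'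
      (redF (W0 A) (resW0 A) M' (resW0_eq_zero_of_not_isUnit A) hMk ⟨x, hx⟩),
    mul_div_cancel_right₀ _ (thetaL_jq_ne_zero (IsLocalRing.ResidueField A))]

/-! ### The Contract's mid fields, raw-object forms (`x' = jLevel`, `d = π_2^* x' - π_0^* x'`) -/

/-- `π_2^* J - π_0^* J = d`. -/
theorem piStar2_sub_piStar0_jLevel :
    piStar2 (inertiaField A) M' q (jLevel (inertiaField A) M')
      - piStar0 (inertiaField A) M' q (jLevel (inertiaField A) M') = dMid A M' q :=
  dPull_jLevel A M'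

/-- Contract `mid_π₀`. -/
theorem mid_π₀ (x : FK (inertiaField A) M') (hx : x ∈ Ow (W0 A) (resW0 A) M' hMk) :
    ∃ hx' : piStar0 (inertiaField A) M' q x ∈ OMid hq A hA hζ M' hqM (IsLocalRing.residue A),
      redMidK hq A hA hζ M' hqM hκ ⟨piStar0 (inertiaField A) M' q x, hx'⟩
        = redF (W0 A) (resW0 A) M' (resW0_eq_zero_of_not_isUnit A) hMk ⟨x, hx⟩ :=
  ⟨piStar0_mem_OMid hq A hA hζ M' hqM hMk x hx,
    redMidK_piStar0 hq A hA hζ M' hqM hMk hκ x hx _⟩

/-- Contract `mid_π₂`. -/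
theorem mid_π₂ (x : FK (inertiaField A) M') (hx : x ∈ Ow (W0 A) (resW0 A) M' hMk) :
    ∃ hx' : piStar2 (inertiaField A) M' q x ∈ OMid hq A hA hζ M' hqM (IsLocalRing.residue A),
      redMidK hq A hA hζ M' hqM hκ ⟨piStar2 (inertiaField A) M' q x, hx'⟩
        = redF (W0 A) (resW0 A) M' (resW0_eq_zero_of_not_isUnit A) hMk ⟨x, hx⟩ :=
  ⟨piStar2_mem_OMid hq A hA hζ M' hqM hMk x hx,
    redMidK_piStar2 hq A hA hζ M' hqM hMk hκ x hx _⟩

include hA in
/-- Contract `d_mem`: `d = π_2^* J - π_0^* J` is a non-unit of `O_mid`. -/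
theorem d_mem :
    piStar2 (inertiaField A) M' q (jLevel (inertiaField A) M')
      - piStar0 (inertiaField A) M' q (jLevel (inertiaField A) M')
      ∈ (OMid hq A hA hζ M' hqM (IsLocalRing.residue A)).nonunits := by
  rw [piStar2_sub_piStar0_jLevel]
  exact dMid_mem_nonunits_OMid hq A hA hζ M' hqM (IsLocalRing.residue A)
    (residue_eq_zero_of_not_isUnit A)

include hA in
/-- `d` is a uniformiser of `O_mid`, in the Contract's shape: non-units are divisible by `d`. -/
theorem div_dMid_mem (z : FK (inertiaField A) (M' * q * q))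
    (hz : z ∈ (OMid hq A hA hζ M' hqM (IsLocalRing.residue A)).nonunits) :
    z / dMid A M' q ∈ OMid hq A hA hζ M' hqM (IsLocalRing.residue A) := by
  have hU := isUnif_dMid hq A hA hζ M' hqM (IsLocalRing.residue A)
    (residue_eq_zero_of_not_isUnit A)
  by_cases hz0 : z = 0
  · rw [hz0, zero_div]
    exact zero_mem _
  have hd0 : dMid A M' q ≠ 0 := hU.ne_zero
  have h1 : 0 < hU.ord z := (hU.ord_pos_iff hz0).mpr hz
  have h2 : hU.ord (z / dMid A M' q) = hU.ord z - 1 := by
    rw [hU.ord_div hz0 hd0, hU.ord_self]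
  refine (hU.ord_nonneg_iff (div_ne_zero hz0 hd0)).mp ?_
  rw [h2]
  omega

include hA in
/-- Contract `unif_mid`. -/
theorem unif_mid (z : FK (inertiaField A) (M' * q * q))
    (hz : z ∈ (OMid hq A hA hζ M' hqM (IsLocalRing.residue A)).nonunits) :
    z / (piStar2 (inertiaField A) M' q (jLevel (inertiaField A) M')
        - piStar0 (inertiaField A) M' q (jLevel (inertiaField A) M'))
      ∈ OMid hq A hA hζ M' hqM (IsLocalRing.residue A) := by
  rw [piStar2_sub_piStar0_jLevel]
  exact div_dMid_mem hq A hA hζ M' hqM z hz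

include hA in
/-- Contract `cd`: for every `y ∈ Ow`, `d_y / d ∈ O_mid` and it reduces to `dȳ/dJ̄`. -/
theorem cd [IsAlgClosed (IsLocalRing.ResidueField A)]
    (x : FK (inertiaField A) M') (hx : x ∈ Ow (W0 A) (resW0 A) M' hMk) :
    ∃ hz : (piStar2 (inertiaField A) M' q x - piStar0 (inertiaField A) M' q x)
        / (piStar2 (inertiaField A) M' q (jLevel (inertiaField A) M')
          - piStar0 (inertiaField A) M' q (jLevel (inertiaField A) M'))
        ∈ OMid hq A hA hζ M' hqM (IsLocalRing.residue A),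
      redMidK hq A hA hζ M' hqM hκ ⟨_, hz⟩
        = Fermat.Agent.CAR.Local.Inst.Deriv.dJ (IsLocalRing.ResidueField A) M'
          (redF (W0 A) (resW0 A) M' (resW0_eq_zero_of_not_isUnit A) hMk ⟨x, hx⟩) := by
  have e : (piStar2 (inertiaField A) M' q x - piStar0 (inertiaField A) M' q x)
        / (piStar2 (inertiaField A) M' q (jLevel (inertiaField A) M')
          - piStar0 (inertiaField A) M' q (jLevel (inertiaField A) M'))
      = dPull A M' q x / dMid A M' q := by
    rw [piStar2_sub_piStar0_jLevel]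
    rfl
  have hz := dPull_div_dMid_mem hq A hA hζ M' hqM hMk x hx
  refine ⟨e ▸ hz, ?_⟩
  have h2 := redMidK_dPull_div_dMid hq A hA hζ M' hqM hMk hκ x hx hz
  rw [← h2]
  congr 1
  exact Subtype.ext e

end Fermat.Agent.CAR.V3.MidKappaB

end
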