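import Mathlib
import Fermat.Agent.CAR.V3.MidPull

/-!
# CAR (V3-Mid): `O_mid` restricted to level `N = M' q` along `α^*` and `β^*`

`F_N = K0 · F_{M' q}`, `α^* = heckeAlphaBar K0 (M' q) q` (`z ↦ z`), `β^* = heckeBetaBar K0 (M' q) q`
(`z ↦ q z`), `O_∞, O_0 = W⁻¹(O_∞)` the two Gauss valuation rings of level `N` (`BAD/TwoVal`),
`W` an Atkin–Lehner involution of level `N`.

* `alpha_mem_OMid_iff`, `comap_alpha_OMid` : `(α^*)⁻¹(O_mid) = O_∞`;  `redMid_alpha` :
  `red_mid ∘ α^* = red_∞`;
* `tauMid_beta` : `ι_mid (β^* x) = (W x)(ζ q)`;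
* `beta_mem_OMid_iff`, `comap_beta_OMid` : `(β^*)⁻¹(O_mid) = O_0`;  `redMid_beta` :
  `red_mid ∘ β^* = red_0`.
-/

set_option autoImplicit false
set_option linter.unusedSectionVars false
set_option linter.style.haveILetI false

noncomputable section

namespace Fermat.Agent.CAR.V3.MidRing

open ModularCurve HahnSeries Fermat.Agent.S24 Fermat.Agent.S28 Fermat.Agent.S28.Chain
  Fermat.Agent.Lib.Red Fermat.Agent.CAR.K0 Fermat.Agent.CAR.V3.GaussDVR
  Fermat.Agent.CAR.Local.ThetaJ Fermat.Agent.ESJ.Cong.ConjAnalytic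
  Fermat.Agent.ESJ.Cong.LevelGen Fermat.Agent.BAD.TwoVal

local notation "Qb" => AlgebraicClosure ℚ

/-! ### Abstract descent between valuation rings -/

section Abstract

variable {F F' : Type*} [Field F] [Field F']

/-- A multiplicative map which sends the non-units of `V` to non-units of `V'` pulls `V'` back
into `V`. -/
theorem mem_of_map_mem_of_nonunits (V : ValuationSubring F) (V' : ValuationSubring F')
    (Ψ : F → F') (hmul : ∀ a b, Ψ (a * b) = Ψ a * Ψ b) (hone : Ψ 1 = 1)
    (hnu : ∀ y ∈ V.nonunits, Ψ y ∈ V'.nonunits) (x : F) (hx : Ψ x ∈ V') : x ∈ V := by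
  by_contra hxV
  have hx0 : x ≠ 0 := fun h => hxV (h ▸ V.zero_mem)
  have h2 : x⁻¹ ∈ V.nonunits := by
    rw [ValuationSubring.mem_nonunits_iff_or]
    right
    rwa [inv_inv]
  have h4 : Ψ x * Ψ x⁻¹ = 1 := by rw [← hmul, mul_inv_cancel₀ hx0, hone]
  have h3 := hnu _ h2
  rw [ValuationSubring.mem_nonunits_iff_or] at h3
  rcases h3 with h3 | h3
  · rw [h3, mul_zero] at h4
    exact zero_ne_one h4
  · apply h3
    rw [← eq_inv_of_mul_eq_one_left h4]
    exact hx

/-- Non-units of a valuation ring via a residue map with kernel the non-units. -/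
theorem mem_nonunits_iff_red {R : Type*} [Semiring R] (V : ValuationSubring F) (ρ : V →+* R)
    (hρ : ∀ f, ρ f = 0 ↔ ¬ IsUnit f) (x : F) :
    x ∈ V.nonunits ↔ ∃ hx : x ∈ V, ρ ⟨x, hx⟩ = 0 := by
  rw [ValuationSubring.mem_nonunits_iff_exists_mem_maximalIdeal]
  constructor
  · rintro ⟨hx, h⟩
    rw [IsLocalRing.mem_maximalIdeal, mem_nonunits_iff] at h
    exact ⟨hx, (hρ _).mpr h⟩
  · rintro ⟨hx, h⟩
    refine ⟨hx, ?_⟩
    rw [IsLocalRing.mem_maximalIdeal, mem_nonunits_iff]
    exact (hρ _).mp h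

end Abstract

section Level

variable {q : ℕ} (hq : q.Prime) (A : ValuationSubring Qb) (hA : A.LiesOverPrime q)
  {ζ : Qb} (hζ : IsPrimitiveRoot ζ q) (M' : ℕ) [NeZero M'] [NeZero q] (hqM : ¬ q ∣ M')
  (h : BadSetup (W0 A) (resW0 A) M' q)

/-- Non-units of `O_mid` via `red_mid`. -/
theorem mem_nonunits_OMid_iff {k : Type*} [Field k] (π : A →+* k)
    (x : FK (inertiaField A) (M' * q * q)) :
    x ∈ (OMid hq A hA hζ M' hqM π).nonunits
      ↔ ∃ hx : x ∈ OMid hq A hA hζ M' hqM π, redMid hq A hA hζ M' hqM π ⟨x, hx⟩ = 0 :=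
  mem_nonunits_iff_red _ _ (redMid_eq_zero_iff hq A hA hζ M' hqM π) x

/-! #### `α^*` -/

/-- `α^*` maps `O_∞` (level `M' q`) into `O_mid`. -/
theorem alpha_mem_OMid (x : FK (inertiaField A) (M' * q)) (hx : x ∈ OInf h) :
    heckeAlphaBar (inertiaField A) (M' * q) q x
      ∈ OMid hq A hA hζ M' hqM (IsLocalRing.residue A) := by
  rw [mem_OMid_iff, tauMid_alpha]
  exact bc_mem_gaussRing A hx

/-- **`red_mid ∘ α^* = red_∞`.** -/
theorem redMid_alpha (x : FK (inertiaField A) (M' * q)) (hx : x ∈ OInf h)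
    (hx' : heckeAlphaBar (inertiaField A) (M' * q) q x
      ∈ OMid hq A hA hζ M' hqM (IsLocalRing.residue A)) :
    redMid hq A hA hζ M' hqM (IsLocalRing.residue A)
        ⟨heckeAlphaBar (inertiaField A) (M' * q) q x, hx'⟩
      = ((redInf h ⟨x, hx⟩ : modularFunctionFieldFullC (IsLocalRing.ResidueField A) M') :
          LaurentSeries (IsLocalRing.ResidueField A)) := by
  rw [redMid_apply, coe_redInf]
  have e : (⟨tauMid hq A hζ M' hqM (heckeAlphaBar (inertiaField A) (M' * q) q x), hx'⟩ :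
      gaussRing A (IsLocalRing.residue A))
      = ⟨coeffMap (algebraMap (inertiaField A) Qb) (x : LaurentSeries (inertiaField A)),
        bc_mem_gaussRing A hx⟩ := Subtype.ext (tauMid_alpha hq A hζ M' hqM x)
  show red A (IsLocalRing.residue A)
    ⟨tauMid hq A hζ M' hqM (heckeAlphaBar (inertiaField A) (M' * q) q x), hx'⟩ = _
  rw [e, red_bc A hx]

/-- **`(α^*)⁻¹(O_mid) = O_∞`.** -/
theorem alpha_mem_OMid_iff (x : FK (inertiaField A) (M' * q)) :
    heckeAlphaBar (inertiaField A) (M' * q) q x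
      ∈ OMid hq A hA hζ M' hqM (IsLocalRing.residue A) ↔ x ∈ OInf h := by
  refine ⟨fun hx => ?_, alpha_mem_OMid hq A hA hζ M' hqM h x⟩
  refine mem_of_map_mem_of_nonunits (OInf h) (OMid hq A hA hζ M' hqM (IsLocalRing.residue A))
    (fun y => heckeAlphaBar (inertiaField A) (M' * q) q y) (fun a b => map_mul _ a b)
    (map_one _) ?_ x hx
  intro y hy
  rw [mem_nonunits_iff_red (OInf h) (redInf h) (redInf_eq_zero_iff h)] at hy
  obtain ⟨hy1, hy2⟩ := hy
  rw [mem_nonunits_OMid_iff]
  refine ⟨alpha_mem_OMid hq A hA hζ M' hqM h y hy1, ?_⟩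
  rw [redMid_alpha hq A hA hζ M' hqM h y hy1, hy2]
  rfl

/-- `O_mid ∩ α^*(F_{M' q}) = α^*(O_∞)`, as an equality of valuation subrings. -/
theorem comap_alpha_OMid :
    (OMid hq A hA hζ M' hqM (IsLocalRing.residue A)).comap
      (heckeAlphaBar (inertiaField A) (M' * q) q).toRingHom = OInf h := by
  apply SetLike.ext
  intro x
  rw [ValuationSubring.mem_comap]
  exact alpha_mem_OMid_iff hq A hA hζ M' hqM h x

/-! #### `β^*` -/

/-- **`ι_mid ∘ β^* = (q ↦ ζ q) ∘ W`** on level `M' q`. -/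
theorem tauMid_beta {W : _} (hW : IsAL (L := ↥(inertiaField A)) M' q W)
    (x : FK (inertiaField A) (M' * q)) :
    tauMid hq A hζ M' hqM (heckeBetaBar (inertiaField A) (M' * q) q x)
      = rot (zetaUnit hq hζ) (coeffMap (algebraMap (inertiaField A) Qb)
          ((W x : FK (inertiaField A) (M' * q)) : LaurentSeries (inertiaField A))) := by
  have hle : Subfield.closure (Set.range (heckeAlphaBar (inertiaField A) M' q) ∪
      {heckeBetaBar (inertiaField A) M' q (jLevel (inertiaField A) M')}) ≤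
      ((tauMid hq A hζ M' hqM).comp
        (heckeBetaBar (inertiaField A) (M' * q) q).toRingHom).eqLocusField
      ((rot (zetaUnit hq hζ)).comp ((coeffMap (algebraMap (inertiaField A) Qb)).comp
        ((SubringClass.subtype (FK (inertiaField A) (M' * q))).comp
          W.toRingEquiv.toRingHom))) := by
    rw [Subfield.closure_le]
    rintro y (⟨x, rfl⟩ | hy)
    · show tauMid hq A hζ M' hqM (heckeBetaBar (inertiaField A) (M' * q) q
          (heckeAlphaBar (inertiaField A) M' q x))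
        = rot (zetaUnit hq hζ) (coeffMap (algebraMap (inertiaField A) Qb)
          ((W (heckeAlphaBar (inertiaField A) M' q x) : FK (inertiaField A) (M' * q)) :
            LaurentSeries (inertiaField A)))
      rw [hW.alpha, ← piStar1_apply', tauMid_piStar1, coe_heckeBetaBar, coeffMap_qExpand,
        rot_qExpand_of_pow_eq_one (zetaUnit_pow hq hζ)]
    · rw [Set.mem_singleton_iff] at hy
      rw [hy]
      show tauMid hq A hζ M' hqM (heckeBetaBar (inertiaField A) (M' * q) q
          (heckeBetaBar (inertiaField A) M' q (jLevel (inertiaField A) M')))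
        = rot (zetaUnit hq hζ) (coeffMap (algebraMap (inertiaField A) Qb)
          ((W (heckeBetaBar (inertiaField A) M' q (jLevel (inertiaField A) M')) :
            FK (inertiaField A) (M' * q)) : LaurentSeries (inertiaField A)))
      rw [hW.beta, ← piStar2_apply, tauMid_piStar2, coe_heckeAlphaBar]
  rw [closure_range_heckeAlphaBar_union (inertiaField A) M' q hq hqM] at hle
  exact hle (Subfield.mem_top x)

/-- `β^*` maps `O_0` (level `M' q`) into `O_mid`. -/
theorem beta_mem_OMid {W : _} (hW : IsAL (L := ↥(inertiaField A)) M' q W)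
    (x : FK (inertiaField A) (M' * q)) (hx : x ∈ OZero h W) :
    heckeBetaBar (inertiaField A) (M' * q) q x
      ∈ OMid hq A hA hζ M' hqM (IsLocalRing.residue A) := by
  haveI : Fact q.Prime := ⟨hq⟩
  haveI : CharP (IsLocalRing.ResidueField A) q :=
    (CharP.charP_iff_prime_eq_zero hq).mpr
      (natCast_eq_zero_of_liesOver A _ (residue_eq_zero_of_not_isUnit A) hA)
  have hpow : ((zetaUnit hq hζ : Qbˣ) : Qb) ^ q = 1 := hζ.pow_eq_one
  rw [mem_OMid_iff, tauMid_beta hq A hζ M' hqM hW]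
  exact MidSeries.rot_mem_gaussRing' A _ q (zetaUnit hq hζ) hpow (bc_mem_gaussRing A hx)

/-- **`red_mid ∘ β^* = red_0`.** -/
theorem redMid_beta {W : _} (hW : IsAL (L := ↥(inertiaField A)) M' q W)
    (x : FK (inertiaField A) (M' * q)) (hx : x ∈ OZero h W)
    (hx' : heckeBetaBar (inertiaField A) (M' * q) q x
      ∈ OMid hq A hA hζ M' hqM (IsLocalRing.residue A)) :
    redMid hq A hA hζ M' hqM (IsLocalRing.residue A)
        ⟨heckeBetaBar (inertiaField A) (M' * q) q x, hx'⟩
      = ((redZero h W ⟨x, hx⟩ : modularFunctionFieldFullC (IsLocalRing.ResidueField A) M') :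
          LaurentSeries (IsLocalRing.ResidueField A)) := by
  haveI : Fact q.Prime := ⟨hq⟩
  haveI : CharP (IsLocalRing.ResidueField A) q :=
    (CharP.charP_iff_prime_eq_zero hq).mpr
      (natCast_eq_zero_of_liesOver A _ (residue_eq_zero_of_not_isUnit A) hA)
  have hpow : ((zetaUnit hq hζ : Qbˣ) : Qb) ^ q = 1 := hζ.pow_eq_one
  have hb : coeffMap (algebraMap (inertiaField A) Qb)
      ((W x : FK (inertiaField A) (M' * q)) : LaurentSeries (inertiaField A))
      ∈ gaussRing A (IsLocalRing.residue A) := bc_mem_gaussRing A hx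
  have hb' := MidSeries.rot_mem_gaussRing' A (IsLocalRing.residue A) q (zetaUnit hq hζ) hpow hb
  have e : (⟨tauMid hq A hζ M' hqM (heckeBetaBar (inertiaField A) (M' * q) q x), hx'⟩ :
      gaussRing A (IsLocalRing.residue A))
      = ⟨rot (zetaUnit hq hζ) (coeffMap (algebraMap (inertiaField A) Qb)
          ((W x : FK (inertiaField A) (M' * q)) : LaurentSeries (inertiaField A))), hb'⟩ :=
    Subtype.ext (tauMid_beta hq A hζ M' hqM hW x)
  show red A (IsLocalRing.residue A)
    ⟨tauMid hq A hζ M' hqM (heckeBetaBar (inertiaField A) (M' * q) q x), hx'⟩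
      = red (W0 A) (resW0 A)
        ⟨((W x : FK (inertiaField A) (M' * q)) : LaurentSeries (inertiaField A)), hx⟩
  rw [e, MidSeries.red_rot' A (IsLocalRing.residue A) q (zetaUnit hq hζ) hpow hb hb']
  exact red_bc A hx hb

/-- **`(β^*)⁻¹(O_mid) = O_0`.** -/
theorem beta_mem_OMid_iff {W : _} (hW : IsAL (L := ↥(inertiaField A)) M' q W)
    (x : FK (inertiaField A) (M' * q)) :
    heckeBetaBar (inertiaField A) (M' * q) q x
      ∈ OMid hq A hA hζ M' hqM (IsLocalRing.residue A) ↔ x ∈ OZero h W := by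
  refine ⟨fun hx => ?_, beta_mem_OMid hq A hA hζ M' hqM h hW x⟩
  refine mem_of_map_mem_of_nonunits (OZero h W)
    (OMid hq A hA hζ M' hqM (IsLocalRing.residue A))
    (fun y => heckeBetaBar (inertiaField A) (M' * q) q y) (fun a b => map_mul _ a b)
    (map_one _) ?_ x hx
  intro y hy
  rw [mem_nonunits_iff_red (OZero h W) (redZero h W) (redZero_eq_zero_iff h)] at hy
  obtain ⟨hy1, hy2⟩ := hy
  rw [mem_nonunits_OMid_iff]
  refine ⟨beta_mem_OMid hq A hA hζ M' hqM h hW y hy1, ?_⟩
  rw [redMid_beta hq A hA hζ M' hqM h hW y hy1, hy2]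
  rfl

/-- `O_mid ∩ β^*(F_{M' q}) = β^*(O_0)`, as an equality of valuation subrings. -/
theorem comap_beta_OMid {W : _} (hW : IsAL (L := ↥(inertiaField A)) M' q W) :
    (OMid hq A hA hζ M' hqM (IsLocalRing.residue A)).comap
      (heckeBetaBar (inertiaField A) (M' * q) q).toRingHom = OZero h W := by
  apply SetLike.ext
  intro x
  rw [ValuationSubring.mem_comap]
  exact beta_mem_OMid_iff hq A hA hζ M' hqM h hW x

end Level

end Fermat.Agent.CAR.V3.MidRing

end
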