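import Mathlib
import Fermat.Agent.Lib.Red.GaussRing
import Fermat.Agent.S28.Rot
import Fermat.Agent.CAR.Local.ThetaJ

/-!
# CAR (V3-Mid, (C1)): `f(wq) - f(q) = (w - 1) · (θ f + …)` in the Gauss ring

For a unit `w` of a valuation subring `A` of `L` whose residue `π w` is `1` (e.g. a `q`-th root of
unity in residue characteristic `q`) and `y` in the Gauss ring of `L((q))`:

* `rot_mem_gaussRing`, `red_rot` : `rot w y` is again in the Gauss ring, with the rotated
  reduction (`= red y` if `π w = 1`);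
* `exists_rot_sub` : `rot w y - y = C (w - 1) * z` with `z` in the Gauss ring and
  `red z = θ (red y)` (`θ = q d/dq = thetaL k`).

The integral version is `exists_rot_sub_integral` (`qnum w n = (w^n - 1)/(w - 1) ∈ A`).
-/

set_option autoImplicit false

noncomputable section

namespace Fermat.Agent.CAR.V3.Twist

open HahnSeries ModularCurve Fermat.Agent.Lib.Red Fermat.Agent.S28.Chain
  Fermat.Agent.CAR.Local.ThetaJ

/-! ### The `w`-integers `(w^n - 1)/(w - 1)` -/

section QNum

variable {R : Type*} [CommRing R]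

/-- `(w^n - 1)/(w - 1)` for a unit `w` and `n : ℤ`. -/
def qnum (w : Rˣ) (n : ℤ) : R :=
  if 0 ≤ n then ∑ j ∈ Finset.range n.toNat, (w : R) ^ j
  else -(((w ^ n : Rˣ) : R) * ∑ j ∈ Finset.range (-n).toNat, (w : R) ^ j)

theorem sub_one_mul_qnum (w : Rˣ) (n : ℤ) :
    ((w : R) - 1) * qnum w n = ((w ^ n : Rˣ) : R) - 1 := by
  unfold qnum
  split_ifs with h
  · obtain ⟨m, rfl⟩ := Int.eq_ofNat_of_zero_le h
    rw [Int.toNat_natCast, mul_comm, geom_sum_mul, zpow_natCast, Units.val_pow_eq_pow_val]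
  · obtain ⟨m, rfl⟩ : ∃ m : ℕ, n = -(m : ℤ) := ⟨(-n).toNat, by omega⟩
    rw [neg_neg, Int.toNat_natCast]
    have h1 : ((w : R) - 1) * ∑ j ∈ Finset.range m, (w : R) ^ j = (w : R) ^ m - 1 := by
      rw [mul_comm, geom_sum_mul]
    have h2 : ((w ^ (-(m : ℤ)) : Rˣ) : R) * (w : R) ^ m = 1 := by
      rw [← Units.val_pow_eq_pow_val, ← Units.val_mul, zpow_neg, zpow_natCast, inv_mul_cancel,
        Units.val_one]
    calc ((w : R) - 1) * -(((w ^ (-(m : ℤ)) : Rˣ) : R) * ∑ j ∈ Finset.range m, (w : R) ^ j)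
        = -(((w ^ (-(m : ℤ)) : Rˣ) : R) *
            (((w : R) - 1) * ∑ j ∈ Finset.range m, (w : R) ^ j)) := by ring
      _ = -(((w ^ (-(m : ℤ)) : Rˣ) : R) * (w : R) ^ m) + ((w ^ (-(m : ℤ)) : Rˣ) : R) := by
          rw [h1]; ring
      _ = ((w ^ (-(m : ℤ)) : Rˣ) : R) - 1 := by rw [h2]; ring

theorem map_qnum {S : Type*} [CommRing S] (φ : R →+* S) (w : Rˣ) (hw : φ w = 1) (n : ℤ) :
    φ (qnum w n) = (n : S) := by
  have hwn : ∀ m : ℤ, φ ((w ^ m : Rˣ) : R) = 1 := by
    intro m
    have h1 : Units.map (φ : R →* S) w = 1 := Units.ext hw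
    have h2 : φ ((w ^ m : Rˣ) : R) = ((Units.map (φ : R →* S) w ^ m : Sˣ) : S) := by
      rw [← map_zpow]
      rfl
    rw [h2, h1, one_zpow, Units.val_one]
  unfold qnum
  split_ifs with h
  · obtain ⟨m, rfl⟩ := Int.eq_ofNat_of_zero_le h
    rw [Int.toNat_natCast, map_sum]
    simp [hw]
  · obtain ⟨m, rfl⟩ : ∃ m : ℕ, n = -(m : ℤ) := ⟨(-n).toNat, by omega⟩
    rw [neg_neg, Int.toNat_natCast, map_neg, map_mul, hwn, map_sum]
    simp [hw]

end QNum

/-! ### Integral series -/

section Integral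

variable {R : Type*} [CommRing R]

/-- The series `∑ [n]_w f_n qⁿ`. -/
def qderiv (w : Rˣ) (f : LaurentSeries R) : LaurentSeries R :=
  ⟨fun n => qnum w n * f.coeff n, f.isPWO_support.mono (fun n hn => by
    rw [Function.mem_support] at hn
    rw [HahnSeries.mem_support]
    intro h
    exact hn (by rw [h, mul_zero]))⟩

@[simp]
theorem coeff_qderiv (w : Rˣ) (f : LaurentSeries R) (n : ℤ) :
    (qderiv w f).coeff n = qnum w n * f.coeff n := rfl

/-- `f(wq) - f(q) = (w - 1) · ∑ [n]_w f_n qⁿ`. -/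
theorem rot_sub_eq (w : Rˣ) (f : LaurentSeries R) :
    rot w f - f = HahnSeries.C ((w : R) - 1) * qderiv w f := by
  ext n
  rw [HahnSeries.coeff_sub, rot_coeff, HahnSeries.C_mul_eq_smul, HahnSeries.coeff_smul,
    coeff_qderiv, smul_eq_mul, ← mul_assoc, sub_one_mul_qnum]
  ring

/-- Modulo a ring hom killing `w - 1`, `∑ [n]_w f_n qⁿ` is `θ f`. -/
theorem coeffMap_qderiv {S : Type*} [CommRing S] (φ : R →+* S) (w : Rˣ) (hw : φ w = 1)
    (f : LaurentSeries R) : coeffMap φ (qderiv w f) = thetaL S (coeffMap φ f) := by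
  ext n
  rw [coeffMap_coeff, coeff_qderiv, map_mul, map_qnum φ w hw, coeff_thetaL, coeffMap_coeff]

end Integral

/-! ### The Gauss ring -/

section Gauss

variable {L : Type*} [Field L] (A : ValuationSubring L) {k : Type*} [Field k] (π : A →+* k)

/-- A unit of `A` as a unit of `L`. -/
def unitL (w : Aˣ) : Lˣ := Units.map (A.subtype : A →* L) w

@[simp]
theorem coe_unitL (w : Aˣ) : ((unitL A w : Lˣ) : L) = ((w : A) : L) := rfl

theorem incl_rot (w : Aˣ) (g : LaurentSeries A) :
    incl A (rot w g) = rot (unitL A w) (incl A g) :=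
  coeffMap_rot A.subtype w g

theorem rbar_rot (w : Aˣ) (g : LaurentSeries A) :
    rbar A π (rot w g) = rot (Units.map (π : A →* k) w) (rbar A π g) :=
  coeffMap_rot π w g

theorem rot_mem_gaussRing (w : Aˣ) {y : LaurentSeries L} (hy : y ∈ gaussRing A π) :
    rot (unitL A w) y ∈ gaussRing A π := by
  obtain ⟨s, P, hs, h⟩ := (mem_gaussRing_iff A π _).mp hy
  refine ⟨rot w s, rot w P, ?_, ?_⟩
  · rw [rbar_rot]
    intro h0
    exact hs (rot_injective _ (by rw [h0, map_zero]))
  · rw [incl_rot, incl_rot, ← map_mul, h]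

theorem red_rot (w : Aˣ) {y : LaurentSeries L} (hy : y ∈ gaussRing A π) :
    red A π ⟨rot (unitL A w) y, rot_mem_gaussRing A π w hy⟩
      = rot (Units.map (π : A →* k) w) (red A π ⟨y, hy⟩) := by
  obtain ⟨s, P, hs, h⟩ := (mem_gaussRing_iff A π _).mp hy
  have hs' : rbar A π (rot w s) ≠ 0 := by
    rw [rbar_rot]
    intro h0
    exact hs (rot_injective _ (by rw [h0, map_zero]))
  have h' : incl A (rot w s) * rot (unitL A w) y = incl A (rot w P) := by
    rw [incl_rot, incl_rot, ← map_mul, h]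
  rw [red_eq A π ⟨_, rot_mem_gaussRing A π w hy⟩ hs' h', red_eq A π ⟨y, hy⟩ hs h, rbar_rot,
    rbar_rot, map_div₀]

theorem red_rot_of_eq_one (w : Aˣ) (hw : π w = 1) {y : LaurentSeries L}
    (hy : y ∈ gaussRing A π) :
    red A π ⟨rot (unitL A w) y, rot_mem_gaussRing A π w hy⟩ = red A π ⟨y, hy⟩ := by
  rw [red_rot]
  have h1 : Units.map (π : A →* k) w = 1 := Units.ext hw
  rw [h1, rot_one_apply]

/-- **(C1), integral form**: for a series `g` with coefficients in `A`. -/
theorem exists_rot_sub_integral (w : Aˣ) (hw : π w = 1) (g : LaurentSeries A) :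
    ∃ z : LaurentSeries A, rot w g - g = HahnSeries.C ((w : A) - 1) * z ∧
      rbar A π z = thetaL k (rbar A π g) :=
  ⟨qderiv w g, rot_sub_eq w g, coeffMap_qderiv π w hw g⟩

/-- **(C1)**: `y(wq) - y(q) = (w - 1) · z` with `z` in the Gauss ring and `red z = θ (red y)`. -/
theorem exists_rot_sub (w : Aˣ) (hw : π w = 1) {y : LaurentSeries L} (hy : y ∈ gaussRing A π) :
    ∃ (z : LaurentSeries L) (hz : z ∈ gaussRing A π),
      rot (unitL A w) y - y = HahnSeries.C (((w : A) : L) - 1) * z ∧
      red A π ⟨z, hz⟩ = thetaL k (red A π ⟨y, hy⟩) := by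
  obtain ⟨s, P, hs, h⟩ := (mem_gaussRing_iff A π _).mp hy
  have hs0 : incl A s ≠ 0 := by
    intro h0
    apply hs
    have : s = 0 := incl_injective A (by rw [h0, map_zero])
    rw [this, map_zero]
  have hsG : incl A s ∈ gaussRing A π := incl_mem_gaussRing A π s
  have hsred : red A π ⟨incl A s, hsG⟩ ≠ 0 := by
    rw [red_incl]; exact hs
  have hry := rot_mem_gaussRing A π w hy
  -- the numerator
  have hnum : incl A (qderiv w P) - incl A (qderiv w s) * rot (unitL A w) y ∈ gaussRing A π :=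
    (gaussRing A π).sub_mem (incl_mem_gaussRing A π _)
      ((gaussRing A π).mul_mem (incl_mem_gaussRing A π _) hry)
  have hz : (incl A (qderiv w P) - incl A (qderiv w s) * rot (unitL A w) y) / incl A s
      ∈ gaussRing A π := div_mem_gaussRing A π hnum hsG hsred
  refine ⟨_, hz, ?_, ?_⟩
  · -- the identity
    have hC : HahnSeries.C (((w : A) : L) - 1) = incl A (HahnSeries.C ((w : A) - 1)) := by
      rw [incl_C]
      rfl
    have hP : rot (unitL A w) (incl A P) - incl A P
        = HahnSeries.C (((w : A) : L) - 1) * incl A (qderiv w P) := by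
      rw [hC, ← map_mul, ← rot_sub_eq, map_sub, incl_rot]
    have hS : rot (unitL A w) (incl A s) - incl A s
        = HahnSeries.C (((w : A) : L) - 1) * incl A (qderiv w s) := by
      rw [hC, ← map_mul, ← rot_sub_eq, map_sub, incl_rot]
    have hrot : rot (unitL A w) (incl A s) * rot (unitL A w) y = rot (unitL A w) (incl A P) := by
      rw [← map_mul, h]
    rw [eq_comm, mul_div_assoc', div_eq_iff hs0]
    have e1 : rot (unitL A w) (incl A s)
        = incl A s + HahnSeries.C (((w : A) : L) - 1) * incl A (qderiv w s) := by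
      rw [← hS]; ring
    have e2 : rot (unitL A w) (incl A P)
        = incl A P + HahnSeries.C (((w : A) : L) - 1) * incl A (qderiv w P) := by
      rw [← hP]; ring
    rw [e1, e2] at hrot
    linear_combination (-1 : LaurentSeries L) * hrot + h
  · -- the reduction
    have hy_red : red A π ⟨y, hy⟩ = rbar A π P / rbar A π s := red_eq A π ⟨y, hy⟩ hs h
    have h1 : (⟨(incl A (qderiv w P) - incl A (qderiv w s) * rot (unitL A w) y) / incl A s, hz⟩ :
        gaussRing A π) * ⟨incl A s, hsG⟩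
        = ⟨incl A (qderiv w P), incl_mem_gaussRing A π _⟩
          - ⟨incl A (qderiv w s), incl_mem_gaussRing A π _⟩ * ⟨rot (unitL A w) y, hry⟩ := by
      apply Subtype.ext
      show (incl A (qderiv w P) - incl A (qderiv w s) * rot (unitL A w) y) / incl A s * incl A s
        = incl A (qderiv w P) - incl A (qderiv w s) * rot (unitL A w) y
      rw [div_mul_cancel₀ _ hs0]
    have h2 := congrArg (red A π) h1
    rw [map_mul, map_sub, map_mul, red_incl, red_incl, red_incl, red_rot_of_eq_one A π w hw hy,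
      hy_red] at h2
    have hq1 : rbar A π (qderiv w P) = thetaL k (rbar A π P) := coeffMap_qderiv π w hw P
    have hq2 : rbar A π (qderiv w s) = thetaL k (rbar A π s) := coeffMap_qderiv π w hw s
    rw [hq1, hq2] at h2
    rw [hy_red]
    -- θ(P̄/s̄) from Leibniz
    have hleib : thetaL k (rbar A π P)
        = rbar A π P / rbar A π s * thetaL k (rbar A π s)
          + rbar A π s * thetaL k (rbar A π P / rbar A π s) := by
      have h3 : rbar A π P = rbar A π P / rbar A π s * rbar A π s := (div_mul_cancel₀ _ hs).symm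
      conv_lhs => rw [h3]
      rw [Derivation.leibniz]
      simp only [smul_eq_mul]
    rw [hleib] at h2
    have h4 : (red A π ⟨_, hz⟩ - thetaL k (rbar A π P / rbar A π s)) * rbar A π s = 0 := by
      linear_combination h2
    rcases mul_eq_zero.mp h4 with h5 | h5
    · exact sub_eq_zero.mp h5
    · exact absurd h5 hs

/-- `(y(wq) - y(q)) / (w - 1)` is in the Gauss ring with reduction `θ (red y)`. -/
theorem rot_sub_div_mem (w : Aˣ) (hw : π w = 1) (hw1 : ((w : A) : L) ≠ 1) {y : LaurentSeries L}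
    (hy : y ∈ gaussRing A π) :
    ∃ hz : (rot (unitL A w) y - y) / HahnSeries.C (((w : A) : L) - 1) ∈ gaussRing A π,
      red A π ⟨_, hz⟩ = thetaL k (red A π ⟨y, hy⟩) := by
  obtain ⟨z, hz, h1, h2⟩ := exists_rot_sub A π w hw hy
  have hC : (HahnSeries.C (((w : A) : L) - 1) : LaurentSeries L) ≠ 0 := by
    intro h0
    have h3 : (HahnSeries.C (((w : A) : L) - 1) : LaurentSeries L) = HahnSeries.C 0 := by
      rw [h0, map_zero]
    exact hw1 (sub_eq_zero.mp (HahnSeries.C_injective h3))
  have he : (rot (unitL A w) y - y) / HahnSeries.C (((w : A) : L) - 1) = z := by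
    rw [h1, mul_div_assoc, mul_comm, div_mul_cancel₀ _ hC]
  refine ⟨he ▸ hz, ?_⟩
  rw [← h2]
  congr 1
  exact Subtype.ext he

end Gauss

end Fermat.Agent.CAR.V3.Twist

end
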