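import Fermat.Agent.CAR.V3.UnitData
import Fermat.Agent.CAR.V3.MidSeries
import Fermat.Agent.ESJ.Cong.FrobFibre

/-!
# CAR / V3 : Gauss reductions of the modular units, characteristic `p`, the certificate identity

For a valuation subring `A` of a field `L` with a ring hom `π : A →+* k`:

* `u₁`, `u₁⁻¹`, `u₂`, `u₂⁻¹` over `L` lie in the Gauss ring, with reductions the same series
  over `k` (`u1_mem_gaussRing`, `red_u1`, …), and likewise for `u₁⁻¹(ζ q)`, `ζ ^ p = 1`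
  (`rot_u1inv_mem_gaussRing`, `red_rot_u1inv`);
* in characteristic `p`: `u₁ = Δ ^ (1 - p)`, `u₁⁻¹ = Δ ^ (p - 1)`, `u₂ = u₁ ^ p`
  (`u1_eq_pow`, `u1inv_eq_pow`, `u2_eq_pow`, `u2inv_eq_pow`);
* the certificate identity `(θ j) ^ (12 (p - 1)) * u₁ ^ 2 = (j ^ 8 (j - 1728) ^ 6) ^ (p - 1)`
  (`theta_pow_mul_u1_sq`).
-/

set_option autoImplicit false

noncomputable section

namespace Fermat.Agent.CAR.V3.Units

open ModularCurve Fermat.Agent.S28.ModEq Fermat.Agent.Lib.Red Fermat.Agent.S28.Chain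

/-! ### Gauss ring -/

section Gauss

variable {L : Type*} [Field L] (A : ValuationSubring L) {k : Type*} [Field k] (π : A →+* k)

theorem red_of_incl_eq {y : LaurentSeries L} (g : LaurentSeries A) (hg : incl A g = y)
    (h : y ∈ gaussRing A π) : red A π ⟨y, h⟩ = rbar A π g := by
  subst hg
  exact red_incl' A π g h

variable (p : ℕ) [NeZero p]

theorem incl_u1 : incl A (u1 A p) = u1 L p := coeffMap_u1 p A.subtype

theorem incl_u1inv : incl A (u1inv A p) = u1inv L p := coeffMap_u1inv p A.subtype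

theorem incl_u2 : incl A (u2 A p) = u2 L p := coeffMap_u2 p A.subtype

theorem incl_u2inv : incl A (u2inv A p) = u2inv L p := coeffMap_u2inv p A.subtype

theorem u1_mem_gaussRing : u1 L p ∈ gaussRing A π := by
  rw [← incl_u1 A p]
  exact incl_mem_gaussRing A π _

theorem u1inv_mem_gaussRing : u1inv L p ∈ gaussRing A π := by
  rw [← incl_u1inv A p]
  exact incl_mem_gaussRing A π _

theorem u2_mem_gaussRing : u2 L p ∈ gaussRing A π := by
  rw [← incl_u2 A p]
  exact incl_mem_gaussRing A π _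

theorem u2inv_mem_gaussRing : u2inv L p ∈ gaussRing A π := by
  rw [← incl_u2inv A p]
  exact incl_mem_gaussRing A π _

theorem red_u1 (h : u1 L p ∈ gaussRing A π) : red A π ⟨u1 L p, h⟩ = u1 k p := by
  rw [red_of_incl_eq A π _ (incl_u1 A p) h]
  exact coeffMap_u1 p π

theorem red_u1inv (h : u1inv L p ∈ gaussRing A π) : red A π ⟨u1inv L p, h⟩ = u1inv k p := by
  rw [red_of_incl_eq A π _ (incl_u1inv A p) h]
  exact coeffMap_u1inv p π

theorem red_u2 (h : u2 L p ∈ gaussRing A π) : red A π ⟨u2 L p, h⟩ = u2 k p := by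
  rw [red_of_incl_eq A π _ (incl_u2 A p) h]
  exact coeffMap_u2 p π

theorem red_u2inv (h : u2inv L p ∈ gaussRing A π) : red A π ⟨u2inv L p, h⟩ = u2inv k p := by
  rw [red_of_incl_eq A π _ (incl_u2inv A p) h]
  exact coeffMap_u2inv p π

/-- `u₁⁻¹(ζ q) = Δ(q^p) / Δ(ζ q)` lies in the Gauss ring (`ζ ^ p = 1`, `char k = p`). -/
theorem rot_u1inv_mem_gaussRing [Fact p.Prime] [CharP k p] (ζ : Lˣ) (hζ : (ζ : L) ^ p = 1) :
    rot ζ (u1inv L p) ∈ gaussRing A π :=
  MidSeries.rot_mem_gaussRing' A π p ζ hζ (u1inv_mem_gaussRing A π p)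

/-- The reduction of `u₁⁻¹(ζ q)` is `u₁⁻¹` over `k`. -/
theorem red_rot_u1inv [Fact p.Prime] [CharP k p] (ζ : Lˣ) (hζ : (ζ : L) ^ p = 1)
    (h : rot ζ (u1inv L p) ∈ gaussRing A π) :
    red A π ⟨rot ζ (u1inv L p), h⟩ = u1inv k p := by
  rw [MidSeries.red_rot' A π p ζ hζ (u1inv_mem_gaussRing A π p) h, red_u1inv]

/-- `u₁(ζ q)` lies in the Gauss ring (`ζ ^ p = 1`, `char k = p`). -/
theorem rot_u1_mem_gaussRing [Fact p.Prime] [CharP k p] (ζ : Lˣ) (hζ : (ζ : L) ^ p = 1) :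
    rot ζ (u1 L p) ∈ gaussRing A π :=
  MidSeries.rot_mem_gaussRing' A π p ζ hζ (u1_mem_gaussRing A π p)

/-- The reduction of `u₁(ζ q)` is `u₁` over `k`. -/
theorem red_rot_u1 [Fact p.Prime] [CharP k p] (ζ : Lˣ) (hζ : (ζ : L) ^ p = 1)
    (h : rot ζ (u1 L p) ∈ gaussRing A π) :
    red A π ⟨rot ζ (u1 L p), h⟩ = u1 k p := by
  rw [MidSeries.red_rot' A π p ζ hζ (u1_mem_gaussRing A π p) h, red_u1]

end Gauss

/-! ### Characteristic `p` -/

section CharP

variable (k : Type*) [CommRing k] (p : ℕ) [NeZero p] [ExpChar k p]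

theorem qExpand_eq_pow_of_coeffMap_int (f : LaurentSeries ℤ) :
    qExpand k p (coeffMap (Int.castRingHom k) f) = coeffMap (Int.castRingHom k) f ^ p := by
  have e : (frobenius k p).comp (Int.castRingHom k) = Int.castRingHom k := RingHom.ext_int _ _
  rw [Fermat.Agent.ESJ.Cong.FrobFibre.pow_char_eq_qExpand p, coeffMap_coeffMap, e]

theorem qExpand_DA : qExpand k p (DA k) = DA k ^ p := by
  rw [← coeffMap_DA (Int.castRingHom k)]
  exact qExpand_eq_pow_of_coeffMap_int k p _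

theorem qExpand_DAinv : qExpand k p (DAinv k) = DAinv k ^ p := by
  rw [← coeffMap_DAinv (Int.castRingHom k)]
  exact qExpand_eq_pow_of_coeffMap_int k p _

/-- In characteristic `p`, `u₁ = Δ ^ (1 - p)`. -/
theorem u1_eq_pow : u1 k p = DAinv k ^ (p - 1) := by
  have hp : 1 ≤ p := Nat.pos_of_ne_zero (NeZero.ne p)
  unfold u1
  rw [qExpand_DAinv]
  calc DA k * DAinv k ^ p = DA k * DAinv k ^ (p - 1 + 1) := by rw [Nat.sub_add_cancel hp]
    _ = (DA k * DAinv k) * DAinv k ^ (p - 1) := by rw [pow_succ]; ring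
    _ = DAinv k ^ (p - 1) := by rw [DA_mul_DAinv, one_mul]

/-- In characteristic `p`, `u₁⁻¹ = Δ ^ (p - 1)`. -/
theorem u1inv_eq_pow : u1inv k p = DA k ^ (p - 1) := by
  have hp : 1 ≤ p := Nat.pos_of_ne_zero (NeZero.ne p)
  unfold u1inv
  rw [qExpand_DA]
  calc DAinv k * DA k ^ p = DAinv k * DA k ^ (p - 1 + 1) := by rw [Nat.sub_add_cancel hp]
    _ = (DA k * DAinv k) * DA k ^ (p - 1) := by rw [pow_succ]; ring
    _ = DA k ^ (p - 1) := by rw [DA_mul_DAinv, one_mul]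

/-- In characteristic `p`, `u₂ = u₁ ^ p`. -/
theorem u2_eq_pow : u2 k p = u1 k p ^ p := by
  unfold u2
  rw [← coeffMap_u1 p (Int.castRingHom k)]
  exact qExpand_eq_pow_of_coeffMap_int k p _

/-- In characteristic `p`, `u₂⁻¹ = (u₁⁻¹) ^ p`. -/
theorem u2inv_eq_pow : u2inv k p = u1inv k p ^ p := by
  unfold u2inv
  rw [← coeffMap_u1inv p (Int.castRingHom k)]
  exact qExpand_eq_pow_of_coeffMap_int k p _

open Fermat.Agent.CAR.Local.ThetaJ in
/-- **The certificate identity**: `(θ j)^(12 (p-1)) * u₁^2 = (j^8 (j - 1728)^6)^(p-1)` in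
characteristic `p`. -/
theorem theta_pow_mul_u1_sq :
    thetaL k (jqModC k) ^ (12 * (p - 1)) * u1 k p ^ 2 =
      (jqModC k ^ 8 * (jqModC k - 1728) ^ 6) ^ (p - 1) := by
  have h6 := theta_jq_pow_six k
  have hD : deltaL k = DA k := rfl
  rw [hD] at h6
  rw [u1_eq_pow]
  calc thetaL k (jqModC k) ^ (12 * (p - 1)) * (DAinv k ^ (p - 1)) ^ 2
      = ((thetaL k (jqModC k) ^ 6) ^ 2 * (DAinv k) ^ 2) ^ (p - 1) := by ring
    _ = ((jqModC k ^ 4 * (jqModC k - 1728) ^ 3) ^ 2 * (DA k * DAinv k) ^ 2) ^ (p - 1) := by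
        rw [h6]; ring
    _ = (jqModC k ^ 8 * (jqModC k - 1728) ^ 6) ^ (p - 1) := by
        rw [DA_mul_DAinv]; ring

end CharP

end Fermat.Agent.CAR.V3.Units
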